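import Mathlib

set_option autoImplicit false

/-!
# Separability over a rational function field in terms of a derivation
-/

open Polynomial

namespace Fermat.Agent.Geo

variable {k κ L : Type*} [Field k] [Field κ] [Field L] [Algebra k κ] [Algebra k L] [Algebra κ L]
  [IsScalarTower k κ L]

/-- A generator with non-vanishing derivative is transcendental over a perfect field. -/
theorem transcendental_of_derivation [PerfectField k] (D : Derivation k κ L) {t : κ}
    (hDt : D t ≠ 0) : Transcendental k t := by
  intro halg
  have hint : IsIntegral k t := halg.isIntegral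
  have hsep : (minpoly k t).Separable :=
    PerfectField.separable_of_irreducible (minpoly.irreducible hint)
  have h1 : D (aeval t (minpoly k t)) = 0 := by rw [minpoly.aeval, map_zero]
  rw [D.map_aeval, smul_eq_zero] at h1
  exact hsep.aeval_derivative_ne_zero (minpoly.aeval k t) (h1.resolve_right hDt)

/-- Over a perfect field `k` of characteristic `p`, an element of `k(t)` killed by a derivation
not killing `t` is a `p`-th power. -/
theorem exists_pow_of_derivation (p : ℕ) [Fact p.Prime] [CharP k p] [PerfectRing k p]
    (D : Derivation k κ L) {t : κ} (ht : IntermediateField.adjoin k {t} = ⊤) (hDt : D t ≠ 0)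
    {a : κ} (ha : D a = 0) : ∃ b : κ, a = b ^ p := by
  have hpf : PerfectField k := PerfectRing.toPerfectField k p
  have htr : Transcendental k t := transcendental_of_derivation D hDt
  have hchar : CharP κ p := charP_of_injective_algebraMap (algebraMap k κ).injective p
  have hp : p.Prime := Fact.out
  obtain ⟨P, Q, hPQ⟩ := (IntermediateField.mem_adjoin_simple_iff k a).mp (by rw [ht]; trivial)
  by_cases hQ : aeval t Q = 0
  · refine ⟨0, ?_⟩
    rw [hPQ, hQ, div_zero, zero_pow hp.ne_zero]
  let R : k[X] := P * Q ^ (p - 1)
  have hR : aeval t R = a * (aeval t Q) ^ p := by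
    have h1 : (aeval t Q) ^ p = (aeval t Q) ^ (p - 1) * aeval t Q := by
      rw [← pow_succ, Nat.sub_add_cancel hp.one_le]
    rw [h1, hPQ, map_mul, map_pow]
    field_simp
  have h2 : D (aeval t R) = 0 := by
    have h3 : D ((aeval t Q) ^ p) = 0 := by
      rw [D.leibniz_pow, ← Nat.cast_smul_eq_nsmul κ, CharP.cast_eq_zero, zero_smul]
    rw [hR, D.leibniz, h3, ha, smul_zero, smul_zero, add_zero]
  rw [D.map_aeval, smul_eq_zero] at h2
  have h4 : derivative R = 0 := by
    by_contra hne
    exact htr ⟨_, hne, h2.resolve_right hDt⟩
  have h5 : expand k p (contract p R) = R := expand_contract p h4 hp.ne_zero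
  let S : k[X] := (contract p R).map ((frobeniusEquiv k p).symm : k →+* k)
  have h6 : R = S ^ p := by
    rw [← map_frobenius_expand, map_expand, Polynomial.map_map]
    have h7 : (frobenius k p).comp ((frobeniusEquiv k p).symm : k →+* k) = RingHom.id k := by
      ext x
      simp
    rw [h7, Polynomial.map_id, h5]
  refine ⟨aeval t S / aeval t Q, ?_⟩
  rw [div_pow, eq_div_iff (pow_ne_zero p hQ), ← hR, h6, map_pow]

/-- Separability criterion: `k` perfect, `κ = k(t)`, and a derivation of `L ⊃ κ` not killing
`t`. -/
theorem isSeparable_of_derivation [PerfectField k] (D : Derivation k L L) {t : κ}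
    (ht : IntermediateField.adjoin k {t} = ⊤) (hDt : D (algebraMap κ L t) ≠ 0) {x : L}
    (hx : IsIntegral κ x) : IsSeparable κ x := by
  obtain ⟨p, hcp⟩ := CharP.exists k
  rcases CharP.char_is_prime_or_zero k p with hp | hp
  swap
  · subst hp
    have hz : CharZero k := CharP.charP_to_charZero k
    have hz2 : CharZero κ := charZero_of_injective_algebraMap (algebraMap k κ).injective
    exact (minpoly.irreducible hx).separable
  have hpf : Fact p.Prime := ⟨hp⟩
  have hpr : PerfectRing k p := PerfectField.toPerfectRing p
  have hchar : CharP κ p := charP_of_injective_algebraMap (algebraMap k κ).injective p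
  by_contra hns
  set f := minpoly κ x with hf
  have hirr : Irreducible f := minpoly.irreducible hx
  have hmon : f.Monic := minpoly.monic hx
  have hder : derivative f = 0 := by
    by_contra hne
    exact hns ((separable_iff_derivative_ne_zero hirr).mpr hne)
  -- the normalised derivation
  let D' : Derivation k L L := (D (algebraMap κ L t))⁻¹ • D
  have hD't : D' (algebraMap κ L t) = 1 := inv_mul_cancel₀ hDt
  have haev : ∀ P : k[X], algebraMap κ L (aeval t P) = aeval (algebraMap κ L t) P := fun P => by
    rw [aeval_algebraMap_apply]
  have hP : ∀ P : k[X], D' (algebraMap κ L (aeval t P)) =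
      algebraMap κ L (aeval t (derivative P)) := by
    intro P
    rw [haev, D'.map_aeval, hD't, smul_eq_mul, mul_one, haev]
  have hclosed : ∀ a : κ, ∃ b : κ, D' (algebraMap κ L a) = algebraMap κ L b := by
    intro a
    obtain ⟨P, Q, hPQ⟩ := (IntermediateField.mem_adjoin_simple_iff k a).mp (by rw [ht]; trivial)
    refine ⟨(aeval t Q)⁻¹ ^ 2 * (aeval t Q * aeval t (derivative P) -
      aeval t P * aeval t (derivative Q)), ?_⟩
    rw [hPQ, map_div₀, D'.leibniz_div, hP, hP]
    simp only [smul_eq_mul, map_mul, map_sub, map_pow, map_inv₀]
  choose b hb using hclosed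
  -- apply the derivation to the equation
  have hsum : ∑ i ∈ Finset.range (f.natDegree + 1), algebraMap κ L (b (f.coeff i)) * x ^ i = 0 := by
    have h1 : D' (aeval x f) = 0 := by rw [hf, minpoly.aeval, map_zero]
    have h2 : aeval x (derivative f) = 0 := by rw [hder, map_zero]
    have h3 : D' (aeval x f) = ∑ i ∈ Finset.range (f.natDegree + 1),
        algebraMap κ L (b (f.coeff i)) * x ^ i + aeval x (derivative f) * D' x := by
      rw [aeval_eq_sum_range, map_sum]
      have h4 : aeval x (derivative f) = ∑ i ∈ Finset.range (f.natDegree + 1),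
          algebraMap κ L (f.coeff i) * (i * x ^ (i - 1)) := by
        conv_lhs => rw [f.as_sum_range]
        rw [map_sum, map_sum]
        refine Finset.sum_congr rfl fun i _ => ?_
        rw [derivative_monomial, aeval_monomial, map_mul, map_natCast, mul_assoc]
      rw [h4, Finset.sum_mul, ← Finset.sum_add_distrib]
      refine Finset.sum_congr rfl fun i _ => ?_
      rw [Algebra.smul_def, D'.leibniz, D'.leibniz_pow, hb, smul_eq_mul, smul_eq_mul, smul_eq_mul,
        nsmul_eq_mul]
      ring
    rw [h2, zero_mul, add_zero] at h3
    rw [← h3, h1]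
  have hb0 : ∀ i, b (f.coeff i) = 0 := by
    let g : κ[X] := ∑ i ∈ Finset.range (f.natDegree + 1), monomial i (b (f.coeff i))
    have hgc : ∀ i ≤ f.natDegree, g.coeff i = b (f.coeff i) := by
      intro i hi
      rw [finsetSum_coeff, Finset.sum_eq_single i]
      · rw [coeff_monomial, if_pos rfl]
      · intro j _ hj
        rw [coeff_monomial, if_neg hj]
      · intro h
        exact absurd (Finset.mem_range.mpr (Nat.lt_succ_of_le hi)) h
    have h01 : ∀ c : κ, D' (algebraMap κ L c) = 0 → b c = 0 := by
      intro c hc
      rw [hb] at hc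
      exact (map_eq_zero (algebraMap κ L)).mp hc
    have hgn : g.coeff f.natDegree = 0 := by
      rw [hgc _ le_rfl, hmon.coeff_natDegree]
      apply h01
      rw [map_one, Derivation.map_one_eq_zero]
    have hgdeg : g.degree < f.degree := by
      rw [degree_eq_natDegree hmon.ne_zero]
      rw [degree_lt_iff_coeff_zero]
      intro i hi
      rcases hi.eq_or_lt with h | h
      · rw [← h, hgn]
      · rw [finsetSum_coeff]
        refine Finset.sum_eq_zero fun j hj => ?_
        rw [coeff_monomial, if_neg]
        rw [Finset.mem_range] at hj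
        omega
    have hgx : aeval x g = 0 := by
      rw [map_sum, ← hsum]
      refine Finset.sum_congr rfl fun i _ => ?_
      rw [aeval_monomial]
    have hg0 : g = 0 := by
      by_contra hne
      exact absurd (minpoly.degree_le_of_ne_zero κ x hne hgx) (not_le.mpr hgdeg)
    intro i
    by_cases hi : i ≤ f.natDegree
    · rw [← hgc i hi, hg0, coeff_zero]
    · rw [coeff_eq_zero_of_natDegree_lt (not_le.mp hi)]
      apply h01
      rw [map_zero, map_zero]
  -- coefficients are `p`-th powers
  have hpow : ∀ i, ∃ c : κ, f.coeff i = c ^ p := by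
    intro i
    refine exists_pow_of_derivation (L := L) p (D'.compAlgebraMap κ) (t := t) ht ?_ ?_
    · change D' (algebraMap κ L t) ≠ 0
      rw [hD't]
      exact one_ne_zero
    · change D' (algebraMap κ L (f.coeff i)) = 0
      rw [hb, hb0, map_zero]
  choose c hc using hpow
  have hexp : expand κ p (contract p f) = f := expand_contract p hder hp.ne_zero
  let h : κ[X] := ∑ i ∈ Finset.range (f.natDegree + 1), monomial i (c (i * p))
  have hcon : contract p f = h.map (frobenius κ p) := by
    ext i
    rw [coeff_contract hp.ne_zero, coeff_map, finsetSum_coeff]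
    by_cases hi : i ≤ f.natDegree
    · rw [Finset.sum_eq_single i]
      · rw [coeff_monomial, if_pos rfl, hc]
        rfl
      · intro j _ hj
        rw [coeff_monomial, if_neg hj]
      · intro h
        exact absurd (Finset.mem_range.mpr (Nat.lt_succ_of_le hi)) h
    · rw [Finset.sum_eq_zero, map_zero]
      · apply coeff_eq_zero_of_natDegree_lt
        exact lt_of_lt_of_le (not_le.mp hi) (Nat.le_mul_of_pos_right i hp.pos)
      · intro j hj
        rw [coeff_monomial, if_neg]
        rw [Finset.mem_range] at hj
        omega
  have hfp : f = h ^ p := by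
    rw [← hexp, hcon, ← map_expand, map_frobenius_expand]
  have h2 : f = h * h ^ (p - 1) := by
    rw [hfp, ← pow_succ', Nat.sub_add_cancel hp.one_le]
  have hunit : IsUnit h := by
    rcases hirr.isUnit_or_isUnit h2 with hu | hu
    · exact hu
    · exact (isUnit_pow_iff (by have := hp.two_le; omega)).mp hu
  exact hirr.not_isUnit (by rw [hfp]; exact hunit.pow p)

end Fermat.Agent.Geo
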