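import Mathlib
import Fermat.Agent.Patching.MaximalCM

set_option autoImplicit false

/-!
# Freeness of lattices of depth two over two-dimensional regular local rings
-/

open IsLocalRing RingTheory.Sequence

universe u

namespace Fermat.Agent.Geo

/-- A finitely generated submodule `M` of a field extension which is saturated with respect to
the pair `(π, s)` generating the maximal ideal is free. -/
theorem free_of_saturated {A E : Type u} [CommRing A] [IsLocalRing A]
    [IsNoetherianRing A] [Field E] [Algebra A E] [FaithfulSMul A E]
    (M : Submodule A E) [Module.Finite A M] {π s : A} (hπ : π ≠ 0)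
    (hm : maximalIdeal A = Ideal.span {π, s})
    (hsat : ∀ x : E, π • x ∈ M → s • x ∈ M → x ∈ M) : Module.Free A M := by
  by_cases hM : M = ⊥
  · subst hM
    infer_instance
  have hnt : Nontrivial M := Submodule.nontrivial_iff_ne_bot.mpr hM
  have hπE : algebraMap A E π ≠ 0 := fun h0 =>
    hπ (FaithfulSMul.algebraMap_injective A E (by rw [h0, map_zero]))
  have hreg : IsRegular M [π, s] := by
    rw [isRegular_iff_isWeaklyRegular_of_subset_maximalIdeal]
    · rw [isWeaklyRegular_cons_iff, isWeaklyRegular_singleton_iff]
      constructor
      · intro x y hxy
        apply Subtype.ext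
        have h1 := congrArg Subtype.val hxy
        change π • (x : E) = π • (y : E) at h1
        rw [Algebra.smul_def, Algebra.smul_def] at h1
        exact mul_left_cancel₀ hπE h1
      · rw [isSMulRegular_iff_right_eq_zero_of_smul]
        intro z hz
        induction z using Submodule.Quotient.induction_on with
        | _ x =>
        rw [← Submodule.Quotient.mk_smul, Submodule.Quotient.mk_eq_zero,
          Submodule.mem_smul_pointwise_iff_exists] at hz
        obtain ⟨y, -, hy⟩ := hz
        have h1 := congrArg Subtype.val hy
        change π • (y : E) = s • (x : E) at h1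
        rw [Submodule.Quotient.mk_eq_zero, Submodule.mem_smul_pointwise_iff_exists]
        set w : E := (algebraMap A E π)⁻¹ * (x : E) with hw
        have h2 : π • w = (x : E) := by
          rw [Algebra.smul_def, hw, mul_inv_cancel_left₀ hπE]
        have h3 : s • w = (y : E) := by
          rw [hw, ← mul_smul_comm, ← h1, Algebra.smul_def, inv_mul_cancel_left₀ hπE]
        have h4 : w ∈ M := hsat w (by rw [h2]; exact x.2) (by rw [h3]; exact y.2)
        exact ⟨⟨w, h4⟩, trivial, Subtype.ext h2⟩
    · intro r hr
      rw [hm]
      simp only [List.mem_cons, List.not_mem_nil, or_false] at hr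
      exact Ideal.subset_span hr
  refine Fermat.Agent.Patching.free_of_isRegular_of_span_eq 2 A M ![π, s] ?_ [π, s] rfl ?_ hreg
  · rw [hm]
    congr 1
    ext x
    simp only [Matrix.range_cons, Matrix.range_empty, Set.union_empty, Set.mem_insert_iff,
      Set.mem_singleton_iff, Set.mem_union]
  · intro r hr
    rw [hm]
    simp only [List.mem_cons, List.not_mem_nil, or_false] at hr
    exact Ideal.subset_span hr

end Fermat.Agent.Geo
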