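import Mathlib

set_option autoImplicit false

/-!
# Integral closures over factorial domains: codimension one criteria
-/

open Polynomial

namespace Fermat.Agent.Geo

variable {A F E : Type*} [CommRing A] [IsDomain A] [UniqueFactorizationMonoid A]
  [Field F] [Algebra A F] [IsFractionRing A F]
  [Field E] [Algebra A E] [Algebra F E] [IsScalarTower A F E]

/-- An element of the fraction field of a factorial domain which is integral at all primes is
integral. -/
theorem mem_of_forall_prime {y : F}
    (h : ∀ p : A, Prime p → ∃ s : A, ¬ p ∣ s ∧ ∃ a : A, algebraMap A F s * y = algebraMap A F a) :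
    ∃ a : A, algebraMap A F a = y := by
  obtain ⟨a, b, hcop, hab⟩ := IsFractionRing.exists_reduced_fraction (A := A) y
  have hb0 : (b : A) ≠ 0 := nonZeroDivisors.ne_zero b.2
  have hy : y * algebraMap A F b = algebraMap A F a := by
    rw [← hab]
    exact IsLocalization.mk'_spec _ _ _
  by_cases hu : IsUnit (b : A)
  · obtain ⟨u, hu⟩ := hu
    refine ⟨a * (u⁻¹ : Aˣ), ?_⟩
    rw [map_mul, ← hy, mul_assoc, ← map_mul, ← hu, Units.mul_inv, map_one, mul_one]
  · exfalso
    obtain ⟨p, hp, hpb⟩ := WfDvdMonoid.exists_irreducible_factor hu hb0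
    have hp' : Prime p := hp.prime
    obtain ⟨s, hs, c, hc⟩ := h p hp'
    have h1 : s * a = c * b := by
      apply IsFractionRing.injective A F
      rw [map_mul, map_mul, ← hy, ← hc]
      ring
    have h2 : p ∣ s * a := by
      rw [h1]
      exact Dvd.dvd.mul_left hpb c
    rcases hp'.dvd_or_dvd h2 with h3 | h3
    · exact hs h3
    · exact hp'.not_isUnit (hcop h3 hpb)

omit [IsDomain A] [UniqueFactorizationMonoid A] in
theorem minpoly_smul (s : A) (hs : s ≠ 0) {x : E} (hx : IsIntegral F x) :
    minpoly F (s • x) = (minpoly F x).scaleRoots (algebraMap A F s) := by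
  have h1 : s • x = (algebraMap A F s) • x := (algebraMap_smul F s x).symm
  rw [h1]
  refine IsIntegrallyClosed.minpoly_smul ?_ hx
  intro h0
  exact hs (IsFractionRing.injective A F (by rw [h0, map_zero]))

/-- An element of a finite extension which is integral at all primes of a factorial domain is
integral. -/
theorem isIntegral_of_forall_prime {x : E} (hx : IsIntegral F x)
    (h : ∀ p : A, Prime p → ∃ s : A, ¬ p ∣ s ∧ IsIntegral A (s • x)) : IsIntegral A x := by
  have key : ∀ i, ∃ a : A, algebraMap A F a = (minpoly F x).coeff i := by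
    intro i
    apply mem_of_forall_prime
    intro p hp
    obtain ⟨s, hs, hint⟩ := h p hp
    have hs0 : s ≠ 0 := fun h0 => hs (by rw [h0]; exact dvd_zero p)
    have h1 := minpoly.isIntegrallyClosed_eq_field_fractions' F hint
    rw [minpoly_smul s hs0 hx] at h1
    have h2 := congrArg (fun q => q.coeff i) h1
    simp only [coeff_scaleRoots, coeff_map] at h2
    refine ⟨s ^ ((minpoly F x).natDegree - i), fun h3 => hs (hp.dvd_of_dvd_pow h3),
      (minpoly A (s • x)).coeff i, ?_⟩
    rw [← h2, map_pow, mul_comm]
  obtain ⟨q, hq⟩ : ∃ q : A[X], q.map (algebraMap A F) = minpoly F x := by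
    have : minpoly F x ∈ Polynomial.lifts (algebraMap A F) := by
      rw [Polynomial.lifts_iff_coeff_lifts]
      exact key
    exact (Polynomial.mem_lifts _).mp this
  have hmonic : q.Monic := by
    have h1 := minpoly.monic hx
    rw [← hq] at h1
    exact Polynomial.monic_of_injective (IsFractionRing.injective A F) h1
  refine ⟨q, hmonic, ?_⟩
  have h2 : Polynomial.aeval x (q.map (algebraMap A F)) = 0 := by
    rw [hq]
    exact minpoly.aeval F x
  rw [Polynomial.aeval_map_algebraMap] at h2
  exact h2

variable (F) in
include F in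
/-- Serre's condition `S₂` for integral closures of factorial domains. -/
theorem isIntegral_of_smul_of_smul {x : E} {a b : A} (hab : ∀ p : A, Prime p → p ∣ a → ¬ p ∣ b)
    (ha0 : a ≠ 0) (ha : IsIntegral A (a • x)) (hb : IsIntegral A (b • x)) : IsIntegral A x := by
  have hx : IsIntegral F x := by
    have h1 : IsIntegral F (a • x) := ha.tower_top
    have h2 : x = (algebraMap A F a)⁻¹ • (a • x) := by
      rw [← algebraMap_smul F a x, smul_smul, inv_mul_cancel₀, one_smul]
      intro h0
      exact ha0 (IsFractionRing.injective A F (by rw [h0, map_zero]))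
    rw [h2]
    exact h1.smul _
  refine isIntegral_of_forall_prime (F := F) hx fun p hp => ?_
  by_cases h : p ∣ a
  · exact ⟨b, hab p hp h, hb⟩
  · exact ⟨a, h, ha⟩

end Fermat.Agent.Geo
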