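import Mathlib
import Fermat.Agent.Geo.Normal

set_option autoImplicit false

/-!
# Valuation subrings of the fraction field of a factorial domain, unramifiedness in terms of the
trace form, and traces of topologically nilpotent elements
-/

open IsLocalRing

namespace Fermat.Agent.Geo

section Integral

variable {F E : Type*} [Field F] [Field E] [Algebra F E]

/-- Integrality over a subring of the base field. -/
def IntOver (V : Subring F) (x : E) : Prop := ((algebraMap F E).comp V.subtype).IsIntegralElem x

/-- `E/F` is unramified over `V` (self-duality of the integral closure under the trace form). -/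
def Unr (V : Subring F) (E : Type*) [Field E] [Algebra F E] : Prop :=
  ∀ x : E, (∀ b : E, IntOver V b → Algebra.trace F E (x * b) ∈ V) → IntOver V x

theorem IntOver.add {V : Subring F} {x y : E} (hx : IntOver V x) (hy : IntOver V y) :
    IntOver V (x + y) := RingHom.IsIntegralElem.add _ hx hy

theorem IntOver.mul {V : Subring F} {x y : E} (hx : IntOver V x) (hy : IntOver V y) :
    IntOver V (x * y) := RingHom.IsIntegralElem.mul _ hx hy

theorem IntOver.neg {V : Subring F} {x : E} (hx : IntOver V x) :
    IntOver V (-x) := RingHom.IsIntegralElem.neg _ hx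

theorem IntOver.sub {V : Subring F} {x y : E} (hx : IntOver V x) (hy : IntOver V y) :
    IntOver V (x - y) := RingHom.IsIntegralElem.sub _ hx hy

theorem IntOver.pow {V : Subring F} {x : E} (hx : IntOver V x) (n : ℕ) :
    IntOver V (x ^ n) := by
  induction n with
  | zero => rw [pow_zero]; exact RingHom.isIntegralElem_one _
  | succ n ih => rw [pow_succ]; exact ih.mul hx

theorem intOver_algebraMap {V : Subring F} {y : F} (hy : y ∈ V) : IntOver V (algebraMap F E y) :=
  RingHom.isIntegralElem_map ((algebraMap F E).comp V.subtype) (x := ⟨y, hy⟩)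

theorem IntOver.smul {V : Subring F} {x : E} (hx : IntOver V x) {y : F} (hy : y ∈ V) :
    IntOver V (y • x) := by
  rw [Algebra.smul_def]
  exact (intOver_algebraMap hy).mul hx

theorem intOver_iff {V : Subring F} {x : E} :
    letI := ((algebraMap F E).comp V.subtype).toAlgebra
    IntOver V x ↔ IsIntegral V x := Iff.rfl

end Integral

section Trace

/-- Over a local integrally closed domain `V` with fraction field `F`, if a power of `w` is a
multiple of a non-unit by an integral element then the trace of `w` is a non-unit of `V`. -/
theorem trace_mem_of_pow {V F E : Type*} [CommRing V] [IsDomain V] [IsLocalRing V]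
    [IsIntegrallyClosed V] [Field F] [Algebra V F] [IsFractionRing V F] [Field E] [Algebra V E]
    [Algebra F E] [IsScalarTower V F E] [FiniteDimensional F E] [Algebra.IsSeparable F E]
    {w y : E} {s : V} {N : ℕ} (hN : 0 < N) (hs : s ∈ maximalIdeal V) (hy : IsIntegral V y)
    (hw : w ^ N = s • y) : ∃ v ∈ maximalIdeal V, Algebra.trace F E w = algebraMap V F v := by
  have hwint : IsIntegral V w := by
    refine IsIntegral.of_pow hN ?_
    rw [hw]
    exact hy.smul s
  have htr : IsIntegral V (Algebra.trace F E w) := Algebra.isIntegral_trace hwint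
  obtain ⟨v, hv⟩ := IsIntegrallyClosed.isIntegral_iff.mp htr
  refine ⟨v, ?_, hv.symm⟩
  let Ω := AlgebraicClosure F
  have htow : IsScalarTower V F Ω := inferInstance
  have hsum := trace_eq_sum_embeddings (E := Ω) (K := F) (L := E) (x := w)
  have hinj : Function.Injective (algebraMap V Ω) := by
    rw [IsScalarTower.algebraMap_eq V F Ω]
    exact (algebraMap F Ω).injective.comp (IsFractionRing.injective V F)
  have hint : Algebra.IsIntegral V (integralClosure V Ω) := inferInstance
  have hker : RingHom.ker (algebraMap V (integralClosure V Ω)) ≤ maximalIdeal V := by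
    intro a ha
    rw [RingHom.mem_ker] at ha
    have h1 : algebraMap V Ω a = 0 := by
      have := congrArg Subtype.val ha
      exact this
    have h2 : a = 0 := hinj (by rw [h1, map_zero])
    rw [h2]
    exact Ideal.zero_mem _
  obtain ⟨M, hM, hMc⟩ := Ideal.exists_ideal_over_maximal_of_isIntegral
    (S := integralClosure V Ω) (maximalIdeal V) hker
  have hemb : ∀ σ : E →ₐ[F] Ω, ∃ m ∈ M, ((m : integralClosure V Ω) : Ω) = σ w := by
    intro σ
    have hσw : IsIntegral V (σ w) := hwint.map (σ.restrictScalars V)
    have hσy : IsIntegral V (σ y) := hy.map (σ.restrictScalars V)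
    refine ⟨⟨σ w, hσw⟩, ?_, rfl⟩
    refine hM.isPrime.mem_of_pow_mem N ?_
    have h1 : (⟨σ w, hσw⟩ : integralClosure V Ω) ^ N =
        algebraMap V (integralClosure V Ω) s * ⟨σ y, hσy⟩ := by
      apply Subtype.ext
      change (σ w) ^ N = algebraMap V Ω s * σ y
      rw [← map_pow, hw]
      change (σ.restrictScalars V) (s • y) = _
      rw [map_smul, Algebra.smul_def]
      rfl
    rw [h1]
    refine Ideal.mul_mem_right _ _ ?_
    have : s ∈ M.comap (algebraMap V (integralClosure V Ω)) := by rw [hMc]; exact hs
    exact this
  choose m hmM hm using hemb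
  rw [← hMc, Ideal.mem_comap]
  have h3 : algebraMap V (integralClosure V Ω) v = ∑ σ, m σ := by
    apply Subtype.ext
    change algebraMap V Ω v = _
    rw [IsScalarTower.algebraMap_apply V F Ω, hv, hsum]
    rw [AddSubmonoidClass.coe_finsetSum]
    exact Finset.sum_congr rfl fun σ _ => (hm σ).symm
  rw [h3]
  exact Ideal.sum_mem _ fun σ _ => hmM σ

end Trace

theorem exists_smul_isIntegral {A : Type*} (F : Type*) {E : Type*} [CommRing A] [IsDomain A]
    [Field F] [Algebra A F] [IsFractionRing A F] [Field E] [Algebra A E] [Algebra F E]
    [IsScalarTower A F E] [FiniteDimensional F E] (x : E) :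
    ∃ a : A, a ≠ 0 ∧ IsIntegral A (a • x) := by
  have h1 : Algebra.IsAlgebraic A E :=
    (IsFractionRing.comap_isAlgebraic_iff (A := A) (K := F)).mpr inferInstance
  obtain ⟨a, ha, h⟩ := (h1.isAlgebraic x).exists_integral_multiple
  exact ⟨a, ha, h⟩

end Fermat.Agent.Geo
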