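import Mathlib
import Fermat.Agent.Geo.Val

set_option autoImplicit false

/-!
# The valuation ring attached to a prime element of a factorial domain
-/

open IsLocalRing

namespace Fermat.Agent.Geo

variable {A : Type*} (F : Type*) [CommRing A] [IsDomain A] [UniqueFactorizationMonoid A]
  [Field F] [Algebra A F] [IsFractionRing A F]

/-- The localisation of `A` at the prime element `p`, as a valuation subring of `F`. -/
def primeVal {p : A} (hp : Prime p) : ValuationSubring F where
  carrier := {y | ∃ s a : A, ¬ p ∣ s ∧ algebraMap A F s * y = algebraMap A F a}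
  mul_mem' := by
    rintro x y ⟨s, a, hs, ha⟩ ⟨t, b, ht, hb⟩
    refine ⟨s * t, a * b, fun h => (hp.dvd_or_dvd h).elim hs ht, ?_⟩
    rw [map_mul, map_mul, ← ha, ← hb]
    ring
  one_mem' := ⟨1, 1, fun h => hp.not_isUnit (isUnit_of_dvd_one h), by rw [mul_one]⟩
  add_mem' := by
    rintro x y ⟨s, a, hs, ha⟩ ⟨t, b, ht, hb⟩
    refine ⟨s * t, a * t + b * s, fun h => (hp.dvd_or_dvd h).elim hs ht, ?_⟩
    rw [map_mul, map_add, map_mul, map_mul, ← ha, ← hb]
    ring
  zero_mem' := ⟨1, 0, fun h => hp.not_isUnit (isUnit_of_dvd_one h), by rw [mul_zero, map_zero]⟩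
  neg_mem' := by
    rintro x ⟨s, a, hs, ha⟩
    exact ⟨s, -a, hs, by rw [mul_neg, ha, map_neg]⟩
  mem_or_inv_mem' := by
    intro y
    by_cases hy0 : y = 0
    · left
      rw [hy0]
      exact ⟨1, 0, fun h => hp.not_isUnit (isUnit_of_dvd_one h), by rw [mul_zero, map_zero]⟩
    obtain ⟨a, b, hcop, hab⟩ := IsFractionRing.exists_reduced_fraction (A := A) y
    have hy : y * algebraMap A F b = algebraMap A F a := by
      rw [← hab]
      exact IsLocalization.mk'_spec _ _ _
    by_cases hb : p ∣ (b : A)
    · right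
      refine ⟨a, b, fun ha => hp.not_isUnit (hcop ha hb), ?_⟩
      rw [← hy]
      field_simp
    · left
      exact ⟨b, a, hb, by rw [← hy, mul_comm]⟩

variable {F}

theorem mem_primeVal_iff {p : A} (hp : Prime p) {y : F} : y ∈ primeVal F hp ↔
    ∃ s a : A, ¬ p ∣ s ∧ algebraMap A F s * y = algebraMap A F a := Iff.rfl

theorem algebraMap_mem_primeVal {p : A} (hp : Prime p) (a : A) :
    algebraMap A F a ∈ primeVal F hp :=
  ⟨1, a, fun h => hp.not_isUnit (isUnit_of_dvd_one h), by rw [map_one, one_mul]⟩

theorem inv_mem_primeVal {p : A} (hp : Prime p) {s : A} (hs : ¬ p ∣ s) :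
    (algebraMap A F s)⁻¹ ∈ primeVal F hp := by
  have hs0 : s ≠ 0 := fun h0 => hs (by rw [h0]; exact dvd_zero p)
  have : algebraMap A F s ≠ 0 := fun h0 => hs0 (IsFractionRing.injective A F (by
    rw [h0, map_zero]))
  exact ⟨s, 1, hs, by rw [mul_inv_cancel₀ this, map_one]⟩

variable {E : Type*} [Field E] [Algebra A E] [Algebra F E] [IsScalarTower A F E]

theorem intOver_of_isIntegral {V : Subring F} (hV : ∀ a : A, algebraMap A F a ∈ V) {x : E}
    (hx : IsIntegral A x) : IntOver V x := by
  obtain ⟨P, hP, hx⟩ := hx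
  let f : A →+* V := (algebraMap A F).codRestrict V hV
  refine ⟨P.map f, hP.map f, ?_⟩
  rw [Polynomial.eval₂_map]
  have : ((algebraMap F E).comp V.subtype).comp f = algebraMap A E := by
    ext a
    exact (IsScalarTower.algebraMap_apply A F E a).symm
  rw [this]
  exact hx

/-- Integrality over the localisation at a prime element. -/
theorem intOver_primeVal_iff {p : A} (hp : Prime p) {x : E} :
    IntOver (primeVal F hp).toSubring x ↔ ∃ s : A, ¬ p ∣ s ∧ IsIntegral A (s • x) := by
  constructor
  · intro hx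
    let V := primeVal F hp
    letI : Algebra A V := ((algebraMap A F).codRestrict V.toSubring
      (algebraMap_mem_primeVal hp)).toAlgebra
    letI : Algebra V E := ((algebraMap F E).comp V.toSubring.subtype).toAlgebra
    haveI : IsScalarTower A V E := IsScalarTower.of_algebraMap_eq fun a =>
      IsScalarTower.algebraMap_apply A F E a
    have hinst : (Ideal.span {p}).IsPrime :=
      (Ideal.span_singleton_prime hp.ne_zero).mpr hp
    haveI : IsLocalization (Ideal.span {p}).primeCompl V := by
      refine ⟨⟨fun s => ?_, fun z => ?_, fun {x y} h => ?_⟩⟩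
      · have hs : ¬ p ∣ (s : A) := fun h => s.2 (Ideal.mem_span_singleton.mpr h)
        refine IsUnit.of_mul_eq_one ⟨_, inv_mem_primeVal hp hs⟩ (Subtype.ext ?_)
        have hs0 : (s : A) ≠ 0 := fun h0 => hs (by rw [h0]; exact dvd_zero p)
        have : algebraMap A F s ≠ 0 := fun h0 => hs0 (IsFractionRing.injective A F (by
          rw [h0, map_zero]))
        exact mul_inv_cancel₀ this
      · obtain ⟨s, a, hs, ha⟩ := z.2
        refine ⟨⟨a, ⟨s, fun h => hs (Ideal.mem_span_singleton.mp h)⟩⟩, Subtype.ext ?_⟩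
        change (z : F) * algebraMap A F s = algebraMap A F a
        rw [mul_comm]
        exact ha
      · have h1 : algebraMap A F x = algebraMap A F y := congrArg Subtype.val h
        exact ⟨1, by rw [IsFractionRing.injective A F h1]⟩
    have hx' : IsIntegral V x := hx
    obtain ⟨m, hm⟩ := hx'.exists_multiple_integral_of_isLocalization
      (Ideal.span {p}).primeCompl
    exact ⟨m, fun h => m.2 (Ideal.mem_span_singleton.mpr h), hm⟩
  · rintro ⟨s, hs, hx⟩
    have h1 := intOver_of_isIntegral (V := (primeVal F hp).toSubring)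
      (algebraMap_mem_primeVal hp) hx
    have hs0 : s ≠ 0 := fun h0 => hs (by rw [h0]; exact dvd_zero p)
    have h0 : algebraMap A F s ≠ 0 := fun h0 => hs0 (IsFractionRing.injective A F (by
      rw [h0, map_zero]))
    have h2 := h1.smul (inv_mem_primeVal (F := F) hp hs)
    rw [← algebraMap_smul F s x, smul_smul, inv_mul_cancel₀ h0, one_smul] at h2
    exact h2

end Fermat.Agent.Geo
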