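import Mathlib
import Fermat.Agent.Geo.PrimeVal

set_option autoImplicit false

/-!
# The composite valuation ring of a two-dimensional regular local ring
-/

open IsLocalRing

namespace Fermat.Agent.Geo

variable {A : Type*} {F : Type*} [CommRing A] [IsDomain A] [UniqueFactorizationMonoid A]
  [IsLocalRing A] [IsNoetherianRing A] [Field F] [Algebra A F] [IsFractionRing A F]

omit [UniqueFactorizationMonoid A] in
/-- The quotient by one of two parameters is a valuation ring. -/
theorem dvd_total_mod {π s : A} (hπ : Prime π) (hm : maximalIdeal A = Ideal.span {π, s})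
    (a b : A) : (∃ c, π ∣ a - b * c) ∨ (∃ c, π ∣ b - a * c) := by
  have hprime : (Ideal.span {π}).IsPrime := (Ideal.span_singleton_prime hπ.ne_zero).mpr hπ
  set A' := A ⧸ Ideal.span {π} with hA'
  have hdom : IsDomain A' := Ideal.Quotient.isDomain _
  have hloc : IsLocalRing A' := IsLocalRing.of_surjective' (Ideal.Quotient.mk _)
    Ideal.Quotient.mk_surjective
  have hprin : (maximalIdeal A').IsPrincipal := by
    refine ⟨Ideal.Quotient.mk _ s, ?_⟩
    apply le_antisymm
    · intro x hx
      obtain ⟨a, rfl⟩ := Ideal.Quotient.mk_surjective x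
      have ha : a ∈ maximalIdeal A := by
        rw [mem_maximalIdeal, mem_nonunits_iff] at hx ⊢
        exact fun h => hx (h.map _)
      rw [hm, Ideal.mem_span_pair] at ha
      obtain ⟨c, d, rfl⟩ := ha
      have h1 : Ideal.Quotient.mk (Ideal.span {π}) (c * π + d * s) =
          Ideal.Quotient.mk (Ideal.span {π}) d * Ideal.Quotient.mk (Ideal.span {π}) s := by
        rw [← map_mul, Ideal.Quotient.eq]
        rw [Ideal.mem_span_singleton]
        exact ⟨c, by ring⟩
      rw [h1]
      exact Ideal.mul_mem_left _ _ (Ideal.mem_span_singleton_self _)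
    · rw [Ideal.submodule_span_eq, Ideal.span_singleton_le_iff_mem, mem_maximalIdeal,
        mem_nonunits_iff]
      intro hu
      obtain ⟨c, hc⟩ := hu.exists_right_inv
      obtain ⟨c, rfl⟩ := Ideal.Quotient.mk_surjective c
      rw [← map_mul, ← map_one (Ideal.Quotient.mk (Ideal.span {π})), Ideal.Quotient.eq,
        Ideal.mem_span_singleton] at hc
      obtain ⟨d, hd⟩ := hc
      have h1 : (1 : A) ∈ maximalIdeal A := by
        rw [hm, Ideal.mem_span_pair]
        exact ⟨-d, c, by linear_combination hd⟩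
      exact (Ideal.ne_top_iff_one _).mp (maximalIdeal.isMaximal A).ne_top h1
  have hval : ValuationRing A' :=
    ((tfae_of_isNoetherianRing_of_isLocalRing_of_isDomain A').out 4 1).mp hprin
  rcases ValuationRing.dvd_total (Ideal.Quotient.mk (Ideal.span {π}) a)
    (Ideal.Quotient.mk (Ideal.span {π}) b) with h | h
  · right
    obtain ⟨c, hc⟩ := h
    obtain ⟨c, rfl⟩ := Ideal.Quotient.mk_surjective c
    rw [← map_mul, Ideal.Quotient.eq, Ideal.mem_span_singleton] at hc
    exact ⟨c, hc⟩
  · left
    obtain ⟨c, hc⟩ := h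
    obtain ⟨c, rfl⟩ := Ideal.Quotient.mk_surjective c
    rw [← map_mul, Ideal.Quotient.eq, Ideal.mem_span_singleton] at hc
    exact ⟨c, hc⟩

omit [IsLocalRing A] [IsNoetherianRing A] in
theorem div_mem_primeVal {π : A} (hπ : Prime π) (a : A) {b : A} (hb : ¬ π ∣ b) :
    algebraMap A F a / algebraMap A F b ∈ primeVal F hπ := by
  rw [div_eq_mul_inv]
  exact mul_mem (algebraMap_mem_primeVal hπ a) (inv_mem_primeVal hπ hb)

omit [IsDomain A] [UniqueFactorizationMonoid A] [IsLocalRing A] [IsNoetherianRing A] in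
theorem algebraMap_ne_zero_of_not_dvd {π b : A} (hb : ¬ π ∣ b) : algebraMap A F b ≠ 0 := by
  intro h0
  have : b = 0 := IsFractionRing.injective A F (by rw [h0, map_zero])
  exact hb (by rw [this]; exact dvd_zero π)

variable (F) in
/-- The valuation ring `A + π A_(π)` of rank two. -/
def rankTwo {π s : A} (hπ : Prime π) (hm : maximalIdeal A = Ideal.span {π, s}) :
    ValuationSubring F where
  carrier := {y | ∃ a : A, ∃ z ∈ primeVal F hπ, y = algebraMap A F a + algebraMap A F π * z}
  mul_mem' := by
    rintro x y ⟨a, z, hz, rfl⟩ ⟨b, w, hw, rfl⟩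
    refine ⟨a * b, algebraMap A F a * w + algebraMap A F b * z + algebraMap A F π * z * w,
      ?_, by rw [map_mul]; ring⟩
    exact add_mem (add_mem (mul_mem (algebraMap_mem_primeVal hπ _) hw)
      (mul_mem (algebraMap_mem_primeVal hπ _) hz))
      (mul_mem (mul_mem (algebraMap_mem_primeVal hπ _) hz) hw)
  one_mem' := ⟨1, 0, zero_mem _, by rw [map_one, mul_zero, add_zero]⟩
  add_mem' := by
    rintro x y ⟨a, z, hz, rfl⟩ ⟨b, w, hw, rfl⟩
    exact ⟨a + b, z + w, add_mem hz hw, by rw [map_add]; ring⟩
  zero_mem' := ⟨0, 0, zero_mem _, by rw [map_zero, mul_zero, add_zero]⟩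
  neg_mem' := by
    rintro x ⟨a, z, hz, rfl⟩
    exact ⟨-a, -z, neg_mem hz, by rw [map_neg]; ring⟩
  mem_or_inv_mem' := by
    intro y
    obtain ⟨a, b, hcop, hab⟩ := IsFractionRing.exists_reduced_fraction (A := A) y
    have hb0 : algebraMap A F b ≠ 0 := fun h0 =>
      nonZeroDivisors.ne_zero b.2 (IsFractionRing.injective A F (by rw [h0, map_zero]))
    have hy : y = algebraMap A F a / algebraMap A F b := by
      rw [eq_div_iff hb0, ← hab]
      exact IsLocalization.mk'_spec _ _ _
    have hcase : ∀ a b : A, ¬ π ∣ b → π ∣ a →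
        ∃ a' : A, ∃ z ∈ primeVal F hπ, algebraMap A F a / algebraMap A F b =
          algebraMap A F a' + algebraMap A F π * z := by
      rintro _ b hb ⟨c, rfl⟩
      refine ⟨0, _, div_mem_primeVal hπ c hb, ?_⟩
      rw [map_mul, map_zero, zero_add, mul_div_assoc]
    have hcase2 : ∀ a b c : A, ¬ π ∣ b → π ∣ a - b * c →
        ∃ a' : A, ∃ z ∈ primeVal F hπ, algebraMap A F a / algebraMap A F b =
          algebraMap A F a' + algebraMap A F π * z := by
      rintro a b c hb ⟨d, hd⟩
      refine ⟨c, _, div_mem_primeVal hπ d hb, ?_⟩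
      have h0 := algebraMap_ne_zero_of_not_dvd (F := F) hb
      have h1 : a = b * c + π * d := by linear_combination hd
      rw [h1, map_add, map_mul, map_mul]
      field_simp
    by_cases hb : π ∣ (b : A)
    · right
      have ha : ¬ π ∣ a := fun ha => hπ.not_isUnit (hcop ha hb)
      rw [hy, inv_div]
      exact hcase _ _ ha hb
    · by_cases ha : π ∣ a
      · left
        rw [hy]
        exact hcase _ _ hb ha
      · rcases dvd_total_mod hπ hm a b with ⟨c, hc⟩ | ⟨c, hc⟩
        · left
          rw [hy]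
          exact hcase2 _ _ _ hb hc
        · right
          rw [hy, inv_div]
          exact hcase2 _ _ _ ha hc

theorem mem_rankTwo_iff {π s : A} (hπ : Prime π) (hm : maximalIdeal A = Ideal.span {π, s})
    {y : F} : y ∈ rankTwo F hπ hm ↔
      ∃ a : A, ∃ z ∈ primeVal F hπ, y = algebraMap A F a + algebraMap A F π * z := Iff.rfl

theorem algebraMap_mem_rankTwo {π s : A} (hπ : Prime π) (hm : maximalIdeal A = Ideal.span {π, s})
    (a : A) : algebraMap A F a ∈ rankTwo F hπ hm :=
  ⟨a, 0, zero_mem _, by rw [mul_zero, add_zero]⟩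

/-- Non-units of the rank two valuation ring are divisible by `s`. -/
theorem exists_mul_of_mem_maximalIdeal {π s : A} (hπ : Prime π) (hπs : ¬ π ∣ s)
    (hm : maximalIdeal A = Ideal.span {π, s}) {y : rankTwo F hπ hm}
    (hy : y ∈ maximalIdeal (rankTwo F hπ hm)) :
    ∃ v ∈ rankTwo F hπ hm, (y : F) = algebraMap A F s * v := by
  obtain ⟨⟨a, z, hz, hya⟩⟩ := Subtype.property y |> fun h => (⟨h⟩ : Nonempty _)
  have ha : a ∈ maximalIdeal A := by
    rw [mem_maximalIdeal, mem_nonunits_iff]
    intro hu
    obtain ⟨u, rfl⟩ := hu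
    rw [mem_maximalIdeal, mem_nonunits_iff] at hy
    apply hy
    obtain ⟨e, c, he, hc⟩ := hz
    have he0 := algebraMap_ne_zero_of_not_dvd (F := F) he
    have hz' : z = algebraMap A F c / algebraMap A F e := by
      rw [eq_div_iff he0, mul_comm]; exact hc
    have hne : ¬ π ∣ (u : A) * e + π * c := by
      intro h
      rw [dvd_add_left (dvd_mul_right π c)] at h
      rcases hπ.dvd_or_dvd h with h1 | h1
      · exact hπ.not_isUnit (isUnit_of_dvd_unit h1 u.isUnit)
      · exact he h1
    have hne0 := algebraMap_ne_zero_of_not_dvd (F := F) hne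
    have hu0 : algebraMap A F u ≠ 0 := (u.isUnit.map (algebraMap A F)).ne_zero
    have huinv : algebraMap A F ((u⁻¹ : Aˣ) : A) = (algebraMap A F u)⁻¹ := by
      refine eq_inv_of_mul_eq_one_left ?_
      rw [← map_mul, Units.inv_mul, map_one]
    have hyy : (y : F) = algebraMap A F ((u : A) * e + π * c) / algebraMap A F e := by
      rw [hya, hz', map_add, map_mul, map_mul]
      field_simp
    have hy0 : (y : F) ≠ 0 := by
      rw [hyy]
      exact div_ne_zero hne0 he0
    have hyinv : (y : F)⁻¹ ∈ rankTwo F hπ hm := by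
      refine ⟨((u⁻¹ : Aˣ) : A), - (z * algebraMap A F ((u⁻¹ : Aˣ) : A) * (y : F)⁻¹), ?_, ?_⟩
      · apply neg_mem
        refine mul_mem (mul_mem ?_ (algebraMap_mem_primeVal hπ _)) ?_
        · rw [hz']
          exact div_mem_primeVal hπ c he
        · rw [hyy, inv_div]
          exact div_mem_primeVal hπ e hne
      · rw [huinv]
        field_simp
        rw [hya]
        ring
    exact IsUnit.of_mul_eq_one ⟨_, hyinv⟩ (Subtype.ext (mul_inv_cancel₀ hy0))
  rw [hm, Ideal.mem_span_pair] at ha
  obtain ⟨c, d, rfl⟩ := ha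
  have hs0 := algebraMap_ne_zero_of_not_dvd (F := F) hπs
  refine ⟨algebraMap A F d + algebraMap A F π * ((algebraMap A F c + z) * (algebraMap A F s)⁻¹),
    ⟨d, _, ?_, rfl⟩, ?_⟩
  · exact mul_mem (add_mem (algebraMap_mem_primeVal hπ _) hz) (inv_mem_primeVal hπ hπs)
  · rw [hya, map_add, map_mul, map_mul]
    field_simp
    ring

end Fermat.Agent.Geo
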