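import Mathlib
import Fermat.Agent.Geo.Free
import Fermat.Agent.Geo.RankTwo

set_option autoImplicit false

/-!
# Normality of the special fibre at a closed point
-/

open IsLocalRing Module

universe u

namespace Fermat.Agent.Geo

/-- Tameness of `E/F` over `V` with uniformiser `ϖ`: the dual of `ϖ⁻¹ J` is the integral
closure, where `J` is the radical of `ϖ`. -/
def TameAt {F : Type*} [Field F] (V : Subring F) (ϖ : F) (E : Type*) [Field E] [Algebra F E] :
    Prop :=
  ∀ x : E, (∀ j y : E, ∀ N : ℕ, 0 < N → IntOver V j → IntOver V y → j ^ N = ϖ • y →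
    ∃ v ∈ V, Algebra.trace F E (x * j) = ϖ * v) → IntOver V x

section

variable {A E : Type u} {F : Type*} [CommRing A] [IsDomain A] [UniqueFactorizationMonoid A]
  [Field F] [Algebra A F] [IsFractionRing A F]
  [Field E] [Algebra A E] [Algebra F E] [IsScalarTower A F E]

omit [IsDomain A] [UniqueFactorizationMonoid A] in
variable (E) in
/-- The radical of the ideal generated by `s` in the integral closure of `A` in `E`. -/
def radSub (s : A) : Submodule A E where
  carrier := {x | IsIntegral A x ∧ ∃ (N : ℕ) (y : E), 0 < N ∧ IsIntegral A y ∧ x ^ N = s • y}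
  add_mem' := by
    rintro x x' ⟨hx, N, y, hN, hy, h⟩ ⟨hx', N', y', hN', hy', h'⟩
    refine ⟨hx.add hx', ?_⟩
    let B := integralClosure A E
    let I : Ideal B := (Ideal.span {algebraMap A B s}).radical
    have h1 : (⟨x, hx⟩ : B) ∈ I := by
      refine ⟨N, ?_⟩
      rw [Ideal.mem_span_singleton]
      refine ⟨⟨y, hy⟩, Subtype.ext ?_⟩
      change x ^ N = algebraMap A E s * y
      rw [h, Algebra.smul_def]
    have h2 : (⟨x', hx'⟩ : B) ∈ I := by
      refine ⟨N', ?_⟩
      rw [Ideal.mem_span_singleton]
      refine ⟨⟨y', hy'⟩, Subtype.ext ?_⟩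
      change x' ^ N' = algebraMap A E s * y'
      rw [h', Algebra.smul_def]
    obtain ⟨M, hM⟩ := I.add_mem h1 h2
    rw [Ideal.mem_span_singleton] at hM
    obtain ⟨c, hc⟩ := hM
    have hc' : (x + x') ^ M = algebraMap A E s * (c : E) := congrArg Subtype.val hc
    refine ⟨M + 1, (c : E) * (x + x'), Nat.succ_pos M, ?_, ?_⟩
    · exact IsIntegral.mul c.2 (hx.add hx')
    · rw [pow_succ, hc', Algebra.smul_def]
      ring
  zero_mem' := ⟨isIntegral_zero, 1, 0, one_pos, isIntegral_zero, by simp⟩
  smul_mem' := by
    rintro a x ⟨hx, N, y, hN, hy, h⟩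
    refine ⟨hx.smul a, N, a ^ N • y, hN, hy.smul _, ?_⟩
    rw [smul_pow, h, smul_comm]

omit [IsDomain A] [UniqueFactorizationMonoid A] in
theorem mem_radSub_iff {s : A} {x : E} : x ∈ radSub E s ↔
    IsIntegral A x ∧ ∃ (N : ℕ) (y : E), 0 < N ∧ IsIntegral A y ∧ x ^ N = s • y := Iff.rfl

omit [IsDomain A] [UniqueFactorizationMonoid A] in
theorem smul_mem_radSub {s : A} {b : E} (hb : IsIntegral A b) : s • b ∈ radSub E s :=
  ⟨hb.smul s, 1, b, one_pos, hb, pow_one _⟩

omit [IsDomain A] [UniqueFactorizationMonoid A] in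
theorem radSub_le {s : A} {x : E} (hx : x ∈ radSub E s) : IsIntegral A x := hx.1

variable [IsNoetherianRing A] [FiniteDimensional F E] [Algebra.IsSeparable F E]

omit [UniqueFactorizationMonoid A] in
variable (F) in
include F in
theorem finite_radSub [IsIntegrallyClosed A] (s : A) : (radSub E s).FG := by
  have h1 : IsNoetherian A (integralClosure A E) :=
    IsIntegralClosure.isNoetherian A F E (integralClosure A E)
  have h2 : radSub E s ≤ Subalgebra.toSubmodule (integralClosure A E) := fun x hx => radSub_le hx
  have h3 : IsNoetherian A (Subalgebra.toSubmodule (integralClosure A E)) := h1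
  exact isNoetherian_submodule.mp h3 _ h2

omit [UniqueFactorizationMonoid A] in
theorem isLattice_radSub [IsIntegrallyClosed A] {s : A} (hs : s ≠ 0) :
    (radSub E s).IsLattice F := by
  refine ⟨finite_radSub F s, ?_⟩
  rw [eq_top_iff]
  intro x _
  obtain ⟨a, ha, hx⟩ := exists_smul_isIntegral (A := A) F x
  have h1 : s • a • x ∈ Submodule.span F (radSub E s : Set E) :=
    Submodule.subset_span (smul_mem_radSub hx)
  have h2 : algebraMap A F (s * a) ≠ 0 := fun h0 => mul_ne_zero hs ha
    (IsFractionRing.injective A F (by rw [h0, map_zero]))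
  have h3 : x = (algebraMap A F (s * a))⁻¹ • (s • a • x) := by
    rw [smul_smul, ← algebraMap_smul F (s * a) x, smul_smul, inv_mul_cancel₀ h2, one_smul]
  rw [h3]
  exact Submodule.smul_mem _ _ h1

end

section Main

variable {A E : Type u} {F : Type*} [CommRing A] [IsDomain A] [UniqueFactorizationMonoid A]
  [IsLocalRing A] [IsNoetherianRing A]
  [Field F] [Algebra A F] [IsFractionRing A F]
  [Field E] [Algebra A E] [Algebra F E] [IsScalarTower A F E]
  [FiniteDimensional F E] [Algebra.IsSeparable F E]

/-- Pairing with a basis of the radical. -/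
theorem trace_radSub_mem {ι : Type*} [Fintype ι] {s : A} (b : Basis ι A (radSub E s)) {W : Subring F}
    (hW : ∀ a : A, algebraMap A F a ∈ W) {γ : E}
    (h : ∀ i, ∃ w ∈ W, Algebra.trace F E (γ * (b i : E)) = algebraMap A F s * w)
    {j : E} (hj : j ∈ radSub E s) :
    ∃ w ∈ W, Algebra.trace F E (γ * j) = algebraMap A F s * w := by
  choose w hw hw' using h
  have h1 : j = ∑ i, (b.repr ⟨j, hj⟩ i) • (b i : E) := by
    have := congrArg Subtype.val (b.sum_repr ⟨j, hj⟩)
    rw [AddSubmonoidClass.coe_finsetSum] at this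
    exact this.symm
  refine ⟨∑ i, algebraMap A F (b.repr ⟨j, hj⟩ i) * w i,
    Subring.sum_mem _ fun i _ => mul_mem (hW _) (hw i), ?_⟩
  conv_lhs => rw [h1]
  rw [Finset.mul_sum, map_sum, Finset.mul_sum]
  refine Finset.sum_congr rfl fun i _ => ?_
  rw [mul_smul_comm, ← algebraMap_smul F, map_smul, hw', smul_eq_mul]
  ring

/-- **Normality of the special fibre at a closed point.**  Let `A` be a two-dimensional regular
local ring with parameters `π, s`.  If `E/F` is unramified at all primes of height one
except possibly `(s)`, where it is tame, then the integral closure of the rank two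
valuation ring `A + π A_(π)` is `B + π B_(π)`. -/
theorem exists_of_intOver_rankTwo {π s : A} (hπ : Prime π) (hs : Prime s) (hπs : ¬ π ∣ s)
    (hm : maximalIdeal A = Ideal.span {π, s})
    (hunr : ∀ p : A, ∀ hp : Prime p, ¬ p ∣ s → Unr (primeVal F hp).toSubring E)
    (htame : TameAt (primeVal F hs).toSubring (algebraMap A F s) E)
    {x : E} (hx : IntOver (rankTwo F hπ hm).toSubring x) :
    ∃ b y : E, IsIntegral A b ∧ IntOver (primeVal F hπ).toSubring y ∧ x = b + π • y := by
  classical
  have hs0 : algebraMap A F s ≠ 0 := algebraMap_ne_zero_of_not_dvd hπs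
  have hsp : ¬ s ∣ π := fun h => hπs ((hs.associated_of_dvd hπ h).symm.dvd)
  have hfs : FaithfulSMul A E := by
    rw [faithfulSMul_iff_algebraMap_injective, IsScalarTower.algebraMap_eq A F E]
    exact (algebraMap F E).injective.comp (IsFractionRing.injective A F)
  have hlat : (radSub E s).IsLattice F := isLattice_radSub hs.ne_zero
  have hfin : Module.Finite A (radSub E s) := Submodule.IsLattice.finite F _
  have hcop : ∀ n, ∀ p : A, Prime p → p ∣ π ^ n → ¬ p ∣ s := by
    intro n p hp h1 h2
    have h3 := (hp.associated_of_dvd hπ (hp.dvd_of_dvd_pow h1))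
    exact hπs (h3.symm.dvd.trans h2)
  have hfree : Module.Free A (radSub E s) := by
    refine free_of_saturated (radSub E s) hπ.ne_zero hm ?_
    rintro z ⟨hz1, N, y, hN, hy, hz2⟩ ⟨hz3, -⟩
    have hz : IsIntegral A z := isIntegral_of_smul_of_smul F
      (fun p hp h => hcop 1 p hp (by rwa [pow_one])) hπ.ne_zero hz1 hz3
    refine ⟨hz, N, (algebraMap A F s)⁻¹ • z ^ N, hN, ?_, ?_⟩
    · refine isIntegral_of_smul_of_smul F (hcop N) (pow_ne_zero N hπ.ne_zero) ?_ ?_
      · rw [smul_comm, ← smul_pow, hz2, ← algebraMap_smul F s y, smul_smul, inv_mul_cancel₀ hs0,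
          one_smul]
        exact hy
      · rw [← algebraMap_smul F s, smul_smul, mul_inv_cancel₀ hs0, one_smul]
        exact hz.pow N
    · rw [← algebraMap_smul F s, smul_smul, mul_inv_cancel₀ hs0, one_smul]
  let b := Module.Free.chooseBasis A (radSub E s)
  let e := b.extendOfIsLattice F
  have he : ∀ i, e i = (b i : E) := fun i => b.extendOfIsLattice_apply F i
  -- traces against the radical
  have htr : ∀ i, ∃ a : A, ∃ z ∈ primeVal F hπ, Algebra.trace F E (x * (b i : E)) =
      algebraMap A F s * (algebraMap A F a + algebraMap A F π * z) := by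
    intro i
    obtain ⟨hb, N, y, hN, hy, hbN⟩ := (b i).2
    let V := rankTwo F hπ hm
    letI : Algebra V E := ((algebraMap F E).comp V.toSubring.subtype).toAlgebra
    haveI : IsScalarTower V F E := IsScalarTower.of_algebraMap_eq fun a => rfl
    have hsV : (⟨algebraMap A F s, algebraMap_mem_rankTwo hπ hm s⟩ : V) ∈ maximalIdeal V := by
      rw [mem_maximalIdeal, mem_nonunits_iff]
      intro hu
      obtain ⟨c, hc⟩ := hu.exists_right_inv
      obtain ⟨a, z, ⟨t, d, ht, hd⟩, ha⟩ := c.2
      have hc' : algebraMap A F s * (c : F) = 1 := congrArg Subtype.val hc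
      have h1 : s * (a * t + π * d) = t := by
        apply IsFractionRing.injective A F
        rw [map_mul, map_add, map_mul, map_mul, ← hd]
        calc algebraMap A F s * (algebraMap A F a * algebraMap A F t +
              algebraMap A F π * (algebraMap A F t * z))
            = algebraMap A F t * (algebraMap A F s * (algebraMap A F a +
                algebraMap A F π * z)) := by ring
          _ = algebraMap A F t := by rw [← ha, hc', mul_one]
      -- modulo `π` the element `s` would be a unit
      have h2 : s ∣ t := Dvd.intro _ h1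
      have h3 : π ∣ t * (1 - s * a) := ⟨s * d, by linear_combination (-1 : A) * h1⟩
      rcases hπ.dvd_or_dvd h3 with h4 | h4
      · exact ht h4
      · obtain ⟨f, hf⟩ := h4
        have h5 : (1 : A) ∈ maximalIdeal A := by
          rw [hm, Ideal.mem_span_pair]
          exact ⟨f, a, by linear_combination -hf⟩
        exact (Ideal.ne_top_iff_one _).mp (maximalIdeal.isMaximal A).ne_top h5
    have hbV : IntOver V.toSubring (b i : E) :=
      intOver_of_isIntegral (algebraMap_mem_rankTwo hπ hm) hb
    have hyV : IntOver V.toSubring y :=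
      intOver_of_isIntegral (algebraMap_mem_rankTwo hπ hm) hy
    have hint : IsIntegral V (x ^ N * y) := (hx.pow N).mul hyV
    obtain ⟨v, hv, hv'⟩ := trace_mem_of_pow (V := V) (F := F) (w := x * (b i : E)) hN hsV hint (by
      rw [mul_pow, hbN, mul_smul_comm]
      rw [Algebra.smul_def, Algebra.smul_def]
      congr 1
      exact IsScalarTower.algebraMap_apply A F E s)
    obtain ⟨w, ⟨a, z, hz, rfl⟩, hw⟩ := exists_mul_of_mem_maximalIdeal hπ hπs hm hv
    exact ⟨a, z, hz, hv'.trans hw⟩
  choose a z hz ha using htr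
  -- the approximating element
  let d := e.traceDual
  let β : E := ∑ i, (algebraMap A F s * algebraMap A F (a i)) • d i
  have hβ : ∀ i, Algebra.trace F E (β * (b i : E)) = algebraMap A F s * algebraMap A F (a i) := by
    intro i
    rw [Finset.sum_mul, map_sum]
    rw [Finset.sum_eq_single i]
    · rw [smul_mul_assoc, map_smul, ← he i, Module.Basis.trace_traceDual_mul, if_pos rfl,
        smul_eq_mul, mul_one]
    · intro j _ hji
      rw [smul_mul_assoc, map_smul, ← he i, Module.Basis.trace_traceDual_mul,
        if_neg (fun h => hji h.symm), smul_zero]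
    · intro h
      exact absurd (Finset.mem_univ i) h
  have hβint : IsIntegral A β := by
    let W : Subring F := (algebraMap A F).range
    have hW : ∀ a : A, algebraMap A F a ∈ W := fun a => ⟨a, rfl⟩
    have hβW : ∀ i, ∃ w ∈ W, Algebra.trace F E (β * (b i : E)) = algebraMap A F s * w :=
      fun i => ⟨_, hW (a i), hβ i⟩
    refine isIntegral_of_forall_prime (F := F) (Algebra.IsIntegral.isIntegral β) fun p hp => ?_
    by_cases hps : p ∣ s
    · have h1 : IntOver (primeVal F hs).toSubring β := by
        apply htame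
        intro j y N hN hj hy hjN
        obtain ⟨c, hc, hcj⟩ := (intOver_primeVal_iff hs).mp hj
        obtain ⟨c', hc', hcy⟩ := (intOver_primeVal_iff hs).mp hy
        have hcc : ¬ s ∣ c * c' := fun h => (hs.dvd_or_dvd h).elim hc hc'
        have hmem : (c * c') • j ∈ radSub E s := by
          refine ⟨?_, N, (c ^ N * c' ^ (N - 1)) • (c' • y), hN, hcy.smul _, ?_⟩
          · rw [mul_comm, mul_smul]
            exact hcj.smul _
          · have h1 : c' ^ N = c' ^ (N - 1) * c' := by rw [← pow_succ, Nat.sub_add_cancel hN]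
            rw [smul_pow, hjN, mul_pow, h1, algebraMap_smul]
            simp only [smul_smul]
            congr 1
            ring
        obtain ⟨w, ⟨w', rfl⟩, hw⟩ := trace_radSub_mem b hW hβW hmem
        have hcc0 := algebraMap_ne_zero_of_not_dvd (F := F) hcc
        refine ⟨algebraMap A F w' / algebraMap A F (c * c'), div_mem_primeVal hs w' hcc, ?_⟩
        rw [mul_smul_comm, ← algebraMap_smul F (c * c'), map_smul, smul_eq_mul] at hw
        rw [mul_div_assoc', eq_div_iff hcc0, mul_comm]
        exact hw
      obtain ⟨c, hc, hcβ⟩ := (intOver_primeVal_iff hs).mp h1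
      exact ⟨c, fun h => hc ((hp.associated_of_dvd hs hps).symm.dvd.trans h), hcβ⟩
    · rw [← intOver_primeVal_iff (F := F) hp]
      apply hunr p hp hps
      intro b0 hb0
      obtain ⟨c, hc, hcb⟩ := (intOver_primeVal_iff hp).mp hb0
      obtain ⟨w, ⟨w', rfl⟩, hw⟩ := trace_radSub_mem b hW hβW (smul_mem_radSub hcb)
      rw [← algebraMap_smul F s, mul_smul_comm, map_smul, smul_eq_mul] at hw
      have h2 := mul_left_cancel₀ hs0 hw
      have hc0 := algebraMap_ne_zero_of_not_dvd (F := F) hc
      rw [mul_smul_comm, ← algebraMap_smul F c, map_smul, smul_eq_mul] at h2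
      have h3 : Algebra.trace F E (β * b0) = algebraMap A F w' / algebraMap A F c := by
        rw [eq_div_iff hc0, mul_comm]
        exact h2
      rw [h3]
      exact div_mem_primeVal hp w' hc
  have hπ0 : algebraMap A F π ≠ 0 := algebraMap_ne_zero_of_not_dvd hsp
  refine ⟨β, (algebraMap A F π)⁻¹ • (x - β), hβint, ?_, ?_⟩
  · apply hunr π hπ hπs
    intro b0 hb0
    obtain ⟨c, hc, hcb⟩ := (intOver_primeVal_iff hπ).mp hb0
    have hyW : ∀ i, ∃ w ∈ (primeVal F hπ).toSubring, Algebra.trace F E
        ((algebraMap A F π)⁻¹ • (x - β) * (b i : E)) = algebraMap A F s * w := by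
      intro i
      refine ⟨z i, hz i, ?_⟩
      rw [smul_mul_assoc, map_smul, sub_mul, map_sub, ha, hβ, smul_eq_mul]
      field_simp
      ring
    obtain ⟨w, hw1, hw⟩ := trace_radSub_mem b (W := (primeVal F hπ).toSubring)
      (algebraMap_mem_primeVal hπ) hyW (smul_mem_radSub hcb)
    rw [← algebraMap_smul F s, mul_smul_comm, map_smul, smul_eq_mul] at hw
    have h2 := mul_left_cancel₀ hs0 hw
    have hc0 := algebraMap_ne_zero_of_not_dvd (F := F) hc
    rw [mul_smul_comm, ← algebraMap_smul F c, map_smul, smul_eq_mul] at h2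
    have h3 : Algebra.trace F E ((algebraMap A F π)⁻¹ • (x - β) * b0) =
        w * (algebraMap A F c)⁻¹ := by
      rw [← h2]
      field_simp
    rw [h3]
    exact mul_mem hw1 (inv_mem_primeVal hπ hc)
  · rw [← algebraMap_smul F π, smul_smul, mul_inv_cancel₀ hπ0, one_smul]
    ring

end Main

end Fermat.Agent.Geo
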