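import Mathlib
import Fermat.Agent.Geo.Local

set_option autoImplicit false

/-!
# The special fibre of the integral closure of a factorial domain: localisation
-/

open IsLocalRing Polynomial

universe u

namespace Fermat.Agent.Geo

section

variable {A : Type*} {E F : Type*} [CommRing A] [IsDomain A] [UniqueFactorizationMonoid A]
  [Field F] [Algebra A F] [IsFractionRing A F]
  [Field E] [Algebra A E] [Algebra F E] [IsScalarTower A F E]

variable (F) in
/-- `x` satisfies a monic equation over `A` modulo `π` times the integral closure of `A_(π)`. -/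
def RedInt {π : A} (hπ : Prime π) (x : E) : Prop :=
  ∃ p : A[X], p.Monic ∧ ∃ w : E, IntOver (primeVal F hπ).toSubring w ∧
    aeval x p = π • w

/-- integrality over a subring of the field is inherited by larger subrings. -/
theorem IntOver.mono {V V' : Subring F} (h : V ≤ V') {x : E} (hx : IntOver V x) :
    IntOver V' x := by
  obtain ⟨p, hp, hx⟩ := hx
  refine ⟨p.map (Subring.inclusion h), hp.map _, ?_⟩
  rw [eval₂_map]
  exact hx

theorem IntOver.add_mul {V V' : Subring F} {ϖ : F} (h : ∀ v ∈ V, ϖ * v ∈ V') {x : E}
    (hx : IntOver V x) : IntOver V' (ϖ • x) := by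
  obtain ⟨p, hp, hx⟩ := hx
  -- the polynomial with coefficients multiplied by powers of `ϖ`
  let q : F[X] := (p.map V.subtype).scaleRoots ϖ
  have hq : q.Monic := (monic_scaleRoots_iff ϖ).mpr (hp.map _)
  have hcoeff : ∀ i, q.coeff i ∈ V' := by
    intro i
    rw [coeff_scaleRoots]
    have hdeg : (p.map V.subtype).natDegree = p.natDegree := hp.natDegree_map _
    by_cases hi : i < p.natDegree
    · obtain ⟨k, hk⟩ : ∃ k, p.natDegree - i = k + 1 := ⟨p.natDegree - i - 1, by omega⟩
      rw [hdeg, hk, coeff_map]
      have h1 : ∀ k : ℕ, ∀ v ∈ V, v * ϖ ^ (k + 1) ∈ V' := by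
        intro k
        induction k with
        | zero =>
          intro v hv
          rw [zero_add, pow_one, mul_comm]
          exact h v hv
        | succ k ih =>
          intro v hv
          have h2 : v * ϖ ^ (k + 1 + 1) = (ϖ * v) * (1 * ϖ ^ (k + 1)) := by ring
          rw [h2]
          exact mul_mem (h v hv) (ih 1 (one_mem V))
      exact h1 k _ (p.coeff i).2
    · rcases lt_or_eq_of_le (not_lt.mp hi) with hi' | hi'
      · rw [coeff_eq_zero_of_natDegree_lt (by rw [hdeg]; exact hi'), zero_mul]
        exact zero_mem _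
      · rw [hdeg, ← hi', Nat.sub_self, pow_zero, mul_one, coeff_map, hp.coeff_natDegree]
        exact one_mem _
  obtain ⟨r, hr⟩ : ∃ r : V'[X], r.map V'.subtype = q := by
    have : q ∈ Polynomial.lifts V'.subtype := by
      rw [Polynomial.lifts_iff_coeff_lifts]
      intro i
      exact ⟨⟨q.coeff i, hcoeff i⟩, rfl⟩
    exact (Polynomial.mem_lifts _).mp this
  have hrm : r.Monic := by
    rw [← hr] at hq
    exact Polynomial.monic_of_injective (Subtype.val_injective) hq
  refine ⟨r, hrm, ?_⟩
  rw [← eval₂_map, hr, Algebra.smul_def]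
  apply scaleRoots_eval₂_eq_zero
  rw [eval₂_map]
  exact hx

end

section RedInt

variable {A : Type*} {E F : Type*} [CommRing A] [IsDomain A] [UniqueFactorizationMonoid A]
  [Field F] [Algebra A F] [IsFractionRing A F]
  [Field E] [Algebra A E] [Algebra F E] [IsScalarTower A F E]

theorem RedInt.natDegree_ne_zero {π : A} (hπ : Prime π) {x : E} {p : A[X]} (hp : p.Monic)
    {w : E} (hw : IntOver (primeVal F hπ).toSubring w) (hxw : aeval x p = π • w) :
    p.natDegree ≠ 0 := by
  intro hdeg
  have h3 : p = 1 := by
    rw [Polynomial.eq_C_of_natDegree_eq_zero hdeg]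
    have := hp.coeff_natDegree
    rw [hdeg] at this
    rw [this, C_1]
  rw [h3, map_one] at hxw
  -- `π⁻¹` would be integral over `A_(π)`
  have h4 : algebraMap F E ((algebraMap A F π)⁻¹) = w := by
    have hπ0 : algebraMap A E π ≠ 0 := by
      rw [IsScalarTower.algebraMap_apply A F E]
      intro h0
      rw [map_eq_zero] at h0
      exact hπ.ne_zero (IsFractionRing.injective A F (by rw [h0, map_zero]))
    rw [map_inv₀, ← IsScalarTower.algebraMap_apply A F E]
    rw [Algebra.smul_def] at hxw
    exact inv_eq_of_mul_eq_one_right hxw.symm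
  have h5 : (algebraMap A F π)⁻¹ ∈ primeVal F hπ := by
    let V' := (primeVal F hπ)
    letI : Algebra V' E := ((algebraMap F E).comp V'.toSubring.subtype).toAlgebra
    have htow' : IsScalarTower V' F E := IsScalarTower.of_algebraMap_eq fun a => rfl
    have h6 : IsIntegral V' (algebraMap F E ((algebraMap A F π)⁻¹)) := by
      rw [h4]
      exact hw
    rw [isIntegral_algebraMap_iff (algebraMap F E).injective] at h6
    obtain ⟨v, hv⟩ := IsIntegrallyClosed.isIntegral_iff.mp h6
    rw [← hv]
    exact v.2
  obtain ⟨d, a, hd, hda⟩ := h5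
  apply hd
  refine ⟨a, ?_⟩
  apply IsFractionRing.injective A F
  rw [map_mul, ← hda]
  have : algebraMap A F π ≠ 0 := fun h0 =>
    hπ.ne_zero (IsFractionRing.injective A F (by rw [h0, map_zero]))
  field_simp

theorem RedInt.intOver {π : A} {hπ : Prime π} {x : E} (hx : RedInt F hπ x) {V : Subring F}
    (hAV : ∀ a : A, algebraMap A F a ∈ V)
    (hπV : ∀ v ∈ primeVal F hπ, algebraMap A F π * v ∈ V) : IntOver V x := by
  obtain ⟨p, hp, w, hw, hxw⟩ := hx
  have hdeg := RedInt.natDegree_ne_zero hπ hp hw hxw
  have hw' : IntOver V (π • w) := by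
    rw [← algebraMap_smul F π w]
    exact IntOver.add_mul (V := (primeVal F hπ).toSubring) hπV hw
  letI : Algebra V E := ((algebraMap F E).comp V.subtype).toAlgebra
  letI : Algebra A V := ((algebraMap A F).codRestrict V hAV).toAlgebra
  have : IsScalarTower A V E := IsScalarTower.of_algebraMap_eq fun a =>
    IsScalarTower.algebraMap_apply A F E a
  have h1 : IsIntegral V (aeval x p) := by
    rw [hxw]
    exact hw'
  have h2 : IsIntegral V (aeval x (p.map (algebraMap A V))) := by
    rw [aeval_map_algebraMap]
    exact h1
  exact IsIntegral.of_aeval_monic (hp.map _) (by rw [hp.natDegree_map]; exact hdeg) h2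

end RedInt

section Localization

variable {A A' F : Type*} [CommRing A] [IsDomain A] [UniqueFactorizationMonoid A]
  [CommRing A'] [IsDomain A'] [UniqueFactorizationMonoid A'] [Algebra A A']
  [Field F] [Algebra A F] [IsFractionRing A F] [Algebra A' F] [IsFractionRing A' F]
  [IsScalarTower A A' F] (S : Submonoid A) [IsLocalization S A']

omit [IsDomain A] [UniqueFactorizationMonoid A] [UniqueFactorizationMonoid A'] [IsDomain A']
  [IsFractionRing A' F] in
variable (F) in
include F in
theorem algebraMap_injective_of_tower : Function.Injective (algebraMap A A') := by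
  have h : Function.Injective (algebraMap A F) := IsFractionRing.injective A F
  rw [IsScalarTower.algebraMap_eq A A' F, RingHom.coe_comp] at h
  exact h.of_comp

include S in
variable (F) in
/-- The valuation ring of a prime does not change under localisation. -/
theorem primeVal_localization {p : A} (hp : Prime p) {p' : A'} (hp' : Prime p')
    (hpp : Associated p' (algebraMap A A' p)) : primeVal F hp' = primeVal F hp := by
  have hinj : Function.Injective (algebraMap A A') := algebraMap_injective_of_tower F
  have hinj' : Function.Injective (algebraMap A' F) := IsFractionRing.injective A' F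
  have hS : ∀ m ∈ S, ¬ p ∣ m := by
    intro m hm h
    have h1 : IsUnit (algebraMap A A' m) := IsLocalization.map_units A' (⟨m, hm⟩ : S)
    have h2 : p' ∣ algebraMap A A' m := hpp.dvd.trans (map_dvd _ h)
    exact hp'.not_isUnit (isUnit_of_dvd_unit h2 h1)
  ext y
  rw [mem_primeVal_iff, mem_primeVal_iff]
  constructor
  · rintro ⟨s', a', hs', hy⟩
    obtain ⟨⟨s, n⟩, hs⟩ := IsLocalization.surj S s'
    obtain ⟨⟨a, m⟩, ha⟩ := IsLocalization.surj S a'
    simp only at hs ha
    refine ⟨s * m, a * n, ?_, ?_⟩
    · intro h
      rcases hp.dvd_or_dvd h with h1 | h1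
      · have h2 : p' ∣ s' * algebraMap A A' n := by
          rw [hs]
          exact hpp.dvd.trans (map_dvd _ h1)
        rcases hp'.dvd_or_dvd h2 with h3 | h3
        · exact hs' h3
        · exact hp'.not_isUnit (isUnit_of_dvd_unit h3 (IsLocalization.map_units A' n))
      · exact hS m m.2 h1
    · rw [IsScalarTower.algebraMap_apply A A' F (s * m),
        IsScalarTower.algebraMap_apply A A' F (a * n), map_mul (algebraMap A A') s,
        map_mul (algebraMap A A') a, ← hs, ← ha, map_mul, map_mul, map_mul, map_mul]
      linear_combination (algebraMap A' F (algebraMap A A' n)) *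
        (algebraMap A' F (algebraMap A A' m)) * hy
  · rintro ⟨s, a, hs, hy⟩
    refine ⟨algebraMap A A' s, algebraMap A A' a, ?_, ?_⟩
    · intro h
      obtain ⟨c', hc'⟩ := hpp.symm.dvd.trans h
      obtain ⟨⟨c, m⟩, hc⟩ := IsLocalization.surj S c'
      simp only at hc
      have h1 : s * m = p * c := by
        apply hinj
        rw [map_mul, map_mul, hc', mul_assoc, hc]
      have h2 : p ∣ s * m := Dvd.intro _ h1.symm
      rcases hp.dvd_or_dvd h2 with h3 | h3
      · exact hs h3
      · exact hS m m.2 h3
    · rw [← IsScalarTower.algebraMap_apply A A' F, ← IsScalarTower.algebraMap_apply A A' F]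
      exact hy

include S in
omit [UniqueFactorizationMonoid A'] in
/-- Primes of a localisation come from primes. -/
theorem exists_prime_of_localization {p' : A'} (hp' : Prime p') (hinj : Function.Injective
    (algebraMap A A')) : ∃ p : A, Prime p ∧ Associated p' (algebraMap A A' p) := by
  obtain ⟨⟨a, m⟩, ha⟩ := IsLocalization.surj S p'
  simp only at ha
  have ha0 : a ≠ 0 := by
    rintro rfl
    rw [map_zero] at ha
    rcases mul_eq_zero.mp ha with h | h
    · exact hp'.ne_zero h
    · exact (IsLocalization.map_units A' m).ne_zero h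
  have h1 : p' ∣ algebraMap A A' a := Dvd.intro _ ha
  have h2 := map_dvd (algebraMap A A') (UniqueFactorizationMonoid.factors_prod ha0).symm.dvd
  rw [map_multiset_prod] at h2
  obtain ⟨q, hq, hdvd⟩ := hp'.exists_mem_multiset_map_dvd (h1.trans h2)
  have hqp : Prime q := UniqueFactorizationMonoid.prime_of_factor q hq
  refine ⟨q, hqp, ?_⟩
  have hnu : ¬ IsUnit (algebraMap A A' q) := fun h => hp'.not_isUnit (isUnit_of_dvd_unit hdvd h)
  have hq0 : algebraMap A A' q ≠ 0 := fun h => hqp.ne_zero (hinj (by rw [h, map_zero]))
  have hq' : Prime (algebraMap A A' q) :=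
    (IsLocalization.toLocalizationMap S A').map_prime hqp hq0 hnu
  exact hp'.associated_of_dvd hq' hdvd

end Localization

section

variable {A E F : Type u} [CommRing A] [IsDomain A] [UniqueFactorizationMonoid A]
  [IsNoetherianRing A] [Field F] [Algebra A F] [IsFractionRing A F]
  [Field E] [Algebra A E] [Algebra F E] [IsScalarTower A F E]
  [FiniteDimensional F E] [Algebra.IsSeparable F E]

/-- The local form of normality of the special fibre, at the maximal ideal `(π, s)`. -/
theorem exists_smul_eq_of_redInt {π s : A} (hπ : Prime π) (hs : Prime s) (hπs : ¬ π ∣ s)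
    (y : Ideal A) [y.IsPrime] (hy : y = Ideal.span {π, s})
    (hunr : ∀ p : A, ∀ hp : Prime p, p ∈ y → ¬ p ∣ s → Unr (primeVal F hp).toSubring E)
    (htame : TameAt (primeVal F hs).toSubring (algebraMap A F s) E)
    {x : E} (hx : RedInt F hπ x) :
    ∃ c : A, c ∉ y ∧ ∃ b w : E, IsIntegral A b ∧ IntOver (primeVal F hπ).toSubring w ∧
      c • x = b + π • w := by
  let A' := Localization.AtPrime y
  letI : Algebra A' F := IsLocalization.localizationAlgebraOfSubmonoidLe A' F y.primeCompl
    (nonZeroDivisors A) y.primeCompl_le_nonZeroDivisors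
  have htow : IsScalarTower A A' F := IsLocalization.localization_isScalarTower_of_submonoid_le A' F
    y.primeCompl (nonZeroDivisors A) y.primeCompl_le_nonZeroDivisors
  have hfr : IsFractionRing A' F :=
    IsFractionRing.isFractionRing_of_isDomain_of_isLocalization y.primeCompl A' F
  letI : Algebra A' E := ((algebraMap F E).comp (algebraMap A' F)).toAlgebra
  have htow2 : IsScalarTower A' F E := IsScalarTower.of_algebraMap_eq fun a => rfl
  have htow3 : IsScalarTower A A' E := IsScalarTower.of_algebraMap_eq fun a => by
    rw [IsScalarTower.algebraMap_apply A F E, IsScalarTower.algebraMap_apply A A' F]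
    rfl
  have hinj : Function.Injective (algebraMap A A') := algebraMap_injective_of_tower F
  have hdom : IsDomain A' := IsLocalization.isDomain_localization y.primeCompl_le_nonZeroDivisors
  have hmem : ∀ p : A, ∀ hp : Prime p, p ∈ y → Prime (algebraMap A A' p) := by
    intro p hp hpy
    refine (IsLocalization.toLocalizationMap y.primeCompl A').map_prime hp ?_ ?_
    · exact fun h => hp.ne_zero (hinj (by rw [map_zero]; exact h))
    · intro h
      exact (IsLocalization.AtPrime.isUnit_to_map_iff A' y p).mp h hpy
  have hπy : π ∈ y := by rw [hy]; exact Ideal.subset_span (by simp)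
  have hsy : s ∈ y := by rw [hy]; exact Ideal.subset_span (by simp)
  have hπ' : Prime (algebraMap A A' π) := hmem π hπ hπy
  have hs' : Prime (algebraMap A A' s) := hmem s hs hsy
  have hm : maximalIdeal A' = Ideal.span {algebraMap A A' π, algebraMap A A' s} := by
    rw [← Localization.AtPrime.map_eq_maximalIdeal]
    conv_lhs => rw [show Ideal.map (algebraMap A A') y =
      Ideal.map (algebraMap A A') (Ideal.span {π, s}) from congrArg _ hy]
    rw [Ideal.map_span, Set.image_pair]
  have hdvd : ∀ p q : A, Prime p → p ∈ y → algebraMap A A' p ∣ algebraMap A A' q → p ∣ q := by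
    rintro p q hp hpy ⟨c', hc'⟩
    obtain ⟨⟨c, m⟩, hc⟩ := IsLocalization.surj y.primeCompl c'
    simp only at hc
    have h1 : q * m = p * c := by
      apply hinj
      rw [map_mul, map_mul, hc', mul_assoc, hc]
    rcases hp.dvd_or_dvd (Dvd.intro _ h1.symm) with h | h
    · exact h
    · exact absurd (y.mem_of_dvd h hpy) m.2
  have hπs' : ¬ algebraMap A A' π ∣ algebraMap A A' s := fun h => hπs (hdvd π s hπ hπy h)
  have hV : primeVal F hπ' = primeVal F hπ :=
    primeVal_localization F y.primeCompl hπ hπ' (Associated.refl _)
  have hVs : primeVal F hs' = primeVal F hs :=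
    primeVal_localization F y.primeCompl hs hs' (Associated.refl _)
  have hunr' : ∀ p' : A', ∀ hp' : Prime p', ¬ p' ∣ algebraMap A A' s →
      Unr (primeVal F hp').toSubring E := by
    intro p' hp' hps'
    obtain ⟨p, hp, hpp⟩ := exists_prime_of_localization y.primeCompl hp' hinj
    rw [primeVal_localization F y.primeCompl hp hp' hpp]
    apply hunr p hp
    · by_contra h
      have h1 : IsUnit (algebraMap A A' p) :=
        (IsLocalization.AtPrime.isUnit_to_map_iff A' y p).mpr h
      exact hp'.not_isUnit (hpp.symm.isUnit h1)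
    · intro h
      exact hps' (hpp.dvd.trans (map_dvd _ h))
  have htame' : TameAt (primeVal F hs').toSubring (algebraMap A' F (algebraMap A A' s)) E := by
    rw [hVs, ← IsScalarTower.algebraMap_apply A A' F]
    exact htame
  have hx' : IntOver (rankTwo F hπ' hm).toSubring x := by
    refine hx.intOver (fun a => ?_) (fun v hv => ⟨0, v, ?_, ?_⟩)
    · rw [IsScalarTower.algebraMap_apply A A' F]
      exact algebraMap_mem_rankTwo hπ' hm _
    · rw [hV]; exact hv
    · rw [map_zero, zero_add, ← IsScalarTower.algebraMap_apply A A' F]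
  obtain ⟨b, w, hb, hw, hxb⟩ := exists_of_intOver_rankTwo (F := F) hπ' hs' hπs' hm hunr' htame' hx'
  obtain ⟨c, hc⟩ := hb.exists_multiple_integral_of_isLocalization y.primeCompl
  refine ⟨c, c.2, c • b, (c : A) • w, hc, ?_, ?_⟩
  · rw [hV] at hw
    rw [← algebraMap_smul F (c : A) w]
    exact hw.smul (algebraMap_mem_primeVal hπ _)
  · rw [hxb, smul_add]
    congr 1
    rw [algebraMap_smul, smul_comm]

end

end Fermat.Agent.Geo
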