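import Mathlib

set_option autoImplicit false

/-!
# Zariski connectedness for curves over a discrete valuation ring
-/

open IsLocalRing Polynomial

namespace Fermat.Agent.Geo

section General

/-- Integrality in terms of the coefficients of a monic polynomial. -/
theorem isIntegralElem_of_coeff {R S : Type*} [CommRing R] [CommRing S] (f : R →+* S)
    {x : S} (q : S[X]) (hq : q.Monic) (hcoeff : ∀ i, q.coeff i ∈ f.range)
    (hx : q.eval x = 0) : f.IsIntegralElem x := by
  have h1 : q ∈ Polynomial.lifts f := by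
    rw [Polynomial.lifts_iff_coeff_lifts]
    exact hcoeff
  obtain ⟨r, hr, -, hrm⟩ := Polynomial.lifts_and_natDegree_eq_and_monic h1 hq
  refine ⟨r, hrm, ?_⟩
  rw [← eval_map, hr]
  exact hx

theorem isIntegralElem_of_range_le {R R' S : Type*} [CommRing R] [CommRing R'] [CommRing S]
    (f : R →+* S) (f' : R' →+* S) (h : ∀ r, f r ∈ f'.range) {x : S} (hx : f.IsIntegralElem x) :
    f'.IsIntegralElem x := by
  obtain ⟨p, hp, hx⟩ := hx
  refine isIntegralElem_of_coeff f' (p.map f) (hp.map f) (fun i => ?_) ?_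
  · rw [coeff_map]
    exact h _
  · rw [eval_map]
    exact hx

theorem mem_valuationSubring_of_isIntegralElem {R E : Type*} [CommRing R] [Field E]
    (V : ValuationSubring E) (f : R →+* E) (hf : ∀ r, f r ∈ V) {x : E}
    (hx : f.IsIntegralElem x) : x ∈ V := by
  have h1 : IsIntegral V x := by
    refine isIntegralElem_of_range_le f (algebraMap V E) (fun r => ⟨⟨f r, hf r⟩, rfl⟩) hx
  obtain ⟨v, hv⟩ := IsIntegrallyClosed.isIntegral_iff.mp h1
  rw [← hv]
  exact v.2

/-- An element contained in all valuation rings containing the image of `R` is integral. -/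
theorem isIntegralElem_of_forall_valuationSubring {R E : Type*} [CommRing R] [Field E]
    (f : R →+* E) {x : E} (hx : ∀ V : ValuationSubring E, (∀ r, f r ∈ V) → x ∈ V) :
    f.IsIntegralElem x := by
  have h1 : x ∈ (⨅ V : {V : ValuationSubring E // (f.range : Set E) ⊆ V.toSubring},
      V.1.toSubring) := by
    rw [Subring.mem_iInf]
    rintro ⟨V, hV⟩
    exact hx V fun r => hV ⟨r, rfl⟩
  rw [iInf_valuationSubring_superset] at h1
  have h2 : IsIntegral (Subring.closure (f.range : Set E)) x := h1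
  refine isIntegralElem_of_range_le (algebraMap (Subring.closure (f.range : Set E)) E) f ?_ h2
  rintro ⟨r, hr⟩
  have h3 : r ∈ f.range := by
    rw [Subring.closure_eq] at hr
    exact hr
  exact h3

end General

section Charts

variable {O E : Type*} [CommRing O] [Field E] [Algebra O E]

variable (O) in
/-- Integrality over `O[u]`. -/
def IntP (u x : E) : Prop := ((aeval u : O[X] →ₐ[O] E) : O[X] →+* E).IsIntegralElem x

variable (O) in
/-- The integral closure of `O[u]`. -/
noncomputable def chart (u : E) : Subalgebra O E where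
  carrier := {x | IntP O u x}
  mul_mem' := fun hx hy => RingHom.IsIntegralElem.mul _ hx hy
  add_mem' := fun hx hy => RingHom.IsIntegralElem.add _ hx hy
  algebraMap_mem' := fun r => by
    have := RingHom.isIntegralElem_map ((aeval u : O[X] →ₐ[O] E) : O[X] →+* E) (x := C r)
    have h2 : ((aeval u : O[X] →ₐ[O] E) : O[X] →+* E) (C r) = algebraMap O E r := aeval_C u r
    rw [h2] at this
    exact this

theorem mem_chart {u x : E} : x ∈ chart O u ↔ IntP O u x := Iff.rfl

theorem aeval_mem_chart (u : E) (p : O[X]) : aeval u p ∈ chart O u :=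
  RingHom.isIntegralElem_map ((aeval u : O[X] →ₐ[O] E) : O[X] →+* E) (x := p)

theorem self_mem_chart (u : E) : u ∈ chart O u := by
  have := aeval_mem_chart (O := O) u X
  rwa [aeval_X] at this

theorem smul_mem_chart {u x : E} (hx : x ∈ chart O u) (r : O) : r • x ∈ chart O u :=
  (chart O u).smul_mem hx r

theorem exists_aeval_inv {u : E} (hu : u ≠ 0) {k : ℕ} (a : O[X]) (ha : a.natDegree ≤ k) :
    ∃ a' : O[X], aeval u⁻¹ a' = u⁻¹ ^ k * aeval u a := by
  let := invertibleOfNonzero hu
  refine ⟨reflect k a, ?_⟩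
  have h := eval₂_reflect_mul_pow (algebraMap O E) u k a ha
  rw [invOf_eq_inv] at h
  rw [aeval_def, aeval_def, ← h, mul_comm, mul_assoc, ← mul_pow, mul_inv_cancel₀ hu, one_pow,
    mul_one]

/-- Passing to the other chart. -/
theorem exists_pow_mul_mem {u : E} (hu : u ≠ 0) {x : E} (hx : x ∈ chart O u) :
    ∃ m : ℕ, u⁻¹ ^ m * x ∈ chart O u⁻¹ := by
  obtain ⟨p, hp, hx⟩ := hx
  obtain ⟨m, hm⟩ : ∃ m : ℕ, ∀ i, (p.coeff i).natDegree ≤ m := by
    refine ⟨∑ i ∈ p.support, (p.coeff i).natDegree, fun i => ?_⟩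
    by_cases hi : i ∈ p.support
    · exact Finset.single_le_sum (f := fun i => (p.coeff i).natDegree) (fun _ _ => Nat.zero_le _) hi
    · rw [notMem_support_iff.mp hi, natDegree_zero]
      exact Nat.zero_le _
  refine ⟨m, ?_⟩
  let q : E[X] := (p.map ((aeval u : O[X] →ₐ[O] E) : O[X] →+* E)).scaleRoots (u⁻¹ ^ m)
  have hdeg : (p.map ((aeval u : O[X] →ₐ[O] E) : O[X] →+* E)).natDegree = p.natDegree :=
    hp.natDegree_map _
  refine isIntegralElem_of_coeff _ q ((monic_scaleRoots_iff _).mpr (hp.map _)) (fun i => ?_) ?_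
  · rw [coeff_scaleRoots, hdeg, coeff_map]
    by_cases hi : i < p.natDegree
    · obtain ⟨k, hk⟩ : ∃ k, p.natDegree - i = k + 1 := ⟨p.natDegree - i - 1, by omega⟩
      obtain ⟨a', ha'⟩ := exists_aeval_inv hu (k := m * (k + 1)) (p.coeff i)
        ((hm i).trans (Nat.le_mul_of_pos_right m (Nat.succ_pos k)))
      refine ⟨a', ?_⟩
      rw [hk, ← pow_mul]
      change aeval u⁻¹ a' = (aeval u) (p.coeff i) * _
      rw [ha', mul_comm]
    · rcases lt_or_eq_of_le (not_lt.mp hi) with hi' | hi'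
      · rw [coeff_eq_zero_of_natDegree_lt hi', map_zero, zero_mul]
        exact zero_mem _
      · rw [← hi', Nat.sub_self, pow_zero, mul_one, hp.coeff_natDegree, map_one]
        exact one_mem _
  · rw [← eval₂_id]
    apply scaleRoots_eval₂_eq_zero
    rw [eval₂_id, eval_map]
    exact hx

/-- The global sections are integral over the base. -/
theorem isIntegral_of_mem_chart {u x : E} (hx : x ∈ chart O u) (hx' : x ∈ chart O u⁻¹) :
    IsIntegral O x := by
  apply isIntegralElem_of_forall_valuationSubring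
  intro V hV
  have haux : ∀ v ∈ V, ∀ p : O[X], aeval v p ∈ V := by
    intro v hv p
    rw [aeval_eq_sum_range]
    refine sum_mem fun i _ => ?_
    rw [Algebra.smul_def]
    exact mul_mem (hV _) (pow_mem hv i)
  rcases V.mem_or_inv_mem u with h | h
  · exact mem_valuationSubring_of_isIntegralElem V _ (haux u h) hx
  · exact mem_valuationSubring_of_isIntegralElem V _ (haux _ h) hx'

variable (O) in
/-- The overlap of the two charts. -/
noncomputable def overlap (u : E) : Subring E where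
  carrier := {x | ∃ m : ℕ, u ^ m * x ∈ chart O u}
  mul_mem' := by
    rintro x y ⟨m, hm⟩ ⟨n, hn⟩
    refine ⟨m + n, ?_⟩
    have : u ^ (m + n) * (x * y) = (u ^ m * x) * (u ^ n * y) := by ring
    rw [this]
    exact mul_mem hm hn
  one_mem' := ⟨0, by rw [pow_zero, mul_one]; exact one_mem _⟩
  add_mem' := by
    rintro x y ⟨m, hm⟩ ⟨n, hn⟩
    refine ⟨m + n, ?_⟩
    have : u ^ (m + n) * (x + y) = u ^ n * (u ^ m * x) + u ^ m * (u ^ n * y) := by ring
    rw [this]
    exact add_mem (mul_mem (pow_mem (self_mem_chart u) n) hm)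
      (mul_mem (pow_mem (self_mem_chart u) m) hn)
  zero_mem' := ⟨0, by rw [pow_zero, mul_zero]; exact zero_mem _⟩
  neg_mem' := by
    rintro x ⟨m, hm⟩
    refine ⟨m, ?_⟩
    rw [mul_neg]
    exact neg_mem hm

theorem chart_le_overlap {u x : E} (hx : x ∈ chart O u) : x ∈ overlap O u :=
  ⟨0, by rw [pow_zero, one_mul]; exact hx⟩

theorem chart_inv_le_overlap {u x : E} (hu : u ≠ 0) (hx : x ∈ chart O u⁻¹) :
    x ∈ overlap O u := by
  obtain ⟨m, hm⟩ := exists_pow_mul_mem (inv_ne_zero hu) hx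
  rw [inv_inv] at hm
  exact ⟨m, hm⟩

theorem smul_mem_overlap {u x : E} (hx : x ∈ overlap O u) (r : O) : r • x ∈ overlap O u := by
  obtain ⟨m, hm⟩ := hx
  refine ⟨m, ?_⟩
  rw [mul_smul_comm]
  exact smul_mem_chart hm r

/-- The torsion of the first cohomology is bounded. -/
theorem exists_bound [IsNoetherianRing O] {u : E} (hu : u ≠ 0) (π : O)
    (hfin : ∃ S : Finset E, (∀ b ∈ S, b ∈ chart O u) ∧
      ∀ x ∈ chart O u, ∃ p : E → O[X], x = ∑ b ∈ S, aeval u (p b) * b) :
    ∃ c : ℕ, ∀ x ∈ overlap O u, ∀ n : ℕ,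
      (∃ a ∈ chart O u, ∃ a' ∈ chart O u⁻¹, π ^ n • x = a + a') →
      ∃ a ∈ chart O u, ∃ a' ∈ chart O u⁻¹, π ^ c • x = a + a' := by
  classical
  obtain ⟨S, hS, hspan⟩ := hfin
  let M : Submodule O E := Subalgebra.toSubmodule (chart O u) ⊔ Subalgebra.toSubmodule (chart O u⁻¹)
  have hM : ∀ x, x ∈ M ↔ ∃ a ∈ chart O u, ∃ a' ∈ chart O u⁻¹, x = a + a' := by
    intro x
    rw [Submodule.mem_sup]
    constructor
    · rintro ⟨a, ha, a', ha', h⟩
      exact ⟨a, ha, a', ha', h.symm⟩
    · rintro ⟨a, ha, a', ha', h⟩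
      exact ⟨a, ha, a', ha', h.symm⟩
  -- a bound for the poles of the generators
  obtain ⟨K, hK⟩ : ∃ K : ℕ, ∀ b ∈ S, ∀ j : ℕ, K ≤ j → u⁻¹ ^ j * b ∈ chart O u⁻¹ := by
    have h1 : ∀ b ∈ S, ∃ k : ℕ, u⁻¹ ^ k * b ∈ chart O u⁻¹ := fun b hb =>
      exists_pow_mul_mem hu (hS b hb)
    choose! k hk using h1
    refine ⟨∑ b ∈ S, k b, fun b hb j hj => ?_⟩
    have h2 : k b ≤ j := (Finset.single_le_sum (f := k) (fun _ _ => Nat.zero_le _) hb).trans hj
    obtain ⟨i, rfl⟩ := Nat.exists_eq_add_of_le h2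
    have h3 : u⁻¹ ^ (k b + i) * b = u⁻¹ ^ i * (u⁻¹ ^ k b * b) := by ring
    rw [h3]
    exact mul_mem (pow_mem (self_mem_chart _) i) (hk b hb)
  let T : Set E := ((Finset.range K ×ˢ S).image fun jb => u⁻¹ ^ jb.1 * jb.2 : Finset E)
  let N : Submodule O E := M ⊔ Submodule.span O T
  have hterm : ∀ b ∈ S, ∀ i m : ℕ, u⁻¹ ^ m * (u ^ i * b) ∈ N := by
    intro b hb i m
    rcases le_total m i with h | h
    · obtain ⟨k, rfl⟩ := Nat.exists_eq_add_of_le h
      have h1 : u⁻¹ ^ m * (u ^ (m + k) * b) = u ^ k * b := by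
        rw [pow_add, ← mul_assoc, ← mul_assoc, ← mul_pow, inv_mul_cancel₀ hu, one_pow, one_mul]
      rw [h1]
      have h2 : u ^ k * b ∈ chart O u := mul_mem (pow_mem (self_mem_chart u) k) (hS b hb)
      exact Submodule.mem_sup_left (Submodule.mem_sup_left h2)
    · obtain ⟨k, rfl⟩ := Nat.exists_eq_add_of_le h
      have h1 : u⁻¹ ^ (i + k) * (u ^ i * b) = u⁻¹ ^ k * b := by
        rw [pow_add, mul_comm (u⁻¹ ^ i), mul_assoc, ← mul_assoc (u⁻¹ ^ i), ← mul_pow,
          inv_mul_cancel₀ hu, one_pow, one_mul]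
      rw [h1]
      by_cases hk : K ≤ k
      · exact Submodule.mem_sup_left (Submodule.mem_sup_right (hK b hb k hk))
      · refine Submodule.mem_sup_right (Submodule.subset_span ?_)
        refine Finset.mem_coe.mpr (Finset.mem_image.mpr ⟨(k, b), ?_, rfl⟩)
        exact Finset.mk_mem_product (Finset.mem_range.mpr (not_le.mp hk)) hb
  have hN : ∀ x ∈ overlap O u, x ∈ N := by
    rintro x ⟨m, hm⟩
    obtain ⟨p, hp⟩ := hspan _ hm
    have h1 : x = ∑ b ∈ S, ∑ i ∈ Finset.range ((p b).natDegree + 1),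
        (p b).coeff i • (u⁻¹ ^ m * (u ^ i * b)) := by
      have h2 : x = u⁻¹ ^ m * (u ^ m * x) := by
        rw [← mul_assoc, ← mul_pow, inv_mul_cancel₀ hu, one_pow, one_mul]
      rw [h2, hp, Finset.mul_sum]
      refine Finset.sum_congr rfl fun b _ => ?_
      rw [aeval_eq_sum_range, Finset.sum_mul, Finset.mul_sum]
      refine Finset.sum_congr rfl fun i _ => ?_
      rw [smul_mul_assoc, mul_smul_comm]
    rw [h1]
    exact Submodule.sum_mem _ fun b hb => Submodule.sum_mem _ fun i _ =>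
      Submodule.smul_mem _ _ (hterm b hb i m)
  -- the module `N / M` is finitely generated
  let Q := E ⧸ M
  let L : Submodule O Q := (Submodule.span O T).map M.mkQ
  have hL : IsNoetherian O L := by
    apply isNoetherian_of_fg_of_noetherian
    exact Submodule.FG.map _ (Submodule.fg_span (Finset.finite_toSet _))
  let f : ℕ →o Submodule O L :=
    { toFun := fun n => LinearMap.ker (LinearMap.lsmul O L (π ^ n))
      monotone' := by
        intro a b hab z hz
        obtain ⟨k, rfl⟩ := Nat.exists_eq_add_of_le hab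
        rw [LinearMap.mem_ker, LinearMap.lsmul_apply] at hz ⊢
        rw [pow_add, mul_comm, mul_smul, hz, smul_zero] }
  obtain ⟨c, hc⟩ := monotone_stabilizes_iff_noetherian.mpr hL f
  refine ⟨c, fun x hx n hn => ?_⟩
  rw [← hM] at hn ⊢
  obtain ⟨y, hy, z, hz, hyz⟩ := Submodule.mem_sup.mp (hN x hx)
  have hzL : M.mkQ z ∈ L := Submodule.mem_map_of_mem hz
  have h1 : ∀ k : ℕ, π ^ k • x ∈ M ↔ (⟨M.mkQ z, hzL⟩ : L) ∈ f k := by
    intro k
    change _ ↔ _ ∈ LinearMap.ker _
    rw [LinearMap.mem_ker, LinearMap.lsmul_apply, ← Subtype.coe_inj]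
    change _ ↔ π ^ k • M.mkQ z = 0
    rw [← map_smul, Submodule.mkQ_apply, Submodule.Quotient.mk_eq_zero, ← hyz, smul_add]
    exact Submodule.add_mem_iff_right _ (Submodule.smul_mem _ _ hy)
  rw [h1] at hn ⊢
  rcases le_total n c with h | h
  · exact f.monotone h hn
  · rw [hc n h]
    exact hn

end Charts

section Idempotents

/-- Lifting idempotents. -/
theorem exists_lift_idempotent {R : Type*} [CommRing R] {p e : R} (he : p ∣ e * e - e) (r : ℕ) :
    ∃ f : R, p ^ (r + 1) ∣ f * f - f ∧ p ∣ f - e := by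
  induction r with
  | zero => exact ⟨e, by simpa using he, by simp⟩
  | succ r ih =>
    obtain ⟨f, ⟨k, hk⟩, ⟨l, hl⟩⟩ := ih
    refine ⟨3 * f ^ 2 - 2 * f ^ 3, ?_, ?_⟩
    · refine ⟨p ^ r * k ^ 2 * (4 * (p ^ (r + 1) * k) - 3), ?_⟩
      have h1 : (3 * f ^ 2 - 2 * f ^ 3) * (3 * f ^ 2 - 2 * f ^ 3) - (3 * f ^ 2 - 2 * f ^ 3) =
          (f * f - f) ^ 2 * (4 * (f * f - f) - 3) := by ring
      rw [h1, hk]
      ring
    · refine ⟨l - (2 * f - 1) * (p ^ r * k), ?_⟩
      have h1 : 3 * f ^ 2 - 2 * f ^ 3 - e = (f - e) - (2 * f - 1) * (f * f - f) := by ring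
      rw [h1, hk, hl]
      ring

/-- Uniqueness of lifts of idempotents. -/
theorem dvd_sub_of_idempotent {R : Type*} [CommRing R] {p e f : R} {r : ℕ} (he : p ^ r ∣ e * e - e)
    (hf : p ^ r ∣ f * f - f) (hef : p ∣ e - f) : p ^ r ∣ e - f := by
  obtain ⟨a, ha⟩ := he
  obtain ⟨b, hb⟩ := hf
  set d := e - f with hd
  have h1 : p ^ r ∣ d - d ^ 3 := by
    -- `(e - f)^3 = e^3 - 3 e^2 f + 3 e f^2 - f^3`
    refine ⟨-(e + 1) * a + 3 * f * a - 3 * e * b + (f + 1) * b, ?_⟩
    have h2 : d - d ^ 3 = -(e + 1) * (e * e - e) + 3 * f * (e * e - e) - 3 * e * (f * f - f) +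
        (f + 1) * (f * f - f) := by rw [hd]; ring
    rw [h2, ha, hb]
    ring
  obtain ⟨k, hk⟩ := sub_dvd_pow_sub_pow (1 : R) (d ^ 2) r
  rw [one_pow] at hk
  have h3 : d = (d - d ^ 3) * k + d ^ (2 * r + 1) := by
    have h4 : (d - d ^ 3) * k = d * ((1 - d ^ 2) * k) := by ring
    rw [h4, ← hk, pow_succ d (2 * r), pow_mul d 2 r]
    ring
  rw [h3]
  refine dvd_add (Dvd.dvd.mul_right h1 k) ?_
  exact (pow_dvd_pow_of_dvd hef r).trans (pow_dvd_pow d (by omega))

end Idempotents

section Main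

variable {O E : Type*} [CommRing O] [IsDomain O] [IsDiscreteValuationRing O] [Field E] [Algebra O E]

/-- **Zariski connectedness**, idempotent form. -/
theorem eq_zero_or_one_of_idempotent {u : E} (hu : u ≠ 0) {π : O}
    (hinj : Function.Injective (algebraMap O E)) (hπ : Irreducible π)
    (hfin : ∃ S : Finset E, (∀ b ∈ S, b ∈ chart O u) ∧
      ∀ x ∈ chart O u, ∃ p : E → O[X], x = ∑ b ∈ S, aeval u (p b) * b)
    (hO : ∀ x : E, IsIntegral O x → ∃ o : O, algebraMap O E o = x)
    {e e' : E} (he : e ∈ chart O u) (he' : e' ∈ chart O u⁻¹)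
    (h1 : ∃ w ∈ chart O u, e * e - e = π • w) (h2 : ∃ w ∈ chart O u⁻¹, e' * e' - e' = π • w)
    (h3 : ∃ w ∈ overlap O u, e - e' = π • w) :
    (∃ w ∈ chart O u, e = π • w) ∨ (∃ w ∈ chart O u, 1 - e = π • w) := by
  obtain ⟨c, hc⟩ := exists_bound hu π hfin
  -- lift the idempotents
  have hπE : algebraMap O E π ≠ 0 := fun h0 => hπ.ne_zero (hinj (by rw [h0, map_zero]))
  obtain ⟨f, ⟨k, hk⟩, ⟨l, hl⟩⟩ : ∃ f : chart O u, algebraMap O (chart O u) π ^ (c + 1) ∣ f * f - f ∧
      algebraMap O (chart O u) π ∣ f - ⟨e, he⟩ := by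
    apply exists_lift_idempotent
    obtain ⟨w, hw, h⟩ := h1
    exact ⟨⟨w, hw⟩, Subtype.ext (by rw [Algebra.smul_def] at h; exact h)⟩
  obtain ⟨f', ⟨k', hk'⟩, ⟨l', hl'⟩⟩ : ∃ f : chart O u⁻¹,
      algebraMap O (chart O u⁻¹) π ^ (c + 1) ∣ f * f - f ∧
      algebraMap O (chart O u⁻¹) π ∣ f - ⟨e', he'⟩ := by
    apply exists_lift_idempotent
    obtain ⟨w, hw, h⟩ := h2
    exact ⟨⟨w, hw⟩, Subtype.ext (by rw [Algebra.smul_def] at h; exact h)⟩
  replace hk : (f : E) * f - f = algebraMap O E π ^ (c + 1) * k := congrArg Subtype.val hk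
  replace hl : (f : E) - e = algebraMap O E π * l := congrArg Subtype.val hl
  replace hk' : (f' : E) * f' - f' = algebraMap O E π ^ (c + 1) * k' := congrArg Subtype.val hk'
  replace hl' : (f' : E) - e' = algebraMap O E π * l' := congrArg Subtype.val hl'
  -- compare on the overlap
  obtain ⟨w, hw, h3⟩ := h3
  rw [Algebra.smul_def] at h3
  have hπo : algebraMap O E π ∈ overlap O u := chart_le_overlap ((chart O u).algebraMap_mem π)
  have hdvd : (⟨_, hπo⟩ : overlap O u) ^ (c + 1) ∣
      ⟨(f : E), chart_le_overlap f.2⟩ - ⟨(f' : E), chart_inv_le_overlap hu f'.2⟩ := by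
    apply dvd_sub_of_idempotent
    · exact ⟨⟨k, chart_le_overlap k.2⟩, Subtype.ext hk⟩
    · exact ⟨⟨k', chart_inv_le_overlap hu k'.2⟩, Subtype.ext hk'⟩
    · refine ⟨⟨l, chart_le_overlap l.2⟩ + ⟨w, hw⟩ - ⟨l', chart_inv_le_overlap hu l'.2⟩,
        Subtype.ext ?_⟩
      change (f : E) - f' = algebraMap O E π * (l + w - l')
      linear_combination hl + h3 - hl'
  obtain ⟨⟨v, hv⟩, hv'⟩ := hdvd
  replace hv' : (f : E) - f' = algebraMap O E π ^ (c + 1) * v := congrArg Subtype.val hv'
  obtain ⟨a, ha, a', ha', haa⟩ := hc v hv (c + 1) ⟨f, f.2, -f', neg_mem f'.2, by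
    rw [Algebra.smul_def, map_pow, ← hv']; ring⟩
  rw [Algebra.smul_def, map_pow] at haa
  -- the global section
  have hint : IsIntegral O ((f : E) - algebraMap O E π * a) := by
    apply isIntegral_of_mem_chart (u := u)
    · exact sub_mem f.2 (mul_mem ((chart O u).algebraMap_mem π) ha)
    · have : (f : E) - algebraMap O E π * a = f' + algebraMap O E π * a' := by
        rw [pow_succ] at hv'
        linear_combination hv' + algebraMap O E π * haa
      rw [this]
      exact add_mem f'.2 (mul_mem ((chart O u⁻¹).algebraMap_mem π) ha')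
  obtain ⟨o, ho⟩ := hO _ hint
  have heo : e = algebraMap O E o + algebraMap O E π * (a - l) := by
    rw [ho]; linear_combination -hl
  have hau : a - l ∈ chart O u := sub_mem ha l.2
  -- `o² - o` is divisible by `π`
  have hoo : ∃ w ∈ chart O u, algebraMap O E (o * (1 - o)) = algebraMap O E π * w := by
    obtain ⟨w', hw', h⟩ := h1
    rw [Algebra.smul_def] at h
    refine ⟨(a - l) * (2 * algebraMap O E o + algebraMap O E π * (a - l) - 1) - w', ?_, ?_⟩
    · refine sub_mem (mul_mem hau (sub_mem (add_mem (mul_mem ?_ ((chart O u).algebraMap_mem o))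
        (mul_mem ((chart O u).algebraMap_mem π) hau)) (one_mem _))) hw'
      have : (2 : E) = 1 + 1 := by norm_num
      rw [this]
      exact add_mem (one_mem _) (one_mem _)
    · rw [map_mul, map_sub, map_one]
      rw [heo] at h
      linear_combination -h
  obtain ⟨w', hw', hoo⟩ := hoo
  rw [map_mul] at hoo
  rcases IsLocalRing.isUnit_or_isUnit_one_sub_self o with hu1 | hu1
  · right
    obtain ⟨o', ho'⟩ := hu1.exists_right_inv
    have ho'' : algebraMap O E o * algebraMap O E o' = 1 := by rw [← map_mul, ho', map_one]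
    refine ⟨algebraMap O E o' * w' - (a - l), sub_mem (mul_mem ((chart O u).algebraMap_mem o') hw')
      hau, ?_⟩
    rw [Algebra.smul_def, heo]
    have h4 : (1 : E) - algebraMap O E o = algebraMap O E π * (algebraMap O E o' * w') := by
      calc (1 : E) - algebraMap O E o = algebraMap O E o' *
            (algebraMap O E o * algebraMap O E (1 - o)) := by
              rw [map_sub, map_one]; linear_combination -(1 - algebraMap O E o) * ho''
        _ = _ := by rw [hoo]; ring
    linear_combination h4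
  · left
    obtain ⟨o', ho'⟩ := hu1.exists_right_inv
    have ho'' : algebraMap O E (1 - o) * algebraMap O E o' = 1 := by rw [← map_mul, ho', map_one]
    refine ⟨algebraMap O E o' * w' + (a - l), add_mem (mul_mem ((chart O u).algebraMap_mem o') hw')
      hau, ?_⟩
    rw [Algebra.smul_def, heo]
    have h4 : algebraMap O E o = algebraMap O E π * (algebraMap O E o' * w') := by
      calc algebraMap O E o = algebraMap O E o' *
            (algebraMap O E o * algebraMap O E (1 - o)) := by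
              linear_combination -(algebraMap O E o) * ho''
        _ = _ := by rw [hoo]; ring
    linear_combination h4

end Main

end Fermat.Agent.Geo
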