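import Mathlib

set_option autoImplicit false

/-!
# Traces and nilpotents
-/

open IsLocalRing

namespace Fermat.Agent.Geo

/-- In characteristic zero, the radical of the trace form of a finite dimensional commutative
algebra consists of nilpotent elements. -/
theorem isNilpotent_of_trace {κ Λ : Type*} [Field κ] [CharZero κ] [CommRing Λ] [Algebra κ Λ]
    [FiniteDimensional κ Λ] {z : Λ} (h : ∀ b, Algebra.trace κ Λ (z * b) = 0) : IsNilpotent z := by
  have hart : IsArtinianRing Λ := IsArtinianRing.of_finite κ Λ
  obtain ⟨n, y, hy⟩ := IsArtinian.exists_pow_succ_smul_dvd z (1 : Λ)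
  simp only [smul_eq_mul, mul_one] at hy
  have hk : ∀ k, z ^ n = z ^ (n + k) * y ^ k := by
    intro k
    induction k with
    | zero => simp
    | succ k ih =>
      rw [ih, pow_succ y, show n + (k + 1) = (n + 1) + k by ring, pow_add z (n + 1) k,
        pow_add z n k]
      calc z ^ n * z ^ k * y ^ k = (z ^ n.succ * y) * z ^ k * y ^ k := by rw [hy]
        _ = z ^ (n + 1) * z ^ k * (y ^ k * y) := by rw [Nat.succ_eq_add_one]; ring
  set m := n + 1 with hm
  have h2 : z ^ m = z ^ (2 * m) * y ^ m := by
    have h3 := hk m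
    calc z ^ m = z ^ n * z := by rw [hm, pow_succ]
      _ = z ^ (n + m) * y ^ m * z := by rw [← h3]
      _ = z ^ (2 * m) * y ^ m := by
        rw [show 2 * m = (n + m) + 1 by omega, pow_succ]; ring
  set e := z ^ m * y ^ m with he
  have hidem : IsIdempotentElem e := by
    change e * e = e
    calc e * e = (z ^ (2 * m) * y ^ m) * y ^ m := by rw [he]; ring
      _ = e := by rw [← h2]
  have htr : Algebra.trace κ Λ e = 0 := by
    have h4 : e = z * (z ^ n * y ^ m) := by rw [he, hm, pow_succ]; ring
    rw [h4]
    exact h _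
  have he0 : e = 0 := by
    have hidem2 : IsIdempotentElem (Algebra.lmul κ Λ e) := by
      change _ * _ = _
      rw [← map_mul, hidem]
    have h5 := LinearMap.IsIdempotentElem.eq_zero_of_trace_eq_zero hidem2 htr
    have h6 := congrArg (fun f => f 1) h5
    simpa using h6
  refine ⟨m, ?_⟩
  calc z ^ m = z ^ (2 * m) * y ^ m := h2
    _ = z ^ m * e := by rw [he]; ring
    _ = 0 := by rw [he0, mul_zero]

/-- The trace of an element which is nilpotent modulo the maximal ideal lies in the maximal
ideal. -/
theorem trace_mem_of_pow_mem {A B : Type*} [CommRing A] [IsLocalRing A] [CommRing B] [Algebra A B]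
    [Module.Free A B] [Module.Finite A B] {b : B} {N : ℕ}
    (hb : b ^ N ∈ (maximalIdeal A).map (algebraMap A B)) :
    Algebra.trace A B b ∈ maximalIdeal A := by
  rw [← Ideal.Quotient.eq_zero_iff_mem, ← Algebra.trace_quotient_mk]
  have h1 : IsNilpotent (Ideal.Quotient.mk ((maximalIdeal A).map (algebraMap A B)) b) :=
    ⟨N, by rw [← map_pow, Ideal.Quotient.eq_zero_iff_mem]; exact hb⟩
  have h2 := Algebra.isNilpotent_trace_of_isNilpotent (R := A ⧸ maximalIdeal A) h1
  exact h2.eq_zero

end Fermat.Agent.Geo
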