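import Mathlib
import Fermat.Agent.Geo.Trace
import Fermat.Agent.Geo.Local

set_option autoImplicit false

/-!
# Extensions of discrete valuation rings: tameness in residue characteristic zero and
unramifiedness
-/

open IsLocalRing Module

namespace Fermat.Agent.Geo

section DVR

variable {R F E : Type*} [CommRing R] [IsDomain R] [IsDiscreteValuationRing R]
  [Field F] [Algebra R F] [IsFractionRing R F]
  [Field E] [Algebra R E] [Algebra F E] [IsScalarTower R F E]
  [FiniteDimensional F E] [Algebra.IsSeparable F E]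

omit [IsDomain R] [IsDiscreteValuationRing R] [FiniteDimensional F E]
  [Algebra.IsSeparable F E] in
variable (F E) in
include F in
theorem faithfulSMul_of_tower : FaithfulSMul R E := by
  rw [faithfulSMul_iff_algebraMap_injective, IsScalarTower.algebraMap_eq R F E]
  exact (algebraMap F E).injective.comp (IsFractionRing.injective R F)

/-- The image of the trace of an integral element modulo the maximal ideal is the trace of the
reduction. -/
theorem trace_mk_eq (ϖ : R) (hϖ : Irreducible ϖ) (b : integralClosure R E)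
    (h : ∃ v : R, Algebra.trace F E (b : E) = algebraMap R F (ϖ * v)) :
    Algebra.trace (R ⧸ maximalIdeal R)
      ((integralClosure R E) ⧸ (maximalIdeal R).map (algebraMap R (integralClosure R E)))
      (Ideal.Quotient.mk _ b) = 0 := by
  have hfs : FaithfulSMul R E := faithfulSMul_of_tower F E
  have htf : IsTorsionFree R E := inferInstance
  have hfin : Module.Finite R (integralClosure R E) :=
    IsIntegralClosure.finite R F E (integralClosure R E)
  have hfree : Module.Free R (integralClosure R E) :=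
    IsIntegralClosure.module_free R F E (integralClosure R E)
  rw [Algebra.trace_quotient_mk, Ideal.Quotient.eq_zero_iff_mem, hϖ.maximalIdeal_eq,
    Ideal.mem_span_singleton]
  obtain ⟨v, hv⟩ := h
  have hfr : IsFractionRing (integralClosure R E) E :=
    integralClosure.isFractionRing_of_finite_extension F E
  have hded : IsDedekindDomain (integralClosure R E) := integralClosure.isDedekindDomain R F E
  have h1 := Algebra.algebraMap_intTrace (A := R) (K := F) (L := E) (B := integralClosure R E) b
  have h2 : Algebra.intTrace R (integralClosure R E) = Algebra.trace R (integralClosure R E) :=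
    Algebra.intTrace_eq_trace (A := R) (B := integralClosure R E)
  rw [h2] at h1
  have h3 : algebraMap (integralClosure R E) E b = (b : E) := rfl
  rw [h3, hv] at h1
  exact ⟨v, IsFractionRing.injective R F h1⟩

/-- In residue characteristic zero, the radical of the trace form modulo the uniformiser consists
of elements that are nilpotent modulo the uniformiser. -/
theorem exists_pow_eq_of_trace [CharZero (R ⧸ maximalIdeal R)] {ϖ : R} (hϖ : Irreducible ϖ) {b : E}
    (hb : IsIntegral R b)
    (h : ∀ b' : E, IsIntegral R b' → ∃ v : R,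
      Algebra.trace F E (b * b') = algebraMap R F (ϖ * v)) :
    ∃ (N : ℕ) (y : E), 0 < N ∧ IsIntegral R y ∧ b ^ N = ϖ • y := by
  let B := integralClosure R E
  have hfin : Module.Finite R B := IsIntegralClosure.finite R F E B
  let b₀ : B := ⟨b, hb⟩
  letI : Field (R ⧸ maximalIdeal R) := Ideal.Quotient.field _
  have hfin2 : Module.Finite (R ⧸ maximalIdeal R) (B ⧸ (maximalIdeal R).map (algebraMap R B)) :=
    inferInstance
  have hnil : IsNilpotent (Ideal.Quotient.mk ((maximalIdeal R).map (algebraMap R B)) b₀) := by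
    apply isNilpotent_of_trace (κ := R ⧸ maximalIdeal R)
    intro c
    obtain ⟨c, rfl⟩ := Ideal.Quotient.mk_surjective c
    rw [← map_mul]
    exact trace_mk_eq (F := F) ϖ hϖ (b₀ * c) (h c c.2)
  obtain ⟨N, hN⟩ := hnil
  rw [← map_pow, Ideal.Quotient.eq_zero_iff_mem, hϖ.maximalIdeal_eq, Ideal.map_span,
    Set.image_singleton, Ideal.mem_span_singleton] at hN
  obtain ⟨y, hy⟩ := hN
  refine ⟨N + 1, (y : E) * b, Nat.succ_pos N, IsIntegral.mul y.2 hb, ?_⟩
  have h1 : b ^ N = algebraMap R E ϖ * (y : E) := congrArg Subtype.val hy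
  rw [pow_succ, h1, Algebra.smul_def]
  ring

/-- An ideal theoretic lemma in a Dedekind domain. -/
theorem dvd_of_forall_mul_eq {B : Type*} [CommRing B] [IsDedekindDomain B] {ϖ z : B}
    (hϖ : ϖ ≠ 0) (h : ∀ j ∈ (Ideal.span {ϖ}).radical, ∀ b : B, z * j = ϖ * b →
      b ∈ (Ideal.span {ϖ}).radical) : ϖ ∣ z := by
  set K := Ideal.span {ϖ} with hK
  set J := K.radical with hJ
  set I := Ideal.span {z} with hI
  have hJ0 : J ≠ ⊥ := by
    intro h0
    have : ϖ ∈ J := Ideal.le_radical (Ideal.mem_span_singleton_self ϖ)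
    rw [h0, Ideal.mem_bot] at this
    exact hϖ this
  have hK0 : K ≠ ⊥ := by
    rw [hK, Ne, Ideal.span_singleton_eq_bot]
    exact hϖ
  have hle : I * J ⊓ K ≤ K * J := by
    rintro w ⟨hw1, hw2⟩
    obtain ⟨j, hj, rfl⟩ := Ideal.mem_span_singleton_mul.mp hw1
    obtain ⟨b, hb⟩ := Ideal.mem_span_singleton.mp hw2
    rw [hb]
    exact Ideal.mul_mem_mul (Ideal.mem_span_singleton_self ϖ) (h j hj b hb)
  have hmul : (I * J ⊔ K) * (I * J ⊓ K) = (I * J) * K := Ideal.sup_mul_inf _ _
  have h1 : I * (J * K) ≤ (I * J ⊔ K) * (J * K) := by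
    rw [← mul_assoc, ← hmul, mul_comm J K]
    exact Ideal.mul_mono_right hle
  have h2 : I ≤ I * J ⊔ K := by
    have h3 : J * K ≠ ⊥ := mul_ne_zero hJ0 hK0
    rw [← Ideal.dvd_iff_le] at h1 ⊢
    exact (mul_dvd_mul_iff_right h3).mp h1
  have h3 : z ∈ I * J ⊔ K := h2 (Ideal.mem_span_singleton_self z)
  obtain ⟨w, hw, k, hk, hwk⟩ := Submodule.mem_sup.mp h3
  obtain ⟨j, hj, rfl⟩ := Ideal.mem_span_singleton_mul.mp hw
  obtain ⟨N, hN⟩ := hj
  obtain ⟨c, hc⟩ := Ideal.mem_span_singleton.mp hN
  obtain ⟨d, hd⟩ := Ideal.mem_span_singleton.mp hk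
  obtain ⟨e, he⟩ := sub_dvd_pow_sub_pow (1 : B) j N
  rw [one_pow] at he
  refine ⟨d * e + z * c, ?_⟩
  -- `z = z (1 - j ^ N) + z j ^ N`
  have h4 : z * (1 - j) = ϖ * d := by rw [← hd]; linear_combination -hwk
  calc z = z * (1 - j ^ N) + z * j ^ N := by ring
    _ = z * (1 - j) * e + z * (ϖ * c) := by rw [he, hc]; ring
    _ = ϖ * (d * e + z * c) := by rw [h4]; ring

omit [Algebra.IsSeparable F E] in
variable (F) in
include F in
theorem exists_pow_smul_isIntegral {ϖ : R} (hϖ : Irreducible ϖ) (x : E) :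
    ∃ m : ℕ, IsIntegral R (ϖ ^ m • x) := by
  obtain ⟨a, ha, h⟩ := exists_smul_isIntegral (A := R) F x
  obtain ⟨m, u, rfl⟩ := IsDiscreteValuationRing.eq_unit_mul_pow_irreducible ha hϖ
  refine ⟨m, ?_⟩
  have h1 : ϖ ^ m • x = ((u⁻¹ : Rˣ) : R) • (((u : R) * ϖ ^ m) • x) := by
    rw [smul_smul, ← mul_assoc, Units.inv_mul, one_mul]
  rw [h1]
  exact h.smul _

/-- Tameness in residue characteristic zero. -/
theorem isIntegral_of_trace_radical [CharZero (R ⧸ maximalIdeal R)] {ϖ : R} (hϖ : Irreducible ϖ)
    {x : E} (hx : ∀ j y : E, ∀ N : ℕ, 0 < N → IsIntegral R j → IsIntegral R y → j ^ N = ϖ • y →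
      ∃ v : R, Algebra.trace F E (x * j) = algebraMap R F (ϖ * v)) : IsIntegral R x := by
  let B := integralClosure R E
  have hded : IsDedekindDomain B := integralClosure.isDedekindDomain R F E
  have hfs : FaithfulSMul R E := faithfulSMul_of_tower F E
  have hϖE : algebraMap R E ϖ ≠ 0 := fun h0 => hϖ.ne_zero
    (FaithfulSMul.algebraMap_injective R E (by rw [h0, map_zero]))
  -- the key case
  have key : ∀ x : E, (∀ j y : E, ∀ N : ℕ, 0 < N → IsIntegral R j → IsIntegral R y →
      j ^ N = ϖ • y → ∃ v : R, Algebra.trace F E (x * j) = algebraMap R F (ϖ * v)) →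
      IsIntegral R (ϖ • x) → IsIntegral R x := by
    intro x hx hint
    let z : B := ⟨ϖ • x, hint⟩
    have hdvd : (algebraMap R B ϖ) ∣ z := by
      apply dvd_of_forall_mul_eq
      · intro h0
        exact hϖE (congrArg Subtype.val h0)
      · rintro j ⟨M, hM⟩ b hzb
        obtain ⟨c, hc⟩ := Ideal.mem_span_singleton.mp hM
        have hjM : (j : E) ^ (M + 1) = ϖ • ((c : E) * j) := by
          have : (j : E) ^ M = algebraMap R E ϖ * (c : E) := congrArg Subtype.val hc
          rw [pow_succ, this, Algebra.smul_def]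
          ring
        have hb : (b : E) = x * j := by
          have h1 : (ϖ • x) * (j : E) = algebraMap R E ϖ * (b : E) := congrArg Subtype.val hzb
          rw [Algebra.smul_def, mul_assoc] at h1
          exact (mul_left_cancel₀ hϖE h1).symm
        obtain ⟨N, y, hN, hy, hbN⟩ := exists_pow_eq_of_trace (F := F) hϖ (b := (b : E)) b.2
          (fun b' hb' => by
            have h2 := hx ((j : E) * b') (((c : E) * j) * b' ^ (M + 1)) (M + 1) (Nat.succ_pos M)
              (j.2.mul hb') ((c.2.mul j.2).mul (hb'.pow _))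
              (by rw [mul_pow, hjM, smul_mul_assoc])
            rw [hb, mul_assoc]
            exact h2)
        refine ⟨N, Ideal.mem_span_singleton.mpr ⟨⟨y, hy⟩, Subtype.ext ?_⟩⟩
        change (b : E) ^ N = algebraMap R E ϖ * y
        rw [hbN, Algebra.smul_def]
    obtain ⟨w, hw⟩ := hdvd
    have h1 : ϖ • x = algebraMap R E ϖ * (w : E) := congrArg Subtype.val hw
    rw [Algebra.smul_def] at h1
    rw [mul_left_cancel₀ hϖE h1]
    exact w.2
  obtain ⟨m, hm⟩ := exists_pow_smul_isIntegral F hϖ x
  induction m with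
  | zero => simpa using hm
  | succ m ih =>
    apply ih
    apply key
    · intro j y N hN hj hy hjN
      obtain ⟨v, hv⟩ := hx j y N hN hj hy hjN
      refine ⟨ϖ ^ m * v, ?_⟩
      rw [smul_mul_assoc, ← algebraMap_smul F (ϖ ^ m), map_smul, hv, smul_eq_mul, ← map_mul]
      congr 1
      ring
    · rw [smul_smul, ← pow_succ']
      exact hm

omit [Algebra.IsSeparable F E] in
/-- Unramifiedness from the nondegeneracy of the trace form of the special fibre. -/
theorem isIntegral_of_trace_of_nondegenerate {ϖ : R} (hϖ : Irreducible ϖ)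
    (hnd : ∀ b : E, IsIntegral R b → (∀ b' : E, IsIntegral R b' → ∃ v : R,
      Algebra.trace F E (b * b') = algebraMap R F (ϖ * v)) → ∃ y, IsIntegral R y ∧ b = ϖ • y)
    {x : E} (hx : ∀ b : E, IsIntegral R b → ∃ v : R,
      Algebra.trace F E (x * b) = algebraMap R F v) : IsIntegral R x := by
  have hfs : FaithfulSMul R E := faithfulSMul_of_tower F E
  have hϖE : algebraMap R E ϖ ≠ 0 := fun h0 => hϖ.ne_zero
    (FaithfulSMul.algebraMap_injective R E (by rw [h0, map_zero]))
  have key : ∀ x : E, (∀ b : E, IsIntegral R b → ∃ v : R,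
      Algebra.trace F E (x * b) = algebraMap R F v) → IsIntegral R (ϖ • x) → IsIntegral R x := by
    intro x hx hint
    obtain ⟨y, hy, h1⟩ := hnd (ϖ • x) hint (fun b' hb' => by
      obtain ⟨v, hv⟩ := hx b' hb'
      refine ⟨v, ?_⟩
      rw [smul_mul_assoc, ← algebraMap_smul F ϖ, map_smul, hv, smul_eq_mul, map_mul])
    rw [Algebra.smul_def, Algebra.smul_def] at h1
    rw [mul_left_cancel₀ hϖE h1]
    exact hy
  obtain ⟨m, hm⟩ := exists_pow_smul_isIntegral F hϖ x
  induction m with
  | zero => simpa using hm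
  | succ m ih =>
    apply ih
    apply key
    · intro b hb
      obtain ⟨v, hv⟩ := hx b hb
      refine ⟨ϖ ^ m * v, ?_⟩
      rw [smul_mul_assoc, ← algebraMap_smul F (ϖ ^ m), map_smul, hv, smul_eq_mul, ← map_mul]
    · rw [smul_smul, ← pow_succ']
      exact hm

end DVR

end Fermat.Agent.Geo
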