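import Mathlib
import Fermat.Agent.Geo.Tame

set_option autoImplicit false

/-!
# Unramified Galois extensions of discrete valuation rings
-/

open IsLocalRing Module nonZeroDivisors

namespace Fermat.Agent.Geo

attribute [local instance] FractionRing.liftAlgebra FractionRing.isScalarTower_liftAlgebra

section

variable {R F E : Type*} [CommRing R] [IsDomain R] [IsDiscreteValuationRing R]
  [Field F] [Algebra R F] [IsFractionRing R F]
  [Field E] [Algebra R E] [Algebra F E] [IsScalarTower R F E]
  [FiniteDimensional F E] [Algebra.IsSeparable F E]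

/-- If no prime divides the different, the integral closure is self-dual for the trace form. -/
theorem isIntegral_of_trace_of_not_dvd [IsDedekindDomain (integralClosure R E)]
    [IsFractionRing (integralClosure R E) E] [IsTorsionFree R (integralClosure R E)]
    (h : ∀ Q : Ideal (integralClosure R E), Q.IsPrime → Q ≠ ⊥ →
      ¬ Q ∣ differentIdeal R (integralClosure R E))
    {x : E} (hx : ∀ b : E, IsIntegral R b → ∃ v : R,
      Algebra.trace F E (x * b) = algebraMap R F v) : IsIntegral R x := by
  have hfin : Module.Finite R (integralClosure R E) :=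
    IsIntegralClosure.finite R F E (integralClosure R E)
  have hfs : FaithfulSMul R E := faithfulSMul_of_tower F E
  have hne : differentIdeal R (integralClosure R E) = ⊤ := by
    by_contra hne
    obtain ⟨Q, hQ, hle⟩ := Ideal.exists_le_maximal _ hne
    have hQ0 : Q ≠ ⊥ := by
      rintro rfl
      have hfield := Ring.isField_iff_maximal_bot.mpr hQ
      -- a dedekind domain which is a field: then `R` would be a field
      have hint : Algebra.IsIntegral R (integralClosure R E) := inferInstance
      have hRf : IsField R := isField_of_isIntegral_of_isField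
        (FaithfulSMul.algebraMap_injective R (integralClosure R E)) hfield
      exact IsDiscreteValuationRing.not_isField R hRf
    exact h Q hQ.isPrime hQ0 (Ideal.dvd_iff_le.mpr hle)
  have h1 := coeIdeal_differentIdeal R F E (integralClosure R E)
  rw [hne, FractionalIdeal.coeIdeal_top] at h1
  have h2 : FractionalIdeal.dual R F (1 : FractionalIdeal (integralClosure R E)⁰ E) = 1 := by
    rw [← inv_inv (FractionalIdeal.dual R F (1 : FractionalIdeal (integralClosure R E)⁰ E)), ← h1,
      inv_one]
  have h3 : x ∈ FractionalIdeal.dual R F (1 : FractionalIdeal (integralClosure R E)⁰ E) := by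
    have hone : (1 : FractionalIdeal (integralClosure R E)⁰ E) ≠ 0 := by
      intro h0
      have h01 : (1 : E) ∈ (0 : FractionalIdeal (integralClosure R E)⁰ E) := by
        rw [← h0]
        exact FractionalIdeal.one_mem_one _
      rw [FractionalIdeal.mem_zero_iff] at h01
      exact one_ne_zero h01
    rw [FractionalIdeal.mem_dual hone]
    intro a ha
    rw [FractionalIdeal.mem_one_iff] at ha
    obtain ⟨a, rfl⟩ := ha
    obtain ⟨v, hv⟩ := hx a a.2
    exact ⟨v, hv.symm⟩
  rw [h2, FractionalIdeal.mem_one_iff] at h3
  obtain ⟨y, rfl⟩ := h3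
  exact y.2

variable (F) in
include F in
/-- A prime of ramification index one with separable residue extension does not divide the
different. -/
theorem not_dvd_differentIdeal_of_prime [IsDedekindDomain (integralClosure R E)]
    [IsFractionRing (integralClosure R E) E] [IsTorsionFree R (integralClosure R E)]
    {ϖ : R} (hϖ : Irreducible ϖ) (Q : Ideal (integralClosure R E)) [hQ : Q.IsPrime] (hQ0 : Q ≠ ⊥)
    [hQl : Q.LiesOver (maximalIdeal R)]
    (hQ2 : algebraMap R (integralClosure R E) ϖ ∉ Q ^ 2)
    [hsep : Algebra.IsSeparable (R ⧸ maximalIdeal R) ((integralClosure R E) ⧸ Q)] :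
    ¬ Q ∣ differentIdeal R (integralClosure R E) := by
  have hfin : Module.Finite R (integralClosure R E) :=
    IsIntegralClosure.finite R F E (integralClosure R E)
  have hfs : FaithfulSMul R E := faithfulSMul_of_tower F E
  have hint : Algebra.IsIntegral R (integralClosure R E) := inferInstance
  have hQmax : Q.IsMaximal := hQ.isMaximal hQ0
  have hϖQ : algebraMap R (integralClosure R E) ϖ ∈ Q := by
    have : ϖ ∈ Q.under R := by
      rw [← hQl.over, hϖ.maximalIdeal_eq]
      exact Ideal.mem_span_singleton_self ϖ
    exact this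
  have hmap : (maximalIdeal R).map (algebraMap R (integralClosure R E)) =
      Ideal.span {algebraMap R (integralClosure R E) ϖ} := by
    rw [hϖ.maximalIdeal_eq, Ideal.map_span, Set.image_singleton]
  have hdvd : Q ∣ (maximalIdeal R).map (algebraMap R (integralClosure R E)) := by
    rw [hmap, Ideal.dvd_span_singleton]
    exact hϖQ
  obtain ⟨Q', hQ'⟩ := hdvd
  have hcop : IsCoprime Q Q' := by
    rw [Ideal.isCoprime_iff_sup_eq]
    by_contra hne
    have h1 : Q' ≤ Q := by
      have h2 : Q = Q ⊔ Q' := hQmax.eq_of_le hne le_sup_left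
      rw [h2]
      exact le_sup_right
    apply hQ2
    have h3 : algebraMap R (integralClosure R E) ϖ ∈ Q * Q' := by
      rw [← hQ', hmap]
      exact Ideal.mem_span_singleton_self _
    rw [pow_two]
    exact Ideal.mul_mono_right h1 h3
  have hsepF : Algebra.IsSeparable (FractionRing R) (FractionRing (integralClosure R E)) := by
    have : IsFractionRing (integralClosure R E) E := inferInstance
    refine Algebra.IsSeparable.of_equiv_equiv (A₁ := F) (B₁ := E)
      (FractionRing.algEquiv R F).symm.toRingEquiv
      (FractionRing.algEquiv (integralClosure R E) E).symm.toRingEquiv ?_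
    apply IsLocalization.ringHom_ext R⁰
    ext r
    simp only [RingHom.coe_comp, RingHom.coe_coe, AlgEquiv.coe_ringEquiv, Function.comp_apply,
      AlgEquiv.commutes]
    rw [← IsScalarTower.algebraMap_apply, ← IsScalarTower.algebraMap_apply R F E r,
      IsScalarTower.algebraMap_apply R (integralClosure R E) E r, AlgEquiv.commutes,
      ← IsScalarTower.algebraMap_apply]
  exact not_dvd_differentIdeal_of_isCoprime_of_isSeparable R Q Q' hcop hQ'.symm

/-- Unramifiedness of a Galois extension of a discrete valuation ring from one prime. -/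
theorem not_dvd_differentIdeal_of_isGalois [IsGalois F E] [IsDedekindDomain (integralClosure R E)]
    [IsFractionRing (integralClosure R E) E] [IsTorsionFree R (integralClosure R E)]
    {ϖ : R} (hϖ : Irreducible ϖ) (P : Ideal (integralClosure R E)) [P.IsPrime]
    [P.LiesOver (maximalIdeal R)]
    (hP2 : algebraMap R (integralClosure R E) ϖ ∉ P ^ 2)
    [Algebra.IsSeparable (R ⧸ maximalIdeal R) ((integralClosure R E) ⧸ P)] :
    ∀ Q : Ideal (integralClosure R E), Q.IsPrime → Q ≠ ⊥ →
      ¬ Q ∣ differentIdeal R (integralClosure R E) := by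
  intro Q hQ hQ0
  have hint : Algebra.IsIntegral R (integralClosure R E) := inferInstance
  have hQmax : Q.IsMaximal := hQ.isMaximal hQ0
  have hQu : Q.under R = maximalIdeal R :=
    eq_maximalIdeal (Ideal.isMaximal_comap_of_isIntegral_of_isMaximal Q)
  have hQl : Q.LiesOver (maximalIdeal R) := ⟨hQu.symm⟩
  obtain ⟨σ, hσ⟩ := Ideal.exists_comap_galRestrict_eq R F E (integralClosure R E)
    (p := maximalIdeal R) (P₁ := P) (P₂ := Q) ⟨inferInstance, inferInstance⟩ ⟨hQ, hQl⟩
  let τ := galRestrict R F E (integralClosure R E) σ
  have hsep : Algebra.IsSeparable (R ⧸ maximalIdeal R) ((integralClosure R E) ⧸ Q) :=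
    AlgEquiv.Algebra.isSeparable
      (Ideal.Quotient.algEquivOfEqComap (maximalIdeal R) τ hσ.symm).symm
  refine not_dvd_differentIdeal_of_prime F hϖ Q hQ0 ?_
  intro h
  apply hP2
  have h1 : Q ≤ P.comap (τ : integralClosure R E →+* integralClosure R E) := hσ.symm.le
  have h2 : Q ^ 2 ≤ (P ^ 2).comap (τ : integralClosure R E →+* integralClosure R E) :=
    (Ideal.pow_right_mono h1 2).trans (Ideal.le_comap_pow _ 2)
  have h3 := h2 h
  rw [Ideal.mem_comap] at h3
  have h4 : τ (algebraMap R (integralClosure R E) ϖ) = algebraMap R (integralClosure R E) ϖ :=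
    τ.commutes ϖ
  rwa [show (τ : integralClosure R E →+* integralClosure R E)
    (algebraMap R (integralClosure R E) ϖ) = algebraMap R (integralClosure R E) ϖ from h4] at h3

/-- Separability of a residue extension by polynomials. -/
theorem isSeparable_of_polynomial (Q : Ideal (integralClosure R E))
    [Q.LiesOver (maximalIdeal R)]
    (h : ∀ b : integralClosure R E, ∃ g : Polynomial R,
      (g.map (Ideal.Quotient.mk (maximalIdeal R))).Separable ∧ Polynomial.aeval b g ∈ Q) :
    Algebra.IsSeparable (R ⧸ maximalIdeal R) ((integralClosure R E) ⧸ Q) := by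
  refine ⟨fun x => ?_⟩
  obtain ⟨b, rfl⟩ := Ideal.Quotient.mk_surjective x
  obtain ⟨g, hg, hb⟩ := h b
  letI : Field (R ⧸ maximalIdeal R) := Ideal.Quotient.field _
  have h1 : Polynomial.aeval (Ideal.Quotient.mk Q b)
      (g.map (Ideal.Quotient.mk (maximalIdeal R))) = 0 := by
    rw [← Ideal.Quotient.algebraMap_eq (maximalIdeal R), Polynomial.aeval_map_algebraMap]
    have h2 : (Ideal.Quotient.mk Q b) = Ideal.Quotient.mkₐ R Q b := rfl
    rw [h2, Polynomial.aeval_algHom_apply]
    exact Ideal.Quotient.eq_zero_iff_mem.mpr hb
  have h2 : minpoly (R ⧸ maximalIdeal R) (Ideal.Quotient.mk Q b) ∣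
      g.map (Ideal.Quotient.mk (maximalIdeal R)) := minpoly.dvd _ _ h1
  exact hg.of_dvd h2

end

end Fermat.Agent.Geo
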