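import Mathlib
import Fermat.Agent.Geo.Chart
import Fermat.Agent.Geo.Tame
import Fermat.Agent.Geo.Galois
import Fermat.Agent.Geo.Connected

set_option autoImplicit false

/-!
# Discrete valuation rings attached to primes, unramifiedness and tameness
-/

open IsLocalRing Polynomial

namespace Fermat.Agent.Geo

section PrimeDVR

variable {A F : Type*} [CommRing A] [IsDomain A] [UniqueFactorizationMonoid A]
  [Field F] [Algebra A F] [IsFractionRing A F]

variable (F) in
/-- The uniformiser of the valuation ring attached to a prime element. -/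
def unif {p : A} (hp : Prime p) : primeVal F hp := ⟨algebraMap A F p, algebraMap_mem_primeVal hp p⟩

theorem not_isUnit_unif {p : A} (hp : Prime p) : ¬ IsUnit (unif F hp) := by
  intro h
  obtain ⟨c, hc⟩ := h.exists_right_inv
  obtain ⟨s, a, hs, ha⟩ := c.2
  have hc' : algebraMap A F p * (c : F) = 1 := congrArg Subtype.val hc
  apply hs
  refine ⟨a, IsFractionRing.injective A F ?_⟩
  rw [map_mul, ← ha]
  linear_combination -(algebraMap A F s) * hc'

theorem exists_eq_unif_pow_mul {p : A} (hp : Prime p) {x : primeVal F hp} (hx : x ≠ 0) :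
    ∃ n : ℕ, ∃ u : (primeVal F hp)ˣ, x = unif F hp ^ n * u := by
  obtain ⟨x, s, a, hs, ha⟩ := x
  have hs0 : algebraMap A F s ≠ 0 := algebraMap_ne_zero_of_not_dvd hs
  have hx0 : x ≠ 0 := fun h => hx (Subtype.ext h)
  have ha0 : a ≠ 0 := by
    rintro rfl
    rw [map_zero] at ha
    exact (mul_ne_zero hs0 hx0) ha
  obtain ⟨n, b, hb, hab⟩ := (FiniteMultiplicity.of_prime_left hp ha0).exists_eq_pow_mul_and_not_dvd
    |> fun ⟨b, h1, h2⟩ => (⟨_, b, h2, h1⟩ : ∃ n b, ¬ p ∣ b ∧ a = p ^ n * b)
  have hb0 : algebraMap A F b ≠ 0 := algebraMap_ne_zero_of_not_dvd hb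
  refine ⟨n, ⟨⟨algebraMap A F b / algebraMap A F s, div_mem_primeVal hp b hs⟩,
    ⟨algebraMap A F s / algebraMap A F b, div_mem_primeVal hp s hb⟩, ?_, ?_⟩, ?_⟩
  · apply Subtype.ext
    change algebraMap A F b / algebraMap A F s * (algebraMap A F s / algebraMap A F b) = 1
    field_simp
  · apply Subtype.ext
    change algebraMap A F s / algebraMap A F b * (algebraMap A F b / algebraMap A F s) = 1
    field_simp
  · apply Subtype.ext
    change x = algebraMap A F p ^ n * (algebraMap A F b / algebraMap A F s)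
    rw [← mul_div_assoc, ← map_pow, ← map_mul, ← hab, ← ha]
    field_simp

theorem irreducible_unif {p : A} (hp : Prime p) : Irreducible (unif F hp) := by
  have hne : unif F hp ≠ 0 := by
    intro h
    have h1 : algebraMap A F p = 0 := congrArg Subtype.val h
    exact hp.ne_zero (IsFractionRing.injective A F (by rw [h1, map_zero]))
  refine ⟨not_isUnit_unif hp, fun x y hxy => ?_⟩
  by_contra hcon
  rw [not_or] at hcon
  have hx0 : x ≠ 0 := fun h => hne (by rw [hxy, h, zero_mul])
  have hy0 : y ≠ 0 := fun h => hne (by rw [hxy, h, mul_zero])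
  obtain ⟨n, u, hu⟩ := exists_eq_unif_pow_mul hp hx0
  obtain ⟨m, v, hv⟩ := exists_eq_unif_pow_mul hp hy0
  have hn : n ≠ 0 := by
    rintro rfl
    rw [pow_zero, one_mul] at hu
    exact hcon.1 (hu ▸ u.isUnit)
  have hm : m ≠ 0 := by
    rintro rfl
    rw [pow_zero, one_mul] at hv
    exact hcon.2 (hv ▸ v.isUnit)
  obtain ⟨n, rfl⟩ := Nat.exists_eq_succ_of_ne_zero hn
  obtain ⟨m, rfl⟩ := Nat.exists_eq_succ_of_ne_zero hm
  have h1 : (unif F hp) * 1 = unif F hp * (unif F hp * (unif F hp ^ n * unif F hp ^ m * u * v)) := by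
    conv_lhs => rw [mul_one, hxy, hu, hv]
    rw [Nat.succ_eq_add_one, Nat.succ_eq_add_one]
    ring
  have h2 := mul_left_cancel₀ hne h1
  exact not_isUnit_unif hp (IsUnit.of_mul_eq_one _ h2.symm)

theorem isDiscreteValuationRing_primeVal {p : A} (hp : Prime p) :
    IsDiscreteValuationRing (primeVal F hp) := by
  apply IsDiscreteValuationRing.ofHasUnitMulPowIrreducibleFactorization
  refine ⟨unif F hp, irreducible_unif hp, fun {x} hx => ?_⟩
  obtain ⟨n, u, h⟩ := exists_eq_unif_pow_mul hp hx
  exact ⟨n, ⟨u, h.symm⟩⟩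

end PrimeDVR

section Transfer

variable {F E : Type*} [Field F] [Field E] [Algebra F E]

/-- Unramifiedness passes to subextensions. -/
theorem Unr.of_tower {V : Subring F} {E' : Type*} [Field E'] [Algebra F E'] [Algebra E' E]
    [IsScalarTower F E' E] [FiniteDimensional F E] [FiniteDimensional F E']
    [IsIntegrallyClosed V] [IsFractionRing V F]
    [Algebra.IsSeparable F E] (h : Unr V E) : Unr V E' := by
  intro x hx
  have hfin : FiniteDimensional E' E := FiniteDimensional.right F E' E
  have h1 : IntOver V (algebraMap E' E x) := by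
    apply h
    intro b hb
    have h2 : algebraMap E' E x * b = x • b := (Algebra.smul_def x b).symm
    rw [h2, ← Algebra.trace_trace (S := E'), map_smul, smul_eq_mul]
    apply hx
    letI : Algebra V E' := ((algebraMap F E').comp V.subtype).toAlgebra
    letI : Algebra V E := ((algebraMap F E).comp V.subtype).toAlgebra
    have htow : IsScalarTower V F E' := IsScalarTower.of_algebraMap_eq fun a => rfl
    have htow2 : IsScalarTower V E' E := IsScalarTower.of_algebraMap_eq fun a =>
      IsScalarTower.algebraMap_apply F E' E _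
    have hb' : IsIntegral V b := hb
    -- the trace of an integral element of a tower
    have h3 : IsIntegral V (Algebra.trace E' E b) := by
      have h4 : IsIntegral (integralClosure V E') b := hb'.tower_top
      have hsep : Algebra.IsSeparable E' E := Algebra.isSeparable_tower_top_of_isSeparable F E' E
      have hfr : IsFractionRing (integralClosure V E') E' :=
        integralClosure.isFractionRing_of_finite_extension F E'
      have h5 : IsIntegral (integralClosure V E') (Algebra.trace E' E b) :=
        Algebra.isIntegral_trace h4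
      exact isIntegral_trans _ h5
    exact h3
  obtain ⟨p, hp, hpx⟩ := h1
  refine ⟨p, hp, ?_⟩
  apply (algebraMap E' E).injective
  rw [map_zero, hom_eval₂, ← RingHom.comp_assoc, ← IsScalarTower.algebraMap_eq]
  exact hpx

end Transfer

section ValuationRing

variable {F E : Type*} [Field F] [Field E] [Algebra F E]

/-- `W/V` is an extension of valuation rings of ramification index one with separable residue
extension (`ϖ` is a uniformiser of `V`). -/
structure IsUnrExt (V : ValuationSubring F) (W : ValuationSubring E) (ϖ : F) : Prop where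
  le : ∀ x ∈ V, algebraMap F E x ∈ W
  nonunit : algebraMap F E ϖ ∈ W.nonunits
  unif : ∀ x ∈ W.nonunits, ∃ y ∈ W, x = ϖ • y
  sep : ∀ x ∈ W, ∃ g : Polynomial V, (g.map (IsLocalRing.residue V)).Separable ∧
    g.eval₂ ((algebraMap F E).comp V.toSubring.subtype) x ∈ W.nonunits

variable {V : ValuationSubring F} [IsDiscreteValuationRing V]

theorem exists_ideal_of_valuationSubring (W : ValuationSubring E) {ϖ : V} (hϖ : Irreducible ϖ)
    (hW : ∀ x ∈ V, algebraMap F E x ∈ W) (hϖW : algebraMap F E ϖ ∈ W.nonunits) :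
    letI : Algebra V E := ((algebraMap F E).comp V.toSubring.subtype).toAlgebra
    ∃ Q : Ideal (integralClosure V E), Q.IsPrime ∧ Q ≠ ⊥ ∧ Q.LiesOver (maximalIdeal V) ∧
      ∀ b : integralClosure V E, b ∈ Q ↔ (b : E) ∈ W.nonunits := by
  letI : Algebra V E := ((algebraMap F E).comp V.toSubring.subtype).toAlgebra
  let B := integralClosure V E
  have hBW : ∀ b : B, (b : E) ∈ W := fun b =>
    mem_valuationSubring_of_isIntegralElem W ((algebraMap F E).comp V.toSubring.subtype)
      (fun v => hW _ v.2) b.2
  let ι : B →+* W := B.val.toRingHom.codRestrict W.toSubring hBW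
  have hmem : ∀ b : B, b ∈ (maximalIdeal W).comap ι ↔ (b : E) ∈ W.nonunits := by
    intro b
    rw [Ideal.mem_comap, ValuationSubring.mem_nonunits_iff_exists_mem_maximalIdeal]
    exact ⟨fun h => ⟨hBW b, h⟩, fun ⟨_, h⟩ => h⟩
  refine ⟨(maximalIdeal W).comap ι, Ideal.IsPrime.comap ι, ?_, ⟨?_⟩, hmem⟩
  · intro h0
    have h1 : algebraMap V B ϖ ∈ (maximalIdeal W).comap ι := (hmem _).mpr hϖW
    rw [h0, Ideal.mem_bot] at h1
    have h2 : algebraMap F E ϖ = 0 := congrArg Subtype.val h1
    rw [map_eq_zero] at h2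
    exact hϖ.ne_zero (Subtype.ext h2)
  · symm
    apply (eq_maximalIdeal ?_)
    have h1 : ((maximalIdeal W).comap ι).under V ≠ ⊤ := by
      have : (((maximalIdeal W).comap ι).under V).IsPrime := inferInstance
      exact this.ne_top
    have h2 : maximalIdeal V ≤ ((maximalIdeal W).comap ι).under V := by
      rw [hϖ.maximalIdeal_eq, Ideal.span_singleton_le_iff_mem]
      exact (hmem _).mpr hϖW
    have h3 := (maximalIdeal.isMaximal V).eq_of_le h1 h2
    rw [← h3]
    exact maximalIdeal.isMaximal V

omit [IsDiscreteValuationRing V] in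
theorem algebraMap_notMem_sq_of_isUnrExt (W : ValuationSubring E) {ϖ : V} (hϖ : Irreducible ϖ)
    (h : IsUnrExt V W (ϖ : F)) :
    letI : Algebra V E := ((algebraMap F E).comp V.toSubring.subtype).toAlgebra
    ∀ Q : Ideal (integralClosure V E),
      (∀ b : integralClosure V E, b ∈ Q ↔ (b : E) ∈ W.nonunits) →
      algebraMap V (integralClosure V E) ϖ ∉ Q ^ 2 := by
  letI : Algebra V E := ((algebraMap F E).comp V.toSubring.subtype).toAlgebra
  intro Q hmem hsq
  let B := integralClosure V E
  have hϖ0 : algebraMap F E ϖ ≠ 0 := by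
    intro h0
    rw [map_eq_zero] at h0
    exact hϖ.ne_zero (Subtype.ext h0)
  have h1 : ∀ b : B, b ∈ Q ^ 2 → ∃ y ∈ W, (b : E) = algebraMap F E ϖ * (algebraMap F E ϖ * y) := by
    intro b hb
    rw [pow_two] at hb
    refine Submodule.mul_induction_on hb ?_ ?_
    · intro m hm n hn
      obtain ⟨y, hy, hmy⟩ := h.unif _ ((hmem m).mp hm)
      obtain ⟨z, hz, hnz⟩ := h.unif _ ((hmem n).mp hn)
      refine ⟨y * z, mul_mem hy hz, ?_⟩
      change (m : E) * (n : E) = _
      rw [hmy, hnz, Algebra.smul_def, Algebra.smul_def]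
      ring
    · rintro x y ⟨x', hx', hx⟩ ⟨y', hy', hy⟩
      refine ⟨x' + y', add_mem hx' hy', ?_⟩
      change (x : E) + (y : E) = _
      rw [hx, hy]
      ring
  obtain ⟨y, hy, h2⟩ := h1 _ hsq
  have h3 : (1 : E) = algebraMap F E ϖ * y := by
    have h4 : algebraMap F E ϖ * 1 = algebraMap F E ϖ * (algebraMap F E ϖ * y) := by
      rw [mul_one]
      exact h2
    exact mul_left_cancel₀ hϖ0 h4
  obtain ⟨hϖW, hϖm⟩ := ValuationSubring.mem_nonunits_iff_exists_mem_maximalIdeal.mp h.nonunit
  have h5 : (1 : W) ∈ maximalIdeal W := by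
    have : (1 : W) = ⟨algebraMap F E ϖ, hϖW⟩ * ⟨y, hy⟩ := Subtype.ext h3
    rw [this]
    exact Ideal.mul_mem_right _ _ hϖm
  exact (Ideal.ne_top_iff_one _).mp (maximalIdeal.isMaximal W).ne_top h5

variable [FiniteDimensional F E] [Algebra.IsSeparable F E]

/-- Unramifiedness of a Galois extension from one valuation ring. -/
theorem unr_of_isGalois [IsGalois F E] {ϖ : V} (hϖ : Irreducible ϖ) (W : ValuationSubring E)
    (h : IsUnrExt V W (ϖ : F)) : Unr V.toSubring E := by
  letI : Algebra V E := ((algebraMap F E).comp V.toSubring.subtype).toAlgebra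
  haveI : IsScalarTower V F E := IsScalarTower.of_algebraMap_eq fun a => rfl
  have hfs : FaithfulSMul V E := faithfulSMul_of_tower F E
  have hded : IsDedekindDomain (integralClosure V E) := integralClosure.isDedekindDomain V F E
  have hfr : IsFractionRing (integralClosure V E) E :=
    integralClosure.isFractionRing_of_finite_extension F E
  obtain ⟨Q, hQ, hQ0, hQl, hmem⟩ := exists_ideal_of_valuationSubring W hϖ h.le h.nonunit
  have hsep : Algebra.IsSeparable (V ⧸ maximalIdeal V) ((integralClosure V E) ⧸ Q) := by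
    apply isSeparable_of_polynomial
    intro b
    have hbW : (b : E) ∈ W := mem_valuationSubring_of_isIntegralElem W
      ((algebraMap F E).comp V.toSubring.subtype) (fun v => h.le _ v.2) b.2
    obtain ⟨g, hg, hgb⟩ := h.sep b hbW
    refine ⟨g, hg, (hmem _).mpr ?_⟩
    have h1 : ((aeval b g : integralClosure V E) : E) = aeval (b : E) g :=
      (aeval_algHom_apply (integralClosure V E).val b g).symm
    rw [h1]
    exact hgb
  have hQ2 := algebraMap_notMem_sq_of_isUnrExt W hϖ h Q hmem
  intro x hx
  apply isIntegral_of_trace_of_not_dvd (F := F) (R := V)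
    (not_dvd_differentIdeal_of_isGalois (F := F) hϖ Q hQ2)
  intro b hb
  exact ⟨⟨_, hx b hb⟩, rfl⟩

/-- Unramifiedness from all valuation rings. -/
theorem unr_of_forall_isUnrExt {ϖ : V} (hϖ : Irreducible ϖ)
    (h : ∀ W : ValuationSubring E, (∀ x ∈ V, algebraMap F E x ∈ W) →
      algebraMap F E ϖ ∈ W.nonunits → IsUnrExt V W (ϖ : F)) : Unr V.toSubring E := by
  letI : Algebra V E := ((algebraMap F E).comp V.toSubring.subtype).toAlgebra
  haveI : IsScalarTower V F E := IsScalarTower.of_algebraMap_eq fun a => rfl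
  have hfs : FaithfulSMul V E := faithfulSMul_of_tower F E
  have hded : IsDedekindDomain (integralClosure V E) := integralClosure.isDedekindDomain V F E
  have hfr : IsFractionRing (integralClosure V E) E :=
    integralClosure.isFractionRing_of_finite_extension F E
  intro x hx
  refine isIntegral_of_trace_of_not_dvd (F := F) (R := V) ?_ (fun b hb => ⟨⟨_, hx b hb⟩, rfl⟩)
  intro Q hQ hQ0
  have hQmax : Q.IsMaximal := hQ.isMaximal hQ0
  -- the valuation ring attached to `Q`
  let B := integralClosure V E
  have hfrB : Function.Injective (algebraMap B E) := Subtype.val_injective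
  let BS : Subring E := B.toSubring
  obtain ⟨W, hBW, hQW⟩ := Ideal.image_subset_nonunits_valuationSubring (A := BS) (Q : Ideal BS)
    hQ.ne_top
  have hVW : ∀ x ∈ V, algebraMap F E x ∈ W := by
    intro x hx
    exact hBW (B.algebraMap_mem ⟨x, hx⟩)
  have hint : Algebra.IsIntegral V B := inferInstance
  have hQu : Q.under V = maximalIdeal V :=
    eq_maximalIdeal (Ideal.isMaximal_comap_of_isIntegral_of_isMaximal Q)
  have hQl : Q.LiesOver (maximalIdeal V) := ⟨hQu.symm⟩
  have hϖQ : algebraMap V B ϖ ∈ Q := by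
    have : ϖ ∈ Q.under V := by
      rw [hQu, hϖ.maximalIdeal_eq]
      exact Ideal.mem_span_singleton_self ϖ
    exact this
  have hϖW : algebraMap F E ϖ ∈ W.nonunits := hQW ⟨algebraMap V B ϖ, hϖQ, rfl⟩
  obtain ⟨Q', hQ', hQ'0, hQ'l, hmem⟩ := exists_ideal_of_valuationSubring W hϖ hVW hϖW
  have hQQ : Q = Q' := by
    apply hQmax.eq_of_le hQ'.ne_top
    intro b hb
    rw [hmem]
    exact hQW ⟨b, hb, rfl⟩
  subst hQQ
  have hWW := h W hVW hϖW
  have hsep : Algebra.IsSeparable (V ⧸ maximalIdeal V) ((integralClosure V E) ⧸ Q) := by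
    apply isSeparable_of_polynomial
    intro b
    have hbW : (b : E) ∈ W := hBW b.2
    obtain ⟨g, hg, hgb⟩ := hWW.sep b hbW
    refine ⟨g, hg, (hmem _).mpr ?_⟩
    have h1 : ((aeval b g : integralClosure V E) : E) = aeval (b : E) g :=
      (aeval_algHom_apply (integralClosure V E).val b g).symm
    rw [h1]
    exact hgb
  have hQ2 := algebraMap_notMem_sq_of_isUnrExt W hϖ hWW Q hmem
  exact not_dvd_differentIdeal_of_prime F hϖ Q hQ0 hQ2

end ValuationRing

end Fermat.Agent.Geo
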