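import Mathlib
import Fermat.Agent.Geo.Ext

set_option autoImplicit false

/-!
# Extensions of a discrete valuation ring and primes of the integral closure
-/

open IsLocalRing Polynomial

namespace Fermat.Agent.Geo

/-- The Prüfer property of Dedekind domains. -/
theorem exists_prufer {B E : Type*} [CommRing B] [IsDedekindDomain B] [Field E] [Algebra B E]
    [IsFractionRing B E] (x : E) : ∃ j₁ j₂ y₁ y₂ : B,
      x * algebraMap B E j₁ = algebraMap B E y₁ ∧ x * algebraMap B E j₂ = algebraMap B E y₂ ∧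
      j₁ + y₂ = 1 := by
  let I : FractionalIdeal (nonZeroDivisors B) E :=
    1 + FractionalIdeal.spanSingleton (nonZeroDivisors B) x
  have hI : I ≠ 0 := by
    intro h0
    have h1 : (1 : E) ∈ I := by
      have : (1 : FractionalIdeal (nonZeroDivisors B) E) ≤ I := le_self_add
      exact this (FractionalIdeal.one_mem_one _)
    rw [h0, FractionalIdeal.mem_zero_iff] at h1
    exact one_ne_zero h1
  have hinv : I * I⁻¹ = 1 := mul_inv_cancel₀ hI
  have h1 : (1 : E) ∈ I⁻¹ + FractionalIdeal.spanSingleton (nonZeroDivisors B) x * I⁻¹ := by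
    have : I⁻¹ + FractionalIdeal.spanSingleton (nonZeroDivisors B) x * I⁻¹ = I * I⁻¹ := by
      change _ = (1 + FractionalIdeal.spanSingleton (nonZeroDivisors B) x) * I⁻¹
      rw [add_mul, one_mul]
    rw [this, hinv]
    exact FractionalIdeal.one_mem_one _
  rw [← FractionalIdeal.mem_coe, FractionalIdeal.coe_add, Submodule.add_eq_sup,
    Submodule.mem_sup] at h1
  obtain ⟨a, ha, b, hb, hab⟩ := h1
  rw [FractionalIdeal.mem_coe] at ha hb
  obtain ⟨c, hc, rfl⟩ := (FractionalIdeal.mem_singleton_mul).mp hb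
  have hmem : ∀ z ∈ I⁻¹, ∃ j y : B, algebraMap B E j = z ∧ x * algebraMap B E j =
      algebraMap B E y := by
    intro z hz
    rw [FractionalIdeal.mem_inv_iff hI] at hz
    have h2 : z * 1 ∈ (1 : FractionalIdeal (nonZeroDivisors B) E) := by
      refine hz 1 ?_
      have : (1 : FractionalIdeal (nonZeroDivisors B) E) ≤ I := le_self_add
      exact this (FractionalIdeal.one_mem_one _)
    have h3 : z * x ∈ (1 : FractionalIdeal (nonZeroDivisors B) E) := by
      refine hz x ?_
      have : FractionalIdeal.spanSingleton (nonZeroDivisors B) x ≤ I := le_add_self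
      exact this (FractionalIdeal.mem_spanSingleton_self _ x)
    rw [mul_one, FractionalIdeal.mem_one_iff] at h2
    rw [FractionalIdeal.mem_one_iff] at h3
    obtain ⟨j, hj⟩ := h2
    obtain ⟨y, hy⟩ := h3
    exact ⟨j, y, hj, by rw [hy, hj, mul_comm]⟩
  obtain ⟨j₁, y₁, hj₁, hy₁⟩ := hmem a ha
  obtain ⟨j₂, y₂, hj₂, hy₂⟩ := hmem c hc
  refine ⟨j₁, j₂, y₁, y₂, hy₁, hy₂, IsFractionRing.injective B E ?_⟩
  rw [map_add, ← hy₂, hj₁, hj₂, hab, map_one]

section

variable {F E : Type*} [Field F] [Field E] [Algebra F E]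
  {V : ValuationSubring F} [IsDiscreteValuationRing V]
  [FiniteDimensional F E] [Algebra.IsSeparable F E]

/-- Elements of an extension of `V` are fractions of integral elements with denominators outside
the centre. -/
theorem exists_intOver_mul {W : ValuationSubring E} (hW : ∀ x ∈ V, algebraMap F E x ∈ W)
    {x : E} (hx : x ∈ W) : ∃ j : E, IntOver V.toSubring j ∧ IntOver V.toSubring (x * j) ∧
      j ∈ W ∧ j ∉ W.nonunits := by
  letI : Algebra V E := ((algebraMap F E).comp V.toSubring.subtype).toAlgebra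
  haveI : IsScalarTower V F E := IsScalarTower.of_algebraMap_eq fun a => rfl
  have hfs : FaithfulSMul V E := faithfulSMul_of_tower F E
  have hded : IsDedekindDomain (integralClosure V E) := integralClosure.isDedekindDomain V F E
  have hfr : IsFractionRing (integralClosure V E) E :=
    integralClosure.isFractionRing_of_finite_extension F E
  have hBW : ∀ b : integralClosure V E, (b : E) ∈ W := fun b =>
    mem_valuationSubring_of_isIntegralElem W ((algebraMap F E).comp V.toSubring.subtype)
      (fun v => hW _ v.2) b.2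
  obtain ⟨j₁, j₂, y₁, y₂, h1, h2, h3⟩ := exists_prufer (B := integralClosure V E) x
  have h1' : x * (j₁ : E) = (y₁ : E) := h1
  have h2' : x * (j₂ : E) = (y₂ : E) := h2
  have h3' : (j₁ : E) + (y₂ : E) = 1 := congrArg Subtype.val h3
  by_cases hj : (j₁ : E) ∈ W.nonunits
  · refine ⟨j₂, j₂.2, ?_, hBW j₂, ?_⟩
    · rw [h2']
      exact y₂.2
    · intro hj2
      obtain ⟨_, hm1⟩ := ValuationSubring.mem_nonunits_iff_exists_mem_maximalIdeal.mp hj
      obtain ⟨_, hm2⟩ := ValuationSubring.mem_nonunits_iff_exists_mem_maximalIdeal.mp hj2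
      have h4 : (1 : W) ∈ maximalIdeal W := by
        have : (1 : W) = ⟨j₁, hBW j₁⟩ + ⟨x, hx⟩ * ⟨j₂, hBW j₂⟩ := by
          apply Subtype.ext
          change (1 : E) = (j₁ : E) + x * j₂
          rw [h2', h3']
        rw [this]
        exact Ideal.add_mem _ hm1 (Ideal.mul_mem_left _ _ hm2)
      exact (Ideal.ne_top_iff_one _).mp (maximalIdeal.isMaximal W).ne_top h4
  · exact ⟨j₁, j₁.2, by rw [h1']; exact y₁.2, hBW j₁, hj⟩

omit [IsDiscreteValuationRing V] [FiniteDimensional F E] [Algebra.IsSeparable F E] in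
theorem mem_of_intOver {W : ValuationSubring E} (hW : ∀ x ∈ V, algebraMap F E x ∈ W) {x : E}
    (hx : IntOver V.toSubring x) : x ∈ W :=
  mem_valuationSubring_of_isIntegralElem W ((algebraMap F E).comp V.toSubring.subtype)
    (fun v => hW _ v.2) hx

omit [Field F] [Algebra F E] [IsDiscreteValuationRing V] [FiniteDimensional F E]
  [Algebra.IsSeparable F E] in
theorem inv_mem_of_notMem_nonunits {W : ValuationSubring E} {j : E}
    (hj' : j ∉ W.nonunits) : j⁻¹ ∈ W := by
  by_contra h
  exact hj' ((W.mem_nonunits_iff_or).mpr (Or.inr h))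

theorem zero_mem_nonunits (W : ValuationSubring E) : (0 : E) ∈ W.nonunits :=
  ValuationSubring.mem_nonunits_iff_exists_mem_maximalIdeal.mpr ⟨zero_mem _, Ideal.zero_mem _⟩

/-- An extension of `V` is determined by its centre on the integral closure. -/
theorem le_of_center_le {W W' : ValuationSubring E} (hW : ∀ x ∈ V, algebraMap F E x ∈ W)
    (hW' : ∀ x ∈ V, algebraMap F E x ∈ W')
    (h : ∀ x, IntOver V.toSubring x → x ∈ W'.nonunits → x ∈ W.nonunits) : W ≤ W' := by
  intro x hx
  obtain ⟨j, hj, hxj, hjW, hjn⟩ := exists_intOver_mul hW hx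
  have hjn' : j ∉ W'.nonunits := fun h1 => hjn (h j hj h1)
  have hj0 : j ≠ 0 := by
    rintro rfl
    exact hjn (zero_mem_nonunits W)
  have hxeq : x = (x * j) * j⁻¹ := by field_simp
  rw [hxeq]
  exact mul_mem (mem_of_intOver hW' hxj) (inv_mem_of_notMem_nonunits hjn')

end

end Fermat.Agent.Geo
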