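import Mathlib
import Fermat.Agent.Geo.Center

set_option autoImplicit false

/-!
# A criterion for unramifiedness: a list of extensions with residue degrees summing up to the
degree
-/

open IsLocalRing Polynomial

namespace Fermat.Agent.Geo

/-- A coefficient of maximal size. -/
theorem exists_max_coeff {F : Type*} [Field F] (V : ValuationSubring F) {ι : Type*} [Fintype ι]
    (c : ι → F) (hc : ∃ i, c i ≠ 0) : ∃ i₀, c i₀ ≠ 0 ∧ ∀ i, (c i₀)⁻¹ * c i ∈ V := by
  obtain ⟨i₁, hi₁⟩ := hc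
  obtain ⟨i₀, -, hmax⟩ := Finset.exists_max_image Finset.univ (fun i => V.valuation (c i))
    ⟨i₁, Finset.mem_univ _⟩
  have h0 : c i₀ ≠ 0 := by
    intro h0
    have h1 := hmax i₁ (Finset.mem_univ _)
    simp only [h0, map_zero] at h1
    exact hi₁ ((map_eq_zero _).mp (le_zero_iff.mp h1))
  refine ⟨i₀, h0, fun i => ?_⟩
  rw [← V.valuation_le_one_iff, map_mul, map_inv₀]
  have h1 := hmax i (Finset.mem_univ _)
  have h2 : V.valuation (c i₀) ≠ 0 := (_root_.map_ne_zero _).mpr h0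
  rw [inv_mul_le_iff₀ (zero_lt_iff.mpr h2), mul_one]
  exact h1

section

variable {F E : Type*} [Field F] [Field E] [Algebra F E]
  {V : ValuationSubring F}

theorem sub_mem_nonunits_iff_quot {W : ValuationSubring E} (hW : ∀ x ∈ V, algebraMap F E x ∈ W)
    {v : F} (hv : v ∈ V) {x : E} (hx : x ∈ W.nonunits) : v • x ∈ W.nonunits := by
  obtain ⟨hxW, hxm⟩ := ValuationSubring.mem_nonunits_iff_exists_mem_maximalIdeal.mp hx
  rw [ValuationSubring.mem_nonunits_iff_exists_mem_maximalIdeal, Algebra.smul_def]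
  exact ⟨mul_mem (hW v hv) hxW, Ideal.mul_mem_left _ ⟨algebraMap F E v, hW v hv⟩ hxm⟩

theorem mul_mem_nonunits {W : ValuationSubring E} {w x : E} (hw : w ∈ W)
    (hx : x ∈ W.nonunits) : w * x ∈ W.nonunits := by
  obtain ⟨hxW, hxm⟩ := ValuationSubring.mem_nonunits_iff_exists_mem_maximalIdeal.mp hx
  rw [ValuationSubring.mem_nonunits_iff_exists_mem_maximalIdeal]
  exact ⟨mul_mem hw hxW, Ideal.mul_mem_left _ ⟨w, hw⟩ hxm⟩

variable [IsDiscreteValuationRing V] [FiniteDimensional F E] [Algebra.IsSeparable F E]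

/-- Elements of the residue field come from the integral closure. -/
theorem exists_intOver_sub_mem_nonunits {ϖ : V} (hϖ : Irreducible ϖ) {W : ValuationSubring E}
    (hW : ∀ x ∈ V, algebraMap F E x ∈ W) (hϖW : algebraMap F E ϖ ∈ W.nonunits)
    {x : E} (hx : x ∈ W) : ∃ b : E, IntOver V.toSubring b ∧ b - x ∈ W.nonunits := by
  obtain ⟨j, hj, hxj, hjW, hjn⟩ := exists_intOver_mul hW hx
  letI : Algebra V E := ((algebraMap F E).comp V.toSubring.subtype).toAlgebra
  haveI : IsScalarTower V F E := IsScalarTower.of_algebraMap_eq fun a => rfl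
  have hfs : FaithfulSMul V E := faithfulSMul_of_tower F E
  have hded : IsDedekindDomain (integralClosure V E) := integralClosure.isDedekindDomain V F E
  obtain ⟨Q, hQ, hQ0, hQl, hmem⟩ := exists_ideal_of_valuationSubring W hϖ hW hϖW
  have hQmax : Q.IsMaximal := hQ.isMaximal hQ0
  have hjQ : (⟨j, hj⟩ : integralClosure V E) ∉ Q := fun h => hjn ((hmem _).mp h)
  obtain ⟨j', q, hq, hjj⟩ := hQmax.exists_inv hjQ
  have hjj' : j * (j' : E) + q = 1 := by
    have := congrArg Subtype.val hjj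
    rw [mul_comm] at this
    exact this
  refine ⟨(x * j) * j', hxj.mul j'.2, ?_⟩
  have h1 : x * j * j' - x = (-x) * q := by linear_combination x * hjj'
  rw [h1]
  exact mul_mem_nonunits (neg_mem hx) ((hmem q).mp hq)

/-- Two different extensions of `V` can be separated by integral elements. -/
theorem exists_separating {ϖ : V} (hϖ : Irreducible ϖ) {ι : Type*} [Fintype ι]
    (W : ι → ValuationSubring E) (hinj : Function.Injective W)
    (hW : ∀ i, ∀ x ∈ V, algebraMap F E x ∈ W i) (hϖW : ∀ i, algebraMap F E ϖ ∈ (W i).nonunits)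
    (x : ι → E) (hx : ∀ i, x i ∈ W i) :
    ∃ b : E, IntOver V.toSubring b ∧ ∀ i, b - x i ∈ (W i).nonunits := by
  letI : Algebra V E := ((algebraMap F E).comp V.toSubring.subtype).toAlgebra
  haveI : IsScalarTower V F E := IsScalarTower.of_algebraMap_eq fun a => rfl
  have hfs : FaithfulSMul V E := faithfulSMul_of_tower F E
  have hded : IsDedekindDomain (integralClosure V E) := integralClosure.isDedekindDomain V F E
  choose Q hQ hQ0 hQl hmem using fun i =>
    exists_ideal_of_valuationSubring (W i) hϖ (hW i) (hϖW i)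
  have hQmax : ∀ i, (Q i).IsMaximal := fun i => (hQ i).isMaximal (hQ0 i)
  have hQne : ∀ i j, i ≠ j → Q i ≠ Q j := by
    intro i j hij hQQ
    apply hij
    apply hinj
    apply le_antisymm
    · apply le_of_center_le (hW i) (hW j)
      intro x hx hxn
      rw [← hmem i ⟨x, hx⟩, hQQ, hmem]
      exact hxn
    · apply le_of_center_le (hW j) (hW i)
      intro x hx hxn
      rw [← hmem j ⟨x, hx⟩, ← hQQ, hmem]
      exact hxn
  have hcop : Pairwise (Function.onFun IsCoprime Q) := by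
    intro i j hij
    exact Ideal.isCoprime_of_isMaximal (hQne i j hij)
  choose b hb hbx using fun i => exists_intOver_sub_mem_nonunits hϖ (hW i) (hϖW i) (hx i)
  obtain ⟨r, hr⟩ := Ideal.exists_forall_sub_mem_ideal hcop
    (fun i => (⟨b i, hb i⟩ : integralClosure V E))
  refine ⟨r, r.2, fun i => ?_⟩
  have h1 : (r : E) - x i = ((r : E) - b i) + (b i - x i) := by ring
  rw [h1]
  exact add_mem ((hmem i _).mp (hr i)) (hbx i)

/-- A basis of `E/F` adapted to the list. -/
theorem list_basis {ϖ : V} (hϖ : Irreducible ϖ) {ι : Type*} [Fintype ι]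
    (W : ι → ValuationSubring E) (hinj : Function.Injective W)
    (hW : ∀ i, ∀ x ∈ V, algebraMap F E x ∈ W i) (hϖW : ∀ i, algebraMap F E ϖ ∈ (W i).nonunits)
    (n : ι → ℕ) (b : ∀ i, Fin (n i) → E) (hb : ∀ i j, b i j ∈ W i)
    (hind : ∀ i, ∀ c : Fin (n i) → F, (∀ j, c j ∈ V) → ∑ j, c j • b i j ∈ (W i).nonunits →
      ∀ j, c j ∈ V.nonunits)
    (hsum : Module.finrank F E ≤ ∑ i, n i) :
    ∃ b' : ∀ i, Fin (n i) → E, (∀ i j, IntOver V.toSubring (b' i j)) ∧
      (∀ i j, b' i j - b i j ∈ (W i).nonunits) ∧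
      (∀ i j i', i' ≠ i → b' i j ∈ (W i').nonunits) ∧
      (∀ c : (Σ i, Fin (n i)) → F, (∀ a, c a ∈ V) →
        (∀ i, ∑ a, c a • b' a.1 a.2 ∈ (W i).nonunits) → ∀ a, c a ∈ V.nonunits) ∧
      ∀ x : E, ∃ c : (Σ i, Fin (n i)) → F, ∑ a, c a • b' a.1 a.2 = x := by
  classical
  -- lift the bases
  have hlift : ∀ i j, ∃ b' : E, IntOver V.toSubring b' ∧ b' - b i j ∈ (W i).nonunits ∧
      ∀ i', i' ≠ i → b' ∈ (W i').nonunits := by
    intro i j
    obtain ⟨r, hr, hri⟩ := exists_separating hϖ W hinj hW hϖW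
      (fun i' => if i' = i then b i j else 0) (fun i' => by
        split_ifs with h
        · subst h
          exact hb i' j
        · exact zero_mem _)
    refine ⟨r, hr, by simpa using hri i, fun i' hi' => ?_⟩
    have := hri i'
    rw [if_neg hi', sub_zero] at this
    exact this
  choose b' hb' hb'1 hb'2 using hlift
  let J := Σ i, Fin (n i)
  let β : J → E := fun a => b' a.1 a.2
  have hcard : Fintype.card J = ∑ i, n i := by
    rw [Fintype.card_sigma]
    simp
  -- the key independence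
  have key : ∀ c : J → F, (∀ a, c a ∈ V) → (∀ i, ∑ a, c a • β a ∈ (W i).nonunits) →
      ∀ a, c a ∈ V.nonunits := by
    rintro c hc hsumc ⟨i, j⟩
    refine hind i (fun j => c ⟨i, j⟩) (fun j => hc _) ?_ j
    have h1 : ∑ a, c a • β a = ∑ i', ∑ j, c ⟨i', j⟩ • b' i' j := by
      rw [← Finset.univ_sigma_univ, Finset.sum_sigma]
    have h2 : ∑ i', ∑ j, c ⟨i', j⟩ • b' i' j = ∑ j, c ⟨i, j⟩ • b' i j +
        ∑ i' ∈ Finset.univ.erase i, ∑ j, c ⟨i', j⟩ • b' i' j :=
      (Finset.add_sum_erase _ _ (Finset.mem_univ i)).symm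
    have h3 : ∑ i' ∈ Finset.univ.erase i, ∑ j, c ⟨i', j⟩ • b' i' j ∈ (W i).nonunits := by
      refine sum_mem fun i' hi' => sum_mem fun j _ => ?_
      exact sub_mem_nonunits_iff_quot (hW i) (hc _) (hb'2 i' j i (Finset.ne_of_mem_erase hi').symm)
    have h4 : ∑ j, c ⟨i, j⟩ • b i j = ∑ a, c a • β a -
        ∑ i' ∈ Finset.univ.erase i, ∑ j, c ⟨i', j⟩ • b' i' j -
        ∑ j, c ⟨i, j⟩ • (b' i j - b i j) := by
      rw [h1, h2]
      simp only [smul_sub, Finset.sum_sub_distrib]
      ring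
    rw [h4]
    refine sub_mem (sub_mem (hsumc i) h3) (sum_mem fun j _ => ?_)
    exact sub_mem_nonunits_iff_quot (hW i) (hc _) (hb'1 i j)
  have hone : (1 : F) ∉ V.nonunits := by
    rw [ValuationSubring.mem_nonunits_iff, map_one]
    exact lt_irrefl _
  have hli : LinearIndependent F β := by
    rw [Fintype.linearIndependent_iff]
    intro c hc
    by_contra hne
    push Not at hne
    obtain ⟨a₀, ha₀, hmax⟩ := exists_max_coeff V c hne
    have h1 := key (fun a => (c a₀)⁻¹ * c a) hmax (fun i => by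
      have h2 : ∑ a, ((c a₀)⁻¹ * c a) • β a = 0 := by
        simp only [mul_smul]
        rw [← Finset.smul_sum, hc, smul_zero]
      rw [h2]
      exact zero_mem_nonunits _) a₀
    rw [inv_mul_cancel₀ ha₀] at h1
    exact hone h1
  have hJcard : Fintype.card J = Module.finrank F E :=
    le_antisymm hli.fintype_card_le_finrank (by rw [hcard]; exact hsum)
  have hspan : Submodule.span F (Set.range β) = ⊤ := by
    by_cases hJ : Nonempty J
    · exact hli.span_eq_top_of_card_eq_finrank hJcard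
    · exfalso
      have : Fintype.card J = 0 := by
        rw [not_nonempty_iff] at hJ
        exact Fintype.card_eq_zero
      rw [this] at hJcard
      exact (Module.finrank_pos (R := F) (M := E)).ne hJcard
  refine ⟨b', hb', hb'1, fun i j i' hi' => hb'2 i j i' hi', key, fun x => ?_⟩
  have hx1 : x ∈ Submodule.span F (Set.range β) := by rw [hspan]; trivial
  exact (Submodule.mem_span_range_iff_exists_fun F).mp hx1

/-- The main step: the list is complete and every element in all the centres is divisible by the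
uniformiser. -/
theorem exists_of_list {ϖ : V} (hϖ : Irreducible ϖ) {ι : Type*} [Fintype ι]
    (W : ι → ValuationSubring E) (hinj : Function.Injective W)
    (hW : ∀ i, ∀ x ∈ V, algebraMap F E x ∈ W i) (hϖW : ∀ i, algebraMap F E ϖ ∈ (W i).nonunits)
    (n : ι → ℕ) (b : ∀ i, Fin (n i) → E) (hb : ∀ i j, b i j ∈ W i)
    (hind : ∀ i, ∀ c : Fin (n i) → F, (∀ j, c j ∈ V) → ∑ j, c j • b i j ∈ (W i).nonunits →
      ∀ j, c j ∈ V.nonunits)
    (hsum : Module.finrank F E ≤ ∑ i, n i) {x : E}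
    (hxi : ∀ i, x ∈ (W i).nonunits) : ∃ y, IntOver V.toSubring y ∧ x = (ϖ : F) • y := by
  classical
  obtain ⟨b', hb', hb'1, hb'2, key, hspan⟩ := list_basis hϖ W hinj hW hϖW n b hb hind hsum
  have hone : (1 : F) ∉ V.nonunits := by
    rw [ValuationSubring.mem_nonunits_iff, map_one]
    exact lt_irrefl _
  obtain ⟨c, hc⟩ := hspan x
  have hcn : ∀ a, c a ∈ V.nonunits := by
    by_contra hne
    push Not at hne
    obtain ⟨a₁, ha₁⟩ := hne
    have hc1 : c a₁ ≠ 0 := fun h0 => ha₁ (by rw [h0]; exact zero_mem_nonunits V)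
    obtain ⟨a₀, ha₀, hmax⟩ := exists_max_coeff V c ⟨a₁, hc1⟩
    have hinv : (c a₀)⁻¹ ∈ V := by
      have h2 : (c a₁)⁻¹ ∈ V := inv_mem_of_notMem_nonunits ha₁
      have h3 : (c a₀)⁻¹ = ((c a₀)⁻¹ * c a₁) * (c a₁)⁻¹ := by field_simp
      rw [h3]
      exact mul_mem (hmax a₁) h2
    have h1 := key (fun a => (c a₀)⁻¹ * c a) hmax (fun i => by
      have h2 : ∑ a, ((c a₀)⁻¹ * c a) • b' a.1 a.2 = (c a₀)⁻¹ • x := by
        simp only [mul_smul]
        rw [← Finset.smul_sum, hc]
      rw [h2]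
      exact sub_mem_nonunits_iff_quot (hW i) hinv (hxi i)) a₀
    rw [inv_mul_cancel₀ ha₀] at h1
    exact hone h1
  have hdiv : ∀ a, ∃ v ∈ V, c a = ϖ * v := by
    intro a
    obtain ⟨hV, hm⟩ := ValuationSubring.mem_nonunits_iff_exists_mem_maximalIdeal.mp (hcn a)
    rw [hϖ.maximalIdeal_eq, Ideal.mem_span_singleton] at hm
    obtain ⟨v, hv⟩ := hm
    exact ⟨v, v.2, congrArg Subtype.val hv⟩
  choose v hv hcv using hdiv
  refine ⟨∑ a, v a • b' a.1 a.2, ?_, ?_⟩
  · have : ∀ s : Finset (Σ i, Fin (n i)), IntOver V.toSubring (∑ a ∈ s, v a • b' a.1 a.2) := by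
      intro s
      induction s using Finset.induction_on with
      | empty =>
        rw [Finset.sum_empty]
        have := intOver_algebraMap (E := E) (V := V.toSubring) (zero_mem V.toSubring)
        rwa [map_zero] at this
      | insert a s ha ih =>
        rw [Finset.sum_insert ha]
        exact ((hb' a.1 a.2).smul (hv a)).add ih
    exact this _
  · rw [← hc, Finset.smul_sum]
    refine Finset.sum_congr rfl fun a _ => ?_
    rw [hcv a, mul_smul]

/-- The residue field of `W i` is spanned by the given elements. -/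
theorem list_residue {ϖ : V} (hϖ : Irreducible ϖ) {ι : Type*} [Fintype ι]
    (W : ι → ValuationSubring E) (hinj : Function.Injective W)
    (hW : ∀ i, ∀ x ∈ V, algebraMap F E x ∈ W i) (hϖW : ∀ i, algebraMap F E ϖ ∈ (W i).nonunits)
    (n : ι → ℕ) (b : ∀ i, Fin (n i) → E) (hb : ∀ i j, b i j ∈ W i)
    (hind : ∀ i, ∀ c : Fin (n i) → F, (∀ j, c j ∈ V) → ∑ j, c j • b i j ∈ (W i).nonunits →
      ∀ j, c j ∈ V.nonunits)
    (hsum : Module.finrank F E ≤ ∑ i, n i) (i : ι) {x : E} (hx : x ∈ W i) :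
    ∃ c : Fin (n i) → F, (∀ j, c j ∈ V) ∧ x - ∑ j, c j • b i j ∈ (W i).nonunits := by
  classical
  obtain ⟨b', hb', hb'1, hb'2, key, hspan⟩ := list_basis hϖ W hinj hW hϖW n b hb hind hsum
  have hone : (1 : F) ∉ V.nonunits := by
    rw [ValuationSubring.mem_nonunits_iff, map_one]
    exact lt_irrefl _
  obtain ⟨y, hy, hyx⟩ := exists_intOver_sub_mem_nonunits hϖ (hW i) (hϖW i) hx
  obtain ⟨c, hc⟩ := hspan y
  have hcV : ∀ a, c a ∈ V := by
    by_contra hne
    push Not at hne
    obtain ⟨a₁, ha₁⟩ := hne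
    have hc1 : c a₁ ≠ 0 := fun h0 => ha₁ (by rw [h0]; exact zero_mem V)
    obtain ⟨a₀, ha₀, hmax⟩ := exists_max_coeff V c ⟨a₁, hc1⟩
    have hinv : (c a₀)⁻¹ ∈ V.nonunits := by
      have h2 : (c a₁)⁻¹ ∈ V.nonunits := V.inv_mem_nonunits_iff.mpr (Or.inr ha₁)
      have h3 : (c a₀)⁻¹ = ((c a₀)⁻¹ * c a₁) * (c a₁)⁻¹ := by field_simp
      rw [h3]
      exact mul_mem_nonunits (hmax a₁) h2
    obtain ⟨hinvV, hinvm⟩ := ValuationSubring.mem_nonunits_iff_exists_mem_maximalIdeal.mp hinv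
    have h1 := key (fun a => (c a₀)⁻¹ * c a) hmax (fun i' => by
      have h2 : ∑ a, ((c a₀)⁻¹ * c a) • b' a.1 a.2 = (c a₀)⁻¹ • y := by
        simp only [mul_smul]
        rw [← Finset.smul_sum, hc]
      rw [h2, Algebra.smul_def, mul_comm]
      refine mul_mem_nonunits (mem_of_intOver (hW i') hy) ?_
      rw [hϖ.maximalIdeal_eq, Ideal.mem_span_singleton] at hinvm
      obtain ⟨v, hv⟩ := hinvm
      have h3 : (c a₀)⁻¹ = (ϖ : F) * v := congrArg Subtype.val hv
      rw [h3, map_mul, mul_comm]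
      exact mul_mem_nonunits (hW i' _ v.2) (hϖW i')) a₀
    rw [inv_mul_cancel₀ ha₀] at h1
    exact hone h1
  refine ⟨fun j => c ⟨i, j⟩, fun j => hcV _, ?_⟩
  have h1 : ∑ a, c a • b' a.1 a.2 = ∑ i', ∑ j, c ⟨i', j⟩ • b' i' j := by
    rw [← Finset.univ_sigma_univ, Finset.sum_sigma]
  have h2 : ∑ i', ∑ j, c ⟨i', j⟩ • b' i' j = ∑ j, c ⟨i, j⟩ • b' i j +
      ∑ i' ∈ Finset.univ.erase i, ∑ j, c ⟨i', j⟩ • b' i' j :=
    (Finset.add_sum_erase _ _ (Finset.mem_univ i)).symm
  have h3 : ∑ i' ∈ Finset.univ.erase i, ∑ j, c ⟨i', j⟩ • b' i' j ∈ (W i).nonunits := by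
    refine sum_mem fun i' hi' => sum_mem fun j _ => ?_
    exact sub_mem_nonunits_iff_quot (hW i) (hcV _) (hb'2 i' j i (Finset.ne_of_mem_erase hi').symm)
  have h4 : x - ∑ j, c ⟨i, j⟩ • b i j = (∑ i' ∈ Finset.univ.erase i, ∑ j, c ⟨i', j⟩ • b' i' j) +
      ∑ j, c ⟨i, j⟩ • (b' i j - b i j) - (y - x) := by
    rw [← hc, h1, h2]
    simp only [smul_sub, Finset.sum_sub_distrib]
    ring
  rw [h4]
  exact sub_mem (add_mem h3 (sum_mem fun j _ =>
    sub_mem_nonunits_iff_quot (hW i) (hcV _) (hb'1 i j))) hyx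

/-- **List criterion.**  Let `W i` be distinct extensions of `V` with `n i` elements independent
over the residue field of `V` in the residue field of `W i`, `∑ n i ≥ [E:F]`.  Then these are
all the extensions of `V`, and the uniformiser of `V` is a uniformiser of `W i`. -/
theorem list_complete {ϖ : V} (hϖ : Irreducible ϖ) {ι : Type*} [Fintype ι]
    (W : ι → ValuationSubring E) (hinj : Function.Injective W)
    (hW : ∀ i, ∀ x ∈ V, algebraMap F E x ∈ W i) (hϖW : ∀ i, algebraMap F E ϖ ∈ (W i).nonunits)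
    (n : ι → ℕ) (b : ∀ i, Fin (n i) → E) (hb : ∀ i j, b i j ∈ W i)
    (hind : ∀ i, ∀ c : Fin (n i) → F, (∀ j, c j ∈ V) → ∑ j, c j • b i j ∈ (W i).nonunits →
      ∀ j, c j ∈ V.nonunits)
    (hsum : Module.finrank F E ≤ ∑ i, n i) (W' : ValuationSubring E)
    (hW' : ∀ x ∈ V, algebraMap F E x ∈ W') (hϖW' : algebraMap F E ϖ ∈ W'.nonunits) :
    ∃ i, W' = W i := by
  classical
  letI : Algebra V E := ((algebraMap F E).comp V.toSubring.subtype).toAlgebra
  haveI : IsScalarTower V F E := IsScalarTower.of_algebraMap_eq fun a => rfl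
  have hfs : FaithfulSMul V E := faithfulSMul_of_tower F E
  have hded : IsDedekindDomain (integralClosure V E) := integralClosure.isDedekindDomain V F E
  choose Q hQ hQ0 hQl hmem using fun i =>
    exists_ideal_of_valuationSubring (W i) hϖ (hW i) (hϖW i)
  obtain ⟨Q', hQ', hQ'0, hQ'l, hmem'⟩ := exists_ideal_of_valuationSubring W' hϖ hW' hϖW'
  have hQmax : ∀ i, (Q i).IsMaximal := fun i => (hQ i).isMaximal (hQ0 i)
  have hQ'max : Q'.IsMaximal := hQ'.isMaximal hQ'0
  obtain ⟨i, hi⟩ : ∃ i, Q i ≤ Q' := by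
    by_contra hne
    push Not at hne
    have h1 : ∀ i, ∃ q ∈ Q i, q ∉ Q' := fun i => Set.not_subset.mp (hne i)
    choose q hq hqn using h1
    have h2 : ∏ i, q i ∉ Q' := by
      rw [hQ'.prod_mem_iff]
      rintro ⟨i, -, hi⟩
      exact hqn i hi
    obtain ⟨y, hy, hxy⟩ := exists_of_list hϖ W hinj hW hϖW n b hb hind hsum
      (x := ((∏ i, q i : integralClosure V E) : E)) (fun i => (hmem i _).mp
        (Ideal.mem_of_dvd _ (Finset.dvd_prod_of_mem q (Finset.mem_univ i)) (hq i)))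
    apply h2
    rw [hmem', hxy]
    rw [Algebra.smul_def, mul_comm]
    exact mul_mem_nonunits (mem_of_intOver hW' hy) hϖW'
  have hQQ : Q i = Q' := (hQmax i).eq_of_le hQ'.ne_top hi
  refine ⟨i, le_antisymm ?_ ?_⟩
  · apply le_of_center_le hW' (hW i)
    intro x hx hxn
    rw [← hmem' ⟨x, hx⟩, ← hQQ, hmem]
    exact hxn
  · apply le_of_center_le (hW i) hW'
    intro x hx hxn
    rw [← hmem i ⟨x, hx⟩, hQQ, hmem']
    exact hxn

/-- The uniformiser of `V` is a uniformiser of all the members of a complete list. -/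
theorem list_unif {ϖ : V} (hϖ : Irreducible ϖ) {ι : Type*} [Fintype ι]
    (W : ι → ValuationSubring E) (hinj : Function.Injective W)
    (hW : ∀ i, ∀ x ∈ V, algebraMap F E x ∈ W i) (hϖW : ∀ i, algebraMap F E ϖ ∈ (W i).nonunits)
    (n : ι → ℕ) (b : ∀ i, Fin (n i) → E) (hb : ∀ i j, b i j ∈ W i)
    (hind : ∀ i, ∀ c : Fin (n i) → F, (∀ j, c j ∈ V) → ∑ j, c j • b i j ∈ (W i).nonunits →
      ∀ j, c j ∈ V.nonunits)
    (hsum : Module.finrank F E ≤ ∑ i, n i) (i : ι) {x : E} (hx : x ∈ (W i).nonunits) :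
    ∃ y ∈ W i, x = (ϖ : F) • y := by
  classical
  have hxW : x ∈ W i := ValuationSubring.nonunits_subset hx
  obtain ⟨j, hj, hxj, hjW, hjn⟩ := exists_intOver_mul (hW i) hxW
  -- multiply by an element which is a unit at `W i` and lies in all other centres
  obtain ⟨u, hu, hui⟩ := exists_separating hϖ W hinj hW hϖW
    (fun i' => if i' = i then 1 else 0) (fun i' => by
      split_ifs
      · exact one_mem _
      · exact zero_mem _)
  have hu1 : u - 1 ∈ (W i).nonunits := by simpa using hui i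
  obtain ⟨y, hy, hxy⟩ := exists_of_list hϖ W hinj hW hϖW n b hb hind hsum
    (x := u * (x * j)) (fun i' => by
      by_cases h : i' = i
      · subst h
        rw [mul_comm x j]
        exact mul_mem_nonunits (mem_of_intOver (hW i') hu) (mul_mem_nonunits hjW hx)
      · have h1 := hui i'
        rw [if_neg h, sub_zero] at h1
        rw [mul_comm]
        exact mul_mem_nonunits (mem_of_intOver (hW i') hxj) h1)
  have hun : u ∉ (W i).nonunits := by
    intro h
    have h1 : (1 : E) ∈ (W i).nonunits := by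
      have : (1 : E) = u - (u - 1) := by ring
      rw [this]
      exact sub_mem h hu1
    rw [ValuationSubring.mem_nonunits_iff, map_one] at h1
    exact lt_irrefl _ h1
  have hu0 : u ≠ 0 := fun h0 => hun (by rw [h0]; exact zero_mem_nonunits _)
  have hj0 : j ≠ 0 := fun h0 => hjn (by rw [h0]; exact zero_mem_nonunits _)
  refine ⟨u⁻¹ * (j⁻¹ * y), mul_mem (inv_mem_of_notMem_nonunits hun)
    (mul_mem (inv_mem_of_notMem_nonunits hjn) (mem_of_intOver (hW i) hy)), ?_⟩
  rw [Algebra.smul_def] at hxy ⊢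
  have h1 : algebraMap F E ϖ * (u⁻¹ * (j⁻¹ * y)) = u⁻¹ * (j⁻¹ * (algebraMap F E ϖ * y)) := by ring
  rw [h1, ← hxy]
  field_simp

/-- Unramifiedness from a complete list of extensions with separable residue extensions. -/
theorem unr_of_list {ϖ : V} (hϖ : Irreducible ϖ) {ι : Type*} [Fintype ι]
    (W : ι → ValuationSubring E) (hinj : Function.Injective W)
    (hW : ∀ i, ∀ x ∈ V, algebraMap F E x ∈ W i) (hϖW : ∀ i, algebraMap F E ϖ ∈ (W i).nonunits)
    (hsep : ∀ i, ∀ x ∈ W i, ∃ g : Polynomial V, (g.map (IsLocalRing.residue V)).Separable ∧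
      g.eval₂ ((algebraMap F E).comp V.toSubring.subtype) x ∈ (W i).nonunits)
    (n : ι → ℕ) (b : ∀ i, Fin (n i) → E) (hb : ∀ i j, b i j ∈ W i)
    (hind : ∀ i, ∀ c : Fin (n i) → F, (∀ j, c j ∈ V) → ∑ j, c j • b i j ∈ (W i).nonunits →
      ∀ j, c j ∈ V.nonunits)
    (hsum : Module.finrank F E ≤ ∑ i, n i) : Unr V.toSubring E := by
  apply unr_of_forall_isUnrExt hϖ
  intro W' hW' hϖW'
  obtain ⟨i, rfl⟩ := list_complete hϖ W hinj hW hϖW n b hb hind hsum W' hW' hϖW'
  exact ⟨hW', hϖW', fun x hx => list_unif hϖ W hinj hW hϖW n b hb hind hsum i hx, hsep i⟩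

end

end Fermat.Agent.Geo
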