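import Mathlib
import Fermat.Agent.Geo.Center

set_option autoImplicit false

/-!
# Rational function fields over a discrete valuation ring, Gauss valuation, charts
-/

open IsLocalRing Polynomial

universe u

namespace Fermat.Agent.Geo

section Tame

variable {A F E : Type*} [CommRing A] [IsDomain A] [UniqueFactorizationMonoid A]
  [Field F] [Algebra A F] [IsFractionRing A F] [Field E] [Algebra F E]
  [FiniteDimensional F E] [Algebra.IsSeparable F E]

/-- Tameness at primes of residue characteristic zero. -/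
theorem tameAt_of_charZero {s : A} (hs : Prime s) (h : ∀ n : ℕ, n ≠ 0 → ¬ s ∣ (n : A)) :
    TameAt (primeVal F hs).toSubring (algebraMap A F s) E := by
  let R := primeVal F hs
  haveI : IsDiscreteValuationRing R := isDiscreteValuationRing_primeVal hs
  letI : Algebra R E := ((algebraMap F E).comp R.toSubring.subtype).toAlgebra
  haveI : IsScalarTower R F E := IsScalarTower.of_algebraMap_eq fun a => rfl
  have hunit : ∀ n : ℕ, n ≠ 0 → IsUnit (n : R) := by
    intro n hn
    refine IsUnit.of_mul_eq_one ⟨(algebraMap A F n)⁻¹, inv_mem_primeVal hs (h n hn)⟩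
      (Subtype.ext ?_)
    have h1 : algebraMap A F n ≠ 0 := algebraMap_ne_zero_of_not_dvd (h n hn)
    change ((n : R) : F) * (algebraMap A F n)⁻¹ = 1
    have h2 : ((n : R) : F) = algebraMap A F n := by
      rw [map_natCast]
      exact map_natCast R.toSubring.subtype n
    rw [h2, mul_inv_cancel₀ h1]
  have hch : CharZero (R ⧸ maximalIdeal R) := by
    refine ⟨fun m n hmn => ?_⟩
    by_contra hne
    rcases lt_or_gt_of_ne hne with hlt | hlt
    · have h1 := hunit (n - m) (by omega)
      have h2 : ((n - m : ℕ) : R) ∈ maximalIdeal R := by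
        rw [← Ideal.Quotient.eq_zero_iff_mem, map_natCast, Nat.cast_sub hlt.le, hmn, sub_self]
      exact (mem_nonunits_iff.mp ((mem_maximalIdeal _).mp h2)) h1
    · have h1 := hunit (m - n) (by omega)
      have h2 : ((m - n : ℕ) : R) ∈ maximalIdeal R := by
        rw [← Ideal.Quotient.eq_zero_iff_mem, map_natCast, Nat.cast_sub hlt.le, hmn, sub_self]
      exact (mem_nonunits_iff.mp ((mem_maximalIdeal _).mp h2)) h1
  intro x hx
  refine isIntegral_of_trace_radical (R := R) (F := F) (irreducible_unif hs) ?_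
  intro j y N hN hj hy hjN
  obtain ⟨v, hv, hv'⟩ := hx j y N hN hj hy (by
    rw [hjN, Algebra.smul_def, Algebra.smul_def]
    rfl)
  exact ⟨⟨v, hv⟩, hv'⟩

end Tame

section Param

variable {O F : Type*} [CommRing O] [Field F] [Algebra O F]

/-- `F` is the fraction field of the polynomial ring `O[t]`. -/
structure IsParam (O : Type*) {F : Type*} [CommRing O] [Field F] [Algebra O F] (t : F) :
    Prop where
  inj : Function.Injective (aeval t : O[X] →ₐ[O] F)
  surj : ∀ y : F, ∃ P Q : O[X], Q ≠ 0 ∧ y * aeval t Q = aeval t P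

variable (O) in
/-- The algebra structure on `F` over `O[X]` given by `t`. -/
noncomputable abbrev polyAlg (t : F) : Algebra O[X] F :=
  ((aeval t : O[X] →ₐ[O] F) : O[X] →+* F).toAlgebra

namespace IsParam

variable {t : F}

theorem ne_zero [Nontrivial O] (ht : IsParam O t) : t ≠ 0 := by
  rintro rfl
  have h1 : aeval (0 : F) (X : O[X]) = aeval 0 (0 : O[X]) := by rw [aeval_X, map_zero]
  exact X_ne_zero (ht.inj h1)

theorem isFractionRing [IsDomain O] (ht : IsParam O t) :
    @IsFractionRing O[X] _ F _ (polyAlg O t) := by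
  letI := polyAlg O t
  have hinj : Function.Injective (algebraMap O[X] F) := ht.inj
  refine ⟨⟨fun s => ?_, fun y => ?_, fun {x y} h => ⟨1, by rw [hinj h]⟩⟩⟩
  · rw [isUnit_iff_ne_zero]
    intro h0
    exact nonZeroDivisors.ne_zero s.2 (hinj (by rw [h0, map_zero]))
  · obtain ⟨P, Q, hQ, h⟩ := ht.surj y
    exact ⟨⟨P, ⟨Q, mem_nonZeroDivisors_of_ne_zero hQ⟩⟩, h⟩

theorem inv [Nontrivial O] (ht : IsParam O t) : IsParam O t⁻¹ := by
  have ht0 := ht.ne_zero
  refine ⟨?_, fun y => ?_⟩
  · rw [injective_iff_map_eq_zero]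
    intro P hP
    obtain ⟨P', hP'⟩ := exists_aeval_inv (u := t⁻¹) (k := P.natDegree) (inv_ne_zero ht0) P le_rfl
    rw [hP, mul_zero, inv_inv] at hP'
    have h1 : aeval t (reflect P.natDegree P) = 0 := by
      let := invertibleOfNonzero (inv_ne_zero ht0)
      have h := eval₂_reflect_mul_pow (algebraMap O F) t⁻¹ P.natDegree P le_rfl
      rw [invOf_eq_inv, inv_inv] at h
      rw [aeval_def] at hP ⊢
      rw [hP] at h
      exact (mul_eq_zero.mp h).resolve_right (pow_ne_zero _ (inv_ne_zero ht0))
    have h2 : reflect P.natDegree P = 0 := ht.inj (by rw [h1, map_zero])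
    rwa [reflect_eq_zero_iff] at h2
  · obtain ⟨P, Q, hQ, h⟩ := ht.surj y
    let N := max P.natDegree Q.natDegree
    refine ⟨reflect N P, reflect N Q, fun h0 => hQ (reflect_eq_zero_iff.mp h0), ?_⟩
    let := invertibleOfNonzero ht0
    have hP := eval₂_reflect_mul_pow (algebraMap O F) t N P (le_max_left _ _)
    have hQ := eval₂_reflect_mul_pow (algebraMap O F) t N Q (le_max_right _ _)
    rw [invOf_eq_inv] at hP hQ
    rw [aeval_def, aeval_def] at h ⊢
    rw [← hP, ← hQ, ← mul_assoc] at h
    exact mul_right_cancel₀ (pow_ne_zero N ht0) h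

end IsParam

variable [IsDomain O] [UniqueFactorizationMonoid O] {t : F}

/-- The valuation ring of `F` attached to a prime polynomial. -/
noncomputable def placeVal (ht : IsParam O t) {p : O[X]} (hp : Prime p) : ValuationSubring F :=
  letI := polyAlg O t
  haveI := ht.isFractionRing
  primeVal F hp

theorem mem_placeVal_iff (ht : IsParam O t) {p : O[X]} (hp : Prime p) {y : F} :
    y ∈ placeVal ht hp ↔ ∃ s a : O[X], ¬ p ∣ s ∧ aeval t s * y = aeval t a := Iff.rfl

/-- The Gauss valuation ring. -/
noncomputable def gaussVal (ht : IsParam O t) {π : O} (hπ : Prime π) : ValuationSubring F :=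
  placeVal ht (prime_C_iff.mpr hπ)

theorem C_dvd_reflect_iff {π : O} {N : ℕ} {Q : O[X]} (hQ : Q.natDegree ≤ N) :
    C π ∣ reflect N Q ↔ C π ∣ Q := by
  rw [C_dvd_iff_dvd_coeff, C_dvd_iff_dvd_coeff]
  constructor
  · intro h i
    by_cases hi : i ≤ N
    · have := h (revAt N i)
      rwa [coeff_reflect, revAt_invol] at this
    · rw [coeff_eq_zero_of_natDegree_lt (by omega)]
      exact dvd_zero _
  · intro h i
    rw [coeff_reflect]
    exact h _

theorem gaussVal_le_inv (ht : IsParam O t) (ht' : IsParam O t⁻¹) {π : O} (hπ : Prime π) :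
    gaussVal ht hπ ≤ gaussVal ht' hπ := by
  intro y hy
  obtain ⟨s, a, hs, h⟩ := (mem_placeVal_iff ht _).mp hy
  have ht0 := ht.ne_zero
  let N := max a.natDegree s.natDegree
  refine (mem_placeVal_iff ht' _).mpr ⟨reflect N s, reflect N a, ?_, ?_⟩
  · rwa [C_dvd_reflect_iff (le_max_right _ _)]
  · let := invertibleOfNonzero ht0
    have hP := eval₂_reflect_mul_pow (algebraMap O F) t N a (le_max_left _ _)
    have hQ := eval₂_reflect_mul_pow (algebraMap O F) t N s (le_max_right _ _)
    rw [invOf_eq_inv] at hP hQ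
    rw [aeval_def, aeval_def] at h ⊢
    rw [← hP, ← hQ] at h
    apply mul_right_cancel₀ (pow_ne_zero N ht0)
    rw [← h]
    ring

/-- The Gauss valuation does not depend on the chart. -/
theorem gaussVal_inv (ht : IsParam O t) (ht' : IsParam O t⁻¹) {π : O} (hπ : Prime π) :
    gaussVal ht' hπ = gaussVal ht hπ := by
  apply le_antisymm
  · have ht'' : IsParam O t⁻¹⁻¹ := by rw [inv_inv]; exact ht
    have h := gaussVal_le_inv ht' ht'' hπ
    have h2 : ∀ (s : F) (hs : IsParam O s), s = t → gaussVal hs hπ = gaussVal ht hπ := by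
      rintro s hs rfl
      rfl
    rwa [h2 _ ht'' (inv_inv t)] at h
  · exact gaussVal_le_inv ht ht' hπ

end Param

section Reflect

variable {O : Type*} [CommRing O] [IsDomain O]

theorem reflect_reflect' (N : ℕ) (f : O[X]) : reflect N (reflect N f) = f := by
  ext i
  rw [coeff_reflect, coeff_reflect, revAt_invol]

theorem natDegree_reflect_le' {N : ℕ} {f : O[X]} (hf : f.natDegree ≤ N) :
    (reflect N f).natDegree ≤ N := by
  rw [natDegree_le_iff_coeff_eq_zero]
  intro i hi
  rw [coeff_reflect, revAt_eq_self_of_lt hi]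
  exact coeff_eq_zero_of_natDegree_lt (lt_of_le_of_lt hf hi)

theorem natDegree_reflect_natDegree {p : O[X]} (hp0 : p.coeff 0 ≠ 0) :
    (reflect p.natDegree p).natDegree = p.natDegree := by
  apply le_antisymm (natDegree_reflect_le' le_rfl)
  apply le_natDegree_of_ne_zero
  rw [coeff_reflect, revAt_le le_rfl, Nat.sub_self]
  exact hp0

/-- divisibility and reflection -/
theorem dvd_of_dvd_reflect {p q a : O[X]} {N : ℕ} (hq : q = reflect p.natDegree p)
    (hdeg : q.natDegree = p.natDegree) (ha : a.natDegree ≤ N) (h : q ∣ reflect N a) :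
    p ∣ a := by
  obtain ⟨g, hg⟩ := h
  by_cases hz : reflect N a = 0
  · rw [reflect_eq_zero_iff.mp hz]
    exact dvd_zero _
  have hq0 : q ≠ 0 := by rintro rfl; exact hz (by rw [hg, zero_mul])
  have hg0 : g ≠ 0 := by rintro rfl; exact hz (by rw [hg, mul_zero])
  have h1 : q.natDegree + g.natDegree ≤ N := by
    rw [← natDegree_mul hq0 hg0, ← hg]
    exact natDegree_reflect_le' ha
  have h2 : N = p.natDegree + (N - p.natDegree) := by omega
  have h3 : a = reflect N (q * g) := by rw [← hg, reflect_reflect']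
  rw [h3, h2, reflect_mul q g hdeg.le (by omega), hq, reflect_reflect']
  exact dvd_mul_right _ _

theorem dvd_reflect_of_dvd {p q a : O[X]} {N : ℕ} (hq : q = reflect p.natDegree p)
    (hdeg : q.natDegree = p.natDegree) (ha : a.natDegree ≤ N) (h : p ∣ a) : q ∣ reflect N a := by
  apply dvd_of_dvd_reflect (p := q) (q := p) (N := N) (by rw [hdeg, hq, reflect_reflect']) hdeg.symm
    (natDegree_reflect_le' ha)
  rwa [reflect_reflect']

theorem prime_reflect {p : O[X]} (hp : Prime p) (hp0 : p.coeff 0 ≠ 0) :
    Prime (reflect p.natDegree p) := by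
  have hdeg := natDegree_reflect_natDegree hp0
  refine ⟨fun h => hp.ne_zero (reflect_eq_zero_iff.mp h), fun h => ?_, fun a b hab => ?_⟩
  · have h1 : p.natDegree = 0 := by
      rw [← hdeg]
      exact natDegree_eq_zero_of_isUnit h
    rw [h1] at h
    have h2 : reflect 0 p = p := by
      rw [eq_C_of_natDegree_eq_zero h1]
      simp
    rw [h2] at h
    exact hp.not_isUnit h
  · by_cases ha : a = 0
    · left; rw [ha]; exact dvd_zero _
    by_cases hb : b = 0
    · right; rw [hb]; exact dvd_zero _
    have h1 : p ∣ reflect (a.natDegree + b.natDegree) (a * b) := by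
      apply dvd_of_dvd_reflect rfl hdeg (natDegree_reflect_le' ?_)
      · rwa [reflect_reflect']
      · exact natDegree_mul_le
    rw [reflect_mul a b le_rfl le_rfl] at h1
    rcases hp.dvd_or_dvd h1 with h2 | h2
    · left
      have := dvd_reflect_of_dvd rfl hdeg (natDegree_reflect_le' le_rfl) h2
      rwa [reflect_reflect'] at this
    · right
      have := dvd_reflect_of_dvd rfl hdeg (natDegree_reflect_le' le_rfl) h2
      rwa [reflect_reflect'] at this

variable {F : Type*} [Field F] [Algebra O F] [UniqueFactorizationMonoid O] {t : F}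

theorem placeVal_inv_le (ht : IsParam O t) (ht' : IsParam O t⁻¹) {p q : O[X]} (hp : Prime p)
    (hq : Prime q) (hpq : q = reflect p.natDegree p) (hdeg : q.natDegree = p.natDegree) :
    placeVal ht hp ≤ placeVal ht' hq := by
  intro y hy
  obtain ⟨s, a, hs, h⟩ := (mem_placeVal_iff ht _).mp hy
  have ht0 := ht.ne_zero
  let N := max a.natDegree s.natDegree
  refine (mem_placeVal_iff ht' _).mpr ⟨reflect N s, reflect N a, ?_, ?_⟩
  · exact fun h1 => hs (dvd_of_dvd_reflect hpq hdeg (le_max_right _ _) h1)
  · let := invertibleOfNonzero ht0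
    have hP := eval₂_reflect_mul_pow (algebraMap O F) t N a (le_max_left _ _)
    have hQ := eval₂_reflect_mul_pow (algebraMap O F) t N s (le_max_right _ _)
    rw [invOf_eq_inv] at hP hQ
    rw [aeval_def, aeval_def] at h ⊢
    rw [← hP, ← hQ] at h
    apply mul_right_cancel₀ (pow_ne_zero N ht0)
    rw [← h]
    ring

/-- Places in the other chart. -/
theorem placeVal_inv (ht : IsParam O t) (ht' : IsParam O t⁻¹) {p q : O[X]} (hp : Prime p)
    (hq : Prime q) (hpq : q = reflect p.natDegree p) (hdeg : q.natDegree = p.natDegree) :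
    placeVal ht hp = placeVal ht' hq := by
  apply le_antisymm
  · exact placeVal_inv_le ht ht' hp hq hpq hdeg
  · have ht'' : IsParam O t⁻¹⁻¹ := by rw [inv_inv]; exact ht
    have h := placeVal_inv_le ht' ht'' hq hp (by rw [hdeg, hpq, reflect_reflect']) hdeg.symm
    have h2 : ∀ (s : F) (hs : IsParam O s), s = t → placeVal hs hp = placeVal ht hp := by
      rintro s hs rfl
      rfl
    rwa [h2 _ ht'' (inv_inv t)] at h

end Reflect

end Fermat.Agent.Geo
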