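import Mathlib
import Fermat.Agent.Geo.Param

set_option autoImplicit false

/-!
# Good reduction: the special fibre of the integral closure is normal
-/

open IsLocalRing Polynomial

universe u

namespace Fermat.Agent.Geo

section MaxIdeals

variable {O : Type*} [CommRing O] [IsDomain O] [IsDiscreteValuationRing O] {π : O}

theorem eq_span_of_X_sub_C_mem (hπ : Irreducible π) {y : Ideal O[X]} (hy : y ≠ ⊤)
    (hπy : C π ∈ y) {c : O} (hc : X - C c ∈ y) : y = Ideal.span {C π, X - C c} := by
  apply le_antisymm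
  · intro f hf
    obtain ⟨g, hg⟩ := sub_dvd_eval_sub X (C c) (f.map C)
    have h1 : eval X (f.map C) = f := by
      rw [eval_map, eval₂_C_X]
    have h2 : eval (C c) (f.map C) = C (f.eval c) := by
      rw [eval_map, eval₂_at_apply]
    rw [h1, h2] at hg
    have h3 : C (f.eval c) ∈ y := by
      have : C (f.eval c) = f - (X - C c) * g := by rw [← hg]; ring
      rw [this]
      exact sub_mem hf (Ideal.mul_mem_right _ _ hc)
    have h4 : f.eval c ∈ maximalIdeal O := by
      rw [mem_maximalIdeal, mem_nonunits_iff]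
      intro hu
      exact hy (Ideal.eq_top_of_isUnit_mem _ h3 (hu.map C))
    rw [hπ.maximalIdeal_eq, Ideal.mem_span_singleton] at h4
    obtain ⟨d, hd⟩ := h4
    rw [Ideal.mem_span_pair]
    refine ⟨C d, g, ?_⟩
    have : f = C (f.eval c) + (X - C c) * g := by rw [← hg]; ring
    rw [this, hd, C_mul]
    ring
  · rw [Ideal.span_le]
    intro f hf
    simp only [Set.mem_insert_iff, Set.mem_singleton_iff] at hf
    rcases hf with rfl | rfl
    · exact hπy
    · exact hc

theorem exists_eq_span_of_isMaximal (hπ : Irreducible π) {y : Ideal O[X]} (hy : y.IsMaximal)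
    (hπy : C π ∈ y) : ∃ s : O[X], s.Monic ∧ Prime s ∧ y = Ideal.span {C π, s} := by
  let φ : O[X] →+* (O ⧸ maximalIdeal O)[X] := mapRingHom (Ideal.Quotient.mk _)
  have hφ : Function.Surjective φ := map_surjective _ Ideal.Quotient.mk_surjective
  letI : Field (O ⧸ maximalIdeal O) := Ideal.Quotient.field _
  have hker : RingHom.ker φ = Ideal.span {C π} := by
    ext f
    rw [RingHom.mem_ker, Ideal.mem_span_singleton, C_dvd_iff_dvd_coeff]
    constructor
    · intro h i
      have h1 := congrArg (fun q => q.coeff i) h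
      simp only [φ, coe_mapRingHom, coeff_map, coeff_zero] at h1
      rw [Ideal.Quotient.eq_zero_iff_mem, hπ.maximalIdeal_eq, Ideal.mem_span_singleton] at h1
      exact h1
    · intro h
      ext i
      simp only [φ, coe_mapRingHom, coeff_map, coeff_zero]
      rw [Ideal.Quotient.eq_zero_iff_mem, hπ.maximalIdeal_eq, Ideal.mem_span_singleton]
      exact h i
  have hkle : RingHom.ker φ ≤ y := by
    rw [hker, Ideal.span_singleton_le_iff_mem]
    exact hπy
  have hcomap : (y.map φ).comap φ = y := by
    rw [Ideal.comap_map_of_surjective' φ hφ]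
    exact sup_eq_left.mpr hkle
  have hyne : y.map φ ≠ ⊤ := by
    intro h
    apply hy.ne_top
    rw [← hcomap, h, Ideal.comap_top]
  have hprime : (y.map φ).IsPrime := Ideal.map_isPrime_of_surjective hφ hkle
  obtain ⟨g, hg⟩ : ∃ g, y.map φ = Ideal.span {g} := by
    have := IsPrincipalIdealRing.principal (y.map φ)
    exact ⟨_, (Ideal.span_singleton_generator _).symm⟩
  have hg0 : g ≠ 0 := by
    rintro rfl
    have h1 : y = RingHom.ker φ := by
      rw [← hcomap, hg, Ideal.span_singleton_eq_bot.mpr rfl]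
      rfl
    have hX : X ∉ y := by
      rw [h1, RingHom.mem_ker]
      simp only [φ, coe_mapRingHom, map_X]
      exact X_ne_zero
    obtain ⟨a, m, hm, ham⟩ := hy.exists_inv hX
    rw [h1, RingHom.mem_ker] at hm
    have h2 := congrArg φ ham
    rw [map_add, hm, add_zero, map_mul, map_one] at h2
    have h3 : IsUnit (X : (O ⧸ maximalIdeal O)[X]) := by
      refine IsUnit.of_mul_eq_one (φ a) ?_
      rw [mul_comm]
      simpa [φ] using h2
    exact not_isUnit_X h3
  -- a monic generator
  let g' : (O ⧸ maximalIdeal O)[X] := C (g.leadingCoeff)⁻¹ * g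
  have hg'm : g'.Monic := by
    have := monic_mul_leadingCoeff_inv hg0
    rwa [mul_comm] at this
  have hlc : g.leadingCoeff ≠ 0 := leadingCoeff_ne_zero.mpr hg0
  have hg' : y.map φ = Ideal.span {g'} := by
    rw [hg]
    apply (Ideal.span_singleton_mul_left_unit ?_ g).symm
    exact (isUnit_C.mpr (isUnit_iff_ne_zero.mpr (inv_ne_zero hlc)))
  have hg'p : Prime g' := by
    rw [hg'] at hprime
    exact (Ideal.span_singleton_prime hg'm.ne_zero).mp hprime
  obtain ⟨s, hs, -, hsm⟩ := lifts_and_natDegree_eq_and_monic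
    ((mem_lifts _).mpr (map_surjective _ Ideal.Quotient.mk_surjective g')) hg'm
  have hsirr : Irreducible s := by
    refine hsm.irreducible_of_irreducible_map (Ideal.Quotient.mk (maximalIdeal O)) s ?_
    rw [hs]
    exact hg'p.irreducible
  refine ⟨s, hsm, hsirr.prime, ?_⟩
  have h1 : y = Ideal.comap φ (Ideal.map φ (Ideal.span {s})) := by
    rw [Ideal.map_span, Set.image_singleton]
    have : φ s = g' := hs
    rw [this, ← hg', hcomap]
  rw [h1, Ideal.comap_map_of_surjective' φ hφ, hker, ← Ideal.span_union, Set.union_comm]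
  rfl

end MaxIdeals

section Chart

variable {O F E : Type u} [CommRing O] [IsDomain O] [IsDiscreteValuationRing O]
  [Field F] [Field E] [Algebra O F] [Algebra O E] [Algebra F E] [IsScalarTower O F E]
  {t : F} {π : O}

/-- `x` is integral over `O[t]` modulo `π` times the integral closure of the Gauss ring. -/
def RedIntP (ht : IsParam O t) (hπ : Prime π) (x : E) : Prop :=
  ∃ p : O[X][X], p.Monic ∧ ∃ w : E, IntOver (gaussVal ht hπ).toSubring w ∧
    p.eval₂ ((aeval (algebraMap F E t) : O[X] →ₐ[O] E) : O[X] →+* E) x = π • w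

theorem redIntP_of_idempotent (ht : IsParam O t) (hπ : Prime π) {x w : E}
    (hw : IntOver (gaussVal ht hπ).toSubring w) (h : x * x - x = π • w) :
    RedIntP ht hπ x := by
  refine ⟨X ^ 2 - X, ?_, w, hw, ?_⟩
  · have : (X ^ 2 - X : O[X][X]) = X ^ 2 + (-X) := by ring
    rw [this]
    apply monic_X_pow_add
    rw [degree_neg, degree_X]
    norm_num
  · rw [eval₂_sub, eval₂_X_pow, eval₂_X, ← h]
    ring

/-- integral elements satisfy the condition -/
theorem IntOver.smul_gauss {ht : IsParam O t} {hπ : Prime π} {w : E}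
    (hw : IntOver (gaussVal ht hπ).toSubring w) (q : O[X]) :
    IntOver (gaussVal ht hπ).toSubring (aeval (algebraMap F E t) q * w) := by
  have h1 : aeval t q ∈ gaussVal ht hπ :=
    (mem_placeVal_iff ht _).mpr ⟨1, q, (prime_C_iff.mpr hπ).not_dvd_one, by
      rw [map_one, one_mul]⟩
  have h2 := hw.smul h1
  rwa [Algebra.smul_def, ← aeval_algebraMap_apply] at h2

variable [FiniteDimensional F E] [Algebra.IsSeparable F E]

/-- The local statement at a closed point, in terms of parameters. -/
theorem exists_aeval_mul_eq (ht : IsParam O t) (hπ : Prime π) {s : O[X]} (hs : Prime s)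
    (hns : ∀ n : ℕ, n ≠ 0 → ¬ s ∣ (n : O[X])) (hπs : ¬ C π ∣ s)
    (y : Ideal O[X]) [y.IsPrime] (hy : y = Ideal.span {C π, s})
    (hunr : ∀ p : O[X], ∀ hp : Prime p, p ∈ y → ¬ p ∣ s → Unr (placeVal ht hp).toSubring E)
    {x : E} (hx : RedIntP ht hπ x) :
    ∃ c : O[X], c ∉ y ∧ ∃ b ∈ chart O (algebraMap F E t), ∃ w : E,
      IntOver (gaussVal ht hπ).toSubring w ∧
      aeval (algebraMap F E t) c * x = b + π • w := by
  letI := polyAlg O t
  haveI := ht.isFractionRing
  letI : Algebra O[X] E := ((aeval (algebraMap F E t) : O[X] →ₐ[O] E) : O[X] →+* E).toAlgebra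
  haveI : IsScalarTower O[X] F E := IsScalarTower.of_algebraMap_eq fun a =>
    aeval_algebraMap_apply E t a
  have hπ' : Prime (C π : O[X]) := prime_C_iff.mpr hπ
  have hCsmul : ∀ w : E, (C π : O[X]) • w = π • w := by
    intro w
    rw [Algebra.smul_def, Algebra.smul_def]
    congr 1
    exact aeval_C _ _
  have hx' : RedInt F hπ' x := by
    obtain ⟨p, hp, w, hw, h⟩ := hx
    exact ⟨p, hp, w, hw, by rw [hCsmul]; exact h⟩
  obtain ⟨c, hc, b, w, hb, hw, h⟩ := exists_smul_eq_of_redInt (F := F) hπ' hs hπs y hy hunr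
    (tameAt_of_charZero hs hns) hx'
  refine ⟨c, hc, b, hb, w, hw, ?_⟩
  rw [hCsmul, Algebra.smul_def] at h
  exact h

/-- The ideal of denominators. -/
noncomputable def denIdeal (ht : IsParam O t) (hπ : Prime π) (x : E) : Ideal O[X] where
  carrier := {c | ∃ b ∈ chart O (algebraMap F E t), ∃ w : E,
    IntOver (gaussVal ht hπ).toSubring w ∧ aeval (algebraMap F E t) c * x = b + π • w}
  add_mem' := by
    rintro c d ⟨b, hb, w, hw, h⟩ ⟨b', hb', w', hw', h'⟩
    refine ⟨b + b', add_mem hb hb', w + w', hw.add hw', ?_⟩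
    rw [map_add, add_mul, h, h', smul_add]
    ring
  zero_mem' := ⟨0, zero_mem _, 0, by
    have := intOver_algebraMap (E := E) (V := (gaussVal ht hπ).toSubring) (zero_mem _)
    rwa [map_zero] at this, by rw [map_zero, zero_mul, smul_zero, add_zero]⟩
  smul_mem' := by
    rintro q c ⟨b, hb, w, hw, h⟩
    refine ⟨aeval (algebraMap F E t) q * b, mul_mem (aeval_mem_chart _ q) hb,
      aeval (algebraMap F E t) q * w, hw.smul_gauss q, ?_⟩
    rw [smul_eq_mul, map_mul, mul_assoc, h, mul_add, mul_smul_comm]

/-- `x` itself is integral over the Gauss ring. -/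
theorem RedIntP.intOver {ht : IsParam O t} {hπ : Prime π} {x : E} (hx : RedIntP ht hπ x) :
    IntOver (gaussVal ht hπ).toSubring x := by
  letI := polyAlg O t
  haveI := ht.isFractionRing
  letI : Algebra O[X] E := ((aeval (algebraMap F E t) : O[X] →ₐ[O] E) : O[X] →+* E).toAlgebra
  haveI : IsScalarTower O[X] F E := IsScalarTower.of_algebraMap_eq fun a =>
    aeval_algebraMap_apply E t a
  have hπ' : Prime (C π : O[X]) := prime_C_iff.mpr hπ
  have hCsmul : ∀ w : E, (C π : O[X]) • w = π • w := by
    intro w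
    rw [Algebra.smul_def, Algebra.smul_def]
    congr 1
    exact aeval_C _ _
  have hx' : RedInt F hπ' x := by
    obtain ⟨p, hp, w, hw, h⟩ := hx
    exact ⟨p, hp, w, hw, by rw [hCsmul]; exact h⟩
  exact hx'.intOver (fun a => algebraMap_mem_primeVal hπ' a)
    (fun v hv => mul_mem (algebraMap_mem_primeVal hπ' _) hv)

theorem C_mem_denIdeal (ht : IsParam O t) (hπ : Prime π) {x : E}
    (hx : IntOver (gaussVal ht hπ).toSubring x) : C π ∈ denIdeal ht hπ x := by
  refine ⟨0, zero_mem _, x, hx, ?_⟩
  rw [aeval_C, zero_add, Algebra.smul_def]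

/-- The hypotheses of the good reduction theorem: `E` is unramified over the Gauss valuation and
outside the places `t = c` (`c ∈ S`) and `t = ∞`, the elements of `S` being distinct modulo the
maximal ideal. -/
structure GoodRed (ht : IsParam O t) (hπ : Prime π) (S : Set O) (E : Type*) [Field E]
    [Algebra F E] : Prop where
  gauss : Unr (gaussVal ht hπ).toSubring E
  place : ∀ p : O[X], ∀ hp : Prime p, ¬ C π ∣ p → (∀ c ∈ S, ¬ p ∣ X - C c) →
    Unr (placeVal ht hp).toSubring E
  sep : ∀ c ∈ S, ∀ c' ∈ S, c ≠ c' → IsUnit (c - c')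

theorem placeVal_congr (ht : IsParam O t) {p q : O[X]} (hp : Prime p) (hq : Prime q)
    (h : Associated p q) : placeVal ht hp = placeVal ht hq := by
  ext y
  rw [mem_placeVal_iff, mem_placeVal_iff]
  constructor
  · rintro ⟨s, a, hs, hy⟩
    exact ⟨s, a, fun h1 => hs (h.dvd.trans h1), hy⟩
  · rintro ⟨s, a, hs, hy⟩
    exact ⟨s, a, fun h1 => hs (h.symm.dvd.trans h1), hy⟩

theorem not_monic_dvd_natCast [CharZero O] {s : O[X]} (hs : s.Monic) (hsp : Prime s) {n : ℕ}
    (hn : n ≠ 0) : ¬ s ∣ (n : O[X]) := by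
  intro h
  have h1 : (n : O[X]) ≠ 0 := by exact_mod_cast hn
  have h2 : s.natDegree ≤ (n : O[X]).natDegree := natDegree_le_of_dvd h h1
  rw [natDegree_natCast] at h2
  have h3 : s = 1 := hs.natDegree_eq_zero.mp (Nat.le_zero.mp h2)
  exact hsp.not_isUnit (by rw [h3]; exact isUnit_one)

theorem not_C_dvd_monic {s : O[X]} (hs : s.Monic) (hπ : Prime π) : ¬ C π ∣ s := by
  intro h
  rw [C_dvd_iff_dvd_coeff] at h
  have h1 := h s.natDegree
  rw [hs.coeff_natDegree] at h1
  exact hπ.not_isUnit (isUnit_of_dvd_one h1)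

/-- **Normality of the special fibre** in the chart `t`. -/
theorem GoodRed.exists_of_redIntP [CharZero O] {ht : IsParam O t} {hπ : Prime π} {S : Set O}
    (hE : GoodRed ht hπ S E) {x : E} (hx : RedIntP ht hπ x) :
    ∃ b ∈ chart O (algebraMap F E t), ∃ w : E,
      IntOver (gaussVal ht hπ).toSubring w ∧ x = b + π • w := by
  have htop : denIdeal ht hπ x = ⊤ := by
    by_contra hne
    obtain ⟨y, hy, hle⟩ := Ideal.exists_le_maximal _ hne
    have hCy : C π ∈ y := hle (C_mem_denIdeal ht hπ hx.intOver)
    have hyp : y.IsPrime := hy.isPrime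
    -- choose the second parameter
    obtain ⟨s, hsm, hsp, hys, hsS⟩ : ∃ s : O[X], s.Monic ∧ Prime s ∧ y = Ideal.span {C π, s} ∧
        ∀ c ∈ S, X - C c ∈ y → s = X - C c := by
      by_cases h : ∃ c ∈ S, X - C c ∈ y
      · obtain ⟨c, hc, hcy⟩ := h
        refine ⟨X - C c, monic_X_sub_C c, prime_X_sub_C c,
          eq_span_of_X_sub_C_mem hπ.irreducible hy.ne_top hCy hcy, ?_⟩
        intro c' hc' hc'y
        by_contra hne'
        have hcc : c ≠ c' := fun h => hne' (by rw [h])
        have h1 : C (c' - c) ∈ y := by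
          have : (C (c' - c) : O[X]) = (X - C c) - (X - C c') := by
            rw [C_sub]; ring
          rw [this]
          exact sub_mem hcy hc'y
        exact hy.ne_top (Ideal.eq_top_of_isUnit_mem _ h1
          ((hE.sep c' hc' c hc (Ne.symm hcc)).map C))
      · push Not at h
        obtain ⟨s, hsm, hsp, hys⟩ := exists_eq_span_of_isMaximal hπ.irreducible hy hCy
        exact ⟨s, hsm, hsp, hys, fun c hc hcy => absurd hcy (h c hc)⟩
    have hunr : ∀ p : O[X], ∀ hp : Prime p, p ∈ y → ¬ p ∣ s → Unr (placeVal ht hp).toSubring E := by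
      intro p hp hpy hps
      by_cases hpπ : C π ∣ p
      · have hass : Associated (C π) p :=
          (prime_C_iff.mpr hπ).associated_of_dvd hp hpπ
        have := placeVal_congr ht (prime_C_iff.mpr hπ) hp hass
        rw [← this]
        exact hE.gauss
      · apply hE.place p hp hpπ
        intro c hc hpc
        have hcy : X - C c ∈ y := y.mem_of_dvd hpc hpy
        rw [hsS c hc hcy] at hps
        exact hps hpc
    obtain ⟨c, hcy, hcx⟩ := exists_aeval_mul_eq ht hπ hsp
      (fun n hn => not_monic_dvd_natCast hsm hsp hn) (not_C_dvd_monic hsm hπ) y hys hunr hx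
    exact hcy (hle hcx)
  obtain ⟨b, hb, w, hw, h⟩ : (1 : O[X]) ∈ denIdeal ht hπ x := by rw [htop]; trivial
  refine ⟨b, hb, w, hw, ?_⟩
  rw [map_one, one_mul] at h
  exact h

/-- **Normality of the special fibre** in the chart `t⁻¹`, for elements regular in the chart
`t`. -/
theorem GoodRed.exists_of_redIntP_inv [CharZero O] {ht : IsParam O t} {ht' : IsParam O t⁻¹}
    {hπ : Prime π} {S : Set O} (hE : GoodRed ht hπ S E) {x : E} (hx : RedIntP ht' hπ x)
    {b w : E} (hb : b ∈ chart O (algebraMap F E t)) (hw : IntOver (gaussVal ht hπ).toSubring w)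
    (hxb : x = b + π • w) :
    ∃ b ∈ chart O (algebraMap F E t)⁻¹, ∃ w : E,
      IntOver (gaussVal ht hπ).toSubring w ∧ x = b + π • w := by
  have ht0 : algebraMap F E t ≠ 0 := by
    rw [Ne, map_eq_zero]
    exact ht.ne_zero
  have hinv : algebraMap F E t⁻¹ = (algebraMap F E t)⁻¹ := map_inv₀ _ _
  have hgg : gaussVal ht' hπ = gaussVal ht hπ := gaussVal_inv ht ht' hπ
  -- powers of `X` are denominators
  obtain ⟨m, hm⟩ := exists_pow_mul_mem ht0 hb
  have hXm : (X : O[X]) ^ m ∈ denIdeal ht' hπ x := by
    refine ⟨(algebraMap F E t)⁻¹ ^ m * b, ?_, (algebraMap F E t⁻¹) ^ m * w, ?_, ?_⟩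
    · rw [hinv]
      exact hm
    · rw [hgg.symm] at hw
      have := hw.smul_gauss (X ^ m)
      rwa [map_pow, aeval_X] at this
    · rw [map_pow, aeval_X, hxb, hinv, mul_add, mul_smul_comm]
  have htop : denIdeal ht' hπ x = ⊤ := by
    by_contra hne
    obtain ⟨y, hy, hle⟩ := Ideal.exists_le_maximal _ hne
    have hCy : C π ∈ y := hle (C_mem_denIdeal ht' hπ hx.intOver)
    have hyp : y.IsPrime := hy.isPrime
    have hXy : (X : O[X]) ∈ y := hyp.mem_of_pow_mem m (hle hXm)
    have hys : y = Ideal.span {C π, X} := by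
      have hX0 : (X : O[X]) - C 0 ∈ y := by rw [C_0, sub_zero]; exact hXy
      have := eq_span_of_X_sub_C_mem hπ.irreducible hy.ne_top hCy hX0
      rwa [C_0, sub_zero] at this
    have hunr : ∀ p : O[X], ∀ hp : Prime p, p ∈ y → ¬ p ∣ X → Unr (placeVal ht' hp).toSubring E := by
      intro p hp hpy hpX
      by_cases hpπ : C π ∣ p
      · have hass : Associated (C π) p :=
          (prime_C_iff.mpr hπ).associated_of_dvd hp hpπ
        rw [← placeVal_congr ht' (prime_C_iff.mpr hπ) hp hass]
        change Unr (gaussVal ht' hπ).toSubring E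
        rw [hgg]
        exact hE.gauss
      · have hp0 : p.coeff 0 ≠ 0 := by
          intro h0
          have h1 : (X : O[X]) ∣ p := X_dvd_iff.mpr h0
          exact hpX ((prime_X.associated_of_dvd hp h1).symm.dvd)
        have hq := prime_reflect hp hp0
        have hdeg := natDegree_reflect_natDegree hp0
        have hpl : placeVal ht hq = placeVal ht' hp :=
          placeVal_inv ht ht' hq hp (by rw [hdeg, reflect_reflect']) hdeg.symm
        rw [← hpl]
        apply hE.place _ hq
        · rw [C_dvd_reflect_iff le_rfl]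
          exact hpπ
        · intro c hc hqc
          -- `p` would divide `1 - c X`
          have h1 : p ∣ reflect 1 (X - C c) := by
            apply dvd_of_dvd_reflect rfl hdeg
              (natDegree_reflect_le' (by rw [natDegree_X_sub_C]))
            rwa [reflect_reflect']
          have h2 : reflect 1 (X - C c) = 1 - C c * X := by
            rw [reflect_sub, reflect_C, pow_one]
            have := reflect_monomial (R := O) 1 1
            rw [pow_one] at this
            rw [this, revAt_le le_rfl, Nat.sub_self, pow_zero]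
          rw [h2] at h1
          have h3 : (1 : O[X]) ∈ y := by
            have : (1 : O[X]) = (1 - C c * X) + C c * X := by ring
            rw [this]
            exact add_mem (y.mem_of_dvd h1 hpy) (Ideal.mul_mem_left _ _ hXy)
          exact (Ideal.ne_top_iff_one _).mp hy.ne_top h3
    obtain ⟨c, hcy, hcx⟩ := exists_aeval_mul_eq ht' hπ prime_X
      (fun n hn => not_monic_dvd_natCast monic_X prime_X hn) (not_C_dvd_monic monic_X hπ)
      y hys hunr hx
    exact hcy (hle hcx)
  obtain ⟨b', hb', w', hw', h⟩ : (1 : O[X]) ∈ denIdeal ht' hπ x := by rw [htop]; trivial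
  refine ⟨b', by rwa [hinv] at hb', w', by rwa [hgg] at hw', ?_⟩
  rw [map_one, one_mul] at h
  exact h

end Chart

end Fermat.Agent.Geo
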