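import Mathlib
import Fermat.Agent.Geo.Special
import Fermat.Agent.Geo.ListUnr

set_option autoImplicit false

/-!
# Good reduction and uniqueness of the extension of the Gauss valuation
-/

open IsLocalRing Polynomial

universe u

namespace Fermat.Agent.Geo

section Basic

variable {O F E : Type u} [CommRing O] [IsDomain O] [IsDiscreteValuationRing O]
  [Field F] [Field E] [Algebra O F] [Algebra O E] [Algebra F E] [IsScalarTower O F E]
  {t : F} {π : O}

/-- An element of the chart divisible by `π` in the integral closure of the Gauss ring is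
divisible by `π` in the chart. -/
theorem mem_chart_of_smul_mem (ht : IsParam O t) (hπ : Prime π) {w : E}
    (hw : IntOver (gaussVal ht hπ).toSubring w) (h : π • w ∈ chart O (algebraMap F E t)) :
    w ∈ chart O (algebraMap F E t) := by
  letI := polyAlg O t
  haveI := ht.isFractionRing
  letI : Algebra O[X] E := ((aeval (algebraMap F E t) : O[X] →ₐ[O] E) : O[X] →+* E).toAlgebra
  haveI : IsScalarTower O[X] F E := IsScalarTower.of_algebraMap_eq fun a =>
    aeval_algebraMap_apply E t a
  have hπ' : Prime (C π : O[X]) := prime_C_iff.mpr hπ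
  obtain ⟨s, hs, hsw⟩ := (intOver_primeVal_iff (F := F) hπ').mp hw
  have h1 : IsIntegral O[X] ((C π : O[X]) • w) := by
    have h2 : (C π : O[X]) • w = π • w := by
      rw [Algebra.smul_def, Algebra.smul_def]
      congr 1
      exact aeval_C _ _
    rw [h2]
    exact h
  exact isIntegral_of_smul_of_smul F (a := (C π : O[X])) (b := s) (fun p hp hpπ hps =>
    hs ((hp.associated_of_dvd hπ' hpπ).symm.dvd.trans hps)) hπ'.ne_zero h1 hsw

theorem mem_overlap_of_smul_mem (ht : IsParam O t) (hπ : Prime π) {w : E}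
    (hw : IntOver (gaussVal ht hπ).toSubring w) (h : π • w ∈ overlap O (algebraMap F E t)) :
    w ∈ overlap O (algebraMap F E t) := by
  obtain ⟨m, hm⟩ := h
  refine ⟨m, ?_⟩
  apply mem_chart_of_smul_mem ht hπ
  · have := hw.smul_gauss (X ^ m)
    rwa [map_pow, aeval_X] at this
  · rw [mul_smul_comm] at hm
    exact hm

theorem intOver_of_mem_chart (ht : IsParam O t) (hπ : Prime π) {x : E}
    (hx : x ∈ chart O (algebraMap F E t)) : IntOver (gaussVal ht hπ).toSubring x := by
  letI := polyAlg O t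
  haveI := ht.isFractionRing
  letI : Algebra O[X] E := ((aeval (algebraMap F E t) : O[X] →ₐ[O] E) : O[X] →+* E).toAlgebra
  haveI : IsScalarTower O[X] F E := IsScalarTower.of_algebraMap_eq fun a =>
    aeval_algebraMap_apply E t a
  exact intOver_of_isIntegral (A := O[X]) (F := F)
    (fun a => algebraMap_mem_primeVal (prime_C_iff.mpr hπ) a) hx

/-- The chart is finite over `O[t]`. -/
theorem exists_finset_chart (ht : IsParam O t) [FiniteDimensional F E]
    [Algebra.IsSeparable F E] :
    ∃ S : Finset E, (∀ b ∈ S, b ∈ chart O (algebraMap F E t)) ∧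
      ∀ x ∈ chart O (algebraMap F E t), ∃ p : E → O[X],
        x = ∑ b ∈ S, aeval (algebraMap F E t) (p b) * b := by
  classical
  letI := polyAlg O t
  haveI := ht.isFractionRing
  letI : Algebra O[X] E := ((aeval (algebraMap F E t) : O[X] →ₐ[O] E) : O[X] →+* E).toAlgebra
  haveI : IsScalarTower O[X] F E := IsScalarTower.of_algebraMap_eq fun a =>
    aeval_algebraMap_apply E t a
  have hfin : Module.Finite O[X] (integralClosure O[X] E) :=
    IsIntegralClosure.finite O[X] F E (integralClosure O[X] E)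
  obtain ⟨S, hS⟩ := hfin
  refine ⟨S.image Subtype.val, ?_, fun x hx => ?_⟩
  · intro b hb
    obtain ⟨b, -, rfl⟩ := Finset.mem_image.mp hb
    exact b.2
  · have h1 : (⟨x, hx⟩ : integralClosure O[X] E) ∈
        Submodule.span O[X] (S : Set (integralClosure O[X] E)) := by
      rw [hS]; trivial
    obtain ⟨f, -, hf⟩ := Submodule.mem_span_finset.mp h1
    have h2 : x = ∑ b ∈ S, f b • (b : E) := by
      have := congrArg Subtype.val hf
      rw [AddSubmonoidClass.coe_finsetSum] at this
      exact this.symm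
    refine ⟨fun b => if h : b ∈ integralClosure O[X] E then f ⟨b, h⟩ else 0, ?_⟩
    rw [Finset.sum_image (fun a _ b _ h => Subtype.ext h), h2]
    refine Finset.sum_congr rfl fun b _ => ?_
    beta_reduce
    rw [dif_pos b.2, Algebra.smul_def]
    rfl

theorem isDiscreteValuationRing_gaussVal (ht : IsParam O t) (hπ : Prime π) :
    IsDiscreteValuationRing (gaussVal ht hπ) := by
  letI := polyAlg O t
  haveI := ht.isFractionRing
  exact isDiscreteValuationRing_primeVal (prime_C_iff.mpr hπ)

/-- `π` is a uniformiser of the Gauss valuation ring. -/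
theorem exists_gauss_unif (ht : IsParam O t) (hπ : Prime π) :
    ∃ ϖ : gaussVal ht hπ, Irreducible ϖ ∧ (ϖ : F) = algebraMap O F π := by
  letI := polyAlg O t
  haveI := ht.isFractionRing
  exact ⟨unif F (prime_C_iff.mpr hπ), irreducible_unif _, aeval_C _ _⟩

/-- Elements of the integral closure whose power is divisible by a uniformiser are divisible by
the uniformiser, in the unramified case. -/
theorem Unr.exists_of_pow {V : ValuationSubring F} [IsDiscreteValuationRing V]
    [FiniteDimensional F E] [Algebra.IsSeparable F E] (hV : Unr V.toSubring E)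
    {ϖ : V} (hϖ : Irreducible ϖ) {x y : E} {N : ℕ} (hN : 0 < N)
    (hy : IntOver V.toSubring y) (h : x ^ N = (ϖ : F) • y) :
    ∃ w, IntOver V.toSubring w ∧ x = (ϖ : F) • w := by
  letI : Algebra V E := ((algebraMap F E).comp V.toSubring.subtype).toAlgebra
  haveI : IsScalarTower V F E := IsScalarTower.of_algebraMap_eq fun a => rfl
  have hϖ0 : (ϖ : F) ≠ 0 := fun h0 => hϖ.ne_zero (Subtype.ext h0)
  refine ⟨(ϖ : F)⁻¹ • x, ?_, by rw [smul_smul, mul_inv_cancel₀ hϖ0, one_smul]⟩
  apply hV
  intro b hb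
  have h1 : (x * b) ^ N = ϖ • (y * b ^ N) := by
    rw [mul_pow, h, smul_mul_assoc, Algebra.smul_def, Algebra.smul_def]
    rfl
  obtain ⟨v, hv, hv'⟩ := trace_mem_of_pow (V := V) (F := F) hN
    (by rw [hϖ.maximalIdeal_eq]; exact Ideal.mem_span_singleton_self ϖ) (hy.mul (hb.pow N)) h1
  rw [hϖ.maximalIdeal_eq, Ideal.mem_span_singleton] at hv
  obtain ⟨v', rfl⟩ := hv
  rw [smul_mul_assoc, map_smul, hv', smul_eq_mul]
  have h2 : algebraMap V F (ϖ * v') = (ϖ : F) * v' := rfl
  rw [h2, inv_mul_cancel_left₀ hϖ0]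
  exact v'.2

end Basic

section Main

variable {O F E : Type u} [CommRing O] [IsDomain O] [IsDiscreteValuationRing O]
  [Field F] [Field E] [Algebra O F] [Algebra O E] [Algebra F E] [IsScalarTower O F E]
  {t : F} {π : O} [FiniteDimensional F E] [Algebra.IsSeparable F E] [CharZero O]

/-- **Good reduction.**  If `E` is unramified over the Gauss valuation of `K(t)` and outside
`t = ∞` and the places `t = c` with `c ∈ S`, where the elements of `S ⊂ O` are distinct modulo the
maximal ideal, and if the base ring is algebraically closed in `E`, then the Gauss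
valuation has a unique extension to `E`. -/
theorem GoodRed.unique {ht : IsParam O t} {hπ : Prime π} {S : Set O} (hE : GoodRed ht hπ S E)
    (hinj : Function.Injective (algebraMap O E))
    (hO : ∀ x : E, IsIntegral O x → ∃ o : O, algebraMap O E o = x)
    (W₁ W₂ : ValuationSubring E)
    (hW₁ : ∀ x ∈ gaussVal ht hπ, algebraMap F E x ∈ W₁) (hπW₁ : algebraMap O E π ∈ W₁.nonunits)
    (hW₂ : ∀ x ∈ gaussVal ht hπ, algebraMap F E x ∈ W₂) (hπW₂ : algebraMap O E π ∈ W₂.nonunits) :
    W₁ = W₂ := by
  classical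
  by_contra hne
  let V := gaussVal ht hπ
  haveI : IsDiscreteValuationRing V := isDiscreteValuationRing_gaussVal ht hπ
  obtain ⟨ϖ, hϖ, hϖπ⟩ := exists_gauss_unif ht hπ
  have hϖE : algebraMap F E ϖ = algebraMap O E π := by
    rw [hϖπ, ← IsScalarTower.algebraMap_apply]
  have hϖsmul : ∀ y : E, (ϖ : F) • y = π • y := fun y => by
    rw [hϖπ, algebraMap_smul]
  -- the prime ideals above the uniformiser
  letI : Algebra V E := ((algebraMap F E).comp V.toSubring.subtype).toAlgebra
  haveI : IsScalarTower V F E := IsScalarTower.of_algebraMap_eq fun a => rfl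
  have hfs : FaithfulSMul V E := faithfulSMul_of_tower F E
  have hded : IsDedekindDomain (integralClosure V E) := integralClosure.isDedekindDomain V F E
  obtain ⟨Q₁, hQ₁, hQ₁0, hQ₁l, hmem₁⟩ := exists_ideal_of_valuationSubring W₁ hϖ hW₁
    (by rw [hϖE]; exact hπW₁)
  obtain ⟨Q₂, hQ₂, hQ₂0, hQ₂l, hmem₂⟩ := exists_ideal_of_valuationSubring W₂ hϖ hW₂
    (by rw [hϖE]; exact hπW₂)
  have hQmax₁ : Q₁.IsMaximal := hQ₁.isMaximal hQ₁0
  have hQmax₂ : Q₂.IsMaximal := hQ₂.isMaximal hQ₂0
  have hQne : Q₁ ≠ Q₂ := by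
    intro hQQ
    apply hne
    apply le_antisymm
    · apply le_of_center_le hW₁ hW₂
      intro x hx hxn
      rw [← hmem₁ ⟨x, hx⟩, hQQ, hmem₂]
      exact hxn
    · apply le_of_center_le hW₂ hW₁
      intro x hx hxn
      rw [← hmem₂ ⟨x, hx⟩, ← hQQ, hmem₁]
      exact hxn
  -- the reduced quotient
  let B := integralClosure V E
  let ϖB : B := algebraMap V B ϖ
  have hϖB0 : ϖB ≠ 0 := by
    intro h0
    have h1 : algebraMap F E ϖ = 0 := congrArg Subtype.val h0
    rw [map_eq_zero] at h1
    exact hϖ.ne_zero (Subtype.ext h1)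
  have hϖQ₁ : ϖB ∈ Q₁ := (hmem₁ _).mpr (by change algebraMap F E ϖ ∈ _; rw [hϖE]; exact hπW₁)
  have hϖQ₂ : ϖB ∈ Q₂ := (hmem₂ _).mpr (by change algebraMap F E ϖ ∈ _; rw [hϖE]; exact hπW₂)
  obtain ⟨Q', hQ'⟩ : Q₁ ∣ Ideal.span {ϖB} := Ideal.dvd_span_singleton.mpr hϖQ₁
  -- `Q₁` and `Q'` are coprime by unramifiedness
  have hcop : IsCoprime Q₁ Q' := by
    rw [Ideal.isCoprime_iff_sup_eq]
    by_contra hne'
    have h1 : Q' ≤ Q₁ := by
      have h2 : Q₁ = Q₁ ⊔ Q' := hQmax₁.eq_of_le hne' le_sup_left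
      rw [h2]
      exact le_sup_right
    -- an element of `Q'` not divisible by `ϖ`
    have hQ'ne : ∃ q ∈ Q', ¬ ϖB ∣ q := by
      by_contra hall
      push Not at hall
      have h2 : Q' ≤ Ideal.span {ϖB} := fun q hq => Ideal.mem_span_singleton.mpr (hall q hq)
      have h3 : Q' ≤ Q₁ * Q' := by rw [← hQ']; exact h2
      have hQ'0 : Q' ≠ ⊥ := by
        rintro rfl
        rw [Ideal.mul_bot] at hQ'
        exact hϖB0 (Ideal.span_singleton_eq_bot.mp hQ')
      have h4 : 1 * Q' ≤ Q₁ * Q' := by rwa [one_mul]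
      rw [← Ideal.dvd_iff_le, mul_dvd_mul_iff_right hQ'0, Ideal.dvd_iff_le] at h4
      exact hQ₁.ne_top (top_le_iff.mp (by rwa [Ideal.one_eq_top] at h4))
    obtain ⟨q, hq, hqn⟩ := hQ'ne
    apply hqn
    have hq2 : ϖB ∣ q ^ 2 := by
      rw [← Ideal.mem_span_singleton, hQ', pow_two]
      exact Ideal.mul_mem_mul (h1 hq) hq
    obtain ⟨c, hc⟩ := hq2
    obtain ⟨w, hw, hqw⟩ := Unr.exists_of_pow (V := V) hE.gauss hϖ (N := 2) (by norm_num) (c.2)
      (x := (q : E)) (by
        rw [Algebra.smul_def]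
        exact congrArg Subtype.val hc)
    exact ⟨⟨w, hw⟩, Subtype.ext (by rw [Algebra.smul_def] at hqw; exact hqw)⟩
  -- the idempotent
  obtain ⟨q, hq, q', hq', hqq⟩ := Submodule.mem_sup.mp
    (show (1 : B) ∈ Q₁ ⊔ Q' by rw [Ideal.isCoprime_iff_sup_eq.mp hcop]; trivial)
  have hprod : ϖB ∣ q * q' := by
    rw [← Ideal.mem_span_singleton, hQ']
    exact Ideal.mul_mem_mul hq hq'
  obtain ⟨c, hc⟩ := hprod
  -- `q'` is in `Q₂`
  have hQ'2 : Q' ≤ Q₂ := by
    have h1 : Q₁ * Q' ≤ Q₂ := by
      rw [← hQ', Ideal.span_singleton_le_iff_mem]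
      exact hϖQ₂
    rcases hQ₂.mul_le.mp h1 with h | h
    · exact absurd (hQmax₁.eq_of_le hQ₂.ne_top h) hQne
    · exact h
  have he : (q' : E) * q' - q' = π • (-(c : E)) := by
    have h1 : (q : E) * q' = algebraMap F E ϖ * (c : E) := congrArg Subtype.val hc
    have h2 : (q : E) + (q' : E) = 1 := congrArg Subtype.val hqq
    rw [← hϖsmul, Algebra.smul_def]
    have h3 : (q' : E) = 1 - q := by rw [← h2]; ring
    have h4 : (q' : E) * q' - q' = -((q : E) * q') := by
      linear_combination (q' : E) * h3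
    rw [h4, h1]
    ring
  have hcneg : IntOver V.toSubring (-(c : E)) := (show IntOver V.toSubring (c : E) from c.2).neg
  have hred : RedIntP ht hπ (q' : E) := redIntP_of_idempotent ht hπ hcneg he
  have ht' : IsParam O t⁻¹ := ht.inv
  have hgg : gaussVal ht' hπ = gaussVal ht hπ := gaussVal_inv ht ht' hπ
  have hred' : RedIntP ht' hπ (q' : E) := redIntP_of_idempotent ht' hπ (by rw [hgg]; exact hcneg) he
  obtain ⟨b, hb, w, hw, hqb⟩ := hE.exists_of_redIntP hred
  obtain ⟨b', hb', w', hw', hqb'⟩ := hE.exists_of_redIntP_inv (ht' := ht') hred' hb hw hqb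
  have htE : algebraMap F E t ≠ 0 := by
    rw [Ne, map_eq_zero]
    exact ht.ne_zero
  have hinv : algebraMap F E t⁻¹ = (algebraMap F E t)⁻¹ := map_inv₀ _ _
  have hbint : IntOver V.toSubring b := intOver_of_mem_chart ht hπ hb
  have hb'int : IntOver V.toSubring b' := by
    have := intOver_of_mem_chart ht' hπ (x := b') (by rw [hinv]; exact hb')
    rwa [hgg] at this
  have hπint : IntOver V.toSubring (algebraMap O E π) := by
    rw [← hϖE]
    exact intOver_algebraMap ϖ.2
  -- apply connectedness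
  have h1 : ∃ v ∈ chart O (algebraMap F E t), b * b - b = π • v := by
    have h2 : b * b - b = π • (-(c : E) - w * (2 * b + algebraMap O E π * w - 1)) := by
      rw [hqb] at he
      rw [Algebra.smul_def] at he ⊢
      rw [Algebra.smul_def] at he
      linear_combination he
    have h3 : IntOver V.toSubring (-(c : E) - w * (2 * b + algebraMap O E π * w - 1)) := by
      have hone : IntOver V.toSubring (1 : E) := RingHom.isIntegralElem_one _
      have htwo : (2 : E) = 1 + 1 := by norm_num
      rw [htwo]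
      exact hcneg.sub (hw.mul ((((hone.add hone).mul hbint).add (hπint.mul hw)).sub hone))
    refine ⟨_, mem_chart_of_smul_mem ht hπ h3 ?_, h2⟩
    rw [← h2]
    exact sub_mem (mul_mem hb hb) hb
  have h1' : ∃ v ∈ chart O (algebraMap F E t)⁻¹, b' * b' - b' = π • v := by
    have h2 : b' * b' - b' = π • (-(c : E) - w' * (2 * b' + algebraMap O E π * w' - 1)) := by
      rw [hqb'] at he
      rw [Algebra.smul_def] at he ⊢
      rw [Algebra.smul_def] at he
      linear_combination he
    have h3 : IntOver V.toSubring (-(c : E) - w' * (2 * b' + algebraMap O E π * w' - 1)) := by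
      have hone : IntOver V.toSubring (1 : E) := RingHom.isIntegralElem_one _
      have htwo : (2 : E) = 1 + 1 := by norm_num
      rw [htwo]
      exact hcneg.sub (hw'.mul ((((hone.add hone).mul hb'int).add (hπint.mul hw')).sub hone))
    refine ⟨_, ?_, h2⟩
    rw [← hinv]
    refine mem_chart_of_smul_mem ht' hπ (by rw [hgg]; exact h3) ?_
    rw [← h2, hinv]
    exact sub_mem (mul_mem hb' hb') hb'
  have h1'' : ∃ v ∈ overlap O (algebraMap F E t), b - b' = π • v := by
    have h2 : b - b' = π • (w' - w) := by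
      rw [smul_sub]
      linear_combination hqb' - hqb
    refine ⟨_, mem_overlap_of_smul_mem ht hπ (hw'.sub hw) ?_, h2⟩
    rw [← h2]
    exact sub_mem (chart_le_overlap hb) (chart_inv_le_overlap htE hb')
  have hπn : ∀ W : ValuationSubring E, (∀ x ∈ V, algebraMap F E x ∈ W) →
      algebraMap O E π ∈ W.nonunits → ∀ v : E, IntOver V.toSubring v → π • v ∈ W.nonunits := by
    intro W hW hπW v hv
    rw [Algebra.smul_def, mul_comm]
    exact mul_mem_nonunits (mem_of_intOver hW hv) hπW
  rcases eq_zero_or_one_of_idempotent htE hinj hπ.irreducible (exists_finset_chart ht) hO hb hb'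
    h1 h1' h1'' with ⟨v, hv, hbv⟩ | ⟨v, hv, hbv⟩
  · -- `q'` would be in `Q₁`
    have h4 : (q' : E) ∈ W₁.nonunits := by
      rw [hqb, hbv]
      exact add_mem (hπn W₁ hW₁ hπW₁ v (intOver_of_mem_chart ht hπ hv)) (hπn W₁ hW₁ hπW₁ w hw)
    have h5 : (1 : B) ∈ Q₁ := by
      rw [← hqq]
      exact add_mem hq ((hmem₁ q').mpr h4)
    exact (Ideal.ne_top_iff_one _).mp hQ₁.ne_top h5
  · have h4 : (1 : E) - q' ∈ W₂.nonunits := by
      have : (1 : E) - q' = (1 - b) - π • w := by rw [hqb]; ring
      rw [this, hbv]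
      exact sub_mem (hπn W₂ hW₂ hπW₂ v (intOver_of_mem_chart ht hπ hv)) (hπn W₂ hW₂ hπW₂ w hw)
    have h5 : (1 : B) ∈ Q₂ := by
      have h6 : (1 : B) - q' ∈ Q₂ := (hmem₂ _).mpr h4
      have : (1 : B) = (1 - q') + q' := by ring
      rw [this]
      exact add_mem h6 (hQ'2 hq')
    exact (Ideal.ne_top_iff_one _).mp hQ₂.ne_top h5

end Main

end Fermat.Agent.Geo
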