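import Mathlib
import Fermat.Agent.Geo.Unique

set_option autoImplicit false

/-!
# The socle of a nodal special fibre
-/

open IsLocalRing Polynomial

universe u

namespace Fermat.Agent.Geo

section Art

/-- In an Artinian quotient, a power of a maximal ideal is killed by an element outside of it. -/
theorem exists_mul_pow_le {B : Type*} [CommRing B] (d x : Ideal B) [IsArtinianRing (B ⧸ d)]
    (hdx : d ≤ x) : ∃ (n : ℕ) (r : B), r - 1 ∈ x ∧ ∀ ξ ∈ x ^ n, r * ξ ∈ d := by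
  let x' : Ideal (B ⧸ d) := x.map (Ideal.Quotient.mk d)
  obtain ⟨n, hn⟩ := IsArtinian.monotone_stabilizes
    (⟨fun n => OrderDual.toDual (x' ^ n), fun a b hab => Ideal.pow_le_pow_right hab⟩ :
      ℕ →o (Submodule (B ⧸ d) (B ⧸ d))ᵒᵈ)
  have h1 : x' ^ n = x' ^ (n + 1) := hn (n + 1) (Nat.le_succ n)
  obtain ⟨r, hr, hr'⟩ := Submodule.exists_sub_one_mem_and_smul_eq_zero_of_fg_of_le_smul x'
    (x' ^ n) (IsNoetherian.noetherian _) (by
      rw [Ideal.smul_eq_mul, ← pow_succ', ← h1])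
  obtain ⟨r, rfl⟩ := Ideal.Quotient.mk_surjective r
  refine ⟨n, r, ?_, fun ξ hξ => ?_⟩
  · have h2 : Ideal.Quotient.mk d (r - 1) ∈ x' := by rw [map_sub, map_one]; exact hr
    rw [Ideal.mem_quotient_iff_mem hdx] at h2
    exact h2
  · have h2 : Ideal.Quotient.mk d ξ ∈ x' ^ n := by
      rw [← Ideal.map_pow]
      exact Ideal.mem_map_of_mem _ hξ
    have h3 := hr' _ h2
    rw [smul_eq_mul, ← map_mul, Ideal.Quotient.eq_zero_iff_mem] at h3
    exact h3

end Art

section Params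

variable {A : Type*} [CommRing A] [IsDomain A] [IsLocalRing A] [IsNoetherianRing A]

/-- Elements not divisible by `π` are powers of `s` times units, modulo `π`. -/
theorem exists_pow_mul_unit_mod {π s : A} (hπ : Prime π)
    (hm : maximalIdeal A = Ideal.span {π, s}) {a : A} (ha : ¬ π ∣ a) :
    ∃ (n : ℕ) (u : A), IsUnit u ∧ π ∣ a - s ^ n * u := by
  classical
  have hex : ∃ n : ℕ, ¬ ∃ c, π ∣ a - s ^ n * c := by
    by_contra hne
    push Not at hne
    -- `a` would be in all powers of the maximal ideal of `A/π`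
    apply ha
    let A' := A ⧸ Ideal.span {π}
    have hnt : Nontrivial A' := Ideal.Quotient.nontrivial_iff.mpr (by
      rw [Ne, Ideal.span_singleton_eq_top]
      exact hπ.not_isUnit)
    have hloc : IsLocalRing A' := IsLocalRing.of_surjective' (Ideal.Quotient.mk _)
      Ideal.Quotient.mk_surjective
    have hbot : ⨅ n : ℕ, (Ideal.span {Ideal.Quotient.mk (Ideal.span {π}) s}) ^ n = ⊥ := by
      apply Ideal.iInf_pow_eq_bot_of_isLocalRing
      rw [Ne, Ideal.span_singleton_eq_top]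
      intro hu
      obtain ⟨c, hc⟩ := hu.exists_right_inv
      obtain ⟨c, rfl⟩ := Ideal.Quotient.mk_surjective c
      rw [← map_mul, ← map_one (Ideal.Quotient.mk (Ideal.span {π})), Ideal.Quotient.eq,
        Ideal.mem_span_singleton] at hc
      obtain ⟨d, hd⟩ := hc
      have h1 : (1 : A) ∈ maximalIdeal A := by
        rw [hm, Ideal.mem_span_pair]
        exact ⟨-d, c, by linear_combination hd⟩
      exact (Ideal.ne_top_iff_one _).mp (maximalIdeal.isMaximal A).ne_top h1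
    have hmem : Ideal.Quotient.mk (Ideal.span {π}) a ∈
        ⨅ n : ℕ, (Ideal.span {Ideal.Quotient.mk (Ideal.span {π}) s}) ^ n := by
      rw [Ideal.mem_iInf]
      intro n
      obtain ⟨c, hc⟩ := hne n
      rw [Ideal.span_singleton_pow, Ideal.mem_span_singleton]
      refine ⟨Ideal.Quotient.mk _ c, ?_⟩
      rw [← map_pow, ← map_mul, Ideal.Quotient.eq, Ideal.mem_span_singleton]
      exact hc
    rw [hbot, Ideal.mem_bot, Ideal.Quotient.eq_zero_iff_mem, Ideal.mem_span_singleton] at hmem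
    exact hmem
  let n := Nat.find hex
  have hn0 : n ≠ 0 := by
    intro h0
    apply Nat.find_spec hex
    change ∃ c, π ∣ a - s ^ n * c
    exact ⟨a, by rw [h0, pow_zero, one_mul, sub_self]; exact dvd_zero _⟩
  have hmin : ∃ c, π ∣ a - s ^ (n - 1) * c := by
    by_contra h
    exact Nat.find_min hex (by omega : n - 1 < n) h
  obtain ⟨c, hc⟩ := hmin
  refine ⟨n - 1, c, ?_, hc⟩
  by_contra hcu
  have hcm : c ∈ maximalIdeal A := by
    rw [mem_maximalIdeal, mem_nonunits_iff]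
    exact hcu
  rw [hm, Ideal.mem_span_pair] at hcm
  obtain ⟨e, f, rfl⟩ := hcm
  apply Nat.find_spec hex
  refine ⟨f, ?_⟩
  obtain ⟨g, hg⟩ := hc
  have h1 : s ^ n = s ^ (n - 1) * s := by rw [← pow_succ, Nat.sub_add_cancel (by omega)]
  refine ⟨g + s ^ (n - 1) * e, ?_⟩
  change a - s ^ n * f = _
  rw [h1]
  linear_combination hg

end Params

section Socle

variable {A B : Type*} [CommRing A] [IsDomain A] [IsLocalRing A] [IsNoetherianRing A]
  [CommRing B] [Algebra A B] [Module.Finite A B]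
  {κ₁ κ₂ : Type*} [Field κ₁] [Field κ₂]

/-- The two-branch data: `B` is finite over the two-dimensional local ring `A` with parameters
`π, s`, and `ρ₁, ρ₂` are the maps to the residue fields of the two components of `B/π`. -/
structure TwoBranch (π s : A) (ρ₁ : B →+* κ₁) (ρ₂ : B →+* κ₂) : Prop where
  prime : Prime π
  span : maximalIdeal A = Ideal.span {π, s}
  inter : ∀ b : B, ρ₁ b = 0 → ρ₂ b = 0 → ∃ b', b = algebraMap A B π * b'
  pi₁ : ρ₁ (algebraMap A B π) = 0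
  pi₂ : ρ₂ (algebraMap A B π) = 0
  s₁ : ρ₁ (algebraMap A B s) ≠ 0
  s₂ : ρ₂ (algebraMap A B s) ≠ 0
  normal₁ : ∀ y : κ₁, (ρ₁.comp (algebraMap A B)).IsIntegralElem y → ∃ b, ρ₁ b = y
  normal₂ : ∀ y : κ₂, (ρ₂.comp (algebraMap A B)).IsIntegralElem y → ∃ b, ρ₂ b = y
  ne₁₂ : ∃ b, ρ₁ b = 0 ∧ ρ₂ b ≠ 0
  ne₂₁ : ∃ b, ρ₂ b = 0 ∧ ρ₁ b ≠ 0
  rad : ∀ (b : B) (n : ℕ), b ^ n ∈ RingHom.ker ρ₁ ⊔ RingHom.ker ρ₂ →
    b ∈ RingHom.ker ρ₁ ⊔ RingHom.ker ρ₂

variable {π s : A} {ρ₁ : B →+* κ₁} {ρ₂ : B →+* κ₂}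

omit [IsDomain A] [IsNoetherianRing A] [Module.Finite A B] in
theorem TwoBranch.symm (h : TwoBranch π s ρ₁ ρ₂) : TwoBranch π s ρ₂ ρ₁ where
  prime := h.prime
  span := h.span
  inter := fun b h1 h2 => h.inter b h2 h1
  pi₁ := h.pi₂
  pi₂ := h.pi₁
  s₁ := h.s₂
  s₂ := h.s₁
  normal₁ := h.normal₂
  normal₂ := h.normal₁
  ne₁₂ := h.ne₂₁
  ne₂₁ := h.ne₁₂
  rad := fun b n hb => by
    rw [sup_comm] at hb ⊢
    exact h.rad b n hb

omit [IsDomain A] [IsNoetherianRing A] in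
theorem algebraMap_mem_of_isMaximal (x : Ideal B) [hx : x.IsMaximal] {a : A}
    (ha : a ∈ maximalIdeal A) : algebraMap A B a ∈ x := by
  have hint : Algebra.IsIntegral A B := Algebra.IsIntegral.of_finite A B
  have h1 : x.comap (algebraMap A B) = maximalIdeal A :=
    eq_maximalIdeal (Ideal.isMaximal_comap_of_isIntegral_of_isMaximal x)
  have h2 : a ∈ x.comap (algebraMap A B) := by rw [h1]; exact ha
  exact h2

omit [IsDomain A] [IsNoetherianRing A] [Module.Finite A B] in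
theorem TwoBranch.mem_map_iff (h : TwoBranch π s ρ₁ ρ₂) {b : B} :
    b ∈ (maximalIdeal A).map (algebraMap A B) ↔
      ∃ α β : B, b = algebraMap A B π * α + algebraMap A B s * β := by
  rw [h.span, Ideal.map_span, Set.image_pair, Ideal.mem_span_pair]
  constructor
  · rintro ⟨α, β, rfl⟩
    exact ⟨α, β, by ring⟩
  · rintro ⟨α, β, rfl⟩
    exact ⟨α, β, by ring⟩

/-- An element of `κ₁` stabilising the image of an ideal is in the image of `B`. -/
theorem TwoBranch.exists_of_stable (h : TwoBranch π s ρ₁ ρ₂) (J : Ideal B)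
    (hJ : ∃ j ∈ J, ρ₁ j ≠ 0) (y : κ₁) (hy : ∀ j ∈ J, ∃ j' ∈ J, y * ρ₁ j = ρ₁ j') :
    ∃ b, ρ₁ b = y := by
  letI : Algebra A κ₁ := (ρ₁.comp (algebraMap A B)).toAlgebra
  have hnoeth : IsNoetherian A B := isNoetherian_of_isNoetherianRing_of_finite A B
  let f : B →ₗ[A] κ₁ :=
    { toFun := ρ₁
      map_add' := map_add ρ₁
      map_smul' := fun a b => by
        rw [RingHom.id_apply, Algebra.smul_def, Algebra.smul_def, map_mul]
        rfl }
  let N : Submodule A κ₁ := (J.restrictScalars A).map f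
  apply h.normal₁
  have h1 : IsIntegral A y := by
    refine isIntegral_of_smul_mem_submodule (M := κ₁) N ?_ ?_ y ?_
    · obtain ⟨j, hj, hj0⟩ := hJ
      rw [Submodule.ne_bot_iff]
      exact ⟨ρ₁ j, ⟨j, hj, rfl⟩, hj0⟩
    · exact Submodule.FG.map _ (IsNoetherian.noetherian _)
    · rintro _ ⟨j, hj, rfl⟩
      obtain ⟨j', hj', hjj⟩ := hy j hj
      exact ⟨j', hj', hjj.symm⟩
  exact h1

/-- `s` is in the sum of the two branches' ideals. -/
theorem TwoBranch.s_mem (h : TwoBranch π s ρ₁ ρ₂) :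
    algebraMap A B s ∈ RingHom.ker ρ₁ ⊔ RingHom.ker ρ₂ := by
  have hrad : (RingHom.ker ρ₁ ⊔ RingHom.ker ρ₂).radical = RingHom.ker ρ₁ ⊔ RingHom.ker ρ₂ := by
    apply le_antisymm _ Ideal.le_radical
    rintro b ⟨n, hn⟩
    exact h.rad b n hn
  rw [← hrad, Ideal.radical_eq_sInf, Ideal.mem_sInf]
  rintro Q ⟨hle, hQ⟩
  have hint : Algebra.IsIntegral A B := Algebra.IsIntegral.of_finite A B
  have hP1 : RingHom.ker ρ₁ ≤ Q := le_sup_left.trans hle
  obtain ⟨b, hb2, hb1⟩ := h.ne₂₁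
  have hbQ : b ∈ Q := hle (Ideal.mem_sup_right hb2)
  have hprime : (RingHom.ker ρ₁).IsPrime := RingHom.ker_isPrime ρ₁
  have hlt := Ideal.comap_lt_comap_of_integral_mem_sdiff (R := A) (I := RingHom.ker ρ₁) (J := Q)
    hP1 ⟨hbQ, hb1⟩ (Algebra.IsIntegral.isIntegral b)
  obtain ⟨-, a, haQ, ha1⟩ := SetLike.lt_iff_le_and_exists.mp hlt
  have haπ : ¬ π ∣ a := by
    rintro ⟨c, rfl⟩
    apply ha1
    change ρ₁ (algebraMap A B (π * c)) = 0
    rw [map_mul, map_mul, h.pi₁, zero_mul]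
  obtain ⟨n, v, hv, c, hc⟩ := exists_pow_mul_unit_mod h.prime h.span haπ
  have hπQ : algebraMap A B π ∈ Q := hP1 h.pi₁
  have h1 : algebraMap A B s ^ n * algebraMap A B v ∈ Q := by
    have h2 : algebraMap A B s ^ n * algebraMap A B v =
        algebraMap A B a - algebraMap A B π * algebraMap A B c := by
      rw [← map_pow, ← map_mul, ← map_mul, ← map_sub]
      congr 1
      linear_combination -hc
    rw [h2]
    exact sub_mem haQ (Ideal.mul_mem_right _ _ hπQ)
  rcases hQ.mem_or_mem h1 with h2 | h2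
  · exact hQ.mem_of_pow_mem n h2
  · exact absurd (Ideal.eq_top_of_isUnit_mem _ h2 (hv.map _)) hQ.ne_top

/-- Inverses modulo a maximal ideal with rational residue field. -/
theorem exists_residue_inv {x : Ideal B} [x.IsMaximal] (hres : ∀ b : B, ∃ a : A,
    b - algebraMap A B a ∈ x) {e : B} (he : e ∉ x) (g : B) :
    ∃ a : A, g - algebraMap A B a * e ∈ x := by
  obtain ⟨e', m, hm, hee⟩ := (inferInstance : x.IsMaximal).exists_inv he
  obtain ⟨a, ha⟩ := hres (g * e')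
  refine ⟨a, ?_⟩
  have h1 : g - algebraMap A B a * e = g * m + (g * e' - algebraMap A B a) * e := by
    rw [← sub_eq_zero]
    linear_combination -g * hee
  rw [h1]
  exact add_mem (Ideal.mul_mem_left _ _ hm) (Ideal.mul_mem_right _ _ ha)

/-- The conclusion: the socle of `B/𝔪B` at `x` is one-dimensional, generated by `b₀`. -/
def SocleGen (A : Type*) {B : Type*} [CommRing A] [IsLocalRing A] [CommRing B] [Algebra A B]
    (x : Ideal B) (b₀ : B) : Prop :=
  b₀ ∉ (maximalIdeal A).map (algebraMap A B) ∧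
  (∀ ξ ∈ x, ξ * b₀ ∈ (maximalIdeal A).map (algebraMap A B)) ∧
  ∀ b : B, (∀ ξ ∈ x, ξ * b ∈ (maximalIdeal A).map (algebraMap A B)) →
    ∃ a : A, b - algebraMap A B a * b₀ ∈ (maximalIdeal A).map (algebraMap A B)

/-- The node case. -/
theorem TwoBranch.exists_socleGen_node (h : TwoBranch π s ρ₁ ρ₂) {x : Ideal B} [hx : x.IsMaximal]
    (hres : ∀ b : B, ∃ a : A, b - algebraMap A B a ∈ x)
    (h1x : RingHom.ker ρ₁ ≤ x) (h2x : RingHom.ker ρ₂ ≤ x) :
    (∃ f : B, f ∉ x ∧ ∀ ξ ∈ x, f * ξ ∈ RingHom.ker ρ₁ ⊔ RingHom.ker ρ₂) ∧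
      ∃ b₀ : B, SocleGen A x b₀ := by
  letI : Field (A ⧸ maximalIdeal A) := Ideal.Quotient.field _
  have hartin : IsArtinianRing (B ⧸ (maximalIdeal A).map (algebraMap A B)) := by
    have hfin : Module.Finite (A ⧸ maximalIdeal A)
        (B ⧸ (maximalIdeal A).map (algebraMap A B)) := inferInstance
    exact IsArtinianRing.of_finite (A ⧸ maximalIdeal A) _
  have hmx : (maximalIdeal A).map (algebraMap A B) ≤ x := by
    rw [Ideal.map_le_iff_le_comap]
    intro a ha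
    exact algebraMap_mem_of_isMaximal x ha
  have hmI : (maximalIdeal A).map (algebraMap A B) ≤ RingHom.ker ρ₁ ⊔ RingHom.ker ρ₂ := by
    intro b hb
    obtain ⟨α, β, rfl⟩ := h.mem_map_iff.mp hb
    exact add_mem (Ideal.mul_mem_right _ _ (Ideal.mem_sup_left h.pi₁))
      (Ideal.mul_mem_right _ _ h.s_mem)
  have hf : ∃ f : B, f ∉ x ∧ ∀ ξ ∈ x, f * ξ ∈ RingHom.ker ρ₁ ⊔ RingHom.ker ρ₂ := by
    obtain ⟨n, r, hr, hrn⟩ := exists_mul_pow_le ((maximalIdeal A).map (algebraMap A B)) x hmx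
    refine ⟨r, ?_, fun ξ hξ => ?_⟩
    · intro hrx
      apply hx.ne_top
      rw [Ideal.eq_top_iff_one]
      have : (1 : B) = r - (r - 1) := by ring
      rw [this]
      exact sub_mem hrx hr
    · apply h.rad _ (n + 1)
      have h1 : (r * ξ) ^ (n + 1) = (r ^ n * ξ) * (r * ξ ^ n) := by ring
      rw [h1]
      exact Ideal.mul_mem_left _ _ (hmI (hrn _ (Ideal.pow_mem_pow hξ n)))
  refine ⟨hf, ?_⟩
  obtain ⟨f, hfx, hfI⟩ := hf
  have hsx : algebraMap A B s ∈ x := algebraMap_mem_of_isMaximal x (by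
    rw [h.span]; exact Ideal.subset_span (by simp))
  have hIx : RingHom.ker ρ₁ ⊔ RingHom.ker ρ₂ ≤ x := sup_le h1x h2x
  obtain ⟨p₁, hp₁, p₂, hp₂, hpp⟩ := Submodule.mem_sup.mp (hfI _ hsx)
  rw [RingHom.mem_ker] at hp₁ hp₂
  have hb1 : ρ₁ p₂ = ρ₁ (algebraMap A B s) * ρ₁ f := by
    have := congrArg ρ₁ hpp
    rw [map_add, hp₁, zero_add, map_mul, mul_comm] at this
    exact this
  refine ⟨p₂, ?_, ?_, ?_⟩
  · intro hmem
    obtain ⟨α, β, hαβ⟩ := h.mem_map_iff.mp hmem
    have h2 : ρ₂ β = 0 := by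
      have := congrArg ρ₂ hαβ
      rw [hp₂, map_add, map_mul, map_mul, h.pi₂, zero_mul, zero_add] at this
      exact (mul_eq_zero.mp this.symm).resolve_left h.s₂
    have h1 : ρ₁ f = ρ₁ β := by
      have := congrArg ρ₁ hαβ
      rw [hb1, map_add, map_mul, map_mul, h.pi₁, zero_mul, zero_add] at this
      exact mul_left_cancel₀ h.s₁ this
    apply hfx
    have h3 : f = (f - β) + β := by ring
    rw [h3]
    refine add_mem (h1x ?_) (h2x h2)
    rw [RingHom.mem_ker, map_sub, h1, sub_self]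
  · intro ξ hξ
    obtain ⟨q₁, hq₁, q₂, hq₂, hqq⟩ := Submodule.mem_sup.mp (hfI ξ hξ)
    rw [RingHom.mem_ker] at hq₁ hq₂
    obtain ⟨b', hb'⟩ := h.inter (ξ * p₂ - algebraMap A B s * q₂)
      (by
        rw [map_sub, map_mul, map_mul, hb1]
        have := congrArg ρ₁ hqq
        rw [map_add, hq₁, zero_add, map_mul] at this
        rw [this]
        ring)
      (by rw [map_sub, map_mul, map_mul, hp₂, hq₂, mul_zero, mul_zero, sub_zero])
    rw [h.mem_map_iff]
    exact ⟨b', q₂, by linear_combination hb'⟩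
  · intro b hb
    -- divisibility of both components by `s`
    have hdiv : ∀ p : B, ρ₂ p = 0 → p ∈ x → ∃ β, ρ₂ β = 0 ∧
        ρ₁ (b * p) = ρ₁ (algebraMap A B s) * ρ₁ β := by
      intro p hp hpx
      obtain ⟨α, β, hαβ⟩ := h.mem_map_iff.mp (hb p hpx)
      refine ⟨β, ?_, ?_⟩
      · have := congrArg ρ₂ hαβ
        rw [map_mul, hp, zero_mul, map_add, map_mul, map_mul, h.pi₂, zero_mul, zero_add] at this
        exact (mul_eq_zero.mp this.symm).resolve_left h.s₂
      · rw [mul_comm b p, hαβ, map_add, map_mul, map_mul, h.pi₁, zero_mul, zero_add]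
    have hdiv' : ∀ p : B, ρ₁ p = 0 → p ∈ x → ∃ β, ρ₁ β = 0 ∧
        ρ₂ (b * p) = ρ₂ (algebraMap A B s) * ρ₂ β := by
      intro p hp hpx
      obtain ⟨α, β, hαβ⟩ := h.mem_map_iff.mp (hb p hpx)
      refine ⟨β, ?_, ?_⟩
      · have := congrArg ρ₁ hαβ
        rw [map_mul, hp, zero_mul, map_add, map_mul, map_mul, h.pi₁, zero_mul, zero_add] at this
        exact (mul_eq_zero.mp this.symm).resolve_left h.s₁
      · rw [mul_comm b p, hαβ, map_add, map_mul, map_mul, h.pi₂, zero_mul, zero_add]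
    obtain ⟨b', hb'⟩ := h.exists_of_stable (RingHom.ker ρ₂) (by
        obtain ⟨j, hj2, hj1⟩ := h.ne₂₁
        exact ⟨j, hj2, hj1⟩) (ρ₁ b / ρ₁ (algebraMap A B s)) (fun j hj => by
        obtain ⟨β, hβ, hβ'⟩ := hdiv j hj (h2x hj)
        refine ⟨β, hβ, ?_⟩
        rw [div_mul_eq_mul_div, ← map_mul, hβ', mul_div_cancel_left₀ _ h.s₁])
    obtain ⟨b'', hb''⟩ := h.symm.exists_of_stable (RingHom.ker ρ₁) (by
        obtain ⟨j, hj2, hj1⟩ := h.ne₁₂
        exact ⟨j, hj2, hj1⟩) (ρ₂ b / ρ₂ (algebraMap A B s)) (fun j hj => by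
        obtain ⟨β, hβ, hβ'⟩ := hdiv' j hj (h1x hj)
        refine ⟨β, hβ, ?_⟩
        rw [div_mul_eq_mul_div, ← map_mul, hβ', mul_div_cancel_left₀ _ h.s₂])
    rw [eq_div_iff h.s₁] at hb'
    rw [eq_div_iff h.s₂] at hb''
    -- the difference is in `(I : x)`
    have hgI : ∀ ξ ∈ x, (b' - b'') * ξ ∈ RingHom.ker ρ₁ ⊔ RingHom.ker ρ₂ := by
      intro ξ hξ
      obtain ⟨α, β, hαβ⟩ := h.mem_map_iff.mp (hb ξ hξ)
      have h1 : ρ₁ (ξ * b' - β) = 0 := by
        have := congrArg ρ₁ hαβ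
        rw [map_mul, ← hb', map_add, map_mul, map_mul, h.pi₁, zero_mul, zero_add] at this
        rw [map_sub, map_mul, sub_eq_zero]
        apply mul_left_cancel₀ h.s₁
        rw [← this]; ring
      have h2 : ρ₂ (ξ * b'' - β) = 0 := by
        have := congrArg ρ₂ hαβ
        rw [map_mul, ← hb'', map_add, map_mul, map_mul, h.pi₂, zero_mul, zero_add] at this
        rw [map_sub, map_mul, sub_eq_zero]
        apply mul_left_cancel₀ h.s₂
        rw [← this]; ring
      have h3 : (b' - b'') * ξ = (ξ * b' - β) - (ξ * b'' - β) := by ring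
      rw [h3]
      exact sub_mem (Ideal.mem_sup_left h1) (Ideal.mem_sup_right h2)
    obtain ⟨a, ha⟩ := exists_residue_inv hres hfx (b' - b'')
    have hgaI : (b' - b'') - algebraMap A B a * f ∈ RingHom.ker ρ₁ ⊔ RingHom.ker ρ₂ := by
      apply h.rad _ 2
      rw [pow_two]
      have h1 : ((b' - b'') - algebraMap A B a * f) * ((b' - b'') - algebraMap A B a * f) =
          (b' - b'') * ((b' - b'') - algebraMap A B a * f) -
          algebraMap A B a * (f * ((b' - b'') - algebraMap A B a * f)) := by ring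
      rw [h1]
      exact sub_mem (hgI _ ha) (Ideal.mul_mem_left _ _ (hfI _ ha))
    obtain ⟨q₁, hq₁, q₂, hq₂, hqq⟩ := Submodule.mem_sup.mp hgaI
    rw [RingHom.mem_ker] at hq₁ hq₂
    refine ⟨a, ?_⟩
    obtain ⟨c, hc⟩ := h.inter (b - algebraMap A B a * p₂ - algebraMap A B s * (b'' + q₂))
      (by
        have h1 := congrArg ρ₁ hqq
        rw [map_add, hq₁, zero_add, map_sub, map_sub, map_mul] at h1
        rw [map_sub, map_sub, map_mul, map_mul, map_add, hb1, ← hb', h1]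
        ring)
      (by
        rw [map_sub, map_sub, map_mul, map_mul, map_add, hp₂, hq₂, ← hb'']
        ring)
    rw [h.mem_map_iff]
    exact ⟨c, b'' + q₂, by linear_combination hc⟩

/-- The smooth case. -/
theorem TwoBranch.exists_socleGen_smooth (h : TwoBranch π s ρ₁ ρ₂) {x : Ideal B}
    [hx : x.IsMaximal] (hres : ∀ b : B, ∃ a : A, b - algebraMap A B a ∈ x)
    (h1x : RingHom.ker ρ₁ ≤ x) (h2x : ¬ RingHom.ker ρ₂ ≤ x) : ∃ b₀ : B, SocleGen A x b₀ := by
  classical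
  letI : Field (A ⧸ maximalIdeal A) := Ideal.Quotient.field _
  have hartin : IsArtinianRing (B ⧸ (maximalIdeal A).map (algebraMap A B)) := by
    have hfin : Module.Finite (A ⧸ maximalIdeal A)
        (B ⧸ (maximalIdeal A).map (algebraMap A B)) := inferInstance
    exact IsArtinianRing.of_finite (A ⧸ maximalIdeal A) _
  have hmx : (maximalIdeal A).map (algebraMap A B) ≤ x := by
    rw [Ideal.map_le_iff_le_comap]
    intro a ha
    exact algebraMap_mem_of_isMaximal x ha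
  have hsx : algebraMap A B s ∈ x := algebraMap_mem_of_isMaximal x (by
    rw [h.span]; exact Ideal.subset_span (by simp))
  have hπm : algebraMap A B π ∈ (maximalIdeal A).map (algebraMap A B) :=
    Ideal.mem_map_of_mem _ (by rw [h.span]; exact Ideal.subset_span (by simp))
  obtain ⟨p, hp2, hpx⟩ := Set.not_subset.mp h2x
  replace hp2 : ρ₂ p = 0 := hp2
  replace hpx : p ∉ x := hpx
  -- existence of the socle
  have hexn : ∃ n : ℕ, ∃ r : B, r ∉ x ∧ ∀ ξ ∈ x ^ n, r * ξ ∈ (maximalIdeal A).map (algebraMap A B) := by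
    obtain ⟨n, r, hr, hrn⟩ := exists_mul_pow_le ((maximalIdeal A).map (algebraMap A B)) x hmx
    refine ⟨n, r, ?_, hrn⟩
    intro hrx
    apply hx.ne_top
    rw [Ideal.eq_top_iff_one]
    have : (1 : B) = r - (r - 1) := by ring
    rw [this]
    exact sub_mem hrx hr
  obtain ⟨r, hrx, hrn⟩ := Nat.find_spec hexn
  set n := Nat.find hexn with hn
  have hn0 : n ≠ 0 := by
    intro h0
    apply hrx
    apply hmx
    have h1 : (1 : B) ∈ x ^ n := by
      rw [h0, pow_zero, Ideal.one_eq_top]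
      trivial
    have := hrn 1 h1
    rwa [mul_one] at this
  obtain ⟨b₀, hb₀, hb₀x⟩ : ∃ b₀ : B, b₀ ∉ (maximalIdeal A).map (algebraMap A B) ∧
      ∀ ξ ∈ x, ξ * b₀ ∈ (maximalIdeal A).map (algebraMap A B) := by
    have h1 : ¬ ∀ ξ ∈ x ^ (n - 1), r * ξ ∈ (maximalIdeal A).map (algebraMap A B) := by
      intro hall
      exact Nat.find_min hexn (by omega : n - 1 < n) ⟨r, hrx, hall⟩
    push Not at h1
    obtain ⟨ξ, hξ, hrξ⟩ := h1
    refine ⟨r * ξ, hrξ, fun η hη => ?_⟩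
    have h2 : η * (r * ξ) = r * (η * ξ) := by ring
    rw [h2]
    apply hrn
    have h3 : n = (n - 1) + 1 := by omega
    rw [h3, pow_succ']
    exact Ideal.mul_mem_mul hη hξ
  -- an element whose first component is divisible by `s` is in `𝔪 B`
  have hα : ∀ b : B, (∀ ξ ∈ x, ξ * b ∈ (maximalIdeal A).map (algebraMap A B)) → ∀ β : B,
      ρ₁ b = ρ₁ (algebraMap A B s) * ρ₁ β → b ∈ (maximalIdeal A).map (algebraMap A B) := by
    intro b hb β hβ
    obtain ⟨c, hc⟩ := h.inter (p * (b - algebraMap A B s * β))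
      (by rw [map_mul, map_sub, map_mul, hβ, sub_self, mul_zero])
      (by rw [map_mul, hp2, zero_mul])
    obtain ⟨p', m, hm, hpp⟩ := hx.exists_inv hpx
    have h1 : b = m * b + p' * (algebraMap A B π * c) + p' * p * (algebraMap A B s * β) := by
      rw [← hc]
      linear_combination -b * hpp
    rw [h1]
    refine add_mem (add_mem (hb m hm) (Ideal.mul_mem_left _ _ (Ideal.mul_mem_right _ _ hπm))) ?_
    exact Ideal.mul_mem_left _ _ (Ideal.mul_mem_right _ _ (Ideal.mem_map_of_mem _ (by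
      rw [h.span]; exact Ideal.subset_span (by simp))))
  -- the element `ε`
  obtain ⟨τ, hτ, β, hβx, hτβ⟩ : ∃ τ ∈ x, ∃ β : B, β ∉ x ∧
      ρ₁ (τ * b₀) = ρ₁ (algebraMap A B s) * ρ₁ β := by
    by_contra hcon
    push Not at hcon
    apply hb₀
    obtain ⟨b', hb'⟩ := h.exists_of_stable x ⟨_, hsx, h.s₁⟩ (ρ₁ b₀ / ρ₁ (algebraMap A B s))
      (fun j hj => by
        obtain ⟨α, β, hαβ⟩ := h.mem_map_iff.mp (hb₀x j hj)
        have h1 : ρ₁ (j * b₀) = ρ₁ (algebraMap A B s) * ρ₁ β := by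
          rw [hαβ, map_add, map_mul, map_mul, h.pi₁, zero_mul, zero_add]
        have h2 : β ∈ x := by
          by_contra hβ
          exact hcon j hj β hβ h1
        refine ⟨β, h2, ?_⟩
        rw [div_mul_eq_mul_div, ← map_mul, mul_comm b₀ j, h1, mul_div_cancel_left₀ _ h.s₁])
    rw [eq_div_iff h.s₁] at hb'
    exact hα b₀ hb₀x b' (by rw [← hb', mul_comm])
  have hτ0 : ρ₁ τ ≠ 0 := by
    intro h0
    rw [map_mul, h0, zero_mul] at hτβ
    have h1 : ρ₁ β = 0 := (mul_eq_zero.mp hτβ.symm).resolve_left h.s₁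
    exact hβx (h1x h1)
  refine ⟨b₀, hb₀, hb₀x, fun b hb => ?_⟩
  obtain ⟨α, γ, hγ⟩ := h.mem_map_iff.mp (hb τ hτ)
  have hγ1 : ρ₁ (τ * b) = ρ₁ (algebraMap A B s) * ρ₁ γ := by
    rw [hγ, map_add, map_mul, map_mul, h.pi₁, zero_mul, zero_add]
  have h1 : ρ₁ (β * b - γ * b₀) = 0 := by
    apply (mul_eq_zero.mp (?_ : ρ₁ τ * ρ₁ (β * b - γ * b₀) = 0)).resolve_left hτ0
    have h2 : ρ₁ τ * ρ₁ (β * b - γ * b₀) = ρ₁ β * ρ₁ (τ * b) - ρ₁ γ * ρ₁ (τ * b₀) := by
      rw [map_sub, map_mul, map_mul, map_mul, map_mul]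
      ring
    rw [h2, hγ1, hτβ]
    ring
  obtain ⟨c, hc⟩ := h.inter (p * (β * b - γ * b₀)) (by rw [map_mul, h1, mul_zero])
    (by rw [map_mul, hp2, zero_mul])
  have hpβ : p * β ∉ x := fun hmem => (hx.isPrime.mem_or_mem hmem).elim hpx hβx
  obtain ⟨e', m, hm, hee⟩ := hx.exists_inv hpβ
  obtain ⟨a, ha⟩ := hres (e' * (p * γ))
  refine ⟨a, ?_⟩
  have h3 : b - algebraMap A B a * b₀ = m * b + (e' * (p * γ) - algebraMap A B a) * b₀ +
      e' * (algebraMap A B π * c) := by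
    rw [← hc]
    linear_combination -b * hee
  rw [h3]
  refine add_mem (add_mem (hb m hm) (hb₀x _ ha)) ?_
  exact Ideal.mul_mem_left _ _ (Ideal.mul_mem_right _ _ hπm)

end Socle

end Fermat.Agent.Geo
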