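import Mathlib
import Fermat.Agent.Geo.Socle

set_option autoImplicit false

/-!
# Duality over a two-dimensional regular local ring, and the Gorenstein property
-/

open IsLocalRing Polynomial Module

universe u

namespace Fermat.Agent.Geo

section

variable {A K L : Type u} [CommRing A] [IsDomain A] [UniqueFactorizationMonoid A]
  [IsLocalRing A] [IsNoetherianRing A] [Field K] [Algebra A K] [IsFractionRing A K]
  [Field L] [Algebra A L] [Algebra K L] [IsScalarTower A K L]
  [FiniteDimensional K L] [Algebra.IsSeparable K L] {π s : A}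

variable (K L) in
/-- Dual bases of the integral closure. -/
theorem exists_dual_basis (hπ : Prime π) (hπs : ¬ π ∣ s)
    (hm : maximalIdeal A = Ideal.span {π, s}) :
    ∃ (n : ℕ) (b d : Fin n → L), (∀ i, IsIntegral A (b i)) ∧
      (∀ i j, Algebra.trace K L (d i * b j) = if i = j then 1 else 0) ∧
      (∀ x : L, IsIntegral A x → ∃ a : Fin n → A, x = ∑ i, a i • b i) ∧
      (∀ x : L, x = ∑ i, Algebra.trace K L (x * b i) • d i) := by
  classical
  let M : Submodule A L := Subalgebra.toSubmodule (integralClosure A L)
  have hfs : FaithfulSMul A L := faithfulSMul_of_tower K L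
  have hnoeth : IsNoetherian A (integralClosure A L) :=
    IsIntegralClosure.isNoetherian A K L (integralClosure A L)
  have hlat : M.IsLattice K := by
    refine ⟨isNoetherian_submodule.mp (hnoeth : IsNoetherian A M) _ le_rfl, ?_⟩
    rw [eq_top_iff]
    intro x _
    obtain ⟨a, ha, hx⟩ := exists_smul_isIntegral (A := A) K x
    have h1 : a • x ∈ Submodule.span K (M : Set L) := Submodule.subset_span hx
    have h2 : algebraMap A K a ≠ 0 := fun h0 => ha
      (IsFractionRing.injective A K (by rw [h0, map_zero]))
    have h3 : x = (algebraMap A K a)⁻¹ • (a • x) := by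
      rw [← algebraMap_smul K a x, smul_smul, inv_mul_cancel₀ h2, one_smul]
    rw [h3]
    exact Submodule.smul_mem _ _ h1
  have hfin : Module.Finite A M := Submodule.IsLattice.finite K _
  have hfree : Module.Free A M := by
    refine free_of_saturated M hπ.ne_zero hm ?_
    intro z hz1 hz2
    refine isIntegral_of_smul_of_smul K (fun p hp h hps => ?_) hπ.ne_zero hz1 hz2
    exact hπs ((hp.associated_of_dvd hπ h).symm.dvd.trans hps)
  let b' := Module.Free.chooseBasis A M
  let b := b'.reindex (Fintype.equivFin _)
  let e := b.extendOfIsLattice K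
  have he : ∀ i, e i = (b i : L) := fun i => b.extendOfIsLattice_apply K i
  refine ⟨_, fun i => (b i : L), e.traceDual, fun i => (b i).2, ?_, ?_, ?_⟩
  · intro i j
    beta_reduce
    rw [← he j, Module.Basis.trace_traceDual_mul]
    simp only [eq_comm]
  · intro x hx
    refine ⟨fun i => b.repr ⟨x, hx⟩ i, ?_⟩
    have := congrArg Subtype.val (b.sum_repr ⟨x, hx⟩)
    rw [AddSubmonoidClass.coe_finsetSum] at this
    exact this.symm
  · intro x
    conv_lhs => rw [← e.traceDual.sum_repr x]
    refine Finset.sum_congr rfl fun i _ => ?_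
    rw [Module.Basis.traceDual_repr_apply, he]
    rfl

/-- The dual of the integral closure. -/
def InDual (A K : Type u) {L : Type u} [CommRing A] [Field K] [Algebra A K] [Field L] [Algebra A L]
    [Algebra K L] (c : L) : Prop :=
  ∀ b : L, IsIntegral A b → ∃ a : A, Algebra.trace K L (c * b) = algebraMap A K a

theorem InDual.add {c c' : L} (hc : InDual A K c) (hc' : InDual A K c') :
    InDual A K (c + c') := by
  intro b hb
  obtain ⟨a, ha⟩ := hc b hb
  obtain ⟨a', ha'⟩ := hc' b hb
  exact ⟨a + a', by rw [add_mul, map_add, ha, ha', map_add]⟩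

theorem InDual.mul_integral {c : L} (hc : InDual A K c) {b : L} (hb : IsIntegral A b) :
    InDual A K (b * c) := by
  intro b' hb'
  obtain ⟨a, ha⟩ := hc (b * b') (hb.mul hb')
  exact ⟨a, by rw [← ha]; ring_nf⟩

theorem InDual.smul {c : L} (hc : InDual A K c) (a : A) : InDual A K (a • c) := by
  rw [Algebra.smul_def]
  exact hc.mul_integral isIntegral_algebraMap

theorem InDual.zero : InDual A K (0 : L) := fun b _ => ⟨0, by
  rw [zero_mul, map_zero, map_zero]⟩

theorem InDual.of_isIntegral {c : L} (hc : IsIntegral A c) : InDual A K c := by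
  intro b hb
  obtain ⟨a, ha⟩ := IsIntegrallyClosed.isIntegral_iff.mp
    (Algebra.isIntegral_trace (L := K) (hc.mul hb))
  exact ⟨a, ha.symm⟩

/-- Duality modulo `π`. -/
theorem exists_add_of_trace (hπ : Prime π) (hπs : ¬ π ∣ s)
    (hm : maximalIdeal A = Ideal.span {π, s}) {z : L}
    (hz : ∀ b : L, IsIntegral A b → ∃ a : A, ∃ y ∈ primeVal K hπ,
      Algebra.trace K L (z * b) = algebraMap A K a + algebraMap A K π * y) :
    ∃ c p : L, z = c + π • p ∧ InDual A K c ∧
      ∀ b : L, IsIntegral A b → Algebra.trace K L (p * b) ∈ primeVal K hπ := by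
  obtain ⟨n, b, d, hb, hdb, hspan, hexp⟩ := exists_dual_basis K L hπ hπs hm
  choose a y hy ha using fun i => hz (b i) (hb i)
  refine ⟨∑ i, algebraMap A K (a i) • d i, ∑ i, y i • d i, ?_, ?_, ?_⟩
  · conv_lhs => rw [hexp z]
    rw [Finset.smul_sum, ← Finset.sum_add_distrib]
    refine Finset.sum_congr rfl fun i _ => ?_
    rw [ha, add_smul, mul_smul, algebraMap_smul, algebraMap_smul]
  · intro b' hb'
    obtain ⟨a', rfl⟩ := hspan b' hb'
    refine ⟨∑ i, a i * a' i, ?_⟩
    rw [Finset.sum_mul, map_sum, map_sum]
    refine Finset.sum_congr rfl fun i _ => ?_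
    rw [Finset.mul_sum, map_sum, Finset.sum_eq_single i]
    · rw [smul_mul_assoc, mul_smul_comm, map_smul, ← algebraMap_smul K (a' i), map_smul, hdb,
        if_pos rfl, smul_eq_mul, smul_eq_mul, mul_one, map_mul]
    · intro j _ hj
      rw [smul_mul_assoc, mul_smul_comm, map_smul, ← algebraMap_smul K (a' j), map_smul, hdb,
        if_neg (Ne.symm hj), smul_zero, smul_zero]
    · intro h
      exact absurd (Finset.mem_univ i) h
  · intro b' hb'
    obtain ⟨a', rfl⟩ := hspan b' hb'
    have h1 : Algebra.trace K L ((∑ i, y i • d i) * ∑ i, a' i • b i) =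
        ∑ i, y i * algebraMap A K (a' i) := by
      rw [Finset.sum_mul, map_sum]
      refine Finset.sum_congr rfl fun i _ => ?_
      rw [Finset.mul_sum, map_sum, Finset.sum_eq_single i]
      · rw [smul_mul_assoc, mul_smul_comm, map_smul, ← algebraMap_smul K (a' i), map_smul, hdb,
          if_pos rfl, smul_eq_mul, smul_eq_mul, mul_one]
      · intro j _ hj
        rw [smul_mul_assoc, mul_smul_comm, map_smul, ← algebraMap_smul K (a' j), map_smul, hdb,
          if_neg (Ne.symm hj), smul_zero, smul_zero]
      · intro h
        exact absurd (Finset.mem_univ i) h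
    rw [h1]
    exact sum_mem fun i _ => mul_mem (hy i) (algebraMap_mem_primeVal hπ _)

variable (K) in
/-- **The Gorenstein property** at a maximal ideal with one-dimensional socle. -/
theorem exists_generator (hπ : Prime π) (hπs : ¬ π ∣ s)
    (hm : maximalIdeal A = Ideal.span {π, s}) (x : Ideal (integralClosure A L)) [x.IsMaximal]
    {b₀ : integralClosure A L} (hsoc : SocleGen A x b₀) :
    (∃ ω : L, InDual A K ω ∧ ∃ u : A, IsUnit u ∧
      Algebra.trace K L (ω * b₀) = algebraMap A K u) ∧
    ∀ ω : L, InDual A K ω → (∃ u : A, IsUnit u ∧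
      Algebra.trace K L (ω * b₀) = algebraMap A K u) →
      ∃ c : integralClosure A L, c - 1 ∈ x ∧ ∀ c' : L, InDual A K c' →
        ∃ β : L, IsIntegral A β ∧ (c : L) * c' = ω * β := by
  classical
  let B := integralClosure A L
  have hfs : FaithfulSMul A L := faithfulSMul_of_tower K L
  obtain ⟨n, b, d, hb, hdb, hspan, hexp⟩ := exists_dual_basis K L hπ hπs hm
  have hnoeth : IsNoetherian A B := IsIntegralClosure.isNoetherian A K L B
  have hBnoeth : IsNoetherianRing B := IsNoetherianRing.of_finite A B
  have hd : ∀ i, InDual A K (d i) := by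
    intro i b' hb'
    obtain ⟨a', rfl⟩ := hspan b' hb'
    refine ⟨a' i, ?_⟩
    rw [Finset.mul_sum, map_sum, Finset.sum_eq_single i]
    · rw [mul_smul_comm, ← algebraMap_smul K (a' i), map_smul, hdb, if_pos rfl, smul_eq_mul,
        mul_one]
    · intro j _ hj
      rw [mul_smul_comm, ← algebraMap_smul K (a' j), map_smul, hdb,
        if_neg (Ne.symm hj), smul_zero]
    · intro h
      exact absurd (Finset.mem_univ i) h
  -- coordinates with respect to `b`
  have hcoord : ∀ (a' : Fin n → A) (i : Fin n),
      Algebra.trace K L (d i * ∑ j, a' j • b j) = algebraMap A K (a' i) := by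
    intro a' i
    rw [Finset.mul_sum, map_sum, Finset.sum_eq_single i]
    · rw [mul_smul_comm, ← algebraMap_smul K (a' i), map_smul, hdb, if_pos rfl, smul_eq_mul,
        mul_one]
    · intro j _ hj
      rw [mul_smul_comm, ← algebraMap_smul K (a' j), map_smul, hdb,
        if_neg (Ne.symm hj), smul_zero]
    · intro h
      exact absurd (Finset.mem_univ i) h
  -- elements of `𝔪 B`
  have hmB : ∀ b' : B, (∀ i, ∃ a ∈ maximalIdeal A,
      Algebra.trace K L (d i * (b' : L)) = algebraMap A K a) →
      b' ∈ (maximalIdeal A).map (algebraMap A B) := by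
    intro b' h
    obtain ⟨a', ha'⟩ := hspan b' b'.2
    have h1 : ∀ i, a' i ∈ maximalIdeal A := by
      intro i
      obtain ⟨a, ha, h2⟩ := h i
      rw [ha', hcoord] at h2
      rw [IsFractionRing.injective A K h2]
      exact ha
    have h2 : b' = ∑ i, algebraMap A B (a' i) * ⟨b i, hb i⟩ := by
      apply Subtype.ext
      rw [ha', AddSubmonoidClass.coe_finsetSum]
      refine Finset.sum_congr rfl fun i _ => ?_
      rw [Algebra.smul_def]
      rfl
    rw [h2]
    exact Ideal.sum_mem _ fun i _ => Ideal.mul_mem_right _ _ (Ideal.mem_map_of_mem _ (h1 i))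
  obtain ⟨hs0, hsx, hsg⟩ := hsoc
  constructor
  · by_contra hcon
    push Not at hcon
    apply hs0
    apply hmB
    intro i
    obtain ⟨a, ha⟩ := hd i b₀ b₀.2
    refine ⟨a, ?_, ha⟩
    rw [mem_maximalIdeal, mem_nonunits_iff]
    intro hu
    exact hcon (d i) (hd i) a hu ha
  · rintro ω hω ⟨u, hu, hωu⟩
    -- the dual as a `B`-module
    let C : Submodule B L :=
      { carrier := {c | InDual A K c}
        add_mem' := fun h h' => InDual.add h h'
        zero_mem' := InDual.zero
        smul_mem' := fun b' c hc => InDual.mul_integral hc b'.2 }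
    have hCA : ∀ c ∈ C, ∃ a : Fin n → A, c = ∑ i, a i • d i := by
      intro c hc
      choose a ha using fun i => hc (b i) (hb i)
      refine ⟨a, ?_⟩
      conv_lhs => rw [hexp c]
      refine Finset.sum_congr rfl fun i _ => ?_
      rw [ha, algebraMap_smul]
    have hCfg : C.FG := by
      refine ⟨Finset.univ.image d, le_antisymm ?_ ?_⟩
      · rw [Submodule.span_le]
        intro c hc
        rw [Finset.coe_image] at hc
        obtain ⟨i, -, rfl⟩ := hc
        exact hd i
      · intro c hc
        obtain ⟨a, rfl⟩ := hCA c hc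
        refine Submodule.sum_mem _ fun i _ => ?_
        have h1 : a i • d i = (algebraMap A B (a i)) • d i := by
          rw [Algebra.smul_def]
          rfl
        rw [h1]
        exact Submodule.smul_mem _ _ (Submodule.subset_span (by simp))
    -- multiples of the maximal ideal
    have hmxC : ∀ a ∈ maximalIdeal A, ∀ c ∈ C, a • c ∈ x • C := by
      intro a ha c hc
      have h1 : a • c = (algebraMap A B a) • c := by
        rw [Algebra.smul_def]
        rfl
      rw [h1]
      exact Submodule.smul_mem_smul (algebraMap_mem_of_isMaximal x ha) hc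
    -- the key claim
    have key : ∀ c ∈ C, (∃ a ∈ maximalIdeal A, Algebra.trace K L (c * b₀) = algebraMap A K a) →
        c ∈ x • C := by
      intro c hc hcb
      by_contra hcx
      letI : Field (A ⧸ maximalIdeal A) := Ideal.Quotient.field _
      let k := A ⧸ maximalIdeal A
      let X : Submodule k (Fin n → k) :=
        { carrier := {v | ∃ a : Fin n → A, (∑ i, a i • d i ∈ x • C) ∧
            ∀ i, v i = Ideal.Quotient.mk _ (a i)}
          add_mem' := by
            rintro v v' ⟨a, ha, hv⟩ ⟨a', ha', hv'⟩
            refine ⟨fun i => a i + a' i, ?_, fun i => ?_⟩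
            · simp only [add_smul, Finset.sum_add_distrib]
              exact add_mem ha ha'
            · rw [Pi.add_apply, hv, hv', map_add]
          zero_mem' := ⟨0, by simp, fun i => by simp⟩
          smul_mem' := by
            rintro r v ⟨a, ha, hv⟩
            obtain ⟨r, rfl⟩ := Ideal.Quotient.mk_surjective r
            refine ⟨fun i => r * a i, ?_, fun i => ?_⟩
            · simp only [mul_smul, ← Finset.smul_sum]
              have h1 : r • ∑ i, a i • d i = (algebraMap A B r) • ∑ i, a i • d i := by
                rw [Algebra.smul_def]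
                rfl
              rw [h1]
              exact Submodule.smul_mem _ _ ha
            · rw [Pi.smul_apply, hv, smul_eq_mul, map_mul] }
      obtain ⟨a, ha⟩ := hCA c hc
      have hcX : (fun i => Ideal.Quotient.mk (maximalIdeal A) (a i) : Fin n → k) ∉ X := by
        rintro ⟨a', ha', hv⟩
        apply hcx
        have h1 : c = (∑ i, a' i • d i) + ∑ i, (a i - a' i) • d i := by
          rw [ha, ← Finset.sum_add_distrib]
          refine Finset.sum_congr rfl fun i _ => ?_
          rw [sub_smul]
          ring
        rw [h1]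
        refine add_mem ha' (Submodule.sum_mem _ fun i _ => hmxC _ ?_ _ (hd i))
        rw [← Ideal.Quotient.eq]
        exact hv i
      obtain ⟨f, hf, hfX⟩ := Submodule.exists_dual_map_eq_bot_of_notMem hcX inferInstance
      have hfX' : ∀ v ∈ X, f v = 0 := by
        intro v hv
        have : f v ∈ X.map f := ⟨v, hv, rfl⟩
        rw [hfX, Submodule.mem_bot] at this
        exact this
      have hfv : ∀ v : Fin n → k, f v = ∑ i, v i * f (Pi.single i 1) := by
        intro v
        conv_lhs => rw [← Finset.univ_sum_single v]
        rw [map_sum]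
        refine Finset.sum_congr rfl fun i _ => ?_
        have : (Pi.single i (v i) : Fin n → k) = v i • Pi.single i 1 := by
          rw [← Pi.single_smul, smul_eq_mul, mul_one]
        rw [this, map_smul, smul_eq_mul]
      choose α hα using fun i => Ideal.Quotient.mk_surjective (f (Pi.single i 1))
      let β : B := ∑ i, algebraMap A B (α i) * ⟨b i, hb i⟩
      have hβ : (β : L) = ∑ i, α i • b i := by
        rw [AddSubmonoidClass.coe_finsetSum]
        refine Finset.sum_congr rfl fun i _ => ?_
        rw [Algebra.smul_def]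
        rfl
      have htr : ∀ a' : Fin n → A, Algebra.trace K L ((∑ i, a' i • d i) * β) =
          algebraMap A K (∑ i, a' i * α i) := by
        intro a'
        rw [Finset.sum_mul, map_sum, map_sum]
        refine Finset.sum_congr rfl fun i _ => ?_
        rw [smul_mul_assoc, ← algebraMap_smul K (a' i), map_smul, hβ, hcoord, smul_eq_mul, map_mul]
      have hfa : ∀ a' : Fin n → A, f (fun i => Ideal.Quotient.mk (maximalIdeal A) (a' i)) =
          Ideal.Quotient.mk (maximalIdeal A) (∑ i, a' i * α i) := by
        intro a'
        rw [hfv, map_sum]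
        refine Finset.sum_congr rfl fun i _ => ?_
        rw [map_mul, hα]
      -- `β` is in the socle
      have hβs : ∀ ξ ∈ x, ξ * β ∈ (maximalIdeal A).map (algebraMap A B) := by
        intro ξ hξ
        apply hmB
        intro i
        have h1 : (ξ : L) * d i ∈ C := (hd i).mul_integral ξ.2
        obtain ⟨a', ha'⟩ := hCA _ h1
        refine ⟨∑ j, a' j * α j, ?_, ?_⟩
        · rw [← Ideal.Quotient.eq_zero_iff_mem, ← hfa]
          apply hfX'
          refine ⟨a', ?_, fun _ => rfl⟩
          rw [← ha']
          exact Submodule.smul_mem_smul hξ (hd i)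
        · rw [← htr, ← ha']
          congr 1
          change d i * ((ξ : L) * (β : L)) = _
          ring
      obtain ⟨g, hg⟩ := hsg β hβs
      obtain ⟨a₁, ha₁, htr₁⟩ := hcb
      apply hf
      rw [hfa, Ideal.Quotient.eq_zero_iff_mem]
      -- `Tr(c β) ∈ 𝔪`
      have hmtr : ∀ b' ∈ (maximalIdeal A).map (algebraMap A B), ∃ a ∈ maximalIdeal A,
          Algebra.trace K L (c * ((b' : B) : L)) = algebraMap A K a := by
        intro b' hb'
        rw [hm, Ideal.map_span, Set.image_pair, Ideal.mem_span_pair] at hb'
        obtain ⟨y, z, rfl⟩ := hb'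
        obtain ⟨a₂, ha₂⟩ := hc y y.2
        obtain ⟨a₃, ha₃⟩ := hc z z.2
        refine ⟨a₂ * π + a₃ * s, ?_, ?_⟩
        · rw [hm, Ideal.mem_span_pair]
          exact ⟨a₂, a₃, rfl⟩
        · have h1 : c * ((y * algebraMap A B π + z * algebraMap A B s : B) : L) =
              π • (c * y) + s • (c * z) := by
            rw [Algebra.smul_def, Algebra.smul_def]
            change c * ((y : L) * algebraMap A L π + (z : L) * algebraMap A L s) = _
            ring
          rw [h1, map_add, ← algebraMap_smul K π, ← algebraMap_smul K s, map_smul, map_smul, ha₂,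
            ha₃, smul_eq_mul, smul_eq_mul, map_add, map_mul, map_mul]
          ring
      obtain ⟨a₂, ha₂, htr₂⟩ := hmtr _ hg
      have h2 : (∑ i, a i * α i) = a₂ + g * a₁ := by
        apply IsFractionRing.injective A K
        rw [← htr, ← ha, map_add (algebraMap A K), map_mul (algebraMap A K), ← htr₂, ← htr₁]
        have h3 : c * ((β - algebraMap A B g * b₀ : B) : L) = c * β - g • (c * b₀) := by
          rw [Algebra.smul_def]
          change c * ((β : L) - algebraMap A L g * (b₀ : L)) = _
          ring
        rw [h3, map_sub, ← algebraMap_smul K g, map_smul, smul_eq_mul]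
        ring
      rw [h2]
      exact add_mem ha₂ (Ideal.mul_mem_left _ _ ha₁)
    -- `C = ω B + x C`
    have hgen : C ≤ Submodule.span B {ω} ⊔ x • C := by
      intro c hc
      obtain ⟨a₁, ha₁⟩ := hc b₀ b₀.2
      obtain ⟨v, hv⟩ := hu.exists_right_inv
      have h1 : c = (algebraMap A B (a₁ * v)) • ω + (c - (a₁ * v) • ω) := by
        have : (algebraMap A B (a₁ * v)) • ω = (a₁ * v) • ω := by
          rw [Algebra.smul_def (a₁ * v)]
          rfl
        rw [this]
        ring
      rw [h1]
      refine add_mem (Submodule.mem_sup_left (Submodule.smul_mem _ _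
        (Submodule.mem_span_singleton_self ω))) (Submodule.mem_sup_right (key _ ?_ ?_))
      · have h2 : c - (a₁ * v) • ω = c + (-(a₁ * v)) • ω := by rw [neg_smul, sub_eq_add_neg]
        rw [h2]
        exact InDual.add hc (hω.smul _)
      · refine ⟨0, Ideal.zero_mem _, ?_⟩
        rw [sub_mul, map_sub, smul_mul_assoc, ← algebraMap_smul K (a₁ * v), map_smul, hωu, ha₁,
          smul_eq_mul, ← map_mul, map_zero, ← map_sub]
        have : a₁ - a₁ * v * u = 0 := by linear_combination -a₁ * hv
        rw [this, map_zero]
    let N : Submodule B (L ⧸ Submodule.span B {ω}) := C.map (Submodule.span B {ω}).mkQ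
    obtain ⟨r, hr, hrN⟩ := Submodule.exists_sub_one_mem_and_smul_eq_zero_of_fg_of_le_smul x N
      (hCfg.map _) (by
        have h1 := Submodule.map_mono (f := (Submodule.span B {ω}).mkQ) hgen
        rw [Submodule.map_sup, Submodule.map_smul''] at h1
        refine h1.trans (sup_le ?_ le_rfl)
        rw [Submodule.map_le_iff_le_comap]
        intro z hz
        rw [Submodule.mem_comap]
        have : (Submodule.span B {ω}).mkQ z = 0 := by
          rw [Submodule.mkQ_apply, Submodule.Quotient.mk_eq_zero]
          exact hz
        rw [this]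
        exact zero_mem _)
    refine ⟨r, hr, fun c' hc' => ?_⟩
    have h1 := hrN _ (Submodule.mem_map_of_mem (f := (Submodule.span B {ω}).mkQ)
      (show c' ∈ C from hc'))
    rw [← map_smul, Submodule.mkQ_apply, Submodule.Quotient.mk_eq_zero,
      Submodule.mem_span_singleton] at h1
    obtain ⟨β, hβ⟩ := h1
    refine ⟨β, β.2, ?_⟩
    have h2 : (β : L) * ω = (r : L) * c' := hβ
    rw [← h2, mul_comm]

end

end Fermat.Agent.Geo
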