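import Mathlib
import Fermat.Agent.Geo.Unique

set_option autoImplicit false

/-!
# Zariski connectedness in terms of valuation rings
-/

open IsLocalRing Polynomial

universe u

namespace Fermat.Agent.Geo

section Idem

theorem dvd_sub_of_idempotent' {R : Type*} [CommRing R] {c e f : R} {M : ℕ}
    (he : c ∣ e * e - e) (hf : c ∣ f * f - f) (hef : c ∣ (e - f) ^ M) : c ∣ e - f := by
  obtain ⟨a, ha⟩ := he
  obtain ⟨b, hb⟩ := hf
  set d := e - f with hd
  have h1 : c ∣ d - d ^ 3 := by
    refine ⟨-(e + 1) * a + 3 * f * a - 3 * e * b + (f + 1) * b, ?_⟩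
    have h2 : d - d ^ 3 = -(e + 1) * (e * e - e) + 3 * f * (e * e - e) - 3 * e * (f * f - f) +
        (f + 1) * (f * f - f) := by rw [hd]; ring
    rw [h2, ha, hb]
    ring
  obtain ⟨k, hk⟩ := sub_dvd_pow_sub_pow (1 : R) (d ^ 2) M
  rw [one_pow] at hk
  have h3 : d = (d - d ^ 3) * k + d ^ (2 * M + 1) := by
    have h4 : (d - d ^ 3) * k = d * ((1 - d ^ 2) * k) := by ring
    rw [h4, ← hk, pow_succ d (2 * M), pow_mul d 2 M]
    ring
  rw [h3]
  refine dvd_add (Dvd.dvd.mul_right h1 k) ?_
  exact hef.trans (pow_dvd_pow d (by omega))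

end Idem

section Over

variable {F E : Type*} [Field F] [Field E] [Algebra F E]
  {V : ValuationSubring F} [IsDiscreteValuationRing V]
  [FiniteDimensional F E] [Algebra.IsSeparable F E]

/-- `W` lies over `V` (with uniformiser `ϖ`). -/
def Over (V : ValuationSubring F) (ϖ : F) (W : ValuationSubring E) : Prop :=
  (∀ x ∈ V, algebraMap F E x ∈ W) ∧ algebraMap F E ϖ ∈ W.nonunits

theorem finite_over {ϖ : V} (hϖ : Irreducible ϖ) :
    {W : ValuationSubring E | Over V (ϖ : F) W}.Finite := by
  letI : Algebra V E := ((algebraMap F E).comp V.toSubring.subtype).toAlgebra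
  haveI : IsScalarTower V F E := IsScalarTower.of_algebraMap_eq fun a => rfl
  have hfs : FaithfulSMul V E := faithfulSMul_of_tower F E
  have hded : IsDedekindDomain (integralClosure V E) := integralClosure.isDedekindDomain V F E
  let B := integralClosure V E
  have hϖB0 : algebraMap V B ϖ ≠ 0 := by
    intro h0
    have h1 : algebraMap F E ϖ = 0 := congrArg Subtype.val h0
    rw [map_eq_zero] at h1
    exact hϖ.ne_zero (Subtype.ext h1)
  have hfin : (Ideal.span {algebraMap V B ϖ}).minimalPrimes.Finite :=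
    Ideal.finite_minimalPrimes_of_isNoetherianRing _ _
  choose! Q hQ using fun (W : ValuationSubring E) (hW : Over V (ϖ : F) W) =>
    exists_ideal_of_valuationSubring W hϖ hW.1 hW.2
  refine Set.Finite.of_finite_image (hfin.subset ?_ : (Q '' {W | Over V (ϖ : F) W}).Finite) ?_
  · rintro _ ⟨W, hW, rfl⟩
    obtain ⟨hp, h0, hl, hmem⟩ := hQ W hW
    refine ⟨⟨hp, ?_⟩, ?_⟩
    · rw [Ideal.span_singleton_le_iff_mem]
      exact (hmem _).mpr hW.2
    · rintro P ⟨hP, hle⟩ hPQ
      have hP0 : P ≠ ⊥ := by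
        rintro rfl
        rw [Ideal.span_singleton_le_iff_mem, Ideal.mem_bot] at hle
        exact hϖB0 hle
      exact ((hP.isMaximal hP0).eq_of_le hp.ne_top hPQ).ge
  · intro W hW W' hW' hQQ
    obtain ⟨-, -, -, hmem⟩ := hQ W hW
    obtain ⟨-, -, -, hmem'⟩ := hQ W' hW'
    apply le_antisymm
    · apply le_of_center_le hW.1 hW'.1
      intro x hx hxn
      rw [← hmem ⟨x, hx⟩, hQQ, hmem']
      exact hxn
    · apply le_of_center_le hW'.1 hW.1
      intro x hx hxn
      rw [← hmem' ⟨x, hx⟩, ← hQQ, hmem]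
      exact hxn

/-- An element in all the maximal ideals above `V` is nilpotent modulo the uniformiser. -/
theorem exists_pow_of_forall_over {ϖ : V} (hϖ : Irreducible ϖ) {x : E}
    (hx : IntOver V.toSubring x)
    (h : ∀ W : ValuationSubring E, Over V (ϖ : F) W → x ∈ W.nonunits) :
    ∃ (N : ℕ) (w : E), IntOver V.toSubring w ∧ x ^ N = (ϖ : F) • w := by
  letI : Algebra V E := ((algebraMap F E).comp V.toSubring.subtype).toAlgebra
  haveI : IsScalarTower V F E := IsScalarTower.of_algebraMap_eq fun a => rfl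
  have hfs : FaithfulSMul V E := faithfulSMul_of_tower F E
  have hded : IsDedekindDomain (integralClosure V E) := integralClosure.isDedekindDomain V F E
  let B := integralClosure V E
  have hrad : (⟨x, hx⟩ : B) ∈ (Ideal.span {algebraMap V B ϖ}).radical := by
    rw [Ideal.radical_eq_sInf, Ideal.mem_sInf]
    rintro Q ⟨hle, hQ⟩
    rw [Ideal.span_singleton_le_iff_mem] at hle
    let BS : Subring E := B.toSubring
    obtain ⟨W, hBW, hQW⟩ := Ideal.image_subset_nonunits_valuationSubring (A := BS) (Q : Ideal BS)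
      hQ.ne_top
    have hVW : ∀ x ∈ V, algebraMap F E x ∈ W := by
      intro x hx
      exact hBW (B.algebraMap_mem ⟨x, hx⟩)
    have hϖW : algebraMap F E ϖ ∈ W.nonunits := hQW ⟨algebraMap V B ϖ, hle, rfl⟩
    have h1 := h W ⟨hVW, hϖW⟩
    obtain ⟨Q', hQ', hQ'0, hQ'l, hmem⟩ := exists_ideal_of_valuationSubring W hϖ hVW hϖW
    have hQ0 : Q ≠ ⊥ := by
      rintro rfl
      rw [Ideal.mem_bot] at hle
      have h1 : algebraMap F E ϖ = 0 := congrArg Subtype.val hle
      rw [map_eq_zero] at h1
      exact hϖ.ne_zero (Subtype.ext h1)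
    have hQQ : Q = Q' := by
      apply (hQ.isMaximal hQ0).eq_of_le hQ'.ne_top
      intro b hb
      rw [hmem]
      exact hQW ⟨b, hb, rfl⟩
    rw [hQQ, hmem]
    exact h1
  obtain ⟨N, hN⟩ := hrad
  rw [Ideal.mem_span_singleton] at hN
  obtain ⟨w, hw⟩ := hN
  refine ⟨N, w, w.2, ?_⟩
  rw [Algebra.smul_def]
  exact congrArg Subtype.val hw

end Over

section Main

variable {O F E : Type u} [CommRing O] [IsDomain O] [IsDiscreteValuationRing O]
  [Field F] [Field E] [Algebra O F] [Algebra O E] [Algebra F E] [IsScalarTower O F E]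
  {t : F} {π : O} [FiniteDimensional F E] [Algebra.IsSeparable F E]

/-- The separating idempotent in one chart. -/
theorem exists_idempotent_chart (ht : IsParam O t) (hπ : Prime π)
    (S : Set (ValuationSubring E))
    (hsep : ∀ W ∈ S, ∀ W' ∉ S, Over (gaussVal ht hπ) (algebraMap O F π) W →
      Over (gaussVal ht hπ) (algebraMap O F π) W' →
      ∀ y : Ideal (chart O (algebraMap F E t)), y.IsMaximal →
      (∀ x : chart O (algebraMap F E t), (x : E) ∈ W.nonunits → x ∈ y) →
      (∀ x : chart O (algebraMap F E t), (x : E) ∈ W'.nonunits → x ∈ y) → False) :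
    ∃ f ∈ chart O (algebraMap F E t), (∃ w ∈ chart O (algebraMap F E t), f * f - f = π • w) ∧
      ∀ W : ValuationSubring E, Over (gaussVal ht hπ) (algebraMap O F π) W →
        (W ∈ S → 1 - f ∈ W.nonunits) ∧ (W ∉ S → f ∈ W.nonunits) := by
  classical
  let V := gaussVal ht hπ
  haveI : IsDiscreteValuationRing V := isDiscreteValuationRing_gaussVal ht hπ
  obtain ⟨ϖ, hϖ, hϖπ⟩ := exists_gauss_unif ht hπ
  let R := chart O (algebraMap F E t)
  have hfin : {W : ValuationSubring E | Over V (algebraMap O F π) W}.Finite := by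
    rw [← hϖπ]
    exact finite_over hϖ
  let 𝒲 : Finset (ValuationSubring E) := hfin.toFinset
  have h𝒲 : ∀ W, W ∈ 𝒲 ↔ Over V (algebraMap O F π) W := fun W => hfin.mem_toFinset
  -- the centres
  have hRW : ∀ W : ValuationSubring E, Over V (algebraMap O F π) W → ∀ x : R, (x : E) ∈ W :=
    fun W hW x => mem_of_intOver hW.1 (intOver_of_mem_chart ht hπ x.2)
  let cen : ValuationSubring E → Ideal R := fun W =>
    if hW : Over V (algebraMap O F π) W then
      (maximalIdeal W).comap (R.val.toRingHom.codRestrict W.toSubring (hRW W hW)) else ⊤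
  have hcen : ∀ W, Over V (algebraMap O F π) W → ∀ x : R, x ∈ cen W ↔ (x : E) ∈ W.nonunits := by
    intro W hW x
    simp only [cen, dif_pos hW]
    rw [Ideal.mem_comap, ValuationSubring.mem_nonunits_iff_exists_mem_maximalIdeal]
    exact ⟨fun h => ⟨hRW W hW x, h⟩, fun ⟨_, h⟩ => h⟩
  let I₁ : Ideal R := (𝒲.filter (· ∈ S)).inf cen
  let I₂ : Ideal R := (𝒲.filter (· ∉ S)).inf cen
  have htop : I₁ ⊔ I₂ = ⊤ := by
    by_contra hne
    obtain ⟨y, hy, hle⟩ := Ideal.exists_le_maximal _ hne
    have hyp : y.IsPrime := hy.isPrime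
    obtain ⟨W, hW, hWy⟩ := (hyp.inf_le').mp (le_sup_left.trans hle : I₁ ≤ y)
    obtain ⟨W', hW', hWy'⟩ := (hyp.inf_le').mp (le_sup_right.trans hle : I₂ ≤ y)
    rw [Finset.mem_filter, h𝒲] at hW hW'
    exact hsep W hW.2 W' hW'.2 hW.1 hW'.1 y hy (fun x hx => hWy ((hcen W hW.1 x).mpr hx))
      (fun x hx => hWy' ((hcen W' hW'.1 x).mpr hx))
  obtain ⟨i₁, hi₁, e, he, hie⟩ := Submodule.mem_sup.mp
    (show (1 : R) ∈ I₁ ⊔ I₂ by rw [htop]; trivial)
  have he1 : ∀ W, Over V (algebraMap O F π) W → W ∈ S → 1 - (e : E) ∈ W.nonunits := by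
    intro W hW hS
    have h1 : i₁ ∈ cen W := (Finset.inf_le (f := cen)
      (Finset.mem_filter.mpr ⟨(h𝒲 W).mpr hW, hS⟩)) hi₁
    have h2 : (i₁ : E) = 1 - e := by
      have := congrArg Subtype.val hie
      change (i₁ : E) + e = 1 at this
      rw [← this]; ring
    rw [← h2]
    exact (hcen W hW i₁).mp h1
  have he2 : ∀ W, Over V (algebraMap O F π) W → W ∉ S → (e : E) ∈ W.nonunits := by
    intro W hW hS
    exact (hcen W hW e).mp ((Finset.inf_le (f := cen)
      (Finset.mem_filter.mpr ⟨(h𝒲 W).mpr hW, hS⟩)) he)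
  have heW : ∀ W, Over V (algebraMap O F π) W → ((e * e - e : R) : E) ∈ W.nonunits := by
    intro W hW
    have h1 : ((e * e - e : R) : E) = (-(e : E)) * (1 - e) := by
      change (e : E) * e - e = _
      ring
    rw [h1]
    by_cases hS : W ∈ S
    · exact mul_mem_nonunits (neg_mem (hRW W hW e)) (he1 W hW hS)
    · rw [mul_comm]
      refine mul_mem_nonunits (sub_mem (one_mem _) (hRW W hW e)) (neg_mem (he2 W hW hS))
  obtain ⟨N, w, hw, hN⟩ := exists_pow_of_forall_over hϖ (x := ((e * e - e : R) : E))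
    (intOver_of_mem_chart ht hπ (e * e - e).2) (fun W hW => heW W (by rwa [hϖπ] at hW))
  obtain ⟨f, ⟨k, hk⟩, ⟨l, hl⟩⟩ := exists_lift_idempotent (p := e * e - e) (e := e) dvd_rfl N
  have hsmul : ∀ y : E, (ϖ : F) • y = π • y := fun y => by
    rw [hϖπ, algebraMap_smul]
  refine ⟨f, f.2, ?_, fun W hW => ?_⟩
  · rw [hsmul] at hN
    have h1 : (f : E) * f - f = π • (w * ((e * e - e : R) : E) * k) := by
      have h2 : (f : E) * f - f = (((e * e - e : R) : E) ^ (N + 1)) * k := congrArg Subtype.val hk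
      rw [h2, pow_succ, hN, smul_mul_assoc, smul_mul_assoc]
    have h3 : IntOver V.toSubring (w * ((e * e - e : R) : E) * k) :=
      (hw.mul (intOver_of_mem_chart ht hπ (e * e - e).2)).mul (intOver_of_mem_chart ht hπ k.2)
    refine ⟨_, mem_chart_of_smul_mem ht hπ h3 ?_, h1⟩
    rw [← h1]
    exact sub_mem (mul_mem f.2 f.2) f.2
  · have h1 : (f : E) = e + ((e * e - e : R) : E) * l := by
      have : (f : E) - e = ((e * e - e : R) : E) * l := congrArg Subtype.val hl
      rw [← this]; ring
    have h2 : ((e * e - e : R) : E) * l ∈ W.nonunits := by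
      rw [mul_comm]
      exact mul_mem_nonunits (hRW W hW l) (heW W hW)
    constructor
    · intro hS
      have h3 : 1 - (f : E) = (1 - e) - ((e * e - e : R) : E) * l := by rw [h1]; ring
      rw [h3]
      exact sub_mem (he1 W hW hS) h2
    · intro hS
      rw [h1]
      exact add_mem (he2 W hW hS) h2

/-- **Zariski connectedness.**  If the base is algebraically closed in `E` and the set of
extensions of the Gauss valuation is divided into two non-empty parts, then a member of the first
part and a member of the second part have a common specialisation in one of the two charts. -/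
theorem zariski_connected (ht : IsParam O t) (hπ : Prime π)
    (hinj : Function.Injective (algebraMap O E))
    (hO : ∀ x : E, IsIntegral O x → ∃ o : O, algebraMap O E o = x)
    (S : Set (ValuationSubring E)) {W₁ W₂ : ValuationSubring E}
    (hW₁ : Over (gaussVal ht hπ) (algebraMap O F π) W₁)
    (hW₂ : Over (gaussVal ht hπ) (algebraMap O F π) W₂) (h₁ : W₁ ∈ S) (h₂ : W₂ ∉ S) :
    (∃ W ∈ S, ∃ W' ∉ S, Over (gaussVal ht hπ) (algebraMap O F π) W ∧
      Over (gaussVal ht hπ) (algebraMap O F π) W' ∧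
      ∃ y : Ideal (chart O (algebraMap F E t)), y.IsMaximal ∧
      (∀ x : chart O (algebraMap F E t), (x : E) ∈ W.nonunits → x ∈ y) ∧
      (∀ x : chart O (algebraMap F E t), (x : E) ∈ W'.nonunits → x ∈ y)) ∨
    (∃ W ∈ S, ∃ W' ∉ S, Over (gaussVal ht hπ) (algebraMap O F π) W ∧
      Over (gaussVal ht hπ) (algebraMap O F π) W' ∧
      ∃ y : Ideal (chart O (algebraMap F E t)⁻¹), y.IsMaximal ∧
      (⟨(algebraMap F E t)⁻¹, self_mem_chart _⟩ : chart O (algebraMap F E t)⁻¹) ∈ y ∧
      (∀ x : chart O (algebraMap F E t)⁻¹, (x : E) ∈ W.nonunits → x ∈ y) ∧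
      (∀ x : chart O (algebraMap F E t)⁻¹, (x : E) ∈ W'.nonunits → x ∈ y)) := by
  classical
  by_contra hcon
  rw [not_or] at hcon
  obtain ⟨hc₁, hc₂⟩ := hcon
  have ht' : IsParam O t⁻¹ := ht.inv
  have hgg : gaussVal ht' hπ = gaussVal ht hπ := gaussVal_inv ht ht' hπ
  have hinv : algebraMap F E t⁻¹ = (algebraMap F E t)⁻¹ := map_inv₀ _ _
  have htE : algebraMap F E t ≠ 0 := by
    rw [Ne, map_eq_zero]
    exact ht.ne_zero
  let V := gaussVal ht hπ
  haveI : IsDiscreteValuationRing V := isDiscreteValuationRing_gaussVal ht hπ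
  obtain ⟨ϖ, hϖ, hϖπ⟩ := exists_gauss_unif ht hπ
  have hsmul : ∀ y : E, (ϖ : F) • y = π • y := fun y => by
    rw [hϖπ, algebraMap_smul]
  -- first chart
  obtain ⟨f, hf, hfi, hfW⟩ := exists_idempotent_chart ht hπ S
    (fun W hW W' hW' hWo hWo' y hy h h' => hc₁ ⟨W, hW, W', hW', hWo, hWo', y, hy, h, h'⟩)
  -- second chart
  obtain ⟨f', hf', hfi', hfW'⟩ := exists_idempotent_chart ht' hπ S
    (fun W hW W' hW' hWo hWo' y hy h h' => by
      rw [hgg] at hWo hWo'
      revert y
      rw [hinv]
      intro y hy h h'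
      by_cases hty : (⟨(algebraMap F E t)⁻¹, self_mem_chart _⟩ :
          chart O (algebraMap F E t)⁻¹) ∈ y
      · exact hc₂ ⟨W, hW, W', hW', hWo, hWo', y, hy, hty, h, h'⟩
      · -- contract to the first chart
        have hyp : y.IsPrime := hy.isPrime
        have hpow : ∀ m : ℕ, (⟨(algebraMap F E t)⁻¹, self_mem_chart _⟩ :
            chart O (algebraMap F E t)⁻¹) ^ m ∉ y := fun m hm => hty (hyp.mem_of_pow_mem m hm)
        let y₀ : Ideal (chart O (algebraMap F E t)) :=
          { carrier := {x | ∃ (m : ℕ) (hm : (algebraMap F E t)⁻¹ ^ m * (x : E) ∈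
              chart O (algebraMap F E t)⁻¹), (⟨_, hm⟩ : chart O (algebraMap F E t)⁻¹) ∈ y}
            add_mem' := by
              rintro a b ⟨m, hm, hma⟩ ⟨n, hn, hnb⟩
              have h1 : (algebraMap F E t)⁻¹ ^ (m + n) * ((a : E) + b) =
                  (algebraMap F E t)⁻¹ ^ n * ((algebraMap F E t)⁻¹ ^ m * a) +
                  (algebraMap F E t)⁻¹ ^ m * ((algebraMap F E t)⁻¹ ^ n * b) := by ring
              have hp : ∀ k : ℕ, (algebraMap F E t)⁻¹ ^ k ∈ chart O (algebraMap F E t)⁻¹ :=
                fun k => pow_mem (self_mem_chart _) k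
              refine ⟨m + n, ?_, ?_⟩
              · change (algebraMap F E t)⁻¹ ^ (m + n) * ((a : E) + b) ∈ _
                rw [h1]
                exact add_mem (mul_mem (hp n) hm) (mul_mem (hp m) hn)
              · have h2 := add_mem (Ideal.mul_mem_left y ⟨_, hp n⟩ hma)
                  (Ideal.mul_mem_left y ⟨_, hp m⟩ hnb)
                convert! h2 using 1
                exact Subtype.ext h1
            zero_mem' := ⟨0, by
              change (algebraMap F E t)⁻¹ ^ 0 * (0 : E) ∈ _
              rw [mul_zero]; exact zero_mem _, by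
              convert! y.zero_mem using 1
              apply Subtype.ext
              change (algebraMap F E t)⁻¹ ^ 0 * (0 : E) = 0
              rw [mul_zero]⟩
            smul_mem' := by
              rintro c a ⟨m, hm, hma⟩
              obtain ⟨n, hn⟩ := exists_pow_mul_mem htE c.2
              have h1 : (algebraMap F E t)⁻¹ ^ (n + m) * ((c : E) * a) =
                  ((algebraMap F E t)⁻¹ ^ n * c) * ((algebraMap F E t)⁻¹ ^ m * a) := by ring
              refine ⟨n + m, ?_, ?_⟩
              · change (algebraMap F E t)⁻¹ ^ (n + m) * ((c : E) * a) ∈ _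
                rw [h1]
                exact mul_mem hn hm
              · have h2 := Ideal.mul_mem_left y ⟨_, hn⟩ hma
                convert! h2 using 1
                exact Subtype.ext h1 }
        have hy₀ : y₀ ≠ ⊤ := by
          intro htop
          have h1 : (1 : chart O (algebraMap F E t)) ∈ y₀ := by rw [htop]; trivial
          obtain ⟨m, hm, hm1⟩ := h1
          apply hpow m
          convert! hm1 using 1
          apply Subtype.ext
          change (algebraMap F E t)⁻¹ ^ m = (algebraMap F E t)⁻¹ ^ m * 1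
          rw [mul_one]
        obtain ⟨y₁, hy₁, hle⟩ := Ideal.exists_le_maximal _ hy₀
        have hcont : ∀ W : ValuationSubring E, Over (gaussVal ht hπ) (algebraMap O F π) W →
            (∀ x : chart O (algebraMap F E t)⁻¹, (x : E) ∈ W.nonunits → x ∈ y) →
            ∀ x : chart O (algebraMap F E t), (x : E) ∈ W.nonunits → x ∈ y₁ := by
          intro W hWo h x hx
          apply hle
          obtain ⟨m, hm⟩ := exists_pow_mul_mem htE x.2
          refine ⟨m, hm, h _ ?_⟩
          refine mul_mem_nonunits ?_ hx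
          have h1 : (algebraMap F E t)⁻¹ ∈ W := by
            rw [← hinv]
            have hWo' : Over (gaussVal ht' hπ) (algebraMap O F π) W := by rwa [hgg]
            apply hWo'.1
            exact (mem_placeVal_iff ht' _).mpr ⟨1, X, (prime_C_iff.mpr hπ).not_dvd_one, by
              rw [map_one, one_mul, aeval_X]⟩
          exact pow_mem h1 m
        exact hc₁ ⟨W, hW, W', hW', hWo, hWo', y₁, hy₁, hcont W hWo h, hcont W' hWo' h'⟩)
  rw [hgg] at hfW'
  rw [hinv] at hf' hfi'
  -- comparison on the overlap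
  have hfint : IntOver V.toSubring f := intOver_of_mem_chart ht hπ hf
  have hf'int : IntOver V.toSubring f' := by
    have := intOver_of_mem_chart ht' hπ (x := f') (by rw [hinv]; exact hf')
    rwa [hgg] at this
  have hdW : ∀ W : ValuationSubring E, Over V (ϖ : F) W → f - f' ∈ W.nonunits := by
    intro W hW
    rw [hϖπ] at hW
    by_cases hS : W ∈ S
    · have h1 : f - f' = (1 - f') - (1 - f) := by ring
      rw [h1]
      exact sub_mem ((hfW' W hW).1 hS) ((hfW W hW).1 hS)
    · exact sub_mem ((hfW W hW).2 hS) ((hfW' W hW).2 hS)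
  obtain ⟨M, w, hw, hM⟩ := exists_pow_of_forall_over hϖ (hfint.sub hf'int) hdW
  rw [hsmul] at hM
  have hfo : f ∈ overlap O (algebraMap F E t) := chart_le_overlap hf
  have hfo' : f' ∈ overlap O (algebraMap F E t) := chart_inv_le_overlap htE hf'
  have hπo : algebraMap O E π ∈ overlap O (algebraMap F E t) :=
    chart_le_overlap ((chart O _).algebraMap_mem π)
  have hwo : w ∈ overlap O (algebraMap F E t) := by
    apply mem_overlap_of_smul_mem ht hπ hw
    rw [← hM]
    exact pow_mem (sub_mem hfo hfo') M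
  obtain ⟨v, hv, hv1⟩ := hfi
  obtain ⟨v', hv', hv1'⟩ := hfi'
  have hdvd : (⟨_, hπo⟩ : overlap O (algebraMap F E t)) ∣ ⟨f, hfo⟩ - ⟨f', hfo'⟩ := by
    refine dvd_sub_of_idempotent' (M := M) ?_ ?_ ?_
    · refine ⟨⟨v, chart_le_overlap hv⟩, Subtype.ext ?_⟩
      rw [Algebra.smul_def] at hv1
      exact hv1
    · refine ⟨⟨v', chart_inv_le_overlap htE hv'⟩, Subtype.ext ?_⟩
      rw [Algebra.smul_def] at hv1'
      exact hv1'
    · refine ⟨⟨w, hwo⟩, Subtype.ext ?_⟩
      rw [Algebra.smul_def] at hM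
      exact hM
  obtain ⟨d, hd⟩ := hdvd
  have hd' : f - f' = π • (d : E) := by
    rw [Algebra.smul_def]
    exact congrArg Subtype.val hd
  have hπn : ∀ W : ValuationSubring E, Over V (algebraMap O F π) W →
      ∀ v : E, IntOver V.toSubring v → π • v ∈ W.nonunits := by
    intro W hW v hv
    rw [Algebra.smul_def, mul_comm, IsScalarTower.algebraMap_apply O F E]
    exact mul_mem_nonunits (mem_of_intOver hW.1 hv) hW.2
  have hone : ∀ W : ValuationSubring E, (1 : E) ∉ W.nonunits := by
    intro W h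
    rw [ValuationSubring.mem_nonunits_iff, map_one] at h
    exact lt_irrefl _ h
  rcases eq_zero_or_one_of_idempotent htE hinj hπ.irreducible (exists_finset_chart ht) hO hf hf'
    ⟨v, hv, hv1⟩ ⟨v', hv', hv1'⟩ ⟨d, d.2, hd'⟩ with ⟨c, hc, hcf⟩ | ⟨c, hc, hcf⟩
  · apply hone W₁
    have h1 : (1 : E) = (1 - f) + f := by ring
    rw [h1]
    refine add_mem ((hfW W₁ hW₁).1 h₁) ?_
    rw [hcf]
    exact hπn W₁ hW₁ c (intOver_of_mem_chart ht hπ hc)
  · apply hone W₂
    have h1 : (1 : E) = (1 - f) + f := by ring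
    rw [h1]
    refine add_mem ?_ ((hfW W₂ hW₂).2 h₂)
    rw [hcf]
    exact hπn W₂ hW₂ c (intOver_of_mem_chart ht hπ hc)

end Main

end Fermat.Agent.Geo
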