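import Mathlib
import Fermat.Agent.Geo.ConnVal

set_option autoImplicit false

/-!
# Totally split extensions of discrete valuation rings
-/

open IsLocalRing Polynomial

universe u

namespace Fermat.Agent.Geo

section

variable {F E : Type u} [Field F] [Field E] [Algebra F E]
  {V : ValuationSubring F}

theorem mem_nonunits_comap {W : ValuationSubring E} (σ : E ≃ₐ[F] E) {x : E} :
    x ∈ (W.comap (σ : E →+* E)).nonunits ↔ σ x ∈ W.nonunits := by
  rw [ValuationSubring.mem_nonunits_iff_or, ValuationSubring.mem_nonunits_iff_or,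
    ValuationSubring.mem_comap, map_inv₀]
  have : (σ : E →+* E) x = σ x := rfl
  rw [this, map_eq_zero]

theorem mem_comap_algEquiv {W : ValuationSubring E} (σ : E ≃ₐ[F] E) {x : E} :
    x ∈ W.comap (σ : E →+* E) ↔ σ x ∈ W := Iff.rfl

theorem Over.comap {W : ValuationSubring E} {ϖ : F} (hW : Over V ϖ W) (σ : E ≃ₐ[F] E) :
    Over V ϖ (W.comap (σ : E →+* E)) := by
  refine ⟨fun x hx => ?_, ?_⟩
  · rw [mem_comap_algEquiv, AlgEquiv.commutes]
    exact hW.1 x hx
  · rw [mem_nonunits_comap, AlgEquiv.commutes]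
    exact hW.2

theorem comap_injective_of_split {W : ValuationSubring E}
    (hsplit : ∀ σ : E ≃ₐ[F] E, σ ≠ 1 → W.comap (σ : E →+* E) ≠ W) :
    Function.Injective fun σ : E ≃ₐ[F] E => W.comap (σ : E →+* E) := by
  intro σ τ h
  by_contra hne
  apply hsplit (σ * τ⁻¹) (by
    intro h1
    exact hne (mul_inv_eq_one.mp h1))
  ext x
  have h1 := congrArg (fun (U : ValuationSubring E) => (τ⁻¹ x) ∈ U) h
  simp only [mem_comap_algEquiv] at h1
  rw [mem_comap_algEquiv, AlgEquiv.mul_apply]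
  have h2 : τ (τ⁻¹ x) = x := by
    rw [← AlgEquiv.mul_apply, mul_inv_cancel, AlgEquiv.one_apply]
  rw [h2] at h1
  exact iff_of_eq h1

variable [IsDiscreteValuationRing V] [FiniteDimensional F E]

/-- An extension in which a uniformiser stays a uniformiser is a discrete valuation ring. -/
theorem isDVR_of_unif {ϖ : V} (hϖ : Irreducible ϖ) {W : ValuationSubring E}
    (hW : Over V (ϖ : F) W) (hunif : ∀ x ∈ W.nonunits, ∃ y ∈ W, x = (ϖ : F) • y) :
    IsDiscreteValuationRing W ∧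
      Irreducible (⟨algebraMap F E ϖ, hW.1 _ ϖ.2⟩ : W) := by
  letI : Algebra V E := ((algebraMap F E).comp V.toSubring.subtype).toAlgebra
  haveI : IsScalarTower V F E := IsScalarTower.of_algebraMap_eq fun a => rfl
  let ϖW : W := ⟨algebraMap F E ϖ, hW.1 _ ϖ.2⟩
  have hϖ0 : algebraMap F E ϖ ≠ 0 := by
    intro h0
    rw [map_eq_zero] at h0
    exact hϖ.ne_zero (Subtype.ext h0)
  have hϖW0 : ϖW ≠ 0 := fun h => hϖ0 (congrArg Subtype.val h)
  have hunit : ∀ x : W, ¬ IsUnit x → ∃ y : W, x = ϖW * y := by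
    intro x hx
    obtain ⟨y, hy, hxy⟩ := hunif x (ValuationSubring.coe_mem_nonunits_iff.mpr (by
      rw [mem_maximalIdeal, mem_nonunits_iff]; exact hx))
    exact ⟨⟨y, hy⟩, Subtype.ext (by rw [Algebra.smul_def] at hxy; exact hxy)⟩
  have hnu : ¬ IsUnit ϖW := by
    intro h
    have := ValuationSubring.coe_mem_nonunits_iff.mp
      (show ((ϖW : W) : E) ∈ W.nonunits from hW.2)
    rw [mem_maximalIdeal, mem_nonunits_iff] at this
    exact this h
  have hfac : ∀ m : ℕ, ∀ x : W, x ≠ 0 → ((ϖW : E) ^ m * (x : E)⁻¹ ∈ W) →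
      ∃ (n : ℕ) (u : Wˣ), ϖW ^ n * u = x := by
    intro m
    induction m with
    | zero =>
      intro x hx0 hx
      rw [pow_zero, one_mul] at hx
      have hx0' : (x : E) ≠ 0 := fun h => hx0 (Subtype.ext h)
      refine ⟨0, ⟨x, ⟨_, hx⟩, Subtype.ext (mul_inv_cancel₀ hx0'),
        Subtype.ext (inv_mul_cancel₀ hx0')⟩, ?_⟩
      rw [pow_zero, one_mul]
    | succ m ih =>
      intro x hx0 hx
      by_cases hu : IsUnit x
      · obtain ⟨u, rfl⟩ := hu
        exact ⟨0, u, by rw [pow_zero, one_mul]⟩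
      · obtain ⟨y, rfl⟩ := hunit x hu
        have hy0 : y ≠ 0 := by
          rintro rfl
          exact hx0 (mul_zero _)
        obtain ⟨n, u, hnu'⟩ := ih y hy0 (by
          have h1 : (ϖW : E) ^ (m + 1) * ((ϖW * y : W) : E)⁻¹ = (ϖW : E) ^ m * (y : E)⁻¹ := by
            change (ϖW : E) ^ (m + 1) * ((ϖW : E) * (y : E))⁻¹ = _
            have h2 : (ϖW : E) ≠ 0 := hϖ0
            rw [mul_inv, pow_succ]
            field_simp
          rwa [h1] at hx)
        exact ⟨n + 1, u, by rw [← hnu']; ring⟩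
  have hirr : Irreducible ϖW := by
    refine ⟨hnu, fun x y hxy => ?_⟩
    by_contra hcon
    rw [not_or] at hcon
    obtain ⟨x', rfl⟩ := hunit x hcon.1
    obtain ⟨y', rfl⟩ := hunit y hcon.2
    apply hnu
    have h1 : ϖW * 1 = ϖW * (ϖW * (x' * y')) := by
      rw [mul_one]
      exact hxy.trans (by ring)
    have h2 := mul_left_cancel₀ hϖW0 h1
    exact IsUnit.of_mul_eq_one _ h2.symm
  refine ⟨?_, hirr⟩
  apply IsDiscreteValuationRing.ofHasUnitMulPowIrreducibleFactorization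
  refine ⟨ϖW, hirr, fun {x} hx0 => ?_⟩
  have hx0' : (x : E) ≠ 0 := fun h => hx0 (Subtype.ext h)
  obtain ⟨a, ha0, ha⟩ := exists_smul_isIntegral (A := V) F (x : E)⁻¹
  obtain ⟨m, u, rfl⟩ := IsDiscreteValuationRing.eq_unit_mul_pow_irreducible ha0 hϖ
  have h1 : ((u : V) * ϖ ^ m) • (x : E)⁻¹ ∈ W :=
    mem_valuationSubring_of_isIntegralElem W ((algebraMap F E).comp V.toSubring.subtype)
      (fun v => hW.1 _ v.2) ha
  obtain ⟨n, v, hnv⟩ := hfac m x hx0 (by
    have h2 : (ϖW : E) ^ m * (x : E)⁻¹ = algebraMap F E ((u⁻¹ : Vˣ) : V) *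
        (((u : V) * ϖ ^ m) • (x : E)⁻¹) := by
      rw [Algebra.smul_def]
      change algebraMap F E ϖ ^ m * (x : E)⁻¹ = algebraMap F E ((u⁻¹ : Vˣ) : V) *
        (algebraMap F E (((u : V) * ϖ ^ m : V) : F) * (x : E)⁻¹)
      have h3 : ((((u⁻¹ : Vˣ) : V) : F)) * (((u : V) * ϖ ^ m : V) : F) = (ϖ : F) ^ m := by
        have : ((u⁻¹ : Vˣ) : V) * ((u : V) * ϖ ^ m) = ϖ ^ m := by
          rw [← mul_assoc, Units.inv_mul, one_mul]
        exact congrArg Subtype.val this
      rw [← mul_assoc, ← map_mul, h3, map_pow]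
    rw [h2]
    exact mul_mem (hW.1 _ (((u⁻¹ : Vˣ) : V)).2) h1)
  exact ⟨n, ⟨v, hnv⟩⟩

variable [Algebra.IsSeparable F E]

/-- In an unramified extension, the uniformiser stays a uniformiser. -/
theorem unif_of_unr {ϖ : V} (hϖ : Irreducible ϖ) (hunr : Unr V.toSubring E)
    {W : ValuationSubring E} (hW : Over V (ϖ : F) W) {x : E} (hx : x ∈ W.nonunits) :
    ∃ y ∈ W, x = (ϖ : F) • y := by
  classical
  have hfin := finite_over (E := E) hϖ
  have : Fintype {W : ValuationSubring E // Over V (ϖ : F) W} := hfin.fintype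
  have hxW : x ∈ W := ValuationSubring.nonunits_subset hx
  obtain ⟨j, hj, hxj, hjW, hjn⟩ := exists_intOver_mul hW.1 hxW
  obtain ⟨u, hu, hui⟩ := exists_separating hϖ
    (fun W' : {W : ValuationSubring E // Over V (ϖ : F) W} => W'.1) Subtype.val_injective
    (fun W' => W'.2.1) (fun W' => W'.2.2)
    (fun W' => if W'.1 = W then 1 else 0) (fun W' => by
      split_ifs
      · exact one_mem _
      · exact zero_mem _)
  have hu1 : u - 1 ∈ W.nonunits := by simpa using hui ⟨W, hW⟩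
  obtain ⟨N, w, hw, hN⟩ := exists_pow_of_forall_over hϖ (x := u * (x * j)) (hu.mul hxj)
    (fun W' hW' => by
      by_cases h : W' = W
      · subst h
        rw [mul_comm x j]
        exact mul_mem_nonunits (mem_of_intOver hW'.1 hu) (mul_mem_nonunits hjW hx)
      · have h1 := hui ⟨W', hW'⟩
        simp only [if_neg h, sub_zero] at h1
        rw [mul_comm]
        exact mul_mem_nonunits (mem_of_intOver hW'.1 hxj) h1)
  obtain ⟨y, hy, hxy⟩ := Unr.exists_of_pow hunr hϖ (Nat.succ_pos N) (hw.mul (hu.mul hxj))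
    (x := u * (x * j)) (by rw [pow_succ, hN, smul_mul_assoc])
  have hun : u ∉ W.nonunits := by
    intro h
    have h1 : (1 : E) ∈ W.nonunits := by
      have : (1 : E) = u - (u - 1) := by ring
      rw [this]
      exact sub_mem h hu1
    rw [ValuationSubring.mem_nonunits_iff, map_one] at h1
    exact lt_irrefl _ h1
  have hu0 : u ≠ 0 := fun h0 => hun (by rw [h0]; exact zero_mem_nonunits _)
  have hj0 : j ≠ 0 := fun h0 => hjn (by rw [h0]; exact zero_mem_nonunits _)
  refine ⟨u⁻¹ * (j⁻¹ * y), mul_mem (inv_mem_of_notMem_nonunits hun)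
    (mul_mem (inv_mem_of_notMem_nonunits hjn) (mem_of_intOver hW.1 hy)), ?_⟩
  rw [Algebra.smul_def] at hxy ⊢
  have h1 : algebraMap F E ϖ * (u⁻¹ * (j⁻¹ * y)) = u⁻¹ * (j⁻¹ * (algebraMap F E ϖ * y)) := by ring
  rw [h1, ← hxy]
  field_simp

theorem notMem_nonunits_one (W : ValuationSubring E) : (1 : E) ∉ W.nonunits := by
  intro h
  rw [ValuationSubring.mem_nonunits_iff, map_one] at h
  exact lt_irrefl _ h

omit [FiniteDimensional F E] [Algebra.IsSeparable F E] in
/-- Non-units of the base are detected in the extension. -/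
theorem Over.mem_nonunits_iff {ϖ : V} (hϖ : Irreducible ϖ) {W : ValuationSubring E}
    (hW : Over V (ϖ : F) W) {x : F} : algebraMap F E x ∈ W.nonunits ↔ x ∈ V.nonunits := by
  constructor
  · intro h
    rw [ValuationSubring.mem_nonunits_iff_or]
    by_contra hcon
    push Not at hcon
    obtain ⟨hx0, hxi⟩ := hcon
    apply notMem_nonunits_one W
    have h1 : (1 : E) = algebraMap F E x⁻¹ * algebraMap F E x := by
      rw [← map_mul, inv_mul_cancel₀ hx0, map_one]
    rw [h1]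
    exact mul_mem_nonunits (hW.1 _ hxi) h
  · intro hx
    obtain ⟨hxV, hxm⟩ := ValuationSubring.mem_nonunits_iff_exists_mem_maximalIdeal.mp hx
    rw [hϖ.maximalIdeal_eq, Ideal.mem_span_singleton] at hxm
    obtain ⟨c, hc⟩ := hxm
    have h1 : x = c * ϖ := by
      have : x = (ϖ : F) * c := congrArg Subtype.val hc
      rw [this, mul_comm]
    rw [h1, map_mul]
    exact mul_mem_nonunits (hW.1 _ c.2) hW.2

omit [FiniteDimensional F E] [Algebra.IsSeparable F E] in
theorem Over.mem_iff {ϖ : V} (hϖ : Irreducible ϖ) {W : ValuationSubring E}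
    (hW : Over V (ϖ : F) W) {x : F} : algebraMap F E x ∈ W ↔ x ∈ V := by
  constructor
  · intro h
    by_contra hx
    have h1 : x⁻¹ ∈ V.nonunits := V.inv_mem_nonunits_iff.mpr (Or.inr hx)
    have h2 := (hW.mem_nonunits_iff hϖ).mpr h1
    have hx0 : x ≠ 0 := by
      rintro rfl
      exact hx (zero_mem _)
    apply notMem_nonunits_one W
    have h3 : (1 : E) = algebraMap F E x * algebraMap F E x⁻¹ := by
      rw [← map_mul, mul_inv_cancel₀ hx0, map_one]
    rw [h3]
    exact mul_mem_nonunits h h2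
  · exact hW.1 x

variable [IsGalois F E]

/-- Total splitting from trivial decomposition group. -/
theorem split_residue {ϖ : V} (hϖ : Irreducible ϖ) {W : ValuationSubring E}
    (hW : Over V (ϖ : F) W) (hsplit : ∀ σ : E ≃ₐ[F] E, σ ≠ 1 → W.comap (σ : E →+* E) ≠ W) :
    (∀ x ∈ W, ∃ f ∈ V, x - algebraMap F E f ∈ W.nonunits) ∧
    (∀ W' : ValuationSubring E, Over V (ϖ : F) W' →
      ∃ σ : E ≃ₐ[F] E, W' = W.comap (σ : E →+* E)) ∧
    (∀ x ∈ W.nonunits, ∃ y ∈ W, x = (ϖ : F) • y) := by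
  classical
  have hinj := comap_injective_of_split hsplit
  let Wf : (E ≃ₐ[F] E) → ValuationSubring E := fun σ => W.comap (σ : E →+* E)
  have hWf : ∀ σ, Over V (ϖ : F) (Wf σ) := fun σ => hW.comap σ
  have hone : (Wf 1) = W := by
    ext x
    rfl
  have hind : ∀ σ : E ≃ₐ[F] E, ∀ c : Fin 1 → F, (∀ j, c j ∈ V) →
      ∑ j, c j • (1 : E) ∈ (Wf σ).nonunits → ∀ j, c j ∈ V.nonunits := by
    intro σ c hc h j
    rw [Fin.sum_univ_one, Algebra.smul_def, mul_one, (hWf σ).mem_nonunits_iff hϖ] at h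
    rwa [Fin.eq_zero j]
  have hsum : Module.finrank F E ≤ ∑ _σ : E ≃ₐ[F] E, 1 := by
    rw [Finset.sum_const, smul_eq_mul, mul_one, Finset.card_univ, ← Nat.card_eq_fintype_card,
      IsGalois.card_aut_eq_finrank]
  refine ⟨fun x hx => ?_, fun W' hW' => ?_, fun x hx => ?_⟩
  · obtain ⟨c, hc, hxc⟩ := list_residue hϖ Wf hinj (fun σ => (hWf σ).1) (fun σ => (hWf σ).2)
      (fun _ => 1) (fun _ _ => 1) (fun _ _ => one_mem _) hind hsum 1 (x := x)
      (by rw [hone]; exact hx)
    rw [hone, Fin.sum_univ_one, Algebra.smul_def, mul_one] at hxc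
    exact ⟨c 0, hc 0, hxc⟩
  · obtain ⟨σ, hσ⟩ := list_complete hϖ Wf hinj (fun σ => (hWf σ).1) (fun σ => (hWf σ).2)
      (fun _ => 1) (fun _ _ => 1) (fun _ _ => one_mem _) hind hsum W' hW'.1 hW'.2
    exact ⟨σ, hσ⟩
  · have := list_unif hϖ Wf hinj (fun σ => (hWf σ).1) (fun σ => (hWf σ).2)
      (fun _ => 1) (fun _ _ => 1) (fun _ _ => one_mem _) hind hsum 1 (x := x)
      (by rw [hone]; exact hx)
    rwa [hone] at this

end

end Fermat.Agent.Geo
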