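import Mathlib
import Fermat.Agent.Geo.Dual
import Fermat.Agent.Geo.SplitVal

set_option autoImplicit false

/-!
# Special fibres with two components
-/

open IsLocalRing Polynomial

universe u

namespace Fermat.Agent.Geo

section Res

variable {A F : Type*} [CommRing A] [Field F] [Algebra A F]

/-- The reduction map of the integral closure at a valuation ring. -/
noncomputable def resMap (W : ValuationSubring F) (hW : ∀ a : A, algebraMap A F a ∈ W) :
    integralClosure A F →+* ResidueField W :=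
  (residue W).comp ((integralClosure A F).val.toRingHom.codRestrict W.toSubring
    (fun b => mem_valuationSubring_of_isIntegralElem W (algebraMap A F) hW b.2))

theorem resMap_apply (W : ValuationSubring F) (hW : ∀ a : A, algebraMap A F a ∈ W)
    (b : integralClosure A F) (hb : (b : F) ∈ W) :
    resMap W hW b = residue W ⟨b, hb⟩ := rfl

theorem resMap_eq_zero_iff {W : ValuationSubring F} {hW : ∀ a : A, algebraMap A F a ∈ W}
    {b : integralClosure A F} : resMap W hW b = 0 ↔ (b : F) ∈ W.nonunits := by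
  have hb : (b : F) ∈ W :=
    mem_valuationSubring_of_isIntegralElem W (algebraMap A F) hW b.2
  rw [resMap_apply W hW b hb, residue_eq_zero_iff,
    ValuationSubring.mem_nonunits_iff_exists_mem_maximalIdeal]
  exact ⟨fun h => ⟨hb, h⟩, fun ⟨_, h⟩ => h⟩

end Res

section TwoVal

variable {A F : Type u} (K : Type u) [CommRing A] [IsDomain A] [UniqueFactorizationMonoid A]
  [IsLocalRing A] [Field K] [Field F] [Algebra A K] [IsFractionRing A K] [Algebra A F]
  [Algebra K F] {π : A}

/-- `W₁, W₂` are the two components of the special fibre `π = 0` of the normalisation in `F` of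
the two-dimensional local ring `A`; both are reduced and normal, and they meet transversally
(in the sense that the sum of the two ideals is radical). -/
structure TwoVal (hπ : Prime π) (s : A) (W₁ W₂ : ValuationSubring F) : Prop where
  nd : ¬ π ∣ s
  span : maximalIdeal A = Ideal.span {π, s}
  over₁ : Over (primeVal K hπ) (algebraMap A K π) W₁
  over₂ : Over (primeVal K hπ) (algebraMap A K π) W₂
  ne : W₁ ≠ W₂
  all : ∀ W : ValuationSubring F, Over (primeVal K hπ) (algebraMap A K π) W → W = W₁ ∨ W = W₂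
  unr : Unr (primeVal K hπ).toSubring F
  normal₁ : ∀ w ∈ W₁, ∀ p : A[X], p.Monic → eval₂ (algebraMap A F) w p ∈ W₁.nonunits →
    ∃ b, IsIntegral A b ∧ w - b ∈ W₁.nonunits
  normal₂ : ∀ w ∈ W₂, ∀ p : A[X], p.Monic → eval₂ (algebraMap A F) w p ∈ W₂.nonunits →
    ∃ b, IsIntegral A b ∧ w - b ∈ W₂.nonunits
  rad : ∀ b : F, IsIntegral A b → ∀ n : ℕ,
    (∃ b₁ b₂ : F, IsIntegral A b₁ ∧ IsIntegral A b₂ ∧ b₁ ∈ W₁.nonunits ∧ b₂ ∈ W₂.nonunits ∧
      b ^ n = b₁ + b₂) →
    ∃ b₁ b₂ : F, IsIntegral A b₁ ∧ IsIntegral A b₂ ∧ b₁ ∈ W₁.nonunits ∧ b₂ ∈ W₂.nonunits ∧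
      b = b₁ + b₂

variable {K} {hπ : Prime π} {s : A} {W₁ W₂ : ValuationSubring F}

theorem TwoVal.symm (h : TwoVal K hπ s W₁ W₂) : TwoVal K hπ s W₂ W₁ where
  nd := h.nd
  span := h.span
  over₁ := h.over₂
  over₂ := h.over₁
  ne := h.ne.symm
  all := fun W hW => (h.all W hW).symm
  unr := h.unr
  normal₁ := h.normal₂
  normal₂ := h.normal₁
  rad := by
    rintro b hb n ⟨b₁, b₂, h1, h2, h3, h4, h5⟩
    obtain ⟨c₁, c₂, h6, h7, h8, h9, h10⟩ := h.rad b hb n ⟨b₂, b₁, h2, h1, h4, h3, by
      rw [h5, add_comm]⟩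
    exact ⟨c₂, c₁, h7, h6, h9, h8, by rw [h10, add_comm]⟩

variable [IsScalarTower A K F]

omit [IsLocalRing A] in
theorem Over.algebraMap_mem {W : ValuationSubring F}
    (hW : Over (primeVal K hπ) (algebraMap A K π) W) (a : A) : algebraMap A F a ∈ W := by
  rw [IsScalarTower.algebraMap_apply A K F]
  exact hW.1 _ (algebraMap_mem_primeVal hπ a)

omit [IsLocalRing A] in
theorem Over.algebraMap_notMem_nonunits {W : ValuationSubring F}
    (hW : Over (primeVal K hπ) (algebraMap A K π) W) {t : A} (ht : ¬ π ∣ t) :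
    algebraMap A F t ∉ W.nonunits := by
  have hdvr := isDiscreteValuationRing_primeVal (F := K) hπ
  rw [IsScalarTower.algebraMap_apply A K F, hW.mem_nonunits_iff (irreducible_unif (F := K) hπ)]
  intro h5
  rw [ValuationSubring.mem_nonunits_iff_or] at h5
  rcases h5 with h5 | h5
  · exact ht (by rw [IsFractionRing.injective A K (h5.trans (map_zero _).symm)]; exact dvd_zero _)
  · exact h5 (inv_mem_primeVal hπ ht)

omit [IsLocalRing A] [IsScalarTower A K F] in
theorem Over.pi_mem_nonunits [IsScalarTower A K F] {W : ValuationSubring F}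
    (hW : Over (primeVal K hπ) (algebraMap A K π) W) : algebraMap A F π ∈ W.nonunits := by
  rw [IsScalarTower.algebraMap_apply A K F]
  exact hW.2

/-- Integral elements over the residue field of a component. -/
theorem TwoVal.exists_resMap_eq (h : TwoVal K hπ s W₁ W₂) (y : ResidueField W₁)
    (hy : ((resMap W₁ h.over₁.algebraMap_mem).comp
      (algebraMap A (integralClosure A F))).IsIntegralElem y) :
    ∃ b, resMap W₁ h.over₁.algebraMap_mem b = y := by
  obtain ⟨w, rfl⟩ := residue_surjective y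
  obtain ⟨p, hp, hpw⟩ := hy
  let e : A →+* W₁ := (algebraMap A F).codRestrict W₁.toSubring h.over₁.algebraMap_mem
  have he : (resMap W₁ h.over₁.algebraMap_mem).comp (algebraMap A (integralClosure A F)) =
      (residue W₁).comp e := rfl
  rw [he, ← hom_eval₂, residue_eq_zero_iff] at hpw
  obtain ⟨b, hb, hwb⟩ := h.normal₁ w w.2 p hp (by
    have h1 : eval₂ (algebraMap A F) (w : F) p = ((eval₂ e w p : W₁) : F) := by
      rw [show ((eval₂ e w p : W₁) : F) = W₁.toSubring.subtype (eval₂ e w p) from rfl, hom_eval₂]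
      rfl
    rw [h1]
    exact ValuationSubring.coe_mem_nonunits_iff.mpr hpw)
  refine ⟨⟨b, hb⟩, ?_⟩
  have hbW : b ∈ W₁ := mem_valuationSubring_of_isIntegralElem W₁ (algebraMap A F)
    h.over₁.algebraMap_mem hb
  rw [resMap_apply W₁ _ ⟨b, hb⟩ hbW, eq_comm, ← sub_eq_zero, ← map_sub, residue_eq_zero_iff]
  exact ValuationSubring.coe_mem_nonunits_iff.mp hwb

variable [FiniteDimensional K F] [Algebra.IsSeparable K F]

omit [IsLocalRing A] in
/-- Elements in all the centres above `π` are divisible by `π`. -/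
theorem exists_eq_pi_smul (hunr : Unr (primeVal K hπ).toSubring F) {b : F}
    (hb : IntOver (primeVal K hπ).toSubring b)
    (h : ∀ W : ValuationSubring F, Over (primeVal K hπ) (algebraMap A K π) W → b ∈ W.nonunits) :
    ∃ w, IntOver (primeVal K hπ).toSubring w ∧ b = π • w := by
  have hdvr := isDiscreteValuationRing_primeVal (F := K) hπ
  obtain ⟨N, w, hw, hN⟩ := exists_pow_of_forall_over (irreducible_unif (F := K) hπ) hb h
  obtain ⟨y, hy, hxy⟩ := Unr.exists_of_pow hunr (irreducible_unif (F := K) hπ) (Nat.succ_pos N)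
    (hw.mul hb) (x := b) (by rw [pow_succ, hN, smul_mul_assoc])
  refine ⟨y, hy, ?_⟩
  rw [hxy]
  exact algebraMap_smul K π y

omit [IsLocalRing A] [FiniteDimensional K F] [Algebra.IsSeparable K F] in
theorem isIntegral_of_pi_smul {w : F}
    (hw : IntOver (primeVal K hπ).toSubring w) (h : IsIntegral A (π • w)) : IsIntegral A w := by
  obtain ⟨t, ht, htw⟩ := (intOver_primeVal_iff (F := K) hπ).mp hw
  exact isIntegral_of_smul_of_smul K (a := π) (b := t) (fun p hp hpπ hpt =>
    ht ((hp.associated_of_dvd hπ hpπ).symm.dvd.trans hpt)) hπ.ne_zero h htw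

/-- Independence of the two components, with integral elements. -/
theorem TwoVal.exists_sep (h : TwoVal K hπ s W₁ W₂) :
    ∃ b : F, IsIntegral A b ∧ b ∈ W₁.nonunits ∧ b ∉ W₂.nonunits := by
  have hdvr := isDiscreteValuationRing_primeVal (F := K) hπ
  obtain ⟨b, hb, hbi⟩ := exists_separating (irreducible_unif (F := K) hπ)
    (fun i : Bool => if i then W₁ else W₂) (by
      intro i j hij
      cases i <;> cases j <;> simp_all [h.ne, h.ne.symm])
    (fun i => by
      cases i
      · exact h.over₂.1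
      · exact h.over₁.1)
    (fun i => by
      cases i
      · exact h.over₂.2
      · exact h.over₁.2)
    (fun i => if i then 0 else 1)
    (fun i => by
      cases i <;> simp)
  obtain ⟨t, ht, htb⟩ := (intOver_primeVal_iff (F := K) hπ).mp hb
  have h1 : b ∈ W₁.nonunits := by simpa using hbi true
  have h2 : b - 1 ∈ W₂.nonunits := by simpa using hbi false
  refine ⟨t • b, htb, ?_, ?_⟩
  · rw [Algebra.smul_def]
    exact mul_mem_nonunits (h.over₁.algebraMap_mem t) h1
  · intro hcon
    have h3 : b ∈ W₂.nonunits := by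
      have h4 : algebraMap A F t ∉ W₂.nonunits := h.over₂.algebraMap_notMem_nonunits ht
      have h5 : algebraMap A F t ≠ 0 := fun h0 => h4 (by rw [h0]; exact zero_mem_nonunits _)
      have h6 : b = (algebraMap A F t)⁻¹ * (t • b) := by
        rw [Algebra.smul_def]
        field_simp
      rw [h6]
      exact mul_mem_nonunits (inv_mem_of_notMem_nonunits h4) hcon
    apply notMem_nonunits_one W₂
    have : (1 : F) = b - (b - 1) := by ring
    rw [this]
    exact sub_mem h3 h2

/-- The two-branch data attached to two components. -/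
theorem TwoVal.twoBranch (h : TwoVal K hπ s W₁ W₂) :
    TwoBranch π s (resMap W₁ h.over₁.algebraMap_mem) (resMap W₂ h.over₂.algebraMap_mem) where
  prime := hπ
  span := h.span
  inter := by
    intro b h1 h2
    rw [resMap_eq_zero_iff] at h1 h2
    obtain ⟨w, hw, hbw⟩ := exists_eq_pi_smul (K := K) h.unr
      (intOver_of_isIntegral (fun a => algebraMap_mem_primeVal hπ a) b.2) (fun W hW => by
        rcases h.all W hW with rfl | rfl
        · exact h1
        · exact h2)
    refine ⟨⟨w, isIntegral_of_pi_smul (K := K) hw (by rw [← hbw]; exact b.2)⟩, Subtype.ext ?_⟩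
    rw [Algebra.smul_def] at hbw
    exact hbw
  pi₁ := resMap_eq_zero_iff.mpr h.over₁.pi_mem_nonunits
  pi₂ := resMap_eq_zero_iff.mpr h.over₂.pi_mem_nonunits
  s₁ := fun h0 => h.over₁.algebraMap_notMem_nonunits h.nd (resMap_eq_zero_iff.mp h0)
  s₂ := fun h0 => h.over₂.algebraMap_notMem_nonunits h.nd (resMap_eq_zero_iff.mp h0)
  normal₁ := h.exists_resMap_eq
  normal₂ := h.symm.exists_resMap_eq
  ne₁₂ := by
    obtain ⟨b, hb, h1, h2⟩ := h.exists_sep
    exact ⟨⟨b, hb⟩, resMap_eq_zero_iff.mpr h1, fun h0 => h2 (resMap_eq_zero_iff.mp h0)⟩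
  ne₂₁ := by
    obtain ⟨b, hb, h1, h2⟩ := h.symm.exists_sep
    exact ⟨⟨b, hb⟩, resMap_eq_zero_iff.mpr h1, fun h0 => h2 (resMap_eq_zero_iff.mp h0)⟩
  rad := by
    intro b n hb
    obtain ⟨b₁, hb₁, b₂, hb₂, hbb⟩ := Submodule.mem_sup.mp hb
    obtain ⟨c₁, c₂, h1, h2, h3, h4, h5⟩ := h.rad b b.2 n ⟨b₁, b₂, b₁.2, b₂.2,
      resMap_eq_zero_iff.mp hb₁, resMap_eq_zero_iff.mp hb₂, (congrArg Subtype.val hbb).symm⟩
    refine Submodule.mem_sup.mpr ⟨⟨c₁, h1⟩, resMap_eq_zero_iff.mpr h3, ⟨c₂, h2⟩,
      resMap_eq_zero_iff.mpr h4, Subtype.ext h5.symm⟩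

end TwoVal

end Fermat.Agent.Geo
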