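import Mathlib
import Fermat.Agent.Geo.TwoVal

set_option autoImplicit false

/-!
# Centres of valuation rings on integral closures
-/

open IsLocalRing Polynomial

universe u

namespace Fermat.Agent.Geo

section Center

variable (A F E : Type u) [CommRing A] [Field F] [Field E] [Algebra A F] [Algebra A E]
  [Algebra F E] [IsScalarTower A F E]

/-- The map between integral closures. -/
noncomputable def icMap : integralClosure A F →+* integralClosure A E :=
  ((IsScalarTower.toAlgHom A F E).mapIntegralClosure : integralClosure A F →ₐ[A] _)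

variable {A F E}

@[simp] theorem coe_icMap (b : integralClosure A F) : ((icMap A F E b : _) : E) =
    algebraMap F E b := rfl

theorem icMap_algebraMap (a : A) : icMap A F E (algebraMap A _ a) = algebraMap A _ a :=
  Subtype.ext (IsScalarTower.algebraMap_apply A F E a).symm

theorem intOver_of_isIntegral' {V : Subring F} (hV : ∀ a : A, algebraMap A F a ∈ V) {x : E}
    (hx : IsIntegral A x) : IntOver V x := by
  refine isIntegralElem_of_range_le (algebraMap A E) _ (fun r => ?_) hx
  exact ⟨⟨_, hV r⟩, (IsScalarTower.algebraMap_apply A F E r).symm⟩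

theorem icMap_isIntegral : (icMap A F E).IsIntegral := by
  intro e
  obtain ⟨p, hp, he⟩ := (integralClosure.isIntegral (R := A) e)
  refine ⟨p.map (algebraMap A _), hp.map _, ?_⟩
  rw [eval₂_map]
  have : (icMap A F E).comp (algebraMap A _) = algebraMap A _ := RingHom.ext icMap_algebraMap
  rw [this]
  exact he

/-- The centre of `W` on the integral closure of `A` is contained in `x'`. -/
def CenterLE (W : ValuationSubring E) (x' : Ideal (integralClosure A E)) : Prop :=
  ∀ e : integralClosure A E, (e : E) ∈ W.nonunits → e ∈ x'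

instance comap_icMap_isMaximal (x' : Ideal (integralClosure A E)) [x'.IsMaximal] :
    (x'.comap (icMap A F E)).IsMaximal :=
  Ideal.isMaximal_comap_of_isIntegral_of_isMaximal' _ icMap_isIntegral x'

theorem coe_mem_nonunits_of_over {W₂ : ValuationSubring F} {ϖ : F} {W : ValuationSubring E}
    [IsDiscreteValuationRing W₂] (hW : Over W₂ ϖ W) {b : F} (hϖ : ∀ x ∈ W₂.nonunits, ∃ y ∈ W₂,
      x = y * ϖ) (hb : b ∈ W₂.nonunits) : algebraMap F E b ∈ W.nonunits := by
  obtain ⟨y, hy, rfl⟩ := hϖ b hb
  rw [map_mul]
  exact mul_mem_nonunits (hW.1 _ hy) hW.2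

end Center

section Exists

variable {A K F E : Type u} [CommRing A] [IsDomain A]
  [Field K] [Field F] [Field E] [Algebra A K] [IsFractionRing A K] [Algebra A F]
  [Algebra A E] [Algebra K F] [IsScalarTower A K F] [FiniteDimensional K F]
  [Algebra F E] [IsScalarTower A F E]
  [FiniteDimensional F E] [Algebra.IsSeparable F E]

variable (K) in
include K in
/-- A prime ideal of the integral closure of `A` in `E` whose restriction to `F` contains the
centre of `W₂` contains the centre of a valuation ring over `W₂`. -/
theorem exists_over_centerLE {W₂ : ValuationSubring F} [IsDiscreteValuationRing W₂]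
    {ϖ : W₂} (hϖ : Irreducible ϖ) (hAW : ∀ a : A, algebraMap A F a ∈ W₂)
    (x' : Ideal (integralClosure A E)) [hx' : x'.IsPrime]
    (hx : CenterLE W₂ (x'.comap (icMap A F E))) :
    ∃ W : ValuationSubring E, Over W₂ (ϖ : F) W ∧ CenterLE W x' := by
  classical
  by_contra hcon
  push Not at hcon
  have hcon' : ∀ W : ValuationSubring E, Over W₂ (ϖ : F) W → ∃ e : integralClosure A E,
      (e : E) ∈ W.nonunits ∧ e ∉ x' := by
    intro W hW
    have := hcon W hW
    unfold CenterLE at this
    push Not at this
    exact this
  choose! e he hex using hcon'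
  have hfin := finite_over (E := E) hϖ
  let P : integralClosure A E := ∏ W ∈ hfin.toFinset, e W
  have hP : P ∉ x' := by
    intro h
    obtain ⟨W, hW, hWx⟩ := (hx'.prod_mem_iff).mp h
    exact hex W (hfin.mem_toFinset.mp hW) hWx
  have hint : ∀ y : integralClosure A E, IntOver W₂.toSubring (y : E) := fun y =>
    intOver_of_isIntegral' hAW y.2
  have hPW : ∀ W : ValuationSubring E, Over W₂ (ϖ : F) W → (P : E) ∈ W.nonunits := by
    intro W hW
    have h1 : P = (∏ W' ∈ hfin.toFinset.erase W, e W') * e W :=
      (Finset.prod_erase_mul _ _ (hfin.mem_toFinset.mpr hW)).symm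
    rw [h1]
    exact mul_mem_nonunits (mem_of_intOver hW.1 (hint _)) (he W hW)
  obtain ⟨N, w, hw, hN⟩ := exists_pow_of_forall_over hϖ (hint P) hPW
  have hfr : IsFractionRing (integralClosure A F) F :=
    integralClosure.isFractionRing_of_finite_extension K F
  have hic : IsIntegrallyClosed (integralClosure A F) :=
    integralClosure.isIntegrallyClosedOfFiniteExtension K
  have hwF : IsIntegral F w := Algebra.IsIntegral.isIntegral w
  have hϖ0 : ϖ ≠ 0 := hϖ.ne_zero
  have hscale : minpoly F ((P : E) ^ N) = (minpoly F w).scaleRoots (ϖ : F) := by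
    rw [hN]
    have h1 := minpoly_smul (A := F) (F := F) (ϖ : F)
      (fun h0 => hϖ0 (Subtype.ext h0)) hwF
    exact h1
  -- coefficients of the minimal polynomial of `w`
  have hwc : ∀ i, (minpoly F w).coeff i ∈ W₂ := by
    intro i
    letI : Algebra W₂ E := ((algebraMap F E).comp W₂.toSubring.subtype).toAlgebra
    haveI : IsScalarTower W₂ F E := IsScalarTower.of_algebraMap_eq fun a => rfl
    have hw' : IsIntegral W₂ w := hw
    rw [minpoly.isIntegrallyClosed_eq_field_fractions' F hw', coeff_map]
    exact ((minpoly W₂ w).coeff i).2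
  -- the minimal polynomial of `P ^ N` over the integral closure
  have hPint : IsIntegral (integralClosure A F) ((P : E) ^ N) :=
    IsIntegral.tower_top (R := A) (P ^ N).2
  have hmin := minpoly.isIntegrallyClosed_eq_field_fractions' F hPint
  set q := minpoly (integralClosure A F) ((P : E) ^ N) with hq
  have hqm : q.Monic := minpoly.monic hPint
  have hcoef : ∀ i < q.natDegree, icMap A F E (q.coeff i) ∈ x' := by
    intro i hi
    apply hx
    have h1 : ((q.coeff i : integralClosure A F) : F) = (q.map (algebraMap _ F)).coeff i := by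
      rw [coeff_map]
      rfl
    rw [h1, ← hmin, hscale, coeff_scaleRoots]
    have h2 : (minpoly F w).natDegree = q.natDegree := by
      have h3 := congrArg natDegree hscale
      rw [natDegree_scaleRoots, hmin, hqm.natDegree_map] at h3
      exact h3.symm
    rw [h2]
    refine mul_mem_nonunits (hwc i) ?_
    obtain ⟨j, hj⟩ := Nat.exists_eq_succ_of_ne_zero (Nat.sub_ne_zero_of_lt hi)
    rw [hj, pow_succ]
    refine mul_mem_nonunits (pow_mem ϖ.2 j) ?_
    rw [ValuationSubring.coe_mem_nonunits_iff, mem_maximalIdeal, mem_nonunits_iff]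
    exact hϖ.not_isUnit
  apply hP
  apply hx'.mem_of_pow_mem (N * q.natDegree)
  have h0 : P ^ (N * q.natDegree) =
      - ∑ i ∈ Finset.range q.natDegree, icMap A F E (q.coeff i) * (P ^ N) ^ i := by
    apply Subtype.ext
    have h1 : aeval ((P : E) ^ N) q = 0 := minpoly.aeval _ _
    rw [aeval_eq_sum_range, Finset.sum_range_succ, hqm.coeff_natDegree, one_smul] at h1
    have h2 : ((∑ i ∈ Finset.range q.natDegree, icMap A F E (q.coeff i) * (P ^ N) ^ i :
        integralClosure A E) : E) = ∑ i ∈ Finset.range q.natDegree,
          q.coeff i • ((P : E) ^ N) ^ i := by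
      rw [AddSubmonoidClass.coe_finsetSum]
      refine Finset.sum_congr rfl fun i _ => ?_
      rw [Algebra.smul_def]
      rfl
    change (P : E) ^ (N * q.natDegree) = -((∑ i ∈ Finset.range q.natDegree,
      icMap A F E (q.coeff i) * (P ^ N) ^ i : integralClosure A E) : E)
    rw [h2, pow_mul]
    exact eq_neg_of_add_eq_zero_right h1
  rw [h0]
  exact neg_mem (Ideal.sum_mem _ fun i hi => Ideal.mul_mem_right _ _
    (hcoef i (Finset.mem_range.mp hi)))

end Exists

end Fermat.Agent.Geo
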