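import Mathlib
import Fermat.Agent.Geo.CenterLE

set_option autoImplicit false

/-!
# The splitting lemma at a node or a smooth point
-/

open IsLocalRing Polynomial

universe u

namespace Fermat.Agent.Geo

section Restrict

variable {K F E : Type*} [Field K] [Field F] [Field E] [Algebra K F] [Algebra K E] [Algebra F E]
  [IsScalarTower K F E]

theorem mem_nonunits_comap_algebraMap {W : ValuationSubring E} {y : F} :
    y ∈ (W.comap (algebraMap F E)).nonunits ↔ algebraMap F E y ∈ W.nonunits := by
  rw [ValuationSubring.mem_nonunits_iff_or, ValuationSubring.mem_nonunits_iff_or,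
    ValuationSubring.mem_comap, map_inv₀, map_eq_zero]

/-- Restriction of a valuation ring to an intermediate field. -/
theorem Over.restrict {V : ValuationSubring K} {ϖ : K} {W : ValuationSubring E}
    (hW : Over V ϖ W) : Over V ϖ (W.comap (algebraMap F E)) := by
  refine ⟨fun x hx => ?_, ?_⟩
  · rw [ValuationSubring.mem_comap, ← IsScalarTower.algebraMap_apply]
    exact hW.1 x hx
  · rw [mem_nonunits_comap_algebraMap, ← IsScalarTower.algebraMap_apply]
    exact hW.2

end Restrict

section

variable {A K F : Type u} [CommRing A] [IsDomain A] [UniqueFactorizationMonoid A]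
  [IsLocalRing A] [IsNoetherianRing A] [Field K] [Field F] [Algebra A K] [IsFractionRing A K]
  [Algebra A F] [Algebra K F] [IsScalarTower A K F] [FiniteDimensional K F]
  [Algebra.IsSeparable K F] {π s : A} {hπ : Prime π} {W₁ W₂ : ValuationSubring F}

/-- A local generator of the dual module which is a unit at both components. -/
theorem TwoVal.exists_good_generator (h : TwoVal K hπ s W₁ W₂)
    (x : Ideal (integralClosure A F)) [x.IsMaximal] {b₀ : integralClosure A F}
    (hsoc : SocleGen A x b₀) :
    ∃ ω : F, InDual A K ω ∧ ω ∉ W₁.nonunits ∧ ω ∉ W₂.nonunits ∧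
      ∃ c : integralClosure A F, c - 1 ∈ x ∧ ∀ c' : F, InDual A K c' →
        ∃ β : F, IsIntegral A β ∧ (c : F) * c' = ω * β := by
  classical
  obtain ⟨⟨ω, hω, u, hu, hωu⟩, hgen⟩ := exists_generator K hπ h.nd h.span x hsoc
  obtain ⟨q₁, hq₁, hq₁1, hq₁2⟩ := h.exists_sep
  obtain ⟨q₂, hq₂, hq₂2, hq₂1⟩ := h.symm.exists_sep
  let t₁ : F := if ω ∈ W₁.nonunits then q₂ else 0
  let t₂ : F := if ω ∈ W₂.nonunits then q₁ else 0
  have ht₁ : IsIntegral A t₁ := by
    simp only [t₁]
    split_ifs
    · exact hq₂
    · exact isIntegral_zero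
  have ht₂ : IsIntegral A t₂ := by
    simp only [t₂]
    split_ifs
    · exact hq₁
    · exact isIntegral_zero
  have ht : IsIntegral A (t₁ + t₂) := ht₁.add ht₂
  have hdual : InDual A K (ω + s • (t₁ + t₂)) := hω.add (InDual.smul (InDual.of_isIntegral ht) s)
  have hunit : ∃ u : A, IsUnit u ∧
      Algebra.trace K F ((ω + s • (t₁ + t₂)) * b₀) = algebraMap A K u := by
    obtain ⟨a, ha⟩ := InDual.of_isIntegral (K := K) ht b₀ b₀.2
    refine ⟨u + s * a, ?_, ?_⟩
    · have hsm : s ∈ maximalIdeal A := by
        rw [h.span]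
        exact Ideal.subset_span (by simp)
      by_contra hcon
      have h1 : u + s * a ∈ maximalIdeal A := by
        rw [mem_maximalIdeal, mem_nonunits_iff]
        exact hcon
      have h2 : u ∈ maximalIdeal A := by
        have : u = (u + s * a) - s * a := by ring
        rw [this]
        exact sub_mem h1 (Ideal.mul_mem_right _ _ hsm)
      rw [mem_maximalIdeal, mem_nonunits_iff] at h2
      exact h2 hu
    · rw [add_mul, map_add, hωu, smul_mul_assoc, ← algebraMap_smul K s, map_smul, ha, smul_eq_mul,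
        map_add, map_mul]
  have hsmul : ∀ (W : ValuationSubring F), Over (primeVal K hπ) (algebraMap A K π) W →
      ∀ y : F, (s • y ∈ W.nonunits ↔ y ∈ W.nonunits) := by
    intro W hW y
    rw [Algebra.smul_def]
    constructor
    · intro h1
      have h2 := hW.algebraMap_notMem_nonunits h.nd
      have h3 : algebraMap A F s ≠ 0 := fun h0 => h2 (by rw [h0]; exact zero_mem_nonunits _)
      have h4 : y = (algebraMap A F s)⁻¹ * (algebraMap A F s * y) := by field_simp
      rw [h4]
      exact mul_mem_nonunits (inv_mem_of_notMem_nonunits h2) h1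
    · intro h1
      exact mul_mem_nonunits (hW.algebraMap_mem s) h1
  have hnu : ∀ (W : ValuationSubring F), Over (primeVal K hπ) (algebraMap A K π) W →
      ∀ y z : F, y ∉ W.nonunits → z ∈ W.nonunits → y + z ∉ W.nonunits := by
    intro W _ y z hy hz hyz
    apply hy
    have : y = (y + z) - z := by ring
    rw [this]
    exact sub_mem hyz hz
  refine ⟨ω + s • (t₁ + t₂), hdual, ?_, ?_, hgen _ hdual hunit⟩
  · -- at `W₁`
    have h2 : s • t₂ ∈ W₁.nonunits := by
      rw [hsmul W₁ h.over₁]
      simp only [t₂]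
      split_ifs
      · exact hq₁1
      · exact zero_mem_nonunits _
    rw [smul_add, ← add_assoc]
    refine hnu W₁ h.over₁ _ _ ?_ h2
    by_cases hω1 : ω ∈ W₁.nonunits
    · rw [add_comm]
      refine hnu W₁ h.over₁ _ _ ?_ hω1
      rw [hsmul W₁ h.over₁]
      simp only [t₁, if_pos hω1]
      exact hq₂1
    · simp only [t₁, if_neg hω1, smul_zero, add_zero]
      exact hω1
  · have h1 : s • t₁ ∈ W₂.nonunits := by
      rw [hsmul W₂ h.over₂]
      simp only [t₁]
      split_ifs
      · exact hq₂2
      · exact zero_mem_nonunits _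
    rw [smul_add, add_comm (s • t₁), ← add_assoc]
    refine hnu W₂ h.over₂ _ _ ?_ h1
    by_cases hω2 : ω ∈ W₂.nonunits
    · rw [add_comm]
      refine hnu W₂ h.over₂ _ _ ?_ hω2
      rw [hsmul W₂ h.over₂]
      simp only [t₂, if_pos hω2]
      exact hq₁2
    · simp only [t₂, if_neg hω2, smul_zero, add_zero]
      exact hω2

end

section

variable {A K F E : Type u} [CommRing A] [IsDomain A] [UniqueFactorizationMonoid A]
  [IsLocalRing A] [IsNoetherianRing A] [Field K] [Field F] [Field E] [Algebra A K]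
  [IsFractionRing A K] [Algebra A F] [Algebra A E] [Algebra K F] [Algebra K E] [Algebra F E]
  [IsScalarTower A K F] [IsScalarTower A K E] [IsScalarTower A F E] [IsScalarTower K F E]
  [FiniteDimensional K F] [FiniteDimensional K E] [FiniteDimensional F E]
  [Algebra.IsSeparable K F] [Algebra.IsSeparable K E] [Algebra.IsSeparable F E]
  {π s : A} {hπ : Prime π} {W₁ W₂ : ValuationSubring F}

omit [UniqueFactorizationMonoid A] [IsLocalRing A] [IsNoetherianRing A] [IsFractionRing A K]
  [Algebra.IsSeparable K F] [Algebra.IsSeparable K E] [Algebra.IsSeparable F E] [IsDomain A]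
  [IsScalarTower A K F] [IsScalarTower A K E] [FiniteDimensional K E] in
/-- The dual module upstairs. -/
theorem dual_mul_of_unr
    (hUR : ∀ z : E, (∀ b : E, IsIntegral A b → IsIntegral A (Algebra.trace F E (z * b))) →
      IsIntegral A z) {ω c : F} (hω0 : ω ≠ 0)
    (hc : ∀ c' : F, InDual A K c' → ∃ β : F, IsIntegral A β ∧ c * c' = ω * β)
    {c' : E} (hc' : InDual A K c') : ∃ β : E, IsIntegral A β ∧
      algebraMap F E c * c' = algebraMap F E ω * β := by
  have hω0' : algebraMap F E ω ≠ 0 := by
    rw [Ne, map_eq_zero]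
    exact hω0
  refine ⟨(algebraMap F E ω)⁻¹ * (algebraMap F E c * c'), ?_, ?_⟩
  · apply hUR
    intro b hb
    have h1 : InDual A K (Algebra.trace F E (c' * b)) := by
      intro b' hb'
      obtain ⟨a, ha⟩ := hc' (b * algebraMap F E b') (hb.mul (hb'.algebraMap))
      refine ⟨a, ?_⟩
      have h2 : c' * (b * algebraMap F E b') = b' • (c' * b) := by
        rw [Algebra.smul_def]
        ring
      rw [← ha, h2, ← Algebra.trace_trace (R := K) (S := F) (b' • (c' * b)), map_smul, smul_eq_mul,
        mul_comm]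
    obtain ⟨β, hβ, hcβ⟩ := hc _ h1
    have h2 : (algebraMap F E ω)⁻¹ * (algebraMap F E c * c') * b = (ω⁻¹ * c) • (c' * b) := by
      rw [Algebra.smul_def, map_mul, map_inv₀]
      ring
    rw [h2, map_smul, smul_eq_mul, mul_assoc, hcβ]
    have h3 : ω⁻¹ * (ω * β) = β := by field_simp
    rw [h3]
    exact hβ
  · field_simp

/-- The basic contradiction. -/
theorem split_contra (h : TwoVal K hπ s W₁ W₂) (hunrE : Unr (primeVal K hπ).toSubring E)
    (hUR : ∀ z : E, (∀ b : E, IsIntegral A b → IsIntegral A (Algebra.trace F E (z * b))) →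
      IsIntegral A z)
    (x' : Ideal (integralClosure A E)) [hx' : x'.IsMaximal] {b₀ : integralClosure A F}
    (hsoc : SocleGen A (x'.comap (icMap A F E)) b₀) {f : integralClosure A F}
    (hf : f ∉ x'.comap (icMap A F E)) {Wa Wb : ValuationSubring E}
    (ha : Over (primeVal K hπ) (algebraMap A K π) Wa)
    (hb : Over (primeVal K hπ) (algebraMap A K π) Wb)
    (hax : CenterLE Wa x') (hbx : CenterLE Wb x') {u : E}
    (hua : u - algebraMap F E f ∈ Wa.nonunits) (hub : u ∈ Wb.nonunits)
    (hT : ∀ b : E, IsIntegral A b → ∃ β p : F, IsIntegral A β ∧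
      IntOver (primeVal K hπ).toSubring p ∧ Algebra.trace F E (u * b) = β + π • p) : False := by
  obtain ⟨ω, hω, hω1, hω2, c, hc1, hc⟩ := h.exists_good_generator _ hsoc
  have hω0 : ω ≠ 0 := fun h0 => hω1 (by rw [h0]; exact zero_mem_nonunits _)
  -- traces of `ω u`
  have hz : ∀ b : E, IsIntegral A b → ∃ a : A, ∃ y ∈ primeVal K hπ,
      Algebra.trace K E ((algebraMap F E ω * u) * b) = algebraMap A K a + algebraMap A K π * y := by
    intro b hb
    obtain ⟨β, p, hβ, hp, hT⟩ := hT b hb
    obtain ⟨a, ha⟩ := hω β hβ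
    obtain ⟨t, ht, htp⟩ := (intOver_primeVal_iff (F := K) hπ).mp hp
    obtain ⟨a', ha'⟩ := hω _ htp
    have ht0 : algebraMap A K t ≠ 0 := fun h0 => ht (by
      rw [IsFractionRing.injective A K (h0.trans (map_zero _).symm)]
      exact dvd_zero _)
    refine ⟨a, Algebra.trace K F (ω * p), ?_, ?_⟩
    · have h1 : Algebra.trace K F (ω * p) = (algebraMap A K t)⁻¹ * algebraMap A K a' := by
        rw [← ha', mul_smul_comm, ← algebraMap_smul K t (ω * p), map_smul, smul_eq_mul]
        field_simp
      rw [h1]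
      exact mul_mem (inv_mem_primeVal hπ ht) (algebraMap_mem_primeVal hπ a')
    · have h1 : algebraMap F E ω * u * b = ω • (u * b) := by
        rw [Algebra.smul_def]
        ring
      rw [h1, ← Algebra.trace_trace (S := F), map_smul, hT, smul_add, map_add, smul_eq_mul,
        smul_eq_mul, ha, mul_smul_comm, ← algebraMap_smul K π (ω * p), map_smul, smul_eq_mul]
  obtain ⟨c', p, hcp, hc', hp⟩ := exists_add_of_trace hπ h.nd h.span hz
  -- `p` is integral over the Gauss ring
  have hpi : IntOver (primeVal K hπ).toSubring p := by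
    apply hunrE
    intro b hb
    obtain ⟨t, ht, htb⟩ := (intOver_primeVal_iff (F := K) hπ).mp hb
    have h1 := hp _ htb
    have ht0 : algebraMap A K t ≠ 0 := fun h0 => ht (by
      rw [IsFractionRing.injective A K (h0.trans (map_zero _).symm)]
      exact dvd_zero _)
    have h2 : Algebra.trace K E (p * b) = (algebraMap A K t)⁻¹ * Algebra.trace K E (p * (t • b)) := by
      rw [mul_smul_comm, ← algebraMap_smul K t (p * b), map_smul, smul_eq_mul]
      field_simp
    rw [h2]
    exact mul_mem (inv_mem_primeVal hπ ht) h1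
  obtain ⟨β, hβ, hcβ⟩ := dual_mul_of_unr hUR hω0 hc hc'
  -- the key relation
  have hkey : ∀ W : ValuationSubring E, Over (primeVal K hπ) (algebraMap A K π) W →
      algebraMap F E c * u - β ∈ W.nonunits := by
    intro W hW
    -- `ω` is a unit at `W`
    have hωW : algebraMap F E ω ∉ W.nonunits := by
      -- the restriction of `W` to `F`
      have hWF : Over (primeVal K hπ) (algebraMap A K π) (W.comap (algebraMap F E)) :=
        hW.restrict
      intro h1
      have h2 : ω ∈ (W.comap (algebraMap F E)).nonunits := mem_nonunits_comap_algebraMap.mpr h1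
      rcases h.all _ hWF with h3 | h3
      · rw [h3] at h2
        exact hω1 h2
      · rw [h3] at h2
        exact hω2 h2
    have hω0' : algebraMap F E ω ≠ 0 := fun h0 => hωW (by rw [h0]; exact zero_mem_nonunits _)
    have h1 : algebraMap F E c * u - β = (algebraMap F E ω)⁻¹ * ((algebraMap F E c * p) * (algebraMap A E π)) := by
      rw [Algebra.smul_def] at hcp
      field_simp
      linear_combination (algebraMap F E c) * hcp + hcβ
    rw [h1]
    refine mul_mem_nonunits (inv_mem_of_notMem_nonunits hωW) (mul_mem_nonunits (mul_mem ?_ ?_)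
      hW.pi_mem_nonunits)
    · rw [← coe_icMap]
      exact mem_valuationSubring_of_isIntegralElem W (algebraMap A E) hW.algebraMap_mem
        (icMap A F E c).2
    · have hdvr := isDiscreteValuationRing_primeVal (F := K) hπ
      exact mem_of_intOver hW.1 hpi
  -- conclusion
  let β' : integralClosure A E := ⟨β, hβ⟩
  have hcW : ∀ W : ValuationSubring E, Over (primeVal K hπ) (algebraMap A K π) W →
      algebraMap F E c ∈ W := by
    intro W hW
    rw [← coe_icMap]
    exact mem_valuationSubring_of_isIntegralElem W (algebraMap A E) hW.algebraMap_mem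
      (icMap A F E c).2
  have h1 : β' ∈ x' := by
    apply hbx
    change β ∈ Wb.nonunits
    have : β = algebraMap F E c * u - (algebraMap F E c * u - β) := by ring
    rw [this]
    exact sub_mem (mul_mem_nonunits (hcW Wb hb) hub) (hkey Wb hb)
  have h2 : β' - icMap A F E (c * f) ∈ x' := by
    apply hax
    change β - algebraMap F E (c * f) ∈ Wa.nonunits
    have : β - algebraMap F E (c * f) = algebraMap F E c * (u - algebraMap F E f) -
        (algebraMap F E c * u - β) := by
      rw [map_mul]
      ring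
    rw [this]
    exact sub_mem (mul_mem_nonunits (hcW Wa ha) hua) (hkey Wa ha)
  have h3 : c * f ∈ x'.comap (icMap A F E) := by
    rw [Ideal.mem_comap]
    have : icMap A F E (c * f) = β' - (β' - icMap A F E (c * f)) := by ring
    rw [this]
    exact sub_mem h1 h2
  apply hf
  have h4 : f = c * f - (c - 1) * f := by ring
  rw [h4]
  exact sub_mem h3 (Ideal.mul_mem_right _ _ hc1)

end

section Trace

variable {F E : Type u} [Field F] [Field E] [Algebra F E] [FiniteDimensional F E]
  {W₁ : ValuationSubring F} [IsDiscreteValuationRing W₁]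

/-- The trace modulo a component. -/
theorem trace_sub_sum_mem [IsGalois F E] {ϖ : W₁} (hϖ : Irreducible ϖ) {W : ValuationSubring E}
    (hW : Over W₁ (ϖ : F) W) (y : E) (g : (E ≃ₐ[F] E) → F)
    (hg : ∀ σ : E ≃ₐ[F] E, y - algebraMap F E (g σ) ∈ (W.comap (σ : E →+* E)).nonunits) :
    Algebra.trace F E y - ∑ σ, g σ ∈ W₁.nonunits := by
  rw [← hW.mem_nonunits_iff hϖ, map_sub, trace_eq_sum_automorphisms, map_sum,
    ← Finset.sum_sub_distrib]
  refine sum_mem fun σ _ => ?_
  have h1 := hg σ
  rw [mem_nonunits_comap, map_sub, AlgEquiv.commutes] at h1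
  exact h1

/-- Existence of extensions. -/
theorem exists_over [Algebra.IsSeparable F E] {ϖ : W₁} (hϖ : Irreducible ϖ) :
    ∃ W : ValuationSubring E, Over W₁ (ϖ : F) W := by
  by_contra hcon
  push Not at hcon
  have h1 : IntOver W₁.toSubring (1 : E) := by
    have := intOver_algebraMap (E := E) (V := W₁.toSubring) (one_mem _)
    rwa [map_one] at this
  obtain ⟨N, w, hw, hN⟩ := exists_pow_of_forall_over hϖ h1 (fun W hW => absurd hW (hcon W))
  rw [one_pow, Algebra.smul_def] at hN
  have hϖ0 : (ϖ : F) ≠ 0 := fun h0 => hϖ.ne_zero (Subtype.ext h0)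
  have h2 : w = algebraMap F E (ϖ : F)⁻¹ := by
    rw [map_inv₀, eq_comm, inv_eq_of_mul_eq_one_right hN.symm]
  have h3 : (ϖ : F)⁻¹ ∈ W₁ := by
    letI : Algebra W₁ E := ((algebraMap F E).comp W₁.toSubring.subtype).toAlgebra
    haveI : IsScalarTower W₁ F E := IsScalarTower.of_algebraMap_eq fun a => rfl
    have h4 : IsIntegral W₁ (algebraMap F E (ϖ : F)⁻¹) := by rw [← h2]; exact hw
    have h5 : IsIntegral W₁ (ϖ : F)⁻¹ :=
      (isIntegral_algebraMap_iff (algebraMap F E).injective).mp h4
    obtain ⟨v, hv⟩ := IsIntegrallyClosed.isIntegral_iff.mp h5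
    rw [← hv]
    exact v.2
  apply hϖ.not_isUnit
  exact ⟨⟨ϖ, ⟨_, h3⟩, Subtype.ext (mul_inv_cancel₀ hϖ0), Subtype.ext (inv_mul_cancel₀ hϖ0)⟩, rfl⟩

theorem intOver_trace {K : Type*} [Field K] [Algebra K F] [Algebra K E] [IsScalarTower K F E]
    {V : Subring K} {y : E} (hy : IntOver V y) : IntOver V (Algebra.trace F E y) := by
  letI : Algebra V F := ((algebraMap K F).comp V.subtype).toAlgebra
  letI : Algebra V E := ((algebraMap K E).comp V.subtype).toAlgebra
  haveI : IsScalarTower V F E := IsScalarTower.of_algebraMap_eq fun a =>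
    IsScalarTower.algebraMap_apply K F E _
  have h1 : IsIntegral V y := hy
  exact Algebra.isIntegral_trace h1

end Trace

section Main

variable {A K F E : Type u} [CommRing A] [IsDomain A] [UniqueFactorizationMonoid A]
  [IsLocalRing A] [IsNoetherianRing A] [Field K] [Field F] [Field E] [Algebra A K]
  [IsFractionRing A K] [Algebra A F] [Algebra A E] [Algebra K F] [Algebra K E] [Algebra F E]
  [IsScalarTower A K F] [IsScalarTower A K E] [IsScalarTower A F E] [IsScalarTower K F E]
  [FiniteDimensional K F] [FiniteDimensional K E] [FiniteDimensional F E]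
  [Algebra.IsSeparable K F] [Algebra.IsSeparable K E] [Algebra.IsSeparable F E]
  {π s : A} {hπ : Prime π} {W₁ W₂ : ValuationSubring F}

omit [IsNoetherianRing A] in
/-- The components are discrete valuation rings with uniformiser `π`. -/
theorem TwoVal.isDVR (h : TwoVal K hπ s W₁ W₂) : IsDiscreteValuationRing W₁ ∧
    Irreducible (⟨algebraMap A F π, h.over₁.algebraMap_mem π⟩ : W₁) := by
  have hdvr := isDiscreteValuationRing_primeVal (F := K) hπ
  have h1 := isDVR_of_unif (irreducible_unif (F := K) hπ) h.over₁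
    (fun x hx => unif_of_unr (irreducible_unif (F := K) hπ) h.unr h.over₁ hx)
  have h2 : (⟨algebraMap A F π, h.over₁.algebraMap_mem π⟩ : W₁) =
      ⟨algebraMap K F (unif K hπ), h.over₁.1 _ (unif K hπ).2⟩ :=
    Subtype.ext (IsScalarTower.algebraMap_apply A K F π)
  rw [h2]
  exact h1

omit [IsLocalRing A] [IsNoetherianRing A] [FiniteDimensional K F] [FiniteDimensional K E]
  [FiniteDimensional F E] [Algebra.IsSeparable K F] [Algebra.IsSeparable K E]
  [Algebra.IsSeparable F E] [IsScalarTower A K F] in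
theorem Over.trans {W : ValuationSubring E} (hW₁ : Over (primeVal K hπ) (algebraMap A K π) W₁)
    (hW : Over W₁ (algebraMap A F π) W) : Over (primeVal K hπ) (algebraMap A K π) W := by
  refine ⟨fun x hx => ?_, ?_⟩
  · rw [IsScalarTower.algebraMap_apply K F E]
    exact hW.1 _ (hW₁.1 x hx)
  · rw [← IsScalarTower.algebraMap_apply, IsScalarTower.algebraMap_apply A F E]
    exact hW.2

omit [FiniteDimensional K E] [Algebra.IsSeparable K E] in
/-- Residues of integral elements at a split place are residues of integral elements below. -/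
theorem TwoVal.exists_approx [IsGalois F E] (h : TwoVal K hπ s W₁ W₂)
    {Wa : ValuationSubring E} (ha : Over W₁ (algebraMap A F π) Wa)
    (hsplit : ∀ σ : E ≃ₐ[F] E, σ ≠ 1 → Wa.comap (σ : E →+* E) ≠ Wa) {b : E}
    (hb : IsIntegral A b) : ∃ b₁ : F, IsIntegral A b₁ ∧ b - algebraMap F E b₁ ∈ Wa.nonunits := by
  obtain ⟨hdvr, hirr⟩ := h.isDVR
  have haV := h.over₁.trans ha
  have hbW : b ∈ Wa :=
    mem_valuationSubring_of_isIntegralElem Wa (algebraMap A E) haV.algebraMap_mem hb
  obtain ⟨w, hw, hbw⟩ := (split_residue hirr ha hsplit).1 b hbW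
  have hwW : algebraMap F E w ∈ Wa := ha.1 _ hw
  obtain ⟨p, hp, hpb⟩ := hb
  let e : A →+* Wa := (algebraMap A E).codRestrict Wa.toSubring haV.algebraMap_mem
  have he : ∀ y : Wa, eval₂ (algebraMap A E) (y : E) p = ((eval₂ e y p : Wa) : E) := by
    intro y
    rw [show ((eval₂ e y p : Wa) : E) = Wa.toSubring.subtype (eval₂ e y p) from rfl, hom_eval₂]
    rfl
  have hres : residue Wa ⟨algebraMap F E w, hwW⟩ = residue Wa ⟨b, hbW⟩ := by
    rw [eq_comm, ← sub_eq_zero, ← map_sub, residue_eq_zero_iff]
    exact ValuationSubring.coe_mem_nonunits_iff.mp hbw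
  have h1 : eval₂ e (⟨algebraMap F E w, hwW⟩ : Wa) p ∈ maximalIdeal Wa := by
    rw [← residue_eq_zero_iff, hom_eval₂, hres, ← hom_eval₂]
    have h2 : eval₂ e (⟨b, hbW⟩ : Wa) p = 0 := by
      apply Subtype.ext
      rw [← he]
      exact hpb
    rw [h2, map_zero]
  have h2 : eval₂ (algebraMap A F) w p ∈ W₁.nonunits := by
    rw [← ha.mem_nonunits_iff hirr, hom_eval₂, ← IsScalarTower.algebraMap_eq]
    have h3 := he ⟨algebraMap F E w, hwW⟩
    change eval₂ (algebraMap A E) (algebraMap F E w) p = _ at h3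
    rw [h3]
    exact ValuationSubring.coe_mem_nonunits_iff.mpr h1
  obtain ⟨b₁, hb₁, hwb⟩ := h.normal₁ w hw p hp h2
  refine ⟨b₁, hb₁, ?_⟩
  have h3 : b - algebraMap F E b₁ = (b - algebraMap F E w) + algebraMap F E (w - b₁) := by
    rw [map_sub]
    ring
  rw [h3]
  exact add_mem hbw ((ha.mem_nonunits_iff hirr).mpr hwb)

omit [Algebra A E] [Algebra K E] [IsScalarTower A K E] [IsScalarTower A F E]
  [IsScalarTower K F E] [FiniteDimensional K E] [FiniteDimensional F E]
  [Algebra.IsSeparable K E] [Algebra.IsSeparable F E] [IsNoetherianRing A] in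
theorem TwoVal.over_disjoint (h : TwoVal K hπ s W₁ W₂) {W : ValuationSubring E}
    (h1 : Over W₁ (algebraMap A F π) W) (h2 : Over W₂ (algebraMap A F π) W) : False := by
  obtain ⟨hdvr, hirr⟩ := h.isDVR
  obtain ⟨hdvr', hirr'⟩ := h.symm.isDVR
  apply h.ne
  ext x
  rw [← h1.mem_iff hirr, h2.mem_iff hirr']

/-- Construction of the separating function `u`. -/
theorem TwoVal.exists_u [IsGalois F E] (h : TwoVal K hπ s W₁ W₂)
    {x' : Ideal (integralClosure A E)}
    {Wa Wb : ValuationSubring E} (hab : Wa ≠ Wb) (ha : Over W₁ (algebraMap A F π) Wa)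
    (hb : Over W₁ (algebraMap A F π) Wb) (hax : CenterLE Wa x') (hbx : CenterLE Wb x')
    (hsplit : ∀ W : ValuationSubring E, Over W₁ (algebraMap A F π) W →
      ∀ σ : E ≃ₐ[F] E, σ ≠ 1 → W.comap (σ : E →+* E) ≠ W)
    (f f' : integralClosure A F)
    (hff : ∀ b₁ b₂ : integralClosure A F, b₁ - b₂ ∈ x'.comap (icMap A F E) →
      ∃ p₁ p₂ : integralClosure A F, (p₁ : F) ∈ W₁.nonunits ∧ (p₂ : F) ∈ W₂.nonunits ∧
        f * b₁ + f' * b₂ = p₁ + p₂) :
    ∃ u : E, u - algebraMap F E f ∈ Wa.nonunits ∧
      u - algebraMap F E f' ∈ Wb.nonunits ∧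
      (∀ W : ValuationSubring E, Over (primeVal K hπ) (algebraMap A K π) W → W ≠ Wa → W ≠ Wb →
        u ∈ W.nonunits) ∧
      ∀ b : E, IsIntegral A b → ∃ β p : F, IsIntegral A β ∧
        IntOver (primeVal K hπ).toSubring p ∧ Algebra.trace F E (u * b) = β + π • p := by
  classical
  have hdvrV := isDiscreteValuationRing_primeVal (F := K) hπ
  obtain ⟨hdvr₁, hirr₁⟩ := h.isDVR
  obtain ⟨hdvr₂, hirr₂⟩ := h.symm.isDVR
  have haV := h.over₁.trans ha
  have hbV := h.over₁.trans hb
  have hintW : ∀ W : ValuationSubring E, Over (primeVal K hπ) (algebraMap A K π) W →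
      ∀ e : E, IsIntegral A e → e ∈ W := fun W hW e he =>
    mem_valuationSubring_of_isIntegralElem W (algebraMap A E) hW.algebraMap_mem he
  have hfin := finite_over (E := E) (irreducible_unif (F := K) hπ)
  have : Fintype {W : ValuationSubring E // Over (primeVal K hπ) ((unif K hπ : primeVal K hπ) : K)
    W} := hfin.fintype
  obtain ⟨u, hu, hui⟩ := exists_separating (irreducible_unif (F := K) hπ)
    (fun W' : {W : ValuationSubring E // Over (primeVal K hπ) ((unif K hπ : primeVal K hπ) : K) W}
      => W'.1) Subtype.val_injective (fun W' => W'.2.1) (fun W' => W'.2.2)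
    (fun W' => if W'.1 = Wa then algebraMap F E f else if W'.1 = Wb then algebraMap F E f' else 0)
    (fun W' => by
      split_ifs
      · exact hintW _ W'.2 _ (icMap A F E f).2
      · exact hintW _ W'.2 _ (icMap A F E f').2
      · exact zero_mem _)
  have hua : u - algebraMap F E f ∈ Wa.nonunits := by simpa using hui ⟨Wa, haV⟩
  have hub : u - algebraMap F E f' ∈ Wb.nonunits := by
    simpa [hab.symm] using hui ⟨Wb, hbV⟩
  have huo : ∀ W : ValuationSubring E, Over (primeVal K hπ) (algebraMap A K π) W → W ≠ Wa →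
      W ≠ Wb → u ∈ W.nonunits := by
    intro W hW h1 h2
    simpa [h1, h2] using hui ⟨W, hW⟩
  refine ⟨u, hua, hub, huo, fun b hbi => ?_⟩
  obtain ⟨b₁, hb₁, hbb₁⟩ := h.exists_approx ha (hsplit Wa ha) hbi
  obtain ⟨b₂, hb₂, hbb₂⟩ := h.exists_approx hb (hsplit Wb hb) hbi
  have hx : (⟨b₁, hb₁⟩ - ⟨b₂, hb₂⟩ : integralClosure A F) ∈ x'.comap (icMap A F E) := by
    rw [Ideal.mem_comap]
    have h1 : (⟨b, hbi⟩ - icMap A F E ⟨b₁, hb₁⟩ : integralClosure A E) ∈ x' := hax _ hbb₁
    have h2 : (⟨b, hbi⟩ - icMap A F E ⟨b₂, hb₂⟩ : integralClosure A E) ∈ x' := hbx _ hbb₂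
    have h3 : icMap A F E (⟨b₁, hb₁⟩ - ⟨b₂, hb₂⟩) =
        (⟨b, hbi⟩ - icMap A F E ⟨b₂, hb₂⟩ : integralClosure A E) -
          (⟨b, hbi⟩ - icMap A F E ⟨b₁, hb₁⟩) := by
      rw [map_sub]
      ring
    rw [h3]
    exact sub_mem h2 h1
  obtain ⟨p₁, p₂, hp₁, hp₂, hpp⟩ := hff _ _ hx
  have hpp' : (f : F) * b₁ + (f' : F) * b₂ = p₁ + p₂ := congrArg Subtype.val hpp
  -- the trace at `W₁`
  have hinj := comap_injective_of_split (hsplit Wa ha)
  obtain ⟨σb, hσb⟩ := (split_residue hirr₁ ha (hsplit Wa ha)).2.1 Wb hb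
  have hone : Wa.comap ((1 : E ≃ₐ[F] E) : E →+* E) = Wa := by
    ext y
    rfl
  have hσ1 : σb ≠ 1 := by
    rintro rfl
    exact hab (by rw [hσb, hone])
  have htr₁ : Algebra.trace F E (u * b) - ((f : F) * b₁ + (f' : F) * b₂) ∈ W₁.nonunits := by
    have h1 := trace_sub_sum_mem hirr₁ ha (u * b)
      (fun σ => (if σ = 1 then (f : F) * b₁ else 0) + (if σ = σb then (f' : F) * b₂ else 0))
      (fun σ => by
        have hσV : Over (primeVal K hπ) (algebraMap A K π) (Wa.comap (σ : E →+* E)) :=
          h.over₁.trans (ha.comap σ)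
        by_cases hσ : σ = 1
        · subst hσ
          rw [hone]
          simp only [if_true, if_neg (Ne.symm hσ1), add_zero, map_mul]
          have : u * b - algebraMap F E f * algebraMap F E b₁ =
              b * (u - algebraMap F E f) + algebraMap F E f * (b - algebraMap F E b₁) := by ring
          rw [this]
          exact add_mem (mul_mem_nonunits (hintW _ haV _ hbi) hua)
            (mul_mem_nonunits (hintW _ haV _ (icMap A F E f).2) hbb₁)
        · by_cases hσ' : σ = σb
          · subst hσ'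
            rw [← hσb]
            simp only [if_true, if_neg hσ, zero_add, map_mul]
            have : u * b - algebraMap F E f' * algebraMap F E b₂ =
                b * (u - algebraMap F E f') + algebraMap F E f' * (b - algebraMap F E b₂) := by
              ring
            rw [this]
            exact add_mem (mul_mem_nonunits (hintW _ hbV _ hbi) hub)
              (mul_mem_nonunits (hintW _ hbV _ (icMap A F E f').2) hbb₂)
          · simp only [if_neg hσ, if_neg hσ', add_zero, map_zero, sub_zero]
            rw [mul_comm]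
            refine mul_mem_nonunits (hintW _ hσV _ hbi) (huo _ hσV ?_ ?_)
            · intro h2
              exact hσ (hinj (h2.trans hone.symm))
            · intro h2
              exact hσ' (hinj (h2.trans hσb)))
    rw [Finset.sum_add_distrib, Finset.sum_ite_eq', Finset.sum_ite_eq', if_pos (Finset.mem_univ _),
      if_pos (Finset.mem_univ _)] at h1
    exact h1
  -- the trace at `W₂`
  have htr₂ : Algebra.trace F E (u * b) ∈ W₂.nonunits := by
    obtain ⟨W, hW⟩ := exists_over (E := E) hirr₂
    have h1 := trace_sub_sum_mem hirr₂ hW (u * b) (fun σ => 0) (fun σ => by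
      have hσW := hW.comap σ
      have hσV : Over (primeVal K hπ) (algebraMap A K π) (W.comap (σ : E →+* E)) :=
        h.over₂.trans hσW
      rw [map_zero, sub_zero, mul_comm]
      refine mul_mem_nonunits (hintW _ hσV _ hbi) (huo _ hσV ?_ ?_)
      · intro h2
        rw [h2] at hσW
        exact h.over_disjoint ha hσW
      · intro h2
        rw [h2] at hσW
        exact h.over_disjoint hb hσW)
    rw [Finset.sum_const_zero, sub_zero] at h1
    exact h1
  obtain ⟨w, hw, htw⟩ := exists_eq_pi_smul (K := K) h.unr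
    (b := Algebra.trace F E (u * b) - p₂)
    ((intOver_trace (hu.mul (intOver_of_isIntegral (fun a => algebraMap_mem_primeVal hπ a)
      hbi))).sub (intOver_of_isIntegral (fun a => algebraMap_mem_primeVal hπ a) p₂.2))
    (fun W hW => by
      rcases h.all W hW with rfl | rfl
      · have h1 : Algebra.trace F E (u * b) - (p₂ : F) =
            (Algebra.trace F E (u * b) - ((f : F) * b₁ + (f' : F) * b₂)) + p₁ := by
          rw [hpp']
          ring
        rw [h1]
        exact add_mem htr₁ hp₁
      · exact sub_mem htr₂ hp₂)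
  exact ⟨p₂, w, p₂.2, hw, by rw [← htw]; ring⟩

/-- **Splitting lemma.**  A closed point of the special fibre of the normalisation in `E` lies on
at most one component over `W₁`. -/
theorem TwoVal.split_center [IsGalois F E] (h : TwoVal K hπ s W₁ W₂)
    (hres : ∀ x : Ideal (integralClosure A F), x.IsMaximal → ∀ b, ∃ a : A,
      b - algebraMap A _ a ∈ x)
    (hunrE : Unr (primeVal K hπ).toSubring E)
    (hUR : ∀ z : E, (∀ b : E, IsIntegral A b → IsIntegral A (Algebra.trace F E (z * b))) →
      IsIntegral A z)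
    (hsplit : ∀ W : ValuationSubring E, Over W₁ (algebraMap A F π) W →
      ∀ σ : E ≃ₐ[F] E, σ ≠ 1 → W.comap (σ : E →+* E) ≠ W)
    (x' : Ideal (integralClosure A E)) [hx' : x'.IsMaximal]
    {Wa Wb : ValuationSubring E} (ha : Over W₁ (algebraMap A F π) Wa)
    (hb : Over W₁ (algebraMap A F π) Wb) (hax : CenterLE Wa x') (hbx : CenterLE Wb x') :
    Wa = Wb := by
  by_contra hab
  have hirr₂ := h.symm.isDVR.2
  have hdvr₂ := h.symm.isDVR.1
  have hdvr₁ := h.isDVR.1
  have hirr₁ := h.isDVR.2
  have hTB := h.twoBranch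
  have hnoeth : IsNoetherian A (integralClosure A F) :=
    IsIntegralClosure.isNoetherian A K F (integralClosure A F)
  have hfinB : Module.Finite A (integralClosure A F) := Module.IsNoetherian.finite A _
  -- the restricted ideal
  have hx : (x'.comap (icMap A F E)).IsMaximal := inferInstance
  have h1x : RingHom.ker (resMap W₁ h.over₁.algebraMap_mem) ≤ x'.comap (icMap A F E) := by
    intro b hb'
    rw [RingHom.mem_ker, resMap_eq_zero_iff] at hb'
    exact hax _ ((ha.mem_nonunits_iff hirr₁).mpr hb')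
  by_cases h2x : RingHom.ker (resMap W₂ h.over₂.algebraMap_mem) ≤ x'.comap (icMap A F E)
  · -- the node case
    obtain ⟨⟨f, hf, hfx⟩, b₀, hb₀⟩ := hTB.exists_socleGen_node (hres _ hx) h1x h2x
    obtain ⟨Wc, hcW, hcx⟩ := exists_over_centerLE K hirr₂ h.over₂.algebraMap_mem x' (by
      intro b hb'
      exact h2x (RingHom.mem_ker.mpr (resMap_eq_zero_iff.mpr hb')))
    obtain ⟨u, hua, -, huo, hT⟩ := h.exists_u hab ha hb hax hbx hsplit f (-f) (by
      intro b₁ b₂ hb12
      obtain ⟨p₁, hp₁, p₂, hp₂, hpp⟩ := Submodule.mem_sup.mp (hfx _ hb12)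
      rw [RingHom.mem_ker, resMap_eq_zero_iff] at hp₁ hp₂
      exact ⟨p₁, p₂, hp₁, hp₂, by rw [hpp]; ring⟩)
    refine split_contra h hunrE hUR x' hb₀ hf (h.over₁.trans ha) (h.over₂.trans hcW) hax hcx hua
      (huo Wc (h.over₂.trans hcW) ?_ ?_) hT
    · rintro rfl
      exact h.over_disjoint ha hcW
    · rintro rfl
      exact h.over_disjoint hb hcW
  · -- the smooth case
    obtain ⟨b₀, hb₀⟩ := hTB.exists_socleGen_smooth (hres _ hx) h1x h2x
    obtain ⟨f, hfk, hf⟩ := SetLike.not_le_iff_exists.mp h2x
    rw [RingHom.mem_ker, resMap_eq_zero_iff] at hfk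
    obtain ⟨u, hua, hub, huo, hT⟩ := h.exists_u hab ha hb hax hbx hsplit f 0 (by
      intro b₁ b₂ _
      refine ⟨0, f * b₁, zero_mem_nonunits _, ?_, by ring⟩
      change (f : F) * (b₁ : F) ∈ W₂.nonunits
      rw [mul_comm]
      exact mul_mem_nonunits (mem_valuationSubring_of_isIntegralElem W₂ (algebraMap A F)
        h.over₂.algebraMap_mem b₁.2) hfk)
    refine split_contra h hunrE hUR x' hb₀ hf (h.over₁.trans ha) (h.over₁.trans hb) hax hbx hua
      ?_ hT
    simpa using hub

end Main

end Fermat.Agent.Geo
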