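import Mathlib
import Fermat.Agent.Geo.Split

set_option autoImplicit false

/-!
# Unramifiedness in towers and relative to factorial local rings
-/

open IsLocalRing Polynomial

universe u

namespace Fermat.Agent.Geo

section DVR

variable {K F : Type*} [Field K] [Field F] [Algebra K F]
  {V : ValuationSubring K} [IsDiscreteValuationRing V]
  [FiniteDimensional K F] [Algebra.IsSeparable K F]

/-- Extensions of discrete valuation rings are discrete valuation rings. -/
theorem isDVR_of_over {ϖ : V} (hϖ : Irreducible ϖ) {W : ValuationSubring F}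
    (hW : Over V (ϖ : K) W) : IsDiscreteValuationRing W := by
  letI : Algebra V F := ((algebraMap K F).comp V.toSubring.subtype).toAlgebra
  haveI : IsScalarTower V K F := IsScalarTower.of_algebraMap_eq fun a => rfl
  have hfs : FaithfulSMul V F := faithfulSMul_of_tower K F
  have hded : IsDedekindDomain (integralClosure V F) := integralClosure.isDedekindDomain V K F
  obtain ⟨Q, hQ, hQ0, hQl, hmem⟩ := exists_ideal_of_valuationSubring W hϖ hW.1 hW.2
  let ι : integralClosure V F →+* W := (integralClosure V F).val.toRingHom.codRestrict W.toSubring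
    (fun b => mem_of_intOver hW.1 b.2)
  letI : Algebra (integralClosure V F) W := ι.toAlgebra
  have hloc : IsLocalization.AtPrime W Q := by
    refine ⟨?_, ?_, ?_⟩
    · rintro ⟨y, hy⟩
      have h1 : (y : F) ∉ W.nonunits := fun h => hy ((hmem y).mpr h)
      have h2 : (y : F) ≠ 0 := fun h0 => h1 (by rw [h0]; exact zero_mem_nonunits _)
      exact ⟨⟨ι y, ⟨_, inv_mem_of_notMem_nonunits h1⟩, Subtype.ext (mul_inv_cancel₀ h2),
        Subtype.ext (inv_mul_cancel₀ h2)⟩, rfl⟩
    · intro z
      obtain ⟨j, hj, hzj, hjW, hjn⟩ := exists_intOver_mul hW.1 z.2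
      refine ⟨⟨⟨_, hzj⟩, ⟨⟨j, hj⟩, fun h => hjn ((hmem _).mp h)⟩⟩, ?_⟩
      exact Subtype.ext rfl
    · intro x y hxy
      have : x = y := Subtype.ext (congrArg (fun w : W => (w : F)) hxy)
      exact ⟨1, by rw [this]⟩
  exact IsLocalization.AtPrime.isDiscreteValuationRing_of_dedekind_domain _ hQ0 W

/-- Common denominators. -/
theorem exists_common_denom {W : ValuationSubring F} (hW : ∀ x ∈ V, algebraMap K F x ∈ W)
    {ι : Type*} (s : Finset ι) (c : ι → F) (hc : ∀ i ∈ s, c i ∈ W) :
    ∃ j : F, IntOver V.toSubring j ∧ j ∉ W.nonunits ∧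
      ∀ i ∈ s, IntOver V.toSubring (c i * j) := by
  classical
  induction s using Finset.induction_on with
  | empty =>
    refine ⟨1, ?_, notMem_nonunits_one W, by simp⟩
    have := intOver_algebraMap (E := F) (V := V.toSubring) (one_mem _)
    rwa [map_one] at this
  | insert a s ha ih =>
    obtain ⟨j, hj, hjn, hjc⟩ := ih (fun i hi => hc i (Finset.mem_insert_of_mem hi))
    obtain ⟨j', hj', hcj', hjW', hjn'⟩ := exists_intOver_mul hW (hc a (Finset.mem_insert_self a s))
    refine ⟨j * j', hj.mul hj', ?_, fun i hi => ?_⟩
    · intro h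
      apply hjn'
      have hj0 : j ≠ 0 := fun h0 => hjn (by rw [h0]; exact zero_mem_nonunits _)
      have : j' = j⁻¹ * (j * j') := by field_simp
      rw [this]
      exact mul_mem_nonunits (inv_mem_of_notMem_nonunits hjn) h
    · rcases Finset.mem_insert.mp hi with rfl | hi
      · have : c i * (j * j') = (c i * j') * j := by ring
        rw [this]
        exact hcj'.mul hj
      · have : c i * (j * j') = (c i * j) * j' := by ring
        rw [this]
        exact (hjc i hi).mul hj'

end DVR

section Tower

variable {K F E : Type*} [Field K] [Field F] [Field E] [Algebra K F] [Algebra K E] [Algebra F E]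
  [IsScalarTower K F E] {V : ValuationSubring K} [IsDiscreteValuationRing V]
  [FiniteDimensional K F] [Algebra.IsSeparable K F]

/-- Denominators for elements integral over an extension of `V`. -/
theorem exists_mul_intOver {W : ValuationSubring F} (hW : ∀ x ∈ V, algebraMap K F x ∈ W) {b : E}
    (hb : IntOver W.toSubring b) : ∃ j : F, IntOver V.toSubring j ∧ j ∉ W.nonunits ∧
      IntOver V.toSubring (j • b) := by
  classical
  obtain ⟨P, hP, hPb⟩ := hb
  let P' : F[X] := P.map W.toSubring.subtype
  have hP' : P'.Monic := hP.map _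
  have hP'b : aeval b P' = 0 := by
    rw [aeval_def, eval₂_map]
    exact hPb
  obtain ⟨j, hj, hjn, hjc⟩ := exists_common_denom hW (Finset.range P'.natDegree)
    (fun i => P'.coeff i) (fun i _ => by
      rw [coeff_map]
      exact (P.coeff i).2)
  refine ⟨j, hj, hjn, ?_⟩
  letI : Algebra V F := ((algebraMap K F).comp V.toSubring.subtype).toAlgebra
  letI : Algebra V E := ((algebraMap K E).comp V.toSubring.subtype).toAlgebra
  haveI : IsScalarTower V F E := IsScalarTower.of_algebraMap_eq fun a =>
    IsScalarTower.algebraMap_apply K F E _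
  let B := integralClosure V F
  have h1 : IsIntegral B (j • b) := by
    refine isIntegralElem_of_coeff (algebraMap B E) ((P'.scaleRoots j).map (algebraMap F E))
      ((((monic_scaleRoots_iff j).mpr hP')).map _) (fun i => ?_) ?_
    · rw [coeff_map, coeff_scaleRoots]
      rcases lt_trichotomy i P'.natDegree with hi | hi | hi
      · obtain ⟨m, hm⟩ := Nat.exists_eq_succ_of_ne_zero (Nat.sub_ne_zero_of_lt hi)
        have h2 : IntOver V.toSubring (P'.coeff i * j ^ (P'.natDegree - i)) := by
          rw [hm, pow_succ', ← mul_assoc]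
          exact (hjc i (Finset.mem_range.mpr hi)).mul (hj.pow m)
        exact ⟨⟨_, h2⟩, rfl⟩
      · rw [hi, hP'.coeff_natDegree, Nat.sub_self, pow_zero, mul_one]
        exact ⟨1, by rw [map_one, map_one]⟩
      · rw [coeff_eq_zero_of_natDegree_lt hi, zero_mul]
        exact ⟨0, by rw [map_zero, map_zero]⟩
    · rw [eval_map, Algebra.smul_def]
      exact scaleRoots_eval₂_eq_zero (algebraMap F E) hP'b
  exact isIntegral_trans _ h1

/-- Being in all the valuation rings over `V`. -/
theorem intOver_of_forall_over [FiniteDimensional K E] {ϖ : V} (hϖ : Irreducible ϖ) {z : E}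
    (h : ∀ W : ValuationSubring E, Over V (ϖ : K) W → z ∈ W) : IntOver V.toSubring z := by
  apply isIntegralElem_of_forall_valuationSubring
  intro W hW
  by_cases hϖW : algebraMap K E ϖ ∈ W.nonunits
  · exact h W ⟨fun x hx => hW ⟨x, hx⟩, hϖW⟩
  · -- `W` contains `K`
    have hKW : ∀ x : K, algebraMap K E x ∈ W := by
      intro x
      by_cases hx : x ∈ V
      · exact hW ⟨x, hx⟩
      · have hx' : x⁻¹ ∈ V := (V.mem_or_inv_mem x).resolve_left hx
        have hx0 : (⟨x⁻¹, hx'⟩ : V) ≠ 0 := by
          intro h0
          apply hx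
          have h1 : x⁻¹ = 0 := congrArg Subtype.val h0
          rw [inv_eq_zero] at h1
          rw [h1]
          exact zero_mem _
        obtain ⟨n, u, hu⟩ := IsDiscreteValuationRing.eq_unit_mul_pow_irreducible hx0 hϖ
        have h1 : x⁻¹ = (u : V) * (ϖ : K) ^ n := congrArg Subtype.val hu
        have h2 : x = (((u⁻¹ : Vˣ) : V) : K) * ((ϖ : K)⁻¹) ^ n := by
          have h3 : ((u : V) : K) * (((u⁻¹ : Vˣ) : V) : K) = 1 := by
            have := congrArg Subtype.val (Units.mul_inv u)
            exact this
          rw [← inv_inv x, h1, mul_inv, inv_pow]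
          congr 1
          exact inv_eq_of_mul_eq_one_right h3
        rw [h2, map_mul, map_pow, map_inv₀]
        exact mul_mem (hW _) (pow_mem (inv_mem_of_notMem_nonunits hϖW) n)
    have h1 : IsIntegral K z := Algebra.IsIntegral.isIntegral z
    exact mem_valuationSubring_of_isIntegralElem W (algebraMap K E) hKW h1

variable [FiniteDimensional K E] [FiniteDimensional F E]

/-- Relative unramifiedness over a discrete valuation ring, from unramifiedness over all its
extensions. -/
theorem intOver_of_trace_of_unr {ϖ : V} (hϖ : Irreducible ϖ)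
    (hur : ∀ W : ValuationSubring F, Over V (ϖ : K) W → Unr W.toSubring E) {z : E}
    (hz : ∀ b : E, IntOver V.toSubring b → IntOver V.toSubring (Algebra.trace F E (z * b))) :
    IntOver V.toSubring z := by
  apply intOver_of_forall_over hϖ
  intro W hW
  have hW' : Over V (ϖ : K) (W.comap (algebraMap F E)) := hW.restrict
  have h1 : IntOver (W.comap (algebraMap F E)).toSubring z := by
    apply hur _ hW'
    intro b hb
    obtain ⟨j, hj, hjn, hjb⟩ := exists_mul_intOver (E := E) hW'.1 hb
    have h2 := mem_of_intOver hW'.1 (hz _ hjb)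
    have hj0 : j ≠ 0 := fun h0 => hjn (by rw [h0]; exact zero_mem_nonunits _)
    have h3 : Algebra.trace F E (z * b) = j⁻¹ * Algebra.trace F E (z * (j • b)) := by
      rw [mul_smul_comm, map_smul, smul_eq_mul]
      field_simp
    rw [h3]
    exact mul_mem (inv_mem_of_notMem_nonunits hjn) h2
  exact mem_of_intOver (F := F) (V := W.comap (algebraMap F E)) (W := W) (fun x hx => hx) h1

/-- Transitivity of unramifiedness. -/
theorem unr_trans {ϖ : V} (hϖ : Irreducible ϖ) (hF : Unr V.toSubring F)
    (hur : ∀ W : ValuationSubring F, Over V (ϖ : K) W → Unr W.toSubring E) :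
    Unr V.toSubring E := by
  intro z hz
  apply intOver_of_trace_of_unr hϖ hur
  intro b hb
  apply hF
  intro b' hb'
  have h1 : z * (b * algebraMap F E b') = b' • (z * b) := by
    rw [Algebra.smul_def]
    ring
  have hb'' : IntOver V.toSubring (algebraMap F E b') := by
    letI : Algebra V F := ((algebraMap K F).comp V.toSubring.subtype).toAlgebra
    letI : Algebra V E := ((algebraMap K E).comp V.toSubring.subtype).toAlgebra
    haveI : IsScalarTower V F E := IsScalarTower.of_algebraMap_eq fun a =>
      IsScalarTower.algebraMap_apply K F E _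
    have h2 : IsIntegral V b' := hb'
    exact h2.algebraMap
  have h2 := hz (b * algebraMap F E b') (hb.mul hb'')
  rw [h1, ← Algebra.trace_trace (R := K) (S := F) (b' • (z * b)), map_smul, smul_eq_mul,
    mul_comm] at h2
  exact h2

end Tower

section UFD

variable {A K F E : Type u} [CommRing A] [IsDomain A] [UniqueFactorizationMonoid A]
  [Field K] [Field F] [Field E] [Algebra A K]
  [IsFractionRing A K] [Algebra A F] [Algebra A E] [Algebra K F] [Algebra K E] [Algebra F E]
  [IsScalarTower A K F] [IsScalarTower A K E] [IsScalarTower A F E] [IsScalarTower K F E]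
  [FiniteDimensional K F] [FiniteDimensional K E] [FiniteDimensional F E]
  [Algebra.IsSeparable K F]

/-- Relative unramifiedness over a factorial domain. -/
theorem isIntegral_of_trace_of_unr
    (hur : ∀ (p : A) (hp : Prime p) (W : ValuationSubring F),
      Over (primeVal K hp) (algebraMap A K p) W → Unr W.toSubring E) {z : E}
    (hz : ∀ b : E, IsIntegral A b → IsIntegral A (Algebra.trace F E (z * b))) :
    IsIntegral A z := by
  apply isIntegral_of_forall_prime (F := K) (Algebra.IsIntegral.isIntegral z)
  intro p hp
  rw [← intOver_primeVal_iff (F := K) hp]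
  have hdvr := isDiscreteValuationRing_primeVal (F := K) hp
  apply intOver_of_trace_of_unr (irreducible_unif (F := K) hp) (hur p hp)
  intro b hb
  obtain ⟨t, ht, htb⟩ := (intOver_primeVal_iff (F := K) hp).mp hb
  rw [intOver_primeVal_iff (F := K) hp]
  refine ⟨t, ht, ?_⟩
  have h1 : t • Algebra.trace F E (z * b) = Algebra.trace F E (z * (t • b)) := by
    rw [mul_smul_comm, ← algebraMap_smul F t (z * b), map_smul, algebraMap_smul]
  rw [h1]
  exact hz _ htb

end UFD

end Fermat.Agent.Geo
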