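import Mathlib
import Fermat.Agent.Geo.Unique
import Fermat.Agent.Geo.Separable

set_option autoImplicit false

/-!
# Separability of residue extensions
-/

open IsLocalRing Polynomial

universe u

namespace Fermat.Agent.Geo

section

variable {F E : Type*} [Field F] [Field E] [Algebra F E] {V : ValuationSubring F}
  {W : ValuationSubring E}

/-- An algebraic element satisfies a primitive equation over the valuation ring. -/
theorem exists_primitive_equation (V : ValuationSubring F) {x : E} (hx : IsAlgebraic F x) :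
    ∃ g : Polynomial V, g.map (residue V) ≠ 0 ∧
      g.eval₂ ((algebraMap F E).comp V.toSubring.subtype) x = 0 := by
  obtain ⟨p, hp0, hpx⟩ := hx
  obtain ⟨i₀, hi₀, hmax⟩ := exists_max_coeff V (fun i : Fin (p.natDegree + 1) => p.coeff i)
    ⟨⟨p.natDegree, by omega⟩, by
      simp only [coeff_natDegree, ne_eq, leadingCoeff_eq_zero]
      exact hp0⟩
  let q : F[X] := C (p.coeff i₀)⁻¹ * p
  have hq : ∀ i, q.coeff i ∈ V := by
    intro i
    rw [coeff_C_mul]
    by_cases hi : i < p.natDegree + 1
    · exact hmax ⟨i, hi⟩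
    · have hi0 : p.coeff i = 0 := coeff_eq_zero_of_natDegree_lt (by omega)
      rw [hi0, mul_zero]
      exact zero_mem _
  obtain ⟨g, hg⟩ : ∃ g : V[X], g.map V.toSubring.subtype = q := by
    have : q ∈ Polynomial.lifts V.toSubring.subtype := by
      rw [Polynomial.lifts_iff_coeff_lifts]
      intro i
      exact ⟨⟨q.coeff i, hq i⟩, rfl⟩
    exact (Polynomial.mem_lifts _).mp this
  refine ⟨g, ?_, ?_⟩
  · intro h0
    have h1 : (g.map (residue V)).coeff i₀ = 0 := by rw [h0, coeff_zero]
    rw [coeff_map] at h1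
    have h2 : g.coeff i₀ = 1 := by
      apply Subtype.ext
      have h3 : (g.map V.toSubring.subtype).coeff i₀ = q.coeff i₀ := by rw [hg]
      rw [coeff_map, coeff_C_mul, inv_mul_cancel₀ hi₀] at h3
      exact h3
    rw [h2, map_one] at h1
    exact one_ne_zero h1
  · rw [← eval₂_map, hg, eval₂_mul, eval₂_C]
    have : eval₂ (algebraMap F E) x p = 0 := hpx
    rw [this, mul_zero]

/-- The separability condition from a residue map. -/
theorem sep_of_residue {L : Type*} [Field L] (ρ : W →+* L)
    (hρ : ∀ x : W, ρ x = 0 ↔ (x : E) ∈ W.nonunits)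
    (hVW : ∀ x ∈ V, algebraMap F E x ∈ W) (ι : ResidueField V →+* L)
    (hι : ∀ v : V, ι (residue V v) = ρ ⟨algebraMap F E v, hVW v v.2⟩)
    (hsep : letI := ι.toAlgebra; ∀ x : W, IsSeparable (ResidueField V) (ρ x)) :
    ∀ x ∈ W, ∃ g : Polynomial V, (g.map (residue V)).Separable ∧
      g.eval₂ ((algebraMap F E).comp V.toSubring.subtype) x ∈ W.nonunits := by
  intro x hx
  letI := ι.toAlgebra
  have hs := hsep ⟨x, hx⟩
  obtain ⟨g, hg⟩ := Polynomial.map_surjective (residue V) residue_surjective
    (minpoly (ResidueField V) (ρ ⟨x, hx⟩))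
  refine ⟨g, by rw [hg]; exact hs, ?_⟩
  let j : V →+* W := ((algebraMap F E).comp V.toSubring.subtype).codRestrict W.toSubring
    (fun v => hVW v v.2)
  have h1 : g.eval₂ ((algebraMap F E).comp V.toSubring.subtype) x =
      ((g.eval₂ j ⟨x, hx⟩ : W) : E) := by
    have h2 : (algebraMap F E).comp V.toSubring.subtype = W.toSubring.subtype.comp j := rfl
    rw [h2]
    exact (hom_eval₂ g j W.toSubring.subtype ⟨x, hx⟩).symm
  rw [h1, ← hρ, hom_eval₂]
  have h3 : ρ.comp j = ι.comp (residue V) := by
    ext v
    exact (hι v).symm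
  rw [h3, ← eval₂_map, hg]
  exact minpoly.aeval _ _

theorem isIntegral_residue [Algebra.IsAlgebraic F E] {L : Type*} [Field L] (ρ : W →+* L)
    (hVW : ∀ x ∈ V, algebraMap F E x ∈ W) (ι : ResidueField V →+* L)
    (hι : ∀ v : V, ι (residue V v) = ρ ⟨algebraMap F E v, hVW v v.2⟩) (x : W) :
    letI := ι.toAlgebra; IsIntegral (ResidueField V) (ρ x) := by
  letI := ι.toAlgebra
  obtain ⟨g, hg0, hgx⟩ := exists_primitive_equation V (Algebra.IsAlgebraic.isAlgebraic
    (R := F) (x : E))
  rw [← isAlgebraic_iff_isIntegral]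
  refine ⟨g.map (residue V), hg0, ?_⟩
  let j : V →+* W := ((algebraMap F E).comp V.toSubring.subtype).codRestrict W.toSubring
    (fun v => hVW v v.2)
  have h1 : g.eval₂ ((algebraMap F E).comp V.toSubring.subtype) x = ((g.eval₂ j x : W) : E) := by
    have h2 : (algebraMap F E).comp V.toSubring.subtype = W.toSubring.subtype.comp j := rfl
    rw [h2]
    exact (hom_eval₂ g j W.toSubring.subtype x).symm
  have h4 : g.eval₂ j x = 0 := by
    apply Subtype.ext
    rw [← h1, hgx]
    rfl
  have h3 : ρ.comp j = ι.comp (residue V) := by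
    ext v
    exact (hι v).symm
  rw [aeval_def, eval₂_map]
  change eval₂ (ι.comp (residue V)) (ρ x) g = 0
  rw [← h3, ← hom_eval₂, h4, map_zero]

/-- The residue map of an extension, on the residue field of the base. -/
theorem exists_residue_map {L : Type*} [Field L] (ρ : W →+* L)
    (hρ : ∀ x : W, ρ x = 0 ↔ (x : E) ∈ W.nonunits)
    (hVW : ∀ x ∈ V, algebraMap F E x ∈ W)
    (hVW' : ∀ x ∈ V.nonunits, algebraMap F E x ∈ W.nonunits) :
    ∃ ι : ResidueField V →+* L, ∀ v : V,
      ι (residue V v) = ρ ⟨algebraMap F E v, hVW v v.2⟩ := by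
  let j : V →+* W := ((algebraMap F E).comp V.toSubring.subtype).codRestrict W.toSubring
    (fun v => hVW v v.2)
  haveI : IsLocalHom (ρ.comp j) := by
    refine ⟨fun v hv => ?_⟩
    by_contra hnu
    have h1 : v ∈ maximalIdeal V := by
      rw [mem_maximalIdeal, mem_nonunits_iff]
      exact hnu
    have h2 : (v : F) ∈ V.nonunits := ValuationSubring.coe_mem_nonunits_iff.mpr h1
    have h3 : ρ.comp j v = 0 := (hρ _).mpr (hVW' _ h2)
    rw [h3] at hv
    exact not_isUnit_zero hv
  exact ⟨ResidueField.lift (ρ.comp j), fun v => ResidueField.lift_residue_apply _ _⟩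

/-- Perfect residue fields. -/
theorem sep_of_perfect [Algebra.IsAlgebraic F E] [PerfectField (ResidueField V)]
    (hVW : ∀ x ∈ V, algebraMap F E x ∈ W)
    (hVW' : ∀ x ∈ V.nonunits, algebraMap F E x ∈ W.nonunits) :
    ∀ x ∈ W, ∃ g : Polynomial V, (g.map (residue V)).Separable ∧
      g.eval₂ ((algebraMap F E).comp V.toSubring.subtype) x ∈ W.nonunits := by
  have hρ : ∀ x : W, residue W x = 0 ↔ (x : E) ∈ W.nonunits := by
    intro x
    rw [residue_eq_zero_iff, ValuationSubring.coe_mem_nonunits_iff]
  obtain ⟨ι, hι⟩ := exists_residue_map (residue W) hρ hVW hVW'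
  refine sep_of_residue (residue W) hρ hVW ι hι ?_
  letI := ι.toAlgebra
  intro x
  exact PerfectField.separable_of_irreducible (minpoly.irreducible
    (isIntegral_residue (residue W) hVW ι hι x))

theorem mem_nonunits_of_unif {ϖ : V} (hϖ : maximalIdeal V = Ideal.span {ϖ})
    (hVW : ∀ x ∈ V, algebraMap F E x ∈ W) (hϖW : algebraMap F E ϖ ∈ W.nonunits) :
    ∀ x ∈ V.nonunits, algebraMap F E x ∈ W.nonunits := by
  intro x hx
  obtain ⟨hxV, hxm⟩ := ValuationSubring.mem_nonunits_iff_exists_mem_maximalIdeal.mp hx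
  rw [hϖ, Ideal.mem_span_singleton] at hxm
  obtain ⟨c, hc⟩ := hxm
  have h1 : x = c * ϖ := by
    have : x = (ϖ : F) * c := congrArg Subtype.val hc
    rw [this, mul_comm]
  rw [h1, map_mul]
  exact mul_mem_nonunits (hVW _ c.2) hϖW

end

section Gauss

variable {O F E : Type u} [CommRing O] [IsDomain O] [IsDiscreteValuationRing O]
  [Field F] [Field E] [Algebra O F] [Algebra O E] [Algebra F E] [IsScalarTower O F E]
  {t : F} {π : O}

theorem algebraMap_mem_gaussVal (ht : IsParam O t) (hπ : Prime π) (o : O) :
    algebraMap O F o ∈ gaussVal ht hπ :=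
  (mem_placeVal_iff ht _).mpr ⟨1, C o, (prime_C_iff.mpr hπ).not_dvd_one, by
    rw [map_one, one_mul, aeval_C]⟩

theorem self_mem_gaussVal (ht : IsParam O t) (hπ : Prime π) : t ∈ gaussVal ht hπ :=
  (mem_placeVal_iff ht _).mpr ⟨1, X, (prime_C_iff.mpr hπ).not_dvd_one, by
    rw [map_one, one_mul, aeval_X]⟩

theorem aeval_mem_gaussVal (ht : IsParam O t) (hπ : Prime π) (p : O[X]) :
    aeval t p ∈ gaussVal ht hπ :=
  (mem_placeVal_iff ht _).mpr ⟨1, p, (prime_C_iff.mpr hπ).not_dvd_one, by
    rw [map_one, one_mul]⟩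

/-- Polynomials not divisible by `π` are units of the Gauss valuation ring. -/
theorem aeval_notMem_nonunits (ht : IsParam O t) (hπ : Prime π) {p : O[X]} (hp : ¬ C π ∣ p) :
    aeval t p ∉ (gaussVal ht hπ).nonunits := by
  intro h
  rw [ValuationSubring.mem_nonunits_iff_or] at h
  rcases h with h | h
  · apply hp
    have : p = 0 := ht.inj (by rw [h, map_zero])
    rw [this]
    exact dvd_zero _
  · apply h
    refine (mem_placeVal_iff ht _).mpr ⟨p, 1, hp, ?_⟩
    rw [map_one, mul_inv_cancel₀]
    intro h0
    apply hp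
    have : p = 0 := ht.inj (by rw [h0, map_zero])
    rw [this]
    exact dvd_zero _

/-- Separability over the Gauss valuation: the residue field of `W` is embedded in a field `L`
with a derivation which kills the constants and does not kill `t`. -/
theorem sep_gauss [Algebra.IsAlgebraic F E] [PerfectField (ResidueField O)]
    (ht : IsParam O t) (hπ : Prime π) {W : ValuationSubring E}
    (hVW : ∀ x ∈ gaussVal ht hπ, algebraMap F E x ∈ W) (hπW : algebraMap O E π ∈ W.nonunits)
    {L : Type*} [Field L] (ρ : W →+* L)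
    (hρ : ∀ x : W, ρ x = 0 ↔ (x : E) ∈ W.nonunits) (D : Derivation ℤ L L)
    (hD0 : ∀ o : O, D (ρ ⟨algebraMap F E (algebraMap O F o),
      hVW _ (algebraMap_mem_gaussVal ht hπ o)⟩) = 0)
    (hDt : D (ρ ⟨algebraMap F E t, hVW _ (self_mem_gaussVal ht hπ)⟩) ≠ 0) :
    ∀ x ∈ W, ∃ g : Polynomial (gaussVal ht hπ), (g.map (residue (gaussVal ht hπ))).Separable ∧
      g.eval₂ ((algebraMap F E).comp (gaussVal ht hπ).toSubring.subtype) x ∈ W.nonunits := by
  let V := gaussVal ht hπ
  haveI : IsDiscreteValuationRing V := isDiscreteValuationRing_gaussVal ht hπ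
  obtain ⟨ϖ, hϖ, hϖπ⟩ := exists_gauss_unif ht hπ
  have hVW' : ∀ x ∈ V.nonunits, algebraMap F E x ∈ W.nonunits := by
    apply mem_nonunits_of_unif hϖ.maximalIdeal_eq hVW
    rw [hϖπ, ← IsScalarTower.algebraMap_apply]
    exact hπW
  obtain ⟨ι, hι⟩ := exists_residue_map ρ hρ hVW hVW'
  refine sep_of_residue ρ hρ hVW ι hι ?_
  letI : Algebra (ResidueField V) L := ι.toAlgebra
  intro x
  have hint : IsIntegral (ResidueField V) (ρ x) := isIntegral_residue ρ hVW ι hι x
  -- the field of constants
  let jO : O →+* V := (algebraMap O F).codRestrict V.toSubring (algebraMap_mem_gaussVal ht hπ)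
  have hloc : IsLocalHom ((residue V).comp jO) := by
    refine ⟨fun o ho => ?_⟩
    by_contra hnu
    have h1 : o ∈ maximalIdeal O := by
      rw [mem_maximalIdeal, mem_nonunits_iff]
      exact hnu
    rw [hπ.irreducible.maximalIdeal_eq, Ideal.mem_span_singleton] at h1
    obtain ⟨c, rfl⟩ := h1
    have h2 : residue V (jO (π * c)) = 0 := by
      rw [map_mul]
      have h3 : jO π = ϖ := Subtype.ext hϖπ.symm
      rw [h3, map_mul]
      have h4 : residue V ϖ = 0 := by
        rw [residue_eq_zero_iff, hϖ.maximalIdeal_eq]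
        exact Ideal.mem_span_singleton_self ϖ
      rw [h4, zero_mul]
    rw [RingHom.comp_apply, h2] at ho
    exact not_isUnit_zero ho
  let ιk : ResidueField O →+* ResidueField V := ResidueField.lift ((residue V).comp jO)
  have hιk : ∀ o : O, ιk (residue O o) = residue V (jO o) := fun o =>
    ResidueField.lift_residue_apply _ _
  letI : Algebra (ResidueField O) (ResidueField V) := ιk.toAlgebra
  letI : Algebra (ResidueField O) L := (ι.comp ιk).toAlgebra
  haveI : IsScalarTower (ResidueField O) (ResidueField V) L :=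
    IsScalarTower.of_algebraMap_eq fun a => rfl
  let tV : V := ⟨t, self_mem_gaussVal ht hπ⟩
  -- the derivation is linear over the constants
  let D' : Derivation (ResidueField O) L L :=
    { toFun := D
      map_add' := fun a b => D.map_add a b
      map_smul' := by
        intro c y
        obtain ⟨o, rfl⟩ := residue_surjective c
        have h1 : (residue O o) • y = ρ ⟨algebraMap F E (algebraMap O F o),
            hVW _ (algebraMap_mem_gaussVal ht hπ o)⟩ * y := by
          rw [Algebra.smul_def]
          congr 1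
          change ι (ιk (residue O o)) = _
          rw [hιk, hι]
          rfl
        have h2 : (residue O o) • D y = ρ ⟨algebraMap F E (algebraMap O F o),
            hVW _ (algebraMap_mem_gaussVal ht hπ o)⟩ * D y := by
          rw [Algebra.smul_def]
          congr 1
          change ι (ιk (residue O o)) = _
          rw [hιk, hι]
          rfl
        rw [RingHom.id_apply]
        rw [h2, h1, D.leibniz, hD0, smul_zero, add_zero, smul_eq_mul]
      map_one_eq_zero' := D.map_one_eq_zero
      leibniz' := fun a b => D.leibniz a b }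
  refine isSeparable_of_derivation (k := ResidueField O) D' (t := residue V tV) ?_ ?_ hint
  · -- generation of the residue field
    rw [eq_top_iff]
    intro y _
    obtain ⟨v, rfl⟩ := residue_surjective y
    obtain ⟨s, a, hs, hva⟩ := (mem_placeVal_iff ht _).mp v.2
    have haev : ∀ p : O[X], residue V ⟨aeval t p, aeval_mem_gaussVal ht hπ p⟩ =
        aeval (residue V tV) (p.map (residue O)) := by
      intro p
      have h1 : (algebraMap (ResidueField O) (ResidueField V)).comp (residue O) =
          (residue V).comp jO := by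
        ext o
        exact hιk o
      have h2 : eval₂ jO tV p = (⟨aeval t p, aeval_mem_gaussVal ht hπ p⟩ : V) := by
        apply Subtype.ext
        change V.toSubring.subtype (eval₂ jO tV p) = aeval t p
        rw [hom_eval₂]
        rfl
      have h3 : aeval (residue V tV) (p.map (residue O)) =
          residue V (eval₂ jO tV p) := by
        rw [aeval_def, eval₂_map, h1, hom_eval₂]
      rw [h3, h2]
    rw [IntermediateField.mem_adjoin_simple_iff]
    refine ⟨a.map (residue O), s.map (residue O), ?_⟩
    rw [← haev, ← haev]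
    have hsn : residue V ⟨aeval t s, aeval_mem_gaussVal ht hπ s⟩ ≠ 0 := by
      rw [Ne, residue_eq_zero_iff, ← ValuationSubring.coe_mem_nonunits_iff]
      exact aeval_notMem_nonunits ht hπ hs
    rw [eq_div_iff hsn, ← map_mul]
    congr 1
    apply Subtype.ext
    change (v : F) * aeval t s = aeval t a
    rw [mul_comm]
    exact hva
  · change D (ι (residue V tV)) ≠ 0
    rw [hι]
    exact hDt

end Gauss

end Fermat.Agent.Geo
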