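import Mathlib
import Fermat.Agent.Geo.UnrRel

set_option autoImplicit false

/-!
# Localisation at a closed point of the special fibre
-/

open IsLocalRing Polynomial

universe u

namespace Fermat.Agent.Geo

section Basic

variable {R A : Type u} [CommRing R] [IsDomain R] [CommRing A] [IsDomain A] [Algebra R A]
  (y : Ideal R) [hy : y.IsPrime] [IsLocalization.AtPrime A y]

omit [IsDomain R] [IsDomain A] in
theorem isUnit_of_notMem {d : R} (hd : d ∉ y) : IsUnit (algebraMap R A d) :=
  (IsLocalization.AtPrime.isUnit_to_map_iff A y d).mpr hd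

omit [IsDomain R] [IsDomain A] in
/-- Integrality over the localisation. -/
theorem isIntegral_loc_iff {F : Type*} [Field F] [Algebra R F] [Algebra A F]
    [IsScalarTower R A F] {x : F} : IsIntegral A x ↔ ∃ d ∉ y, IsIntegral R (d • x) := by
  constructor
  · intro h
    obtain ⟨m, hm⟩ := IsIntegral.exists_multiple_integral_of_isLocalization y.primeCompl x h
    exact ⟨m, m.2, hm⟩
  · rintro ⟨d, hd, h⟩
    have h1 : IsIntegral A (d • x) := h.tower_top
    obtain ⟨e, he⟩ := (isUnit_of_notMem (A := A) y hd).exists_left_inv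
    have h2 : x = e • (d • x) := by
      rw [← algebraMap_smul A d x, smul_smul, he, one_smul]
    rw [h2]
    exact h1.smul e

variable (A) in
omit [IsDomain A] in
/-- Divisibility by a prime of `y` descends. -/
theorem dvd_of_dvd_loc {p : R} (hp : Prime p) (hpy : p ∈ y) {a : R}
    (h : algebraMap R A p ∣ algebraMap R A a) : p ∣ a := by
  obtain ⟨c, hc⟩ := h
  obtain ⟨c', t, rfl⟩ := IsLocalization.exists_mk'_eq y.primeCompl c
  have hinj : Function.Injective (algebraMap R A) :=
    IsLocalization.injective A (Ideal.primeCompl_le_nonZeroDivisors y)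
  have h1 : (t : R) * a = p * c' := by
    apply hinj
    rw [map_mul, map_mul, hc, mul_left_comm, IsLocalization.mk'_spec'_mk]
  rcases hp.dvd_or_dvd (show p ∣ (t : R) * a from ⟨c', h1⟩) with h2 | h2
  · exact absurd (y.mem_of_dvd h2 hpy) t.2
  · exact h2

variable (A) in
omit [IsDomain A] in
theorem prime_loc {p : R} (hp : Prime p) (hpy : p ∈ y) : Prime (algebraMap R A p) := by
  have hinj : Function.Injective (algebraMap R A) :=
    IsLocalization.injective A (Ideal.primeCompl_le_nonZeroDivisors y)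
  refine ⟨fun h0 => hp.ne_zero (hinj (by rw [h0, map_zero])), fun hu => ?_, fun a b hab => ?_⟩
  · exact ((IsLocalization.AtPrime.isUnit_to_map_iff A y p).mp hu) hpy
  · obtain ⟨a', s, rfl⟩ := IsLocalization.exists_mk'_eq y.primeCompl a
    obtain ⟨b', t, rfl⟩ := IsLocalization.exists_mk'_eq y.primeCompl b
    rw [← IsLocalization.mk'_mul] at hab
    have h1 : algebraMap R A p ∣ algebraMap R A (a' * b') := by
      have h2 := hab.mul_right (algebraMap R A (s * t : y.primeCompl))
      rwa [IsLocalization.mk'_spec] at h2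
    rcases hp.dvd_or_dvd (dvd_of_dvd_loc A y hp hpy h1) with h2 | h2
    · left
      rw [IsLocalization.mk'_eq_mul_mk'_one]
      exact (_root_.map_dvd _ h2).mul_right _
    · right
      rw [IsLocalization.mk'_eq_mul_mk'_one]
      exact (_root_.map_dvd _ h2).mul_right _

variable {K : Type u} [Field K] [Algebra R K] [Algebra A K] [IsScalarTower R A K]
  [IsFractionRing R K] [IsFractionRing A K] [UniqueFactorizationMonoid R]
  [UniqueFactorizationMonoid A]

theorem primeVal_loc {p : R} (hp : Prime p) (hpy : p ∈ y) (hpA : Prime (algebraMap R A p)) :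
    primeVal K hpA = primeVal K hp := by
  ext x
  rw [mem_primeVal_iff, mem_primeVal_iff]
  constructor
  · rintro ⟨s, a, hs, hsa⟩
    obtain ⟨s', t, rfl⟩ := IsLocalization.exists_mk'_eq y.primeCompl s
    obtain ⟨a', t', rfl⟩ := IsLocalization.exists_mk'_eq y.primeCompl a
    refine ⟨s' * t', a' * t, ?_, ?_⟩
    · intro h
      rcases hp.dvd_or_dvd h with h2 | h2
      · apply hs
        rw [IsLocalization.mk'_eq_mul_mk'_one]
        exact (_root_.map_dvd _ h2).mul_right _
      · exact t'.2 (y.mem_of_dvd h2 hpy)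
    · have h1 : algebraMap R K s' = algebraMap A K (IsLocalization.mk' A s' t) *
          algebraMap R K t := by
        rw [IsScalarTower.algebraMap_apply R A K s', IsScalarTower.algebraMap_apply R A K t,
          ← map_mul, IsLocalization.mk'_spec]
      have h2 : algebraMap R K a' = algebraMap A K (IsLocalization.mk' A a' t') *
          algebraMap R K t' := by
        rw [IsScalarTower.algebraMap_apply R A K a', IsScalarTower.algebraMap_apply R A K t',
          ← map_mul, IsLocalization.mk'_spec]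
      rw [map_mul, map_mul, h1, h2, ← hsa]
      ring
  · rintro ⟨s, a, hs, hsa⟩
    refine ⟨algebraMap R A s, algebraMap R A a, fun h => hs (dvd_of_dvd_loc A y hp hpy h), ?_⟩
    rw [← IsScalarTower.algebraMap_apply, ← IsScalarTower.algebraMap_apply, hsa]

/-- Primes of the localisation come from primes below. -/
theorem exists_prime_of_loc {p' : A} (hp' : Prime p') : ∃ (p : R) (hp : Prime p),
    primeVal K hp' = primeVal K hp ∧ p ∈ y ∧ Associated p' (algebraMap R A p) := by
  classical
  obtain ⟨r, t, hrt⟩ := IsLocalization.exists_mk'_eq y.primeCompl p'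
  have h1 : p' ∣ algebraMap R A r := by
    rw [← hrt]
    exact ⟨algebraMap R A t, (IsLocalization.mk'_spec A r t).symm⟩
  have hr0 : r ≠ 0 := by
    rintro rfl
    apply hp'.ne_zero
    rw [← hrt, IsLocalization.mk'_zero]
  obtain ⟨f, hf, hfr⟩ := UniqueFactorizationMonoid.exists_prime_factors r hr0
  have h2 : p' ∣ (f.map (algebraMap R A)).prod := by
    rw [← map_multiset_prod]
    exact h1.trans (_root_.map_dvd _ hfr.dvd')
  obtain ⟨q, hq, hpq⟩ := hp'.exists_mem_multiset_dvd h2
  obtain ⟨p, hpf, rfl⟩ := Multiset.mem_map.mp hq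
  have hp := hf p hpf
  have hpy : p ∈ y := by
    by_contra hpy
    exact hp'.not_isUnit (isUnit_of_dvd_unit hpq (isUnit_of_notMem y hpy))
  have hpA := prime_loc A y hp hpy
  have hass : Associated p' (algebraMap R A p) := hp'.associated_of_dvd hpA hpq
  refine ⟨p, hp, ?_, hpy, hass⟩
  rw [← primeVal_loc y hp hpy hpA]
  ext x
  rw [mem_primeVal_iff, mem_primeVal_iff]
  simp only [hass.dvd_iff_dvd_left]

end Basic

section TwoAt

variable {R : Type u} [CommRing R] {F : Type u} [Field F] [Algebra R F]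

/-- The local conditions at the closed point `y` of `Spec R`, for the two components `W₁, W₂`. -/
structure TwoAt (R : Type u) {F : Type u} [CommRing R] [Field F] [Algebra R F] (y : Ideal R)
    (W₁ W₂ : ValuationSubring F) : Prop where
  normal₁ : ∀ w ∈ W₁, ∀ p : R[X], p.Monic → eval₂ (algebraMap R F) w p ∈ W₁.nonunits →
    ∃ d ∉ y, ∃ b : F, IsIntegral R b ∧ algebraMap R F d * w - b ∈ W₁.nonunits
  normal₂ : ∀ w ∈ W₂, ∀ p : R[X], p.Monic → eval₂ (algebraMap R F) w p ∈ W₂.nonunits →
    ∃ d ∉ y, ∃ b : F, IsIntegral R b ∧ algebraMap R F d * w - b ∈ W₂.nonunits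
  rad : ∀ b : F, IsIntegral R b → ∀ n : ℕ,
    (∃ b₁ b₂ : F, IsIntegral R b₁ ∧ IsIntegral R b₂ ∧ b₁ ∈ W₁.nonunits ∧ b₂ ∈ W₂.nonunits ∧
      b ^ n = b₁ + b₂) →
    ∃ d ∉ y, ∃ b₁ b₂ : F, IsIntegral R b₁ ∧ IsIntegral R b₂ ∧ b₁ ∈ W₁.nonunits ∧
      b₂ ∈ W₂.nonunits ∧ algebraMap R F d * b = b₁ + b₂

theorem TwoAt.symm {y : Ideal R} {W₁ W₂ : ValuationSubring F} (h : TwoAt R y W₁ W₂) :
    TwoAt R y W₂ W₁ where
  normal₁ := h.normal₂
  normal₂ := h.normal₁
  rad := by
    rintro b hb n ⟨b₁, b₂, h1, h2, h3, h4, h5⟩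
    obtain ⟨d, hd, c₁, c₂, h6, h7, h8, h9, h10⟩ := h.rad b hb n ⟨b₂, b₁, h2, h1, h4, h3, by
      rw [h5, add_comm]⟩
    exact ⟨d, hd, c₂, c₁, h7, h6, h9, h8, by rw [h10, add_comm]⟩

end TwoAt

section Convert

variable {R A K F : Type u} [CommRing R] [IsDomain R] [CommRing A] [IsDomain A] [Algebra R A]
  (y : Ideal R) [hy : y.IsPrime] [IsLocalization.AtPrime A y]
  [Field K] [Algebra R K] [Algebra A K] [IsScalarTower R A K]
  [IsFractionRing R K] [IsFractionRing A K] [UniqueFactorizationMonoid R]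
  [UniqueFactorizationMonoid A] [IsLocalRing A]
  [Field F] [Algebra R F] [Algebra A F] [IsScalarTower R A F] [Algebra K F]
  [IsScalarTower R K F] [IsScalarTower A K F]

omit [IsLocalRing A] [UniqueFactorizationMonoid A] [IsFractionRing A K]
  [Algebra A K] [IsScalarTower R A K] [Algebra A F] [IsScalarTower R A F]
  [IsScalarTower A K F] [IsDomain A] [Algebra R A] [IsLocalization.AtPrime A y] [CommRing A] hy in
theorem inv_mem_of_notMem {π : R} {hπ : Prime π} (hπy : π ∈ y) {W : ValuationSubring F}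
    (hW : Over (primeVal K hπ) (algebraMap R K π) W) {d : R} (hd : d ∉ y) :
    (algebraMap R F d)⁻¹ ∈ W ∧ algebraMap R F d ≠ 0 := by
  have h1 : algebraMap R F d ∉ W.nonunits :=
    hW.algebraMap_notMem_nonunits (fun h => hd (y.mem_of_dvd h hπy))
  exact ⟨inv_mem_of_notMem_nonunits h1, fun h0 => h1 (by rw [h0]; exact zero_mem_nonunits _)⟩

omit [IsDomain A] [IsLocalRing A] [UniqueFactorizationMonoid A]
  [IsFractionRing A K] [Algebra A K] [IsScalarTower R A K] [IsScalarTower A K F] in
theorem normal_loc {π : R} {hπ : Prime π} (hπy : π ∈ y) {W : ValuationSubring F}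
    (hW : Over (primeVal K hπ) (algebraMap R K π) W)
    (hn : ∀ w ∈ W, ∀ p : R[X], p.Monic → eval₂ (algebraMap R F) w p ∈ W.nonunits →
      ∃ d ∉ y, ∃ b : F, IsIntegral R b ∧ algebraMap R F d * w - b ∈ W.nonunits)
    {w : F} (hw : w ∈ W) {p : A[X]} (hp : p.Monic)
    (hpw : eval₂ (algebraMap A F) w p ∈ W.nonunits) :
    ∃ b, IsIntegral A b ∧ w - b ∈ W.nonunits := by
  classical
  -- common denominator
  obtain ⟨d, hd⟩ := IsLocalization.exist_integer_multiples_of_finset y.primeCompl
    (p.support.image p.coeff)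
  have hd' : ∀ i, ∃ r : R, algebraMap R A r = algebraMap R A d * p.coeff i := by
    intro i
    by_cases hi : i ∈ p.support
    · obtain ⟨r, hr⟩ := hd _ (Finset.mem_image_of_mem _ hi)
      exact ⟨r, by rw [hr, Algebra.smul_def]⟩
    · rw [notMem_support_iff] at hi
      exact ⟨0, by rw [hi, mul_zero, map_zero]⟩
  let q := p.scaleRoots (algebraMap R A d)
  have hq : q.Monic := (monic_scaleRoots_iff _).mpr hp
  have hlift : q ∈ lifts (algebraMap R A) := by
    rw [lifts_iff_coeff_lifts]
    intro i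
    rw [coeff_scaleRoots]
    rcases lt_trichotomy i p.natDegree with hi | hi | hi
    · obtain ⟨m, hm⟩ := Nat.exists_eq_succ_of_ne_zero (Nat.sub_ne_zero_of_lt hi)
      obtain ⟨r, hr⟩ := hd' i
      refine ⟨r * (d : R) ^ m, ?_⟩
      rw [hm, pow_succ', map_mul, hr, map_pow]
      ring
    · rw [hi, hp.coeff_natDegree, Nat.sub_self, pow_zero, mul_one]
      exact ⟨1, map_one _⟩
    · rw [coeff_eq_zero_of_natDegree_lt hi, zero_mul]
      exact ⟨0, map_zero _⟩
  obtain ⟨q', hq', -, hqm⟩ := lifts_and_natDegree_eq_and_monic hlift hq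
  have hdW : algebraMap R F (d : R) ∈ W := hW.algebraMap_mem _
  have h1 : eval₂ (algebraMap R F) (algebraMap R F d * w) q' ∈ W.nonunits := by
    rw [IsScalarTower.algebraMap_eq R A F, ← eval₂_map, hq', RingHom.comp_apply,
      scaleRoots_eval₂_mul]
    refine mul_mem_nonunits (pow_mem ?_ _) hpw
    rw [← IsScalarTower.algebraMap_apply]
    exact hdW
  obtain ⟨d', hd'y, b, hb, hwb⟩ := hn _ (mul_mem hdW hw) q' hqm h1
  have hdd : d' * (d : R) ∉ y := fun h => (hy.mem_or_mem h).elim hd'y d.2
  obtain ⟨hinv, hne⟩ := inv_mem_of_notMem (K := K) y hπy hW hdd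
  refine ⟨(algebraMap R F (d' * d))⁻¹ * b, ?_, ?_⟩
  · rw [isIntegral_loc_iff (A := A) y]
    refine ⟨d' * d, hdd, ?_⟩
    have : (d' * (d : R)) • ((algebraMap R F (d' * d))⁻¹ * b) = b := by
      rw [Algebra.smul_def]
      field_simp
    rw [this]
    exact hb
  · have : w - (algebraMap R F (d' * d))⁻¹ * b = (algebraMap R F (d' * d))⁻¹ *
        (algebraMap R F d' * (algebraMap R F d * w) - b) := by
      rw [← mul_assoc (algebraMap R F d'), ← map_mul, mul_sub, ← mul_assoc,
        inv_mul_cancel₀ hne, one_mul]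
    rw [this]
    exact mul_mem_nonunits hinv hwb

omit [IsDomain A] [IsLocalRing A] [UniqueFactorizationMonoid A]
  [IsFractionRing A K] [Algebra A K] [IsScalarTower R A K] [IsScalarTower A K F] in
theorem rad_loc {π : R} {hπ : Prime π} (hπy : π ∈ y) {W₁ W₂ : ValuationSubring F}
    (hW₁ : Over (primeVal K hπ) (algebraMap R K π) W₁)
    (hW₂ : Over (primeVal K hπ) (algebraMap R K π) W₂)
    (hr : TwoAt R y W₁ W₂) {b : F} (hb : IsIntegral A b) {n : ℕ}
    (h : ∃ b₁ b₂ : F, IsIntegral A b₁ ∧ IsIntegral A b₂ ∧ b₁ ∈ W₁.nonunits ∧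
      b₂ ∈ W₂.nonunits ∧ b ^ n = b₁ + b₂) :
    ∃ b₁ b₂ : F, IsIntegral A b₁ ∧ IsIntegral A b₂ ∧ b₁ ∈ W₁.nonunits ∧ b₂ ∈ W₂.nonunits ∧
      b = b₁ + b₂ := by
  obtain ⟨b₁, b₂, hb₁, hb₂, hn₁, hn₂, hbn⟩ := h
  obtain ⟨d, hd, hdb⟩ := (isIntegral_loc_iff (A := A) y).mp hb
  obtain ⟨d₁, hd₁, hdb₁⟩ := (isIntegral_loc_iff (A := A) y).mp hb₁
  obtain ⟨d₂, hd₂, hdb₂⟩ := (isIntegral_loc_iff (A := A) y).mp hb₂
  let D := d * (d₁ * d₂)
  have hD : D ∉ y := fun h => (hy.mem_or_mem h).elim hd fun h => (hy.mem_or_mem h).elim hd₁ hd₂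
  have halg : ∀ r : R, IsIntegral R (algebraMap R F r) := fun r => isIntegral_algebraMap
  have hmem : ∀ (W : ValuationSubring F), Over (primeVal K hπ) (algebraMap R K π) W →
      ∀ z : F, IsIntegral R z → z ∈ W := fun W hW z hz =>
    mem_valuationSubring_of_isIntegralElem W (algebraMap R F) hW.algebraMap_mem hz
  obtain ⟨d', hd', c₁, c₂, hc₁, hc₂, hcn₁, hcn₂, hcc⟩ := hr.rad (algebraMap R F D * b) (by
      have : algebraMap R F D * b = algebraMap R F (d₁ * d₂) * (d • b) := by
        rw [Algebra.smul_def, ← mul_assoc, ← map_mul]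
        congr 2
        ring
      rw [this]
      exact (halg _).mul hdb) (n + 1)
    ⟨algebraMap R F (D ^ n) * (algebraMap R F d₂ * ((d • b) * (d₁ • b₁))),
      algebraMap R F (D ^ n) * (algebraMap R F d₁ * ((d • b) * (d₂ • b₂))),
      (halg _).mul ((halg _).mul (hdb.mul hdb₁)), (halg _).mul ((halg _).mul (hdb.mul hdb₂)),
      by
        refine mul_mem_nonunits (hmem _ hW₁ _ (halg _)) (mul_mem_nonunits (hmem _ hW₁ _ (halg _))
          (mul_mem_nonunits (hmem _ hW₁ _ hdb) ?_))
        rw [Algebra.smul_def]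
        exact mul_mem_nonunits (hmem _ hW₁ _ (halg _)) hn₁,
      by
        refine mul_mem_nonunits (hmem _ hW₂ _ (halg _)) (mul_mem_nonunits (hmem _ hW₂ _ (halg _))
          (mul_mem_nonunits (hmem _ hW₂ _ hdb) ?_))
        rw [Algebra.smul_def]
        exact mul_mem_nonunits (hmem _ hW₂ _ (halg _)) hn₂,
      by
        rw [mul_pow, pow_succ b, hbn, Algebra.smul_def, Algebra.smul_def, Algebra.smul_def]
        simp only [D, map_mul, map_pow]
        ring⟩
  have hdD : d' * D ∉ y := fun h => (hy.mem_or_mem h).elim hd' hD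
  have hne : algebraMap R F (d' * D) ≠ 0 := (inv_mem_of_notMem (K := K) y hπy hW₁ hdD).2
  have hint : ∀ c : F, IsIntegral R c → IsIntegral A ((algebraMap R F (d' * D))⁻¹ * c) := by
    intro c hc
    rw [isIntegral_loc_iff (A := A) y]
    refine ⟨d' * D, hdD, ?_⟩
    have : (d' * D) • ((algebraMap R F (d' * D))⁻¹ * c) = c := by
      rw [Algebra.smul_def]
      field_simp
    rw [this]
    exact hc
  refine ⟨(algebraMap R F (d' * D))⁻¹ * c₁, (algebraMap R F (d' * D))⁻¹ * c₂, hint _ hc₁,
    hint _ hc₂, mul_mem_nonunits (inv_mem_of_notMem (K := K) y hπy hW₁ hdD).1 hcn₁,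
    mul_mem_nonunits (inv_mem_of_notMem (K := K) y hπy hW₂ hdD).1 hcn₂, ?_⟩
  rw [← mul_add, ← hcc, ← mul_assoc (algebraMap R F d'), ← map_mul]
  field_simp

end Convert

section Ideals

variable {R A E : Type u} [CommRing R] [CommRing A] [Algebra R A]
  (y : Ideal R) [hy : y.IsPrime] [IsLocalization.AtPrime A y]
  [Field E] [Algebra R E] [Algebra A E] [IsScalarTower R A E]

/-- Maximal ideals over `y` extend to the localisation. -/
theorem exists_loc_maximal {m : Ideal (integralClosure R E)} (hm : m.IsMaximal)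
    (hmy : ∀ r : R, algebraMap R _ r ∈ m → r ∈ y) :
    ∃ x' : Ideal (integralClosure A E), x'.IsMaximal ∧
      ∀ W : ValuationSubring E, (∀ r : R, algebraMap R E r ∈ W) → CenterLE W m →
        CenterLE W x' := by
  -- the ideal
  let x' : Ideal (integralClosure A E) :=
    { carrier := {e | ∃ d ∉ y, ∃ c ∈ m, algebraMap R E d * e = (c : E)}
      add_mem' := by
        rintro a b ⟨d, hd, c, hc, h1⟩ ⟨d', hd', c', hc', h2⟩
        refine ⟨d * d', fun h => (hy.mem_or_mem h).elim hd hd',
          algebraMap R _ d' * c + algebraMap R _ d * c',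
          add_mem (Ideal.mul_mem_left _ _ hc) (Ideal.mul_mem_left _ _ hc'), ?_⟩
        change _ = algebraMap R E d' * (c : E) + algebraMap R E d * (c' : E)
        rw [← h1, ← h2, map_mul]
        push_cast
        ring
      zero_mem' := ⟨1, (Ideal.ne_top_iff_one y).mp hy.ne_top, 0, zero_mem _, by simp⟩
      smul_mem' := by
        rintro r e ⟨d, hd, c, hc, h1⟩
        obtain ⟨t, ht, htr⟩ := (isIntegral_loc_iff (A := A) y).mp r.2
        refine ⟨t * d, fun h => (hy.mem_or_mem h).elim ht hd, ⟨_, htr⟩ * c,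
          Ideal.mul_mem_left _ _ hc, ?_⟩
        change _ * ((r : E) * (e : E)) = (t • (r : E)) * (c : E)
        rw [← h1, map_mul, Algebra.smul_def t]
        ring }
  refine ⟨x', ?_, ?_⟩
  · rw [Ideal.isMaximal_iff]
    constructor
    · rintro ⟨d, hd, c, hc, h1⟩
      apply hd
      apply hmy
      have : algebraMap R (integralClosure R E) d = c := by
        apply Subtype.ext
        change algebraMap R E d = _
        rw [← h1]
        change _ = algebraMap R E d * 1
        rw [mul_one]
      rw [this]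
      exact hc
    · intro J e hJ he heJ
      obtain ⟨d, hd, hde⟩ := (isIntegral_loc_iff (A := A) y).mp e.2
      have h1 : (⟨_, hde⟩ : integralClosure R E) ∉ m := by
        intro h
        apply he
        refine ⟨d, hd, _, h, ?_⟩
        rw [← Algebra.smul_def]
      obtain ⟨c, n, hn, hcn⟩ := hm.exists_inv h1
      -- `1 = c d e + n`
      let c' : integralClosure A E := ⟨c, c.2.tower_top⟩
      let n' : integralClosure A E := ⟨n, n.2.tower_top⟩
      have h2 : (1 : integralClosure A E) = c' * algebraMap A _ (algebraMap R A d) * e + n' := by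
        apply Subtype.ext
        have h3 := congrArg Subtype.val hcn
        change (c : E) * (d • (e : E)) + (n : E) = 1 at h3
        change (1 : E) = (c : E) * algebraMap A E (algebraMap R A d) * (e : E) + (n : E)
        rw [← IsScalarTower.algebraMap_apply, ← h3, Algebra.smul_def]
        ring
      rw [h2]
      refine add_mem (Ideal.mul_mem_left _ _ heJ) (hJ ?_)
      exact ⟨1, (Ideal.ne_top_iff_one y).mp hy.ne_top, n, hn, by
        change algebraMap R E 1 * (n : E) = _
        rw [map_one, one_mul]⟩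
  · intro W hRW hW e he
    obtain ⟨d, hd, hde⟩ := (isIntegral_loc_iff (A := A) y).mp e.2
    refine ⟨d, hd, ⟨_, hde⟩, hW _ ?_, ?_⟩
    · change d • (e : E) ∈ W.nonunits
      rw [Algebra.smul_def]
      exact mul_mem_nonunits (hRW d) he
    · rw [← Algebra.smul_def]

/-- Residue fields above a closed point with algebraically closed residue field. -/
theorem exists_residue_of_isAlgClosed
    (hymax : y.IsMaximal) (hk : ∀ p : (R ⧸ y)[X], p.Monic → 0 < p.natDegree → ∃ r, p.IsRoot r)
    (x : Ideal (integralClosure A E)) (hx : x.IsMaximal)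
    (hxy : ∀ r ∈ y, algebraMap A (integralClosure A E) (algebraMap R A r) ∈ x)
    (b : integralClosure A E) : ∃ a : A, b - algebraMap A _ a ∈ x := by
  obtain ⟨d, hd, hdb⟩ := (isIntegral_loc_iff (A := A) y).mp b.2
  let κ := integralClosure A E ⧸ x
  letI : Field (R ⧸ y) := Ideal.Quotient.field y
  letI : Field κ := Ideal.Quotient.field x
  let g : R →+* integralClosure A E := (algebraMap A _).comp (algebraMap R A)
  let φ : R ⧸ y →+* κ := Ideal.Quotient.lift y ((Ideal.Quotient.mk x).comp g) (fun r hr =>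
    Ideal.Quotient.eq_zero_iff_mem.mpr (hxy r hr))
  have hφ : ∀ r, φ (Ideal.Quotient.mk y r) = Ideal.Quotient.mk x (g r) := fun r => rfl
  letI : Algebra (R ⧸ y) κ := φ.toAlgebra
  have halg : IsAlgClosed (R ⧸ y) := by
    apply IsAlgClosed.of_exists_root
    intro p hp hirr
    exact hk p hp hirr.natDegree_pos
  obtain ⟨q, hq, hqb⟩ := hdb
  -- the image of `d b`
  let z : κ := Ideal.Quotient.mk x (g d * b)
  have hz : IsIntegral (R ⧸ y) z := by
    refine ⟨q.map (Ideal.Quotient.mk y), hq.map _, ?_⟩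
    rw [eval₂_map]
    have h1 : (algebraMap (R ⧸ y) κ).comp (Ideal.Quotient.mk y) =
        (Ideal.Quotient.mk x).comp g := RingHom.ext hφ
    rw [h1, ← hom_eval₂]
    have h2 : eval₂ g (g d * b) q = 0 := by
      apply Subtype.ext
      have h3 : ((eval₂ g (g d * b) q : integralClosure A E) : E) =
          eval₂ (algebraMap R E) (d • (b : E)) q := by
        rw [show ((eval₂ g (g d * b) q : integralClosure A E) : E) =
          (integralClosure A E).val.toRingHom (eval₂ g (g d * b) q) from rfl, hom_eval₂]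
        congr 1
        · ext r
          exact (IsScalarTower.algebraMap_apply R A E r).symm
        · rw [Algebra.smul_def, IsScalarTower.algebraMap_apply R A E]
          rfl
      rw [h3]
      exact hqb
    rw [h2, map_zero]
  have hzr : ∃ c : R ⧸ y, algebraMap (R ⧸ y) κ c = z := by
    have h1 := IsAlgClosed.degree_eq_one_of_irreducible (R ⧸ y) (minpoly.irreducible hz)
    obtain ⟨c, hc⟩ := minpoly.mem_range_of_degree_eq_one (R ⧸ y) z h1
    exact ⟨c, hc⟩
  obtain ⟨c, hc⟩ := hzr
  obtain ⟨c, rfl⟩ := Ideal.Quotient.mk_surjective c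
  have h1 : g d * b - g c ∈ x := by
    rw [← Ideal.Quotient.eq]
    exact hc.symm
  obtain ⟨e, he⟩ := (isUnit_of_notMem (A := A) y hd).exists_left_inv
  refine ⟨e * algebraMap R A c, ?_⟩
  have h2 : b - algebraMap A _ (e * algebraMap R A c) = algebraMap A _ e * (g d * b - g c) := by
    change _ = algebraMap A _ e * (algebraMap A _ (algebraMap R A d) * b -
      algebraMap A _ (algebraMap R A c))
    rw [mul_sub, ← mul_assoc, ← map_mul, he, map_one, one_mul, map_mul]
  rw [h2]
  exact Ideal.mul_mem_left _ _ h1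

end Ideals

end Fermat.Agent.Geo
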