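import Mathlib
import Fermat.Agent.Geo.Localize

set_option autoImplicit false

/-!
# The splitting lemma at a closed point of a factorial surface
-/

open IsLocalRing Polynomial

universe u

namespace Fermat.Agent.Geo

section

variable {R F : Type u} (K : Type u) [CommRing R] [IsDomain R] [UniqueFactorizationMonoid R]
  [Field K] [Field F] [Algebra R K] [IsFractionRing R K] [Algebra R F] [Algebra K F] {π : R}

/-- The two components of the special fibre. -/
structure TwoComp (hπ : Prime π) (W₁ W₂ : ValuationSubring F) : Prop where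
  over₁ : Over (primeVal K hπ) (algebraMap R K π) W₁
  over₂ : Over (primeVal K hπ) (algebraMap R K π) W₂
  ne : W₁ ≠ W₂
  all : ∀ W : ValuationSubring F, Over (primeVal K hπ) (algebraMap R K π) W → W = W₁ ∨ W = W₂
  unr : Unr (primeVal K hπ).toSubring F

variable {K}

omit [Algebra R F] in
theorem TwoComp.symm {hπ : Prime π} {W₁ W₂ : ValuationSubring F} (h : TwoComp K hπ W₁ W₂) :
    TwoComp K hπ W₂ W₁ where
  over₁ := h.over₂
  over₂ := h.over₁
  ne := h.ne.symm
  all := fun W hW => (h.all W hW).symm
  unr := h.unr

end

section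

variable {R K F E : Type u} [CommRing R] [IsDomain R] [UniqueFactorizationMonoid R]
  [IsNoetherianRing R]
  [Field K] [Field F] [Field E] [Algebra R K] [IsFractionRing R K] [Algebra R F] [Algebra R E]
  [Algebra K F] [Algebra K E] [Algebra F E] [IsScalarTower R K F] [IsScalarTower R K E]
  [IsScalarTower R F E] [IsScalarTower K F E]
  [FiniteDimensional K F] [FiniteDimensional K E] [FiniteDimensional F E]
  [Algebra.IsSeparable K F] [Algebra.IsSeparable K E] [IsGalois F E] {π : R} {hπ : Prime π}
  {W₁ W₂ : ValuationSubring F}

/-- **Splitting lemma at a closed point `y = (π, s)`.** -/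
theorem split_center_at (h : TwoComp K hπ W₁ W₂) {y : Ideal R} (hy : y.IsMaximal) {s : R}
    (hys : y = Ideal.span {π, s}) (hs : ¬ π ∣ s) (hAt : TwoAt R y W₁ W₂)
    (hk : ∀ p : (R ⧸ y)[X], p.Monic → 0 < p.natDegree → ∃ r, p.IsRoot r)
    (hur : ∀ (p : R) (hp : Prime p) (W : ValuationSubring F),
      Over (primeVal K hp) (algebraMap R K p) W → Unr W.toSubring E)
    (hsplit : ∀ W : ValuationSubring E, Over W₁ (algebraMap R F π) W →
      ∀ σ : E ≃ₐ[F] E, σ ≠ 1 → W.comap (σ : E →+* E) ≠ W)
    {m : Ideal (integralClosure R E)} (hm : m.IsMaximal)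
    (hmy : ∀ r : R, algebraMap R (integralClosure R E) r ∈ m ↔ r ∈ y)
    {Wa Wb : ValuationSubring E} (ha : Over W₁ (algebraMap R F π) Wa)
    (hb : Over W₁ (algebraMap R F π) Wb) (ham : CenterLE Wa m) (hbm : CenterLE Wb m) :
    Wa = Wb := by
  have hyp : y.IsPrime := hy.isPrime
  let S := Localization.subalgebra.ofField K y.primeCompl (Ideal.primeCompl_le_nonZeroDivisors y)
  let A : Type u := S
  have hloc : IsLocalization.AtPrime A y :=
    Localization.subalgebra.isLocalization_ofField K y.primeCompl
      (Ideal.primeCompl_le_nonZeroDivisors y)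
  have hufd : UniqueFactorizationMonoid A :=
    UniqueFactorizationMonoid.of_isLocalization y.primeCompl A
  have hnoeth : IsNoetherianRing A := IsLocalization.isNoetherianRing y.primeCompl A inferInstance
  have hlr : IsLocalRing A := IsLocalization.AtPrime.isLocalRing A y
  have hAK : IsFractionRing A K := inferInstanceAs (IsFractionRing S K)
  have hd1 : IsDomain A := inferInstanceAs (IsDomain S)
  have ht1 : IsScalarTower A K F := inferInstanceAs (IsScalarTower S K F)
  have ht2 : IsScalarTower A K E := inferInstanceAs (IsScalarTower S K E)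
  have ht3 : IsScalarTower R A K := inferInstanceAs (IsScalarTower R S K)
  have ht4 : IsScalarTower R A F := inferInstanceAs (IsScalarTower R S F)
  have ht5 : IsScalarTower R A E := inferInstanceAs (IsScalarTower R S E)
  have ht6 : IsScalarTower A F E := inferInstanceAs (IsScalarTower S F E)
  have hπy : π ∈ y := by
    rw [hys]
    exact Ideal.subset_span (by simp)
  have hπA : Prime (algebraMap R A π) := prime_loc A y hπ hπy
  have hval : primeVal K hπA = primeVal K hπ := primeVal_loc y hπ hπy hπA
  have hπK : algebraMap A K (algebraMap R A π) = algebraMap R K π :=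
    (IsScalarTower.algebraMap_apply R A K π).symm
  have hπF : algebraMap A F (algebraMap R A π) = algebraMap R F π :=
    (IsScalarTower.algebraMap_apply R A F π).symm
  have hover : ∀ W : ValuationSubring F, Over (primeVal K hπA)
      (algebraMap A K (algebraMap R A π)) W ↔ Over (primeVal K hπ) (algebraMap R K π) W := by
    intro W
    rw [hval, hπK]
  have hTV : TwoVal K hπA (algebraMap R A s) W₁ W₂ :=
    { nd := fun h1 => hs (dvd_of_dvd_loc A y hπ hπy h1)
      span := by
        rw [← IsLocalization.AtPrime.map_eq_maximalIdeal y A, hys, Ideal.map_span,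
          Set.image_pair]
      over₁ := (hover _).mpr h.over₁
      over₂ := (hover _).mpr h.over₂
      ne := h.ne
      all := fun W hW => h.all W ((hover W).mp hW)
      unr := by rw [hval]; exact h.unr
      normal₁ := fun w hw p hp hpw => normal_loc (A := A) (K := K) y hπy h.over₁ hAt.normal₁ hw
        hp hpw
      normal₂ := fun w hw p hp hpw => normal_loc (A := A) (K := K) y hπy h.over₂ hAt.normal₂ hw
        hp hpw
      rad := fun b hb n hbn => rad_loc (A := A) (K := K) y hπy h.over₁ h.over₂ hAt hb hbn }
  have hurA : ∀ (p : A) (hp : Prime p) (W : ValuationSubring F),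
      Over (primeVal K hp) (algebraMap A K p) W → Unr W.toSubring E := by
    intro p' hp' W hW
    obtain ⟨p, hp, hpp, hpy, hass⟩ := exists_prime_of_loc (K := K) y hp'
    refine hur p hp W ⟨?_, ?_⟩
    · rw [← hpp]
      exact hW.1
    · obtain ⟨v, hv⟩ := hass
      have h1 : algebraMap R K p = algebraMap A K p' * algebraMap A K (v : A) := by
        rw [← map_mul, hv]
        exact IsScalarTower.algebraMap_apply R A K p
      rw [h1, map_mul, mul_comm]
      refine mul_mem_nonunits ?_ hW.2
      exact hW.1 _ (algebraMap_mem_primeVal hp' (v : A))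
  have hunrE : Unr (primeVal K hπA).toSubring E := by
    have hdvr := isDiscreteValuationRing_primeVal (F := K) hπA
    exact unr_trans (irreducible_unif (F := K) hπA) hTV.unr (hurA _ hπA)
  obtain ⟨x', hx', hcen⟩ := exists_loc_maximal (A := A) (E := E) y hm (fun r hr => (hmy r).mp hr)
  have hRW : ∀ W : ValuationSubring E, Over W₁ (algebraMap R F π) W →
      ∀ r : R, algebraMap R E r ∈ W := by
    intro W hW r
    rw [IsScalarTower.algebraMap_apply R F E]
    exact hW.1 _ (h.over₁.algebraMap_mem r)
  refine hTV.split_center ?_ hunrE (fun z hz => isIntegral_of_trace_of_unr (K := K) hurA hz)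
    ?_ x' ?_ ?_ (hcen Wa (hRW Wa ha) ham) (hcen Wb (hRW Wb hb) hbm)
  · intro x hx b
    refine exists_residue_of_isAlgClosed y hy hk x hx (fun r hr => ?_) b
    have hint : (algebraMap A (integralClosure A F)).IsIntegral := fun b =>
      integralClosure.isIntegral b
    have h1 : (x.comap (algebraMap A (integralClosure A F))).IsMaximal :=
      Ideal.isMaximal_comap_of_isIntegral_of_isMaximal' _ hint x
    rw [← Ideal.mem_comap, IsLocalRing.eq_maximalIdeal h1]
    exact (IsLocalization.AtPrime.to_map_mem_maximal_iff A y r).mpr hr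
  · intro W hW
    exact hsplit W (by rw [← hπF]; exact hW)
  · rw [hπF]
    exact ha
  · rw [hπF]
    exact hb

end

end Fermat.Agent.Geo
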