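import Mathlib
import Fermat.Agent.Geo.SplitAt

set_option autoImplicit false

/-!
# The splitting lemma in a chart
-/

open IsLocalRing Polynomial

universe u

namespace Fermat.Agent.Geo

section Points

variable {O : Type u} [CommRing O] [IsDomain O] [IsDiscreteValuationRing O]

/-- Closed points of the special fibre of the affine line. -/
theorem exists_eq_span_pair [IsAlgClosed (ResidueField O)] {π : O} (hπ : Prime π)
    {y : Ideal O[X]} (hy : y.IsMaximal) (hπy : C π ∈ y) :
    ∃ a : O, y = Ideal.span {C π, X - C a} := by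
  have hmax : maximalIdeal O = Ideal.span {π} := hπ.irreducible.maximalIdeal_eq
  let φ : O[X] →+* (ResidueField O)[X] := mapRingHom (residue O)
  have hφs : Function.Surjective φ := map_surjective _ residue_surjective
  have hker : RingHom.ker φ ≤ y := by
    intro p hp
    have h1 : ∀ i, π ∣ p.coeff i := by
      intro i
      have h2 : (φ p).coeff i = 0 := by
        rw [RingHom.mem_ker] at hp
        rw [hp, coeff_zero]
      have h3 : residue O (p.coeff i) = 0 := by
        rw [← coeff_map]
        exact h2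
      rw [residue_eq_zero_iff, hmax, Ideal.mem_span_singleton] at h3
      exact h3
    rw [← C_dvd_iff_dvd_coeff] at h1
    exact y.mem_of_dvd h1 hπy
  have hmapmax : (y.map φ).IsMaximal := by
    rcases Ideal.map_eq_top_or_isMaximal_of_surjective φ hφs hy with h | h
    · exfalso
      apply hy.ne_top
      have h1 : (y.map φ).comap φ = ⊤ := by rw [h, Ideal.comap_top]
      rw [Ideal.comap_map_of_surjective' φ hφs, sup_eq_left.mpr hker] at h1
      exact h1
    · exact h
  obtain ⟨g, hg⟩ := (IsPrincipalIdealRing.principal (y.map φ)).principal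
  rw [Ideal.submodule_span_eq] at hg
  have hg0 : g ≠ 0 := by
    rintro rfl
    rw [Ideal.span_singleton_zero] at hg
    rw [hg] at hmapmax
    exact Polynomial.not_isField _ (Ring.isField_iff_maximal_bot.mpr hmapmax)
  have hgp : Prime g := by
    rw [← Ideal.span_singleton_prime hg0, ← hg]
    exact hmapmax.isPrime
  have hdeg := IsAlgClosed.degree_eq_one_of_irreducible _ hgp.irreducible
  obtain ⟨c, hc⟩ := IsAlgClosed.exists_root g (by rw [hdeg]; exact one_ne_zero)
  obtain ⟨a, rfl⟩ := residue_surjective c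
  have hgX : y.map φ = Ideal.span {X - C (residue O a)} := by
    rw [hg]
    apply le_antisymm
    · rw [Ideal.span_singleton_le_span_singleton]
      exact dvd_iff_isRoot.mpr hc
    · rw [Ideal.span_singleton_le_span_singleton]
      obtain ⟨b, hb⟩ := dvd_iff_isRoot.mpr hc
      have h1 : IsUnit b := by
        refine (hgp.irreducible.isUnit_or_isUnit hb).resolve_left ?_
        exact not_isUnit_X_sub_C _
      obtain ⟨v, rfl⟩ := h1
      exact ⟨((v⁻¹ : _ˣ) : (ResidueField O)[X]), by rw [hb, mul_assoc, Units.mul_inv, mul_one]⟩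
  have hφX : φ (X - C a) = X - C (residue O a) := by
    simp [φ]
  refine ⟨a, le_antisymm ?_ ?_⟩
  · intro p hp
    have h1 : φ p ∈ y.map φ := Ideal.mem_map_of_mem _ hp
    rw [hgX, Ideal.mem_span_singleton] at h1
    obtain ⟨q, hq⟩ := h1
    obtain ⟨q, rfl⟩ := hφs q
    have h2 : C π ∣ p - (X - C a) * q := by
      rw [C_dvd_iff_dvd_coeff]
      intro i
      have h3 : φ (p - (X - C a) * q) = 0 := by
        rw [map_sub, map_mul, hφX, hq, sub_self]
      have h4 : residue O ((p - (X - C a) * q).coeff i) = 0 := by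
        rw [← coeff_map]
        have : map (residue O) (p - (X - C a) * q) = 0 := h3
        rw [this, coeff_zero]
      rw [residue_eq_zero_iff, hmax, Ideal.mem_span_singleton] at h4
      exact h4
    obtain ⟨r, hr⟩ := h2
    rw [Ideal.mem_span_pair]
    exact ⟨r, q, by linear_combination -hr⟩
  · rw [Ideal.span_le]
    rintro z (rfl | rfl)
    · exact hπy
    · have h1 : X - C a ∈ (y.map φ).comap φ := by
        rw [Ideal.mem_comap, hgX, hφX]
        exact Ideal.mem_span_singleton_self _
      rw [Ideal.comap_map_of_surjective' φ hφs, sup_eq_left.mpr hker] at h1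
      exact h1

/-- The residue field of a closed point is algebraically closed. -/
theorem exists_root_quotient [IsAlgClosed (ResidueField O)] {π : O} (hπ : Prime π)
    {y : Ideal O[X]} (hy : y.IsMaximal) (hπy : C π ∈ y) (p : (O[X] ⧸ y)[X]) (hp : p.Monic)
    (hdeg : 0 < p.natDegree) : ∃ r, p.IsRoot r := by
  obtain ⟨a, ha⟩ := exists_eq_span_pair hπ hy hπy
  have hmax : maximalIdeal O = Ideal.span {π} := hπ.irreducible.maximalIdeal_eq
  have hle : maximalIdeal O ≤ RingHom.ker ((Ideal.Quotient.mk y).comp (C : O →+* O[X])) := by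
    rw [hmax, Ideal.span_singleton_le_iff_mem, RingHom.mem_ker, RingHom.comp_apply,
      Ideal.Quotient.eq_zero_iff_mem]
    exact hπy
  let φ : ResidueField O →+* O[X] ⧸ y := Ideal.Quotient.lift _
    ((Ideal.Quotient.mk y).comp (C : O →+* O[X])) (fun r hr => hle hr)
  have hφ : Function.Surjective φ := by
    intro z
    obtain ⟨q, rfl⟩ := Ideal.Quotient.mk_surjective z
    refine ⟨residue O (q.eval a), ?_⟩
    change Ideal.Quotient.mk y (C (q.eval a)) = _
    rw [Ideal.Quotient.eq]
    have h1 : X - C a ∣ q - C (q.eval a) := by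
      rw [dvd_iff_isRoot]
      simp
    have h2 : X - C a ∈ y := by
      rw [ha]
      exact Ideal.subset_span (Set.mem_insert_of_mem _ rfl)
    have h3 : q - C (q.eval a) ∈ y := y.mem_of_dvd h1 h2
    have h4 : C (q.eval a) - q = -(q - C (q.eval a)) := by ring
    rw [h4]
    exact y.neg_mem h3
  have hlift : p ∈ lifts φ := by
    rw [lifts_iff_coeff_lifts]
    intro i
    exact hφ _
  obtain ⟨q, hq, hqd, hqm⟩ := lifts_and_natDegree_eq_and_monic hlift hp
  obtain ⟨r, hr⟩ := IsAlgClosed.exists_root q (by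
    intro h0
    rw [← hqd, natDegree_eq_zero_iff_degree_le_zero.mpr h0.le] at hdeg
    exact lt_irrefl _ hdeg)
  exact ⟨φ r, by rw [← hq]; exact hr.map⟩

end Points

section Chart

variable {O K F E : Type u} [CommRing O] [IsDomain O] [IsDiscreteValuationRing O]
  [Field K] [Field F] [Field E] [Algebra O K] [Algebra O F] [Algebra O E] [Algebra K F]
  [Algebra K E] [Algebra F E] [IsScalarTower O K F] [IsScalarTower O K E] [IsScalarTower O F E]
  [IsScalarTower K F E] [FiniteDimensional K F] [FiniteDimensional K E] [FiniteDimensional F E]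
  [Algebra.IsSeparable K F] [Algebra.IsSeparable K E] [IsGalois F E] {π : O}

/-- The local conditions at the closed point `y` of the chart `O[u]`, for two components. -/
structure TwoAtChart (O : Type u) {F : Type u} [CommRing O] [Field F] [Algebra O F] (u : F)
    (y : Ideal O[X]) (W₁ W₂ : ValuationSubring F) : Prop where
  normal₁ : ∀ w ∈ W₁, ∀ p : O[X][X], p.Monic →
    eval₂ ((aeval u : O[X] →ₐ[O] F) : O[X] →+* F) w p ∈ W₁.nonunits →
    ∃ d ∉ y, ∃ b ∈ chart O u, aeval u d * w - b ∈ W₁.nonunits
  normal₂ : ∀ w ∈ W₂, ∀ p : O[X][X], p.Monic →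
    eval₂ ((aeval u : O[X] →ₐ[O] F) : O[X] →+* F) w p ∈ W₂.nonunits →
    ∃ d ∉ y, ∃ b ∈ chart O u, aeval u d * w - b ∈ W₂.nonunits
  rad : ∀ b ∈ chart O u, ∀ n : ℕ,
    (∃ b₁ ∈ chart O u, ∃ b₂ ∈ chart O u, b₁ ∈ W₁.nonunits ∧ b₂ ∈ W₂.nonunits ∧
      b ^ n = b₁ + b₂) →
    ∃ d ∉ y, ∃ b₁ ∈ chart O u, ∃ b₂ ∈ chart O u, b₁ ∈ W₁.nonunits ∧ b₂ ∈ W₂.nonunits ∧
      aeval u d * b = b₁ + b₂

omit [IsDomain O] [IsDiscreteValuationRing O] in
theorem TwoAtChart.twoAt {u : F} {y : Ideal O[X]} {W₁ W₂ : ValuationSubring F}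
    (h : TwoAtChart O u y W₁ W₂) :
    letI := polyAlg O u
    TwoAt O[X] y W₁ W₂ := by
  letI := polyAlg O u
  refine ⟨fun w hw p hp hpw => h.normal₁ w hw p hp hpw, fun w hw p hp hpw => h.normal₂ w hw p hp hpw,
    fun b hb n hbn => ?_⟩
  obtain ⟨b₁, b₂, h1, h2, h3, h4, h5⟩ := hbn
  obtain ⟨d, hd, c₁, hc₁, c₂, hc₂, h6, h7, h8⟩ := h.rad b hb n ⟨b₁, h1, b₂, h2, h3, h4, h5⟩
  exact ⟨d, hd, c₁, c₂, hc₁, hc₂, h6, h7, h8⟩

/-- `E/F` is unramified over all discrete valuation rings of `F` over the generic fibre. -/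
def UnrGen (O : Type u) (π : O) (F E : Type u) [CommRing O] [Field F] [Field E] [Algebra O F]
    [Algebra F E] : Prop :=
  ∀ W : ValuationSubring F, IsDiscreteValuationRing W → (∀ o : O, algebraMap O F o ∈ W) →
    (algebraMap O F π)⁻¹ ∈ W → Unr W.toSubring E

/-- The centre of `W` on the chart `O[u]` is contained in `m`. -/
def CenterIn {u : E} (W : ValuationSubring E) (m : Ideal (chart O u)) : Prop :=
  ∀ e : chart O u, (e : E) ∈ W.nonunits → e ∈ m

/-- **Splitting lemma in a chart.** -/
theorem split_center_chart [IsAlgClosed (ResidueField O)] {u : K} (hu : IsParam O u)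
    (hπ : Prime π) {W₁ W₂ : ValuationSubring F}
    (over₁ : Over (gaussVal hu hπ) (algebraMap O K π) W₁)
    (over₂ : Over (gaussVal hu hπ) (algebraMap O K π) W₂) (ne : W₁ ≠ W₂)
    (all : ∀ W : ValuationSubring F, Over (gaussVal hu hπ) (algebraMap O K π) W →
      W = W₁ ∨ W = W₂)
    (unr : Unr (gaussVal hu hπ).toSubring F)
    (hgen : UnrGen O π F E) (hu₁ : Unr W₁.toSubring E) (hu₂ : Unr W₂.toSubring E)
    (hsplit : ∀ W : ValuationSubring E, Over W₁ (algebraMap O F π) W →
      ∀ σ : E ≃ₐ[F] E, σ ≠ 1 → W.comap (σ : E →+* E) ≠ W)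
    {m : Ideal (chart O (algebraMap K E u))} (hm : m.IsMaximal)
    (hAt : ∀ y : Ideal O[X], y.IsMaximal → C π ∈ y →
      (∀ p : O[X], (⟨aeval (algebraMap K E u) p, aeval_mem_chart _ p⟩ : chart O _) ∈ m ↔ p ∈ y) →
      TwoAtChart O (algebraMap K F u) y W₁ W₂)
    {Wa Wb : ValuationSubring E} (ha : Over W₁ (algebraMap O F π) Wa)
    (hb : Over W₁ (algebraMap O F π) Wb) (ham : CenterIn Wa m) (hbm : CenterIn Wb m) :
    Wa = Wb := by
  letI := polyAlg O u
  haveI := hu.isFractionRing
  letI : Algebra O[X] F := polyAlg O (algebraMap K F u)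
  letI : Algebra O[X] E := polyAlg O (algebraMap K E u)
  have t1 : IsScalarTower O[X] K F := IsScalarTower.of_algebraMap_eq fun a =>
    aeval_algebraMap_apply F u a
  have t2 : IsScalarTower O[X] K E := IsScalarTower.of_algebraMap_eq fun a =>
    aeval_algebraMap_apply E u a
  have t3 : IsScalarTower O[X] F E := IsScalarTower.of_algebraMap_eq fun a => by
    rw [IsScalarTower.algebraMap_apply O[X] K F, IsScalarTower.algebraMap_apply O[X] K E,
      ← IsScalarTower.algebraMap_apply K F E]
  have hπ' : Prime (C π : O[X]) := prime_C_iff.mpr hπ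
  have hπK : algebraMap O[X] K (C π) = algebraMap O K π := aeval_C u π
  have hπF : algebraMap O[X] F (C π) = algebraMap O F π := aeval_C _ π
  have hπE : algebraMap O[X] E (C π) = algebraMap O E π := aeval_C _ π
  have hTC : TwoComp K hπ' W₁ W₂ :=
    { over₁ := by rw [hπK]; exact over₁
      over₂ := by rw [hπK]; exact over₂
      ne := ne
      all := fun W hW => all W (by rw [hπK] at hW; exact hW)
      unr := unr }
  -- the identification of the two descriptions of the integral closure
  let j : integralClosure O[X] E →+* chart O (algebraMap K E u) :=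
    { toFun := fun e => ⟨e, e.2⟩
      map_one' := rfl
      map_mul' := fun _ _ => rfl
      map_zero' := rfl
      map_add' := fun _ _ => rfl }
  have hj : Function.Surjective j := fun e => ⟨⟨e, e.2⟩, rfl⟩
  have hm' : (m.comap j).IsMaximal := Ideal.comap_isMaximal_of_surjective j hj
  -- the closed point below
  let y : Ideal O[X] := (m.comap j).comap (algebraMap O[X] (integralClosure O[X] E))
  have hint : (algebraMap O[X] (integralClosure O[X] E)).IsIntegral := fun b =>
    integralClosure.isIntegral b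
  have hy : y.IsMaximal := Ideal.isMaximal_comap_of_isIntegral_of_isMaximal' _ hint _
  have hπy : C π ∈ y := by
    change j (algebraMap O[X] (integralClosure O[X] E) (C π)) ∈ m
    apply ham
    change algebraMap O[X] E (C π) ∈ Wa.nonunits
    rw [hπE, IsScalarTower.algebraMap_apply O F E]
    exact ha.2
  obtain ⟨a, hya⟩ := exists_eq_span_pair hπ hy hπy
  have hur : ∀ (p : O[X]) (hp : Prime p) (W : ValuationSubring F),
      Over (primeVal K hp) (algebraMap O[X] K p) W → Unr W.toSubring E := by
    intro p hp W hW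
    have hdvr := isDiscreteValuationRing_primeVal (F := K) hp
    by_cases hpπ : p ∣ C π
    · have hass : Associated p (C π) := hp.associated_of_dvd hπ' hpπ
      have hval : primeVal K hp = primeVal K hπ' := by
        ext x
        rw [mem_primeVal_iff, mem_primeVal_iff]
        simp only [hass.dvd_iff_dvd_left]
      have hW' : Over (primeVal K hπ') (algebraMap O[X] K (C π)) W := by
        refine ⟨by rw [← hval]; exact hW.1, ?_⟩
        obtain ⟨v, hv⟩ := hass
        rw [← hv, map_mul, map_mul, mul_comm]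
        refine mul_mem_nonunits ?_ hW.2
        exact hW.1 _ (algebraMap_mem_primeVal hp (v : O[X]))
      rcases hTC.all W hW' with rfl | rfl
      · exact hu₁
      · exact hu₂
    · refine hgen W (isDVR_of_over (irreducible_unif (F := K) hp) hW) (fun o => ?_) ?_
      · have h1 := hW.1 _ (algebraMap_mem_primeVal hp (C o))
        have h2 : algebraMap O[X] K (C o) = algebraMap O K o := aeval_C u o
        rwa [h2, ← IsScalarTower.algebraMap_apply] at h1
      · have h1 := hW.1 _ (inv_mem_primeVal hp hpπ)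
        rwa [hπK, map_inv₀, ← IsScalarTower.algebraMap_apply] at h1
  refine split_center_at hTC hy hya ?_ (hAt y hy hπy (fun p => Iff.rfl)).twoAt
    (exists_root_quotient hπ hy hπy) hur (fun W hW => hsplit W (by rw [← hπF]; exact hW)) hm'
    (fun r => Iff.rfl) (Wa := Wa) (Wb := Wb) ?_ ?_ ?_ ?_
  · rw [C_dvd_iff_dvd_coeff]
    intro h
    have h1 := h 1
    simp only [coeff_sub, coeff_X_one, coeff_C_succ, sub_zero] at h1
    exact hπ.not_isUnit (isUnit_of_dvd_one h1)
  · rw [hπF]
    exact ha
  · rw [hπF]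
    exact hb
  · intro e he
    exact ham (j e) he
  · intro e he
    exact hbm (j e) he

end Chart

end Fermat.Agent.Geo
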