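import Mathlib
import Fermat.Agent.Geo.SplitChart

set_option autoImplicit false

/-!
# Closed points of a totally split unramified covering of a semistable model lie on at most one
component over each component of the base
-/

open IsLocalRing Polynomial

universe u

namespace Fermat.Agent.Geo

variable {O K F E : Type u} [CommRing O] [IsDomain O] [IsDiscreteValuationRing O]
  [Field K] [Field F] [Field E] [Algebra O K] [Algebra O F] [Algebra O E] [Algebra K F]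
  [Algebra K E] [Algebra F E] [IsScalarTower O K F] [IsScalarTower O K E] [IsScalarTower O F E]
  [IsScalarTower K F E] {z : K} {π : O}

/-- Semistable reduction with two components `W₁, W₂` (no node at infinity). -/
structure SemiStable (ht : IsParam O z) (hπ : Prime π) (W₁ W₂ : ValuationSubring F) : Prop where
  over₁ : Over (gaussVal ht hπ) (algebraMap O K π) W₁
  over₂ : Over (gaussVal ht hπ) (algebraMap O K π) W₂
  ne : W₁ ≠ W₂
  all : ∀ W : ValuationSubring F, Over (gaussVal ht hπ) (algebraMap O K π) W → W = W₁ ∨ W = W₂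
  unr : Unr (gaussVal ht hπ).toSubring F
  normal₁ : ∀ w ∈ W₁, ∀ p : O[X][X], p.Monic →
    eval₂ ((aeval (algebraMap K F z) : O[X] →ₐ[O] F) : O[X] →+* F) w p ∈ W₁.nonunits →
    ∃ b ∈ chart O (algebraMap K F z), w - b ∈ W₁.nonunits
  normal₂ : ∀ w ∈ W₂, ∀ p : O[X][X], p.Monic →
    eval₂ ((aeval (algebraMap K F z) : O[X] →ₐ[O] F) : O[X] →+* F) w p ∈ W₂.nonunits →
    ∃ b ∈ chart O (algebraMap K F z), w - b ∈ W₂.nonunits
  normal_inf₁ : ∀ w ∈ W₁, ∀ p : O[X][X], p.Monic →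
    eval₂ ((aeval (algebraMap K F z)⁻¹ : O[X] →ₐ[O] F) : O[X] →+* F) w p ∈ W₁.nonunits →
    ∃ s : O[X], IsUnit (s.coeff 0) ∧ ∃ b ∈ chart O (algebraMap K F z)⁻¹,
      aeval (algebraMap K F z)⁻¹ s * w - b ∈ W₁.nonunits
  normal_inf₂ : ∀ w ∈ W₂, ∀ p : O[X][X], p.Monic →
    eval₂ ((aeval (algebraMap K F z)⁻¹ : O[X] →ₐ[O] F) : O[X] →+* F) w p ∈ W₂.nonunits →
    ∃ s : O[X], IsUnit (s.coeff 0) ∧ ∃ b ∈ chart O (algebraMap K F z)⁻¹,
      aeval (algebraMap K F z)⁻¹ s * w - b ∈ W₂.nonunits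
  rad : ∀ b ∈ chart O (algebraMap K F z), ∀ n : ℕ,
    (∃ b₁ ∈ chart O (algebraMap K F z), ∃ b₂ ∈ chart O (algebraMap K F z),
      b₁ ∈ W₁.nonunits ∧ b₂ ∈ W₂.nonunits ∧ b ^ n = b₁ + b₂) →
    ∃ c₁ ∈ chart O (algebraMap K F z), ∃ c₂ ∈ chart O (algebraMap K F z),
      c₁ ∈ W₁.nonunits ∧ c₂ ∈ W₂.nonunits ∧ b = c₁ + c₂
  rad_inf : ∃ s : O[X], IsUnit (s.coeff 0) ∧ ∃ b₁ ∈ chart O (algebraMap K F z)⁻¹,
    ∃ b₂ ∈ chart O (algebraMap K F z)⁻¹, b₁ ∈ W₁.nonunits ∧ b₂ ∈ W₂.nonunits ∧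
      b₁ + b₂ = aeval (algebraMap K F z)⁻¹ s

omit [IsScalarTower O K F] in
theorem SemiStable.symm {ht : IsParam O z} {hπ : Prime π} {W₁ W₂ : ValuationSubring F}
    (h : SemiStable ht hπ W₁ W₂) : SemiStable ht hπ W₂ W₁ where
  over₁ := h.over₂
  over₂ := h.over₁
  ne := h.ne.symm
  all := fun W hW => (h.all W hW).symm
  unr := h.unr
  normal₁ := h.normal₂
  normal₂ := h.normal₁
  normal_inf₁ := h.normal_inf₂
  normal_inf₂ := h.normal_inf₁
  rad := by
    rintro b hb n ⟨b₁, hb₁, b₂, hb₂, h1, h2, h3⟩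
    obtain ⟨c₁, hc₁, c₂, hc₂, h4, h5, h6⟩ := h.rad b hb n ⟨b₂, hb₂, b₁, hb₁, h2, h1, by
      rw [h3, add_comm]⟩
    exact ⟨c₂, hc₂, c₁, hc₁, h5, h4, by rw [h6, add_comm]⟩
  rad_inf := by
    obtain ⟨s, hs, b₁, hb₁, b₂, hb₂, h1, h2, h3⟩ := h.rad_inf
    exact ⟨s, hs, b₂, hb₂, b₁, hb₁, h2, h1, by rw [← h3, add_comm]⟩

omit [IsScalarTower O K F] in
theorem SemiStable.twoAtChart {ht : IsParam O z} {hπ : Prime π} {W₁ W₂ : ValuationSubring F}
    (h : SemiStable ht hπ W₁ W₂) {y : Ideal O[X]} (hy : y.IsMaximal) :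
    TwoAtChart O (algebraMap K F z) y W₁ W₂ := by
  have h1 : (1 : O[X]) ∉ y := (Ideal.ne_top_iff_one y).mp hy.ne_top
  refine ⟨fun w hw p hp hpw => ?_, fun w hw p hp hpw => ?_, fun b hb n hbn => ?_⟩
  · obtain ⟨b, hb, hwb⟩ := h.normal₁ w hw p hp hpw
    exact ⟨1, h1, b, hb, by rw [map_one, one_mul]; exact hwb⟩
  · obtain ⟨b, hb, hwb⟩ := h.normal₂ w hw p hp hpw
    exact ⟨1, h1, b, hb, by rw [map_one, one_mul]; exact hwb⟩
  · obtain ⟨c₁, hc₁, c₂, hc₂, h4, h5, h6⟩ := h.rad b hb n hbn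
    exact ⟨1, h1, c₁, hc₁, c₂, hc₂, h4, h5, by rw [map_one, one_mul]; exact h6⟩

theorem SemiStable.twoAtChart_inf {ht : IsParam O z} {hπ : Prime π}
    {W₁ W₂ : ValuationSubring F} (h : SemiStable ht hπ W₁ W₂) {y : Ideal O[X]}
    (hy : y.IsMaximal) (hX : X ∈ y) : TwoAtChart O (algebraMap K F z)⁻¹ y W₁ W₂ := by
  have h1 : ∀ s : O[X], IsUnit (s.coeff 0) → s ∉ y := by
    intro s hs hsy
    apply hy.ne_top
    have h2 : C (s.coeff 0) ∈ y := by
      have h3 : C (s.coeff 0) = s - s.divX * X := by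
        rw [eq_sub_iff_add_eq, add_comm]
        exact divX_mul_X_add s
      rw [h3]
      exact sub_mem hsy (Ideal.mul_mem_left _ _ hX)
    exact Ideal.eq_top_of_isUnit_mem _ h2 (hs.map C)
  have hmem : ∀ (W : ValuationSubring F), (∀ p : O[X], aeval (algebraMap K F z)⁻¹ p ∈ W) →
      ∀ b ∈ chart O (algebraMap K F z)⁻¹, b ∈ W := fun W hW b hb =>
    mem_valuationSubring_of_isIntegralElem W _ hW hb
  have haev : ∀ (W : ValuationSubring F), Over (gaussVal ht hπ) (algebraMap O K π) W →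
      ∀ p : O[X], aeval (algebraMap K F z)⁻¹ p ∈ W := by
    intro W hW p
    rw [← gaussVal_inv ht ht.inv hπ] at hW
    have h2 : aeval (z⁻¹) p ∈ gaussVal ht.inv hπ := by
      refine (mem_placeVal_iff ht.inv _).mpr ⟨1, p, (prime_C_iff.mpr hπ).not_dvd_one, ?_⟩
      rw [map_one, one_mul]
    have h3 := hW.1 _ h2
    rwa [← aeval_algebraMap_apply, map_inv₀] at h3
  refine ⟨fun w hw p hp hpw => ?_, fun w hw p hp hpw => ?_, fun b hb n hbn => ?_⟩
  · obtain ⟨s, hs, b, hb, hwb⟩ := h.normal_inf₁ w hw p hp hpw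
    exact ⟨s, h1 s hs, b, hb, hwb⟩
  · obtain ⟨s, hs, b, hb, hwb⟩ := h.normal_inf₂ w hw p hp hpw
    exact ⟨s, h1 s hs, b, hb, hwb⟩
  · obtain ⟨s, hs, b₁, hb₁, b₂, hb₂, h4, h5, h6⟩ := h.rad_inf
    refine ⟨s, h1 s hs, b * b₁, mul_mem hb hb₁, b * b₂, mul_mem hb hb₂,
      mul_mem_nonunits (hmem W₁ (haev W₁ h.over₁) b hb) h4,
      mul_mem_nonunits (hmem W₂ (haev W₂ h.over₂) b hb) h5, ?_⟩
    rw [← h6]
    ring

variable [FiniteDimensional K F] [FiniteDimensional K E] [FiniteDimensional F E]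
  [Algebra.IsSeparable K F] [Algebra.IsSeparable K E] [IsGalois F E]

/-- The case of valuations over `W₁`. -/
theorem SemiStable.eq_of_meets₁ [IsAlgClosed (ResidueField O)] {ht : IsParam O z} {hπ : Prime π}
    {W₁ W₂ : ValuationSubring F} (h : SemiStable ht hπ W₁ W₂) (hgen : UnrGen O π F E)
    (hu₁ : Unr W₁.toSubring E) (hu₂ : Unr W₂.toSubring E)
    (hsplit : ∀ W : ValuationSubring E, Over W₁ (algebraMap O F π) W →
      ∀ σ : E ≃ₐ[F] E, σ ≠ 1 → W.comap (σ : E →+* E) ≠ W)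
    {W W' : ValuationSubring E} (hW : Over W₁ (algebraMap O F π) W)
    (hW' : Over W₁ (algebraMap O F π) W') {u : E} {y : Ideal (chart O u)} (hy : y.IsMaximal)
    (hu : u = algebraMap K E z ∨ (u = (algebraMap K E z)⁻¹ ∧
      (⟨u, self_mem_chart u⟩ : chart O u) ∈ y))
    (hm : ∀ x : chart O u, (x : E) ∈ W.nonunits → x ∈ y)
    (hm' : ∀ x : chart O u, (x : E) ∈ W'.nonunits → x ∈ y) : W = W' := by
  rcases hu with rfl | ⟨hu, hXy⟩
  · exact split_center_chart ht hπ h.over₁ h.over₂ h.ne h.all h.unr hgen hu₁ hu₂ hsplit hy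
      (fun y' hy' _ _ => h.twoAtChart hy') hW hW' hm hm'
  · rw [← map_inv₀] at hu
    subst hu
    have hg := gaussVal_inv ht ht.inv hπ
    refine split_center_chart (u := z⁻¹) ht.inv hπ (by rw [hg]; exact h.over₁)
      (by rw [hg]; exact h.over₂) h.ne (by rw [hg]; exact h.all) (by rw [hg]; exact h.unr)
      hgen hu₁ hu₂ hsplit hy (fun y' hy' _ hyy => ?_) hW hW' hm hm'
    have hX : X ∈ y' := by
      rw [← hyy X]
      have h2 : (⟨aeval (algebraMap K E z⁻¹) X, aeval_mem_chart _ X⟩ :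
          chart O (algebraMap K E z⁻¹)) = ⟨algebraMap K E z⁻¹, self_mem_chart _⟩ :=
        Subtype.ext (aeval_X _)
      rw [h2]
      exact hXy
    rw [map_inv₀]
    exact h.twoAtChart_inf hy' hX

/-- **At most one component over each component of the base through each closed point.** -/
theorem SemiStable.eq_of_meets [IsAlgClosed (ResidueField O)] {ht : IsParam O z} {hπ : Prime π}
    {W₁ W₂ : ValuationSubring F} (h : SemiStable ht hπ W₁ W₂) (hgen : UnrGen O π F E)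
    (hu₁ : Unr W₁.toSubring E) (hu₂ : Unr W₂.toSubring E)
    (hsplit₁ : ∀ W : ValuationSubring E, Over W₁ (algebraMap O F π) W →
      ∀ σ : E ≃ₐ[F] E, σ ≠ 1 → W.comap (σ : E →+* E) ≠ W)
    (hsplit₂ : ∀ W : ValuationSubring E, Over W₂ (algebraMap O F π) W →
      ∀ σ : E ≃ₐ[F] E, σ ≠ 1 → W.comap (σ : E →+* E) ≠ W)
    {W W' : ValuationSubring E} (hW : Over (gaussVal ht hπ) (algebraMap O K π) W)
    (hW' : Over (gaussVal ht hπ) (algebraMap O K π) W')
    (hWW : W.comap (algebraMap F E) = W'.comap (algebraMap F E)) {u : E}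
    {y : Ideal (chart O u)} (hy : y.IsMaximal)
    (hu : u = algebraMap K E z ∨ (u = (algebraMap K E z)⁻¹ ∧
      (⟨u, self_mem_chart u⟩ : chart O u) ∈ y))
    (hm : ∀ x : chart O u, (x : E) ∈ W.nonunits → x ∈ y)
    (hm' : ∀ x : chart O u, (x : E) ∈ W'.nonunits → x ∈ y) : W = W' := by
  have hov : ∀ (W : ValuationSubring E) (V : ValuationSubring F),
      Over (gaussVal ht hπ) (algebraMap O K π) W → W.comap (algebraMap F E) = V →
      Over V (algebraMap O F π) W := by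
    rintro W V hW rfl
    refine ⟨fun x hx => hx, ?_⟩
    rw [← IsScalarTower.algebraMap_apply, IsScalarTower.algebraMap_apply O K E]
    exact hW.2
  rcases h.all _ hW.restrict with h1 | h1
  · exact h.eq_of_meets₁ hgen hu₁ hu₂ hsplit₁ (hov W _ hW h1) (hov W' _ hW' (hWW ▸ h1)) hy hu
      hm hm'
  · exact h.symm.eq_of_meets₁ hgen hu₂ hu₁ hsplit₂ (hov W _ hW h1) (hov W' _ hW' (hWW ▸ h1)) hy
      hu hm hm'

end Fermat.Agent.Geo
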